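import Mathlib

/-!
# S16, abstract algebra: the quotient `T ⧸ ψ(ker ev)` is `ℤ ⧸ m₀`

`ψ : R →+* T` surjective, `ev : R →+* ℤ`.  Then `T ⧸ Ideal.map ψ (ker ev)` is a cyclic ring
`ℤ ⧸ m₀`, and `m₀ = n` as soon as
* (lower bound) there is a ring hom `μ : T →+* ZMod n` with `μ ∘ ψ = ev mod n`;
* (upper bound) every `k ≥ 1` admitting a ring hom `φ : T →+* ZMod k` with `φ ∘ ψ = ev mod k`
  divides `n`.
-/

set_option autoImplicit false

namespace Fermat.Agent.S16

section

variable {R T : Type*} [CommRing R] [CommRing T] (ψ : R →+* T) (ev : R →+* ℤ)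

/-- modulo `ψ(ker ev)`, `ψ r` is the integer `ev r`. -/
theorem mk_psi_eq_intCast (r : R) :
    Ideal.Quotient.mk (Ideal.map ψ (RingHom.ker ev)) (ψ r) =
      ((ev r : ℤ) : T ⧸ Ideal.map ψ (RingHom.ker ev)) := by
  have h1 : r - ((ev r : ℤ) : R) ∈ RingHom.ker ev := by
    rw [RingHom.mem_ker, map_sub, map_intCast]
    simp
  have h2 : ψ (r - ((ev r : ℤ) : R)) ∈ Ideal.map ψ (RingHom.ker ev) := Ideal.mem_map_of_mem ψ h1
  have h3 := (Ideal.Quotient.eq_zero_iff_mem).mpr h2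
  rw [map_sub, map_sub, sub_eq_zero, map_intCast, map_intCast] at h3
  exact h3

theorem intCast_surjective_quotient (hψ : Function.Surjective ψ) :
    Function.Surjective (Int.castRingHom (T ⧸ Ideal.map ψ (RingHom.ker ev))) := by
  intro x
  obtain ⟨t, rfl⟩ := Ideal.Quotient.mk_surjective x
  obtain ⟨r, rfl⟩ := hψ t
  exact ⟨ev r, by rw [mk_psi_eq_intCast]; rfl⟩

/-- The abstract counting statement. -/
theorem card_quotient_eq (hψ : Function.Surjective ψ) (n : ℕ) (hn : 1 ≤ n)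
    (hL : ∃ μ : T →+* ZMod n, ∀ r, μ (ψ r) = ((ev r : ℤ) : ZMod n))
    (hU : ∀ k : ℕ, 1 ≤ k → (∃ φ : T →+* ZMod k, ∀ r, φ (ψ r) = ((ev r : ℤ) : ZMod k)) → k ∣ n) :
    Nat.card (T ⧸ Ideal.map ψ (RingHom.ker ev)) = n := by
  classical
  set I := Ideal.map ψ (RingHom.ker ev) with hI
  set c : ℤ →+* T ⧸ I := Int.castRingHom (T ⧸ I) with hc
  have hcs : Function.Surjective c := intCast_surjective_quotient ψ ev hψ
  -- the kernel of `c` is principal
  obtain ⟨g, hg⟩ : ∃ g : ℤ, RingHom.ker c = Ideal.span {g} :=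
    ⟨_, (Submodule.IsPrincipal.span_singleton_generator (RingHom.ker c)).symm⟩
  let e : (ℤ ⧸ RingHom.ker c) ≃+* T ⧸ I := RingHom.quotientKerEquivOfSurjective hcs
  have he : ∀ z : ℤ, e (Ideal.Quotient.mk _ z) = c z := fun z => rfl
  have hcard : Nat.card (T ⧸ I) = g.natAbs := by
    rw [← Nat.card_congr e.toEquiv, hg, Nat.card_congr (Int.quotientSpanEquivZMod g).toEquiv,
      Nat.card_zmod]
  rw [hcard]
  -- lower bound
  have hdvd1 : n ∣ g.natAbs := by
    obtain ⟨μ, hμ⟩ := hL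
    have hker : I ≤ RingHom.ker μ := by
      rw [hI, Ideal.map_le_iff_le_comap]
      intro r hr
      rw [Ideal.mem_comap, RingHom.mem_ker, hμ, RingHom.mem_ker.mp hr]
      simp
    let μb : T ⧸ I →+* ZMod n := Ideal.Quotient.lift I μ (fun a ha => RingHom.mem_ker.mp (hker ha))
    have h1 : μb.comp c = Int.castRingHom (ZMod n) := RingHom.ext_int _ _
    have hgk : g ∈ RingHom.ker c := by
      rw [hg]
      exact Ideal.mem_span_singleton_self g
    have h2 : ((g : ℤ) : ZMod n) = 0 := by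
      have hz : c g = 0 := RingHom.mem_ker.mp hgk
      have h3 : μb (c g) = ((g : ℤ) : ZMod n) := RingHom.congr_fun h1 g
      rw [← h3, hz, map_zero]
    rw [ZMod.intCast_zmod_eq_zero_iff_dvd] at h2
    exact Int.natCast_dvd.mp h2
  -- upper bound
  have key : ∀ k : ℕ, 1 ≤ k → (k : ℤ) ∣ g → k ∣ n := by
    intro k hk hkg
    refine hU k hk ?_
    have hkill : ∀ z : ℤ, z ∈ RingHom.ker c → Int.castRingHom (ZMod k) z = 0 := by
      intro z hz
      rw [hg, Ideal.mem_span_singleton] at hz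
      rw [eq_intCast, ZMod.intCast_zmod_eq_zero_iff_dvd]
      exact hkg.trans hz
    let ρ : (ℤ ⧸ RingHom.ker c) →+* ZMod k :=
      Ideal.Quotient.lift (RingHom.ker c) (Int.castRingHom (ZMod k)) hkill
    refine ⟨ρ.comp ((e.symm : (T ⧸ I) →+* (ℤ ⧸ RingHom.ker c)).comp (Ideal.Quotient.mk I)),
      fun r => ?_⟩
    have h1 : Ideal.Quotient.mk I (ψ r) = c (ev r) := by
      rw [hc, eq_intCast]
      exact mk_psi_eq_intCast ψ ev r
    have h2 : e.symm (c (ev r)) = Ideal.Quotient.mk _ (ev r) := by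
      rw [← he, RingEquiv.symm_apply_apply]
    simp only [RingHom.comp_apply, RingHom.coe_coe]
    rw [h1, h2]
    simp [ρ]
  rcases Nat.eq_zero_or_pos g.natAbs with h0 | hpos
  · exfalso
    have hg0 : g = 0 := Int.natAbs_eq_zero.mp h0
    have := key (n + 1) (by omega) (by rw [hg0]; exact dvd_zero _)
    have := Nat.le_of_dvd (by omega) this
    omega
  · have h3 : g.natAbs ∣ n := key g.natAbs hpos (Int.natAbs_dvd.mpr dvd_rfl)
    exact Nat.dvd_antisymm h3 hdvd1

end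

end Fermat.Agent.S16
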