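import Fermat.Statements.S16

/-!
# S16 (Eisenstein ideal index): shared definitions

* `sigmaP p m` : the `m`-th coefficient `σ(m) − p·σ(m/p)` (`= Σ_{d ∣ m, p ∤ d} d`) of the
  weight-2 Eisenstein series of level `p`;
* `psi p` : the surjection `HeckeAlg →+* 𝕋` of the statement.
-/

set_option autoImplicit false

namespace Fermat.Agent.S16

open ModularCurve CuspForm

/-- `σ'(m) = σ(m) − p·σ(m/p)` (the second term only when `p ∣ m`): the sum of the divisors of
`m` prime to `p` (for `p` prime). -/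
def sigmaP (p m : ℕ) : ℤ :=
  (ArithmeticFunction.sigma 1 m : ℤ) -
    if p ∣ m then (p : ℤ) * (ArithmeticFunction.sigma 1 (m / p) : ℤ) else 0

/-- The ring homomorphism of the statement: `X_ℓ ↦ T_ℓ` (`ℓ ≠ p`), `X_p ↦ U_p`, acting on
the integral lattice. -/
noncomputable def psi (p : ℕ) [Fact p.Prime] : HeckeAlg →+* ↥(heckeLatticeAlgebra p ∅) :=
  (latticeRestrictHom p ∅).toRingHom.comp (heckeEvalForms p 2)

/-- Evaluation at the Eisenstein system, as a ring hom to `ℤ`. -/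
noncomputable def evE (p : ℕ) : HeckeAlg →+* ℤ :=
  (MvPolynomial.aeval (R := ℤ) (eisensteinSystem p) : HeckeAlg →ₐ[ℤ] ℤ).toRingHom

theorem evE_heckeGen (p : ℕ) (ℓ : Nat.Primes) : evE p (heckeGen ℓ) = eisensteinSystem p ℓ :=
  aeval_heckeGen _ ℓ

theorem ker_evE (p : ℕ) : RingHom.ker (evE p) = eisensteinIdeal p := rfl

theorem heckeEvalForms_surjective (N : ℕ) [NeZero N] (k : ℤ) :
    Function.Surjective (heckeEvalForms N k) := by
  rintro ⟨t, ht⟩
  induction ht using Algebra.adjoin_induction with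
  | mem t ht =>
    rcases ht with ⟨ℓ, hℓ, hℓN, -, rfl⟩ | ⟨q, hqN, hq, -, rfl⟩
    · exact ⟨heckeGen ⟨ℓ, hℓ⟩, by rw [heckeEvalForms_heckeGen_of_not_dvd (ℓ := ⟨ℓ, hℓ⟩) hℓN]; rfl⟩
    · exact ⟨heckeGen ⟨q, hq⟩, by rw [heckeEvalForms_heckeGen_of_dvd (q := ⟨q, hq⟩) hqN]; rfl⟩
  | algebraMap r => exact ⟨MvPolynomial.C r, by rw [heckeEvalForms_C]; rfl⟩
  | add x y hx hy ihx ihy =>
    obtain ⟨a, ha⟩ := ihx
    obtain ⟨b, hb⟩ := ihy
    exact ⟨a + b, by rw [map_add, ha, hb]; rfl⟩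
  | mul x y hx hy ihx ihy =>
    obtain ⟨a, ha⟩ := ihx
    obtain ⟨b, hb⟩ := ihy
    exact ⟨a * b, by rw [map_mul, ha, hb]; rfl⟩

theorem psi_surjective (p : ℕ) [Fact p.Prime] : Function.Surjective (psi p) :=
  (latticeRestrictHom_surjective p ∅).comp (heckeEvalForms_surjective p 2)

/-- Two descriptions of "`φ` is the Eisenstein character mod `k`". -/
theorem eisenstein_char_iff (p : ℕ) [Fact p.Prime] (k : ℕ)
    (φ : ↥(heckeLatticeAlgebra p ∅) →+* ZMod k) :
    (∀ r, φ (psi p r) = ((evE p r : ℤ) : ZMod k)) ↔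
      ∀ ℓ : Nat.Primes, φ (psi p (heckeGen ℓ)) = ((eisensteinSystem p ℓ : ℤ) : ZMod k) := by
  constructor
  · intro h ℓ
    rw [h, evE_heckeGen]
  · intro h r
    have : φ.comp (psi p) = (Int.castRingHom (ZMod k)).comp (evE p) := by
      refine MvPolynomial.ringHom_ext (fun z => ?_) (fun ℓ => ?_)
      · have e1 : (MvPolynomial.C z : HeckeAlg) = ((z : ℤ) : HeckeAlg) := by simp
        rw [e1, RingHom.comp_apply, RingHom.comp_apply, map_intCast, map_intCast, map_intCast]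
        simp
      · rw [RingHom.comp_apply, RingHom.comp_apply]
        have e2 : evE p (MvPolynomial.X ℓ) = eisensteinSystem p ℓ := evE_heckeGen p ℓ
        rw [e2]
        exact h ℓ
    exact RingHom.congr_fun this r

end Fermat.Agent.S16
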