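import Fermat.Agent.S16.Defs

/-!
# S16: Hecke recursions for `σ` and for `sigmaP p` (`σ'`)
-/

set_option autoImplicit false

namespace Fermat.Agent.S16

open ArithmeticFunction

local notation "σ" => ArithmeticFunction.sigma

theorem geom_rec (ℓ : ℤ) (e : ℕ) :
    (∑ k ∈ Finset.range (e + 3), ℓ ^ k) =
      (1 + ℓ) * (∑ k ∈ Finset.range (e + 2), ℓ ^ k) - ℓ * ∑ k ∈ Finset.range (e + 1), ℓ ^ k := by
  rw [Finset.sum_range_succ _ (e + 2), Finset.sum_range_succ _ (e + 1)]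
  ring

theorem sigma_prime_pow_int {ℓ : ℕ} (hℓ : ℓ.Prime) (i : ℕ) :
    ((σ 1 (ℓ ^ i) : ℕ) : ℤ) = ∑ k ∈ Finset.range (i + 1), (ℓ : ℤ) ^ k := by
  rw [sigma_one_apply_prime_pow hℓ]
  push_cast
  rfl

/-- The Hecke recursion for `σ = σ₁`. -/
theorem sigma_mul_prime {ℓ : ℕ} (hℓ : ℓ.Prime) (m : ℕ) :
    ((σ 1 (m * ℓ) : ℕ) : ℤ) =
      (1 + (ℓ : ℤ)) * (σ 1 m : ℕ) - if ℓ ∣ m then (ℓ : ℤ) * (σ 1 (m / ℓ) : ℕ) else 0 := by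
  rcases Nat.eq_zero_or_pos m with rfl | hm
  · simp
  obtain ⟨e, m', hm', rfl⟩ := Nat.exists_eq_pow_mul_and_not_dvd hm.ne' ℓ hℓ.ne_one
  have hcop : ∀ i : ℕ, Nat.Coprime (ℓ ^ i) m' := fun i =>
    Nat.Coprime.pow_left i ((Nat.Prime.coprime_iff_not_dvd hℓ).mpr hm')
  have hmul : ∀ i : ℕ, ((σ 1 (ℓ ^ i * m') : ℕ) : ℤ) =
      (∑ k ∈ Finset.range (i + 1), (ℓ : ℤ) ^ k) * (σ 1 m' : ℕ) := fun i => by
    rw [isMultiplicative_sigma.map_mul_of_coprime (hcop i), Nat.cast_mul, sigma_prime_pow_int hℓ]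
  have e1 : ℓ ^ e * m' * ℓ = ℓ ^ (e + 1) * m' := by ring
  rw [e1, hmul, hmul]
  rcases e with _ | e
  · have : ¬ ℓ ∣ ℓ ^ 0 * m' := by simpa using hm'
    rw [if_neg this]
    simp [Finset.sum_range_succ]
  · have hd : ℓ ∣ ℓ ^ (e + 1) * m' := Dvd.dvd.mul_right (dvd_pow_self ℓ (by omega)) m'
    have hdiv : ℓ ^ (e + 1) * m' / ℓ = ℓ ^ e * m' := by
      rw [pow_succ, mul_comm (ℓ ^ e) ℓ, mul_assoc, Nat.mul_div_cancel_left _ hℓ.pos]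
    rw [if_pos hd, hdiv, hmul, geom_rec]
    ring

variable {p : ℕ}

theorem sigmaP_one (hp : p.Prime) : sigmaP p 1 = 1 := by
  unfold sigmaP
  rw [if_neg (by simpa using hp.ne_one)]
  simp

theorem sigmaP_mul_self (hp : p.Prime) (m : ℕ) : sigmaP p (m * p) = sigmaP p m := by
  unfold sigmaP
  rw [if_pos (Dvd.intro_left m rfl), Nat.mul_div_cancel _ hp.pos, sigma_mul_prime hp]
  split_ifs <;> ring

theorem sigmaP_of_dvd {m : ℕ} (h : p ∣ m) :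
    sigmaP p m = (σ 1 m : ℕ) - (p : ℤ) * (σ 1 (m / p) : ℕ) := by
  unfold sigmaP
  rw [if_pos h]

theorem sigmaP_of_not_dvd {m : ℕ} (h : ¬ p ∣ m) : sigmaP p m = (σ 1 m : ℕ) := by
  unfold sigmaP
  rw [if_neg h, sub_zero]

theorem sigma_mul_prime_of_dvd {ℓ : ℕ} (hℓ : ℓ.Prime) {m : ℕ} (h : ℓ ∣ m) :
    ((σ 1 (m * ℓ) : ℕ) : ℤ) = (1 + (ℓ : ℤ)) * (σ 1 m : ℕ) - (ℓ : ℤ) * (σ 1 (m / ℓ) : ℕ) := by
  rw [sigma_mul_prime hℓ, if_pos h]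

theorem sigma_mul_prime_of_not_dvd {ℓ : ℕ} (hℓ : ℓ.Prime) {m : ℕ} (h : ¬ ℓ ∣ m) :
    ((σ 1 (m * ℓ) : ℕ) : ℤ) = (1 + (ℓ : ℤ)) * (σ 1 m : ℕ) := by
  rw [sigma_mul_prime hℓ, if_neg h, sub_zero]

theorem sigmaP_mul_prime (hp : p.Prime) {ℓ : ℕ} (hℓ : ℓ.Prime) (hne : ℓ ≠ p) (m : ℕ) :
    sigmaP p (m * ℓ) =
      (1 + (ℓ : ℤ)) * sigmaP p m - if ℓ ∣ m then (ℓ : ℤ) * sigmaP p (m / ℓ) else 0 := by
  have hpl : ¬ p ∣ ℓ := fun h => hne ((Nat.prime_dvd_prime_iff_eq hp hℓ).mp h).symm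
  have hlp : ¬ ℓ ∣ p := fun h => hne ((Nat.prime_dvd_prime_iff_eq hℓ hp).mp h)
  by_cases hpm : p ∣ m
  · obtain ⟨m₁, rfl⟩ := hpm
    have e2 : p * m₁ / p = m₁ := Nat.mul_div_cancel_left _ hp.pos
    have e1 : p * m₁ * ℓ / p = m₁ * ℓ := by
      rw [mul_assoc, Nat.mul_div_cancel_left _ hp.pos]
    have hA : sigmaP p (p * m₁ * ℓ) =
        (σ 1 (p * m₁ * ℓ) : ℕ) - (p : ℤ) * (σ 1 (m₁ * ℓ) : ℕ) := by
      rw [sigmaP_of_dvd (Dvd.dvd.mul_right (Dvd.intro m₁ rfl) ℓ), e1]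
    have hB : sigmaP p (p * m₁) = (σ 1 (p * m₁) : ℕ) - (p : ℤ) * (σ 1 m₁ : ℕ) := by
      rw [sigmaP_of_dvd (Dvd.intro m₁ rfl), e2]
    by_cases hlm : ℓ ∣ m₁
    · obtain ⟨m₂, rfl⟩ := hlm
      have hd : ℓ ∣ p * (ℓ * m₂) := Dvd.dvd.mul_left (Dvd.intro m₂ rfl) p
      have e3 : p * (ℓ * m₂) / ℓ = p * m₂ := by
        rw [mul_left_comm, Nat.mul_div_cancel_left _ hℓ.pos]
      have e4 : ℓ * m₂ / ℓ = m₂ := Nat.mul_div_cancel_left _ hℓ.pos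
      have e5 : p * m₂ / p = m₂ := Nat.mul_div_cancel_left _ hp.pos
      have hC : sigmaP p (p * m₂) = (σ 1 (p * m₂) : ℕ) - (p : ℤ) * (σ 1 m₂ : ℕ) := by
        rw [sigmaP_of_dvd (Dvd.intro m₂ rfl), e5]
      have hD := sigma_mul_prime_of_dvd hℓ hd
      have hE := sigma_mul_prime_of_dvd hℓ (Dvd.intro m₂ rfl : ℓ ∣ ℓ * m₂)
      rw [e3] at hD
      rw [e4] at hE
      rw [if_pos hd, e3, hA, hB, hC, hD, hE]
      ring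
    · have hd : ¬ ℓ ∣ p * m₁ := fun h => hlm ((hℓ.dvd_mul.mp h).resolve_left hlp)
      have hD := sigma_mul_prime_of_not_dvd hℓ hd
      have hE := sigma_mul_prime_of_not_dvd hℓ hlm
      rw [if_neg hd, hA, hB, hD, hE]
      ring
  · have hpm' : ¬ p ∣ m * ℓ := fun h => hpm ((hp.dvd_mul.mp h).resolve_right hpl)
    rw [sigmaP_of_not_dvd hpm', sigmaP_of_not_dvd hpm]
    by_cases hlm : ℓ ∣ m
    · have h3 : ¬ p ∣ m / ℓ := fun h => hpm (h.trans (Nat.div_dvd_of_dvd hlm))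
      rw [if_pos hlm, sigmaP_of_not_dvd h3, sigma_mul_prime_of_dvd hℓ hlm]
    · rw [if_neg hlm, sigma_mul_prime_of_not_dvd hℓ hlm, sub_zero]

end Fermat.Agent.S16
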