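import Fermat.Agent.S16.Lattice
import Fermat.Agent.S16.Sigma

/-!
# S16, leaf (D'): duality

An Eisenstein character `φ : 𝕋 →+* ZMod k` comes from a cusp form with integral `q`-expansion
congruent to `Σ σ'(m) q^m` modulo `k`.
-/

set_option autoImplicit false

namespace Fermat.Agent.S16

open CuspForm ModularCurve ModularFormClass Fermat.Agent.S23

noncomputable section

variable (p : ℕ) [Fact p.Prime]

theorem psi_heckeGen_of_dvd (ℓ : Nat.Primes) (h : (ℓ : ℕ) ∣ p) :
    psi p (heckeGen ℓ) =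
      latticeRestrictHom p ∅ (heckeAlgebra.U ℓ.2 h (Set.notMem_empty _)) := by
  unfold psi
  rw [RingHom.comp_apply, heckeEvalForms_heckeGen_of_dvd h]
  rfl

theorem psi_heckeGen_of_not_dvd (ℓ : Nat.Primes) (h : ¬ (ℓ : ℕ) ∣ p) :
    psi p (heckeGen ℓ) =
      latticeRestrictHom p ∅ (heckeAlgebra.T ℓ.2 h (Set.notMem_empty _)) := by
  unfold psi
  rw [RingHom.comp_apply, heckeEvalForms_heckeGen_of_not_dvd h]
  rfl

theorem icoeff_gen_of_dvd (ℓ : Nat.Primes) (h : (ℓ : ℕ) ∣ p) (f : ↥(intLattice p 2)) (n : ℕ) :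
    icoeff p n (((psi p (heckeGen ℓ) : ↥(heckeLatticeAlgebra p ∅)) :
      Module.End ℤ ↥(intLattice p 2)) f) = icoeff p (n * ℓ) f := by
  apply icoeff_eq_of
  rw [psi_heckeGen_of_dvd p ℓ h, coe_latticeRestrictHom_apply, heckeAlgebra.coe_U,
    qc_heckeU p h ℓ.2, icoeff_spec]

theorem icoeff_gen_of_not_dvd (ℓ : Nat.Primes) (h : ¬ (ℓ : ℕ) ∣ p) (f : ↥(intLattice p 2))
    (n : ℕ) :
    icoeff p n (((psi p (heckeGen ℓ) : ↥(heckeLatticeAlgebra p ∅)) :
      Module.End ℤ ↥(intLattice p 2)) f) =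
      icoeff p (n * ℓ) f + if (ℓ : ℕ) ∣ n then ((ℓ : ℕ) : ℤ) * icoeff p (n / ℓ) f else 0 := by
  apply icoeff_eq_of
  rw [psi_heckeGen_of_not_dvd p ℓ h, coe_latticeRestrictHom_apply, heckeAlgebra.coe_T,
    qc_heckeT p ℓ.2 h, icoeff_spec, icoeff_spec]
  split_ifs <;> push_cast <;> ring

set_option maxHeartbeats 1600000 in
/-- (D') duality. -/
theorem duality (k : ℕ) (hk : 1 ≤ k)
    (φ : ↥(heckeLatticeAlgebra p ∅) →+* ZMod k)
    (hφ : ∀ ℓ : Nat.Primes, φ (psi p (heckeGen ℓ)) = ((eisensteinSystem p ℓ : ℤ) : ZMod k)) :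
    ∃ f : CuspForm (CongruenceSubgroup.Gamma0 p) 2,
      ∀ m : ℕ, 1 ≤ m → ∃ c : ℤ,
        ModularFormClass.qCoeff f m = ((sigmaP p m + (k : ℤ) * c : ℤ) : ℂ) := by
  have hp : p.Prime := Fact.out
  -- lift `φ` to a `ℤ`-linear functional
  obtain ⟨lam, hlam⟩ : ∃ lam : ↥(heckeLatticeAlgebra p ∅) →ₗ[ℤ] ℤ,
      ∀ t, ((lam t : ℤ) : ZMod k) = φ t := by
    have hsurj : Function.Surjective (Int.castAddHom (ZMod k)).toIntLinearMap :=
      ZMod.intCast_surjective
    obtain ⟨h, hh⟩ := Module.projective_lifting_property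
      (Int.castAddHom (ZMod k)).toIntLinearMap φ.toAddMonoidHom.toIntLinearMap hsurj
    exact ⟨h, fun t => LinearMap.congr_fun hh t⟩
  obtain ⟨f, hf⟩ := exists_of_functional p lam
  -- `f` is an eigenvector mod `k`
  have heig : ∀ (t : ↥(heckeLatticeAlgebra p ∅)) (n : ℕ), 1 ≤ n →
      ((icoeff p n ((t : Module.End ℤ ↥(intLattice p 2)) f) : ℤ) : ZMod k) =
        φ t * ((icoeff p n f : ℤ) : ZMod k) := by
    intro t n hn
    obtain ⟨τ, hτ⟩ := exists_tau p n hn
    have h1 : icoeff p n ((t : Module.End ℤ ↥(intLattice p 2)) f) = lam (τ * t) := by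
      rw [← hτ, ← hf]
      rfl
    have h2 : icoeff p n f = lam τ := by
      rw [← hτ, ← hf]
      rfl
    have h3 : φ (τ * t) = φ τ * φ t := φ.map_mul τ t
    have h4 : ((lam (τ * t) : ℤ) : ZMod k) = φ τ * φ t := (hlam _).trans h3
    have h5 : ((lam τ : ℤ) : ZMod k) = φ τ := hlam τ
    rw [h1, h2, h4, h5]
    exact mul_comm _ _
  have hone : ((icoeff p 1 f : ℤ) : ZMod k) = 1 := by
    have : icoeff p 1 f = lam 1 := by
      rw [← hf]
      rfl
    rw [this, hlam, φ.map_one]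
  -- the coefficients are `σ'` mod `k`
  have key : ∀ n : ℕ, 1 ≤ n → ((icoeff p n f : ℤ) : ZMod k) = ((sigmaP p n : ℤ) : ZMod k) := by
    intro n
    induction n using Nat.strong_induction_on with
    | _ n ih =>
    intro hn
    rcases eq_or_lt_of_le hn with rfl | hn1
    · rw [hone, sigmaP_one hp]
      simp
    · have hℓ : (n.minFac).Prime := Nat.minFac_prime (by omega)
      obtain ⟨m, hm⟩ := Nat.minFac_dvd n
      set ℓ := n.minFac with hℓdef
      have hm1 : 1 ≤ m := by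
        rcases Nat.eq_zero_or_pos m with rfl | h
        · omega
        · exact h
      have hmn : m < n := by
        rw [hm]
        have := hℓ.one_lt
        nlinarith
      have hnm : n = m * ℓ := by rw [hm, mul_comm]
      let L : Nat.Primes := ⟨ℓ, hℓ⟩
      have h0 := heig (psi p (heckeGen L)) m hm1
      rw [hφ L] at h0
      by_cases hℓp : ℓ ∣ p
      · have hLp : (L : ℕ) ∣ p := hℓp
        have hℓeq : ℓ = p := (Nat.prime_dvd_prime_iff_eq hℓ hp).mp hℓp
        rw [icoeff_gen_of_dvd p L hLp, eisensteinSystem_of_dvd hLp] at h0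
        have h1 : ((icoeff p (m * ℓ) f : ℤ) : ZMod k) = ((icoeff p m f : ℤ) : ZMod k) := by
          have : ((icoeff p (m * ℓ) f : ℤ) : ZMod k) =
              ((1 : ℤ) : ZMod k) * ((icoeff p m f : ℤ) : ZMod k) := h0
          rw [this]
          simp
        rw [hnm, h1, ih m hmn hm1]
        have : sigmaP p (m * ℓ) = sigmaP p m := by rw [hℓeq]; exact sigmaP_mul_self hp m
        rw [this]
      · have hLp : ¬ (L : ℕ) ∣ p := hℓp
        have hne : ℓ ≠ p := fun h => hℓp (h ▸ dvd_rfl)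
        rw [icoeff_gen_of_not_dvd p L hLp, eisensteinSystem_of_not_dvd hLp, ih m hmn hm1] at h0
        have h1 : (((icoeff p (m * ℓ) f + if ℓ ∣ m then (ℓ : ℤ) * icoeff p (m / ℓ) f else 0 : ℤ)) :
            ZMod k) = (((1 + (ℓ : ℕ) : ℤ)) : ZMod k) * ((sigmaP p m : ℤ) : ZMod k) := h0
        rw [hnm, sigmaP_mul_prime hp hℓ hne m]
        by_cases hlm : ℓ ∣ m
        · have hq1 : 1 ≤ m / ℓ := Nat.div_pos (Nat.le_of_dvd hm1 hlm) hℓ.pos
          have hq2 : m / ℓ < n := lt_of_le_of_lt (Nat.div_le_self _ _) hmn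
          have h3 := ih (m / ℓ) hq2 hq1
          simp only [if_pos hlm] at h1 ⊢
          push_cast at h1 ⊢
          rw [h3] at h1
          linear_combination h1
        · simp only [if_neg hlm] at h1 ⊢
          push_cast at h1 ⊢
          linear_combination h1
  refine ⟨(f : CuspForm (CongruenceSubgroup.Gamma0 p) 2), fun m hm => ?_⟩
  have h2 : ((icoeff p m f - sigmaP p m : ℤ) : ZMod k) = 0 := by
    push_cast
    rw [key m hm, sub_self]
  rw [ZMod.intCast_zmod_eq_zero_iff_dvd] at h2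
  obtain ⟨c, hc⟩ := h2
  refine ⟨c, ?_⟩
  have h3 := icoeff_spec p m f
  rw [qc_apply] at h3
  rw [h3]
  congr 1
  linarith

end

end Fermat.Agent.S16
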