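import Fermat.Agent.S16.LPres

/-!
# S16, leaf (L): `A`-valued 1-cocycles of `SL(2, ℤ)` on a `SL(2, ℤ)`-set `Q`

A cocycle is a function `z : SL(2, ℤ) → Q → A` with `z (g * h) x = z h x + z g (h • x)`
(equivalently a lift of the action on `Q` to `Q × A` commuting with translations).
By the presentation `PSL(2, ℤ) = C₂ * C₃` (`sl2_lift`) a cocycle with prescribed values on
`S` and `S * T` exists as soon as the two obvious relations hold (`exists_cocycle`).
-/

set_option autoImplicit false

namespace Fermat.Agent.S16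

open ModularGroup
open scoped MatrixGroups

noncomputable section

section Bundle

variable {Q A : Type*} [AddCommGroup A]

/-- the bundle automorphism `(x, n) ↦ (σ x, n + a x)`. -/
def bShift (σ : Equiv.Perm Q) (a : Q → A) : Equiv.Perm (Q × A) where
  toFun y := (σ y.1, y.2 + a y.1)
  invFun y := (σ.symm y.1, y.2 - a (σ.symm y.1))
  left_inv y := by simp
  right_inv y := by simp

theorem bShift_apply (σ : Equiv.Perm Q) (a : Q → A) (x : Q) (n : A) :
    bShift σ a (x, n) = (σ x, n + a x) := rfl

end Bundle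

theorem coc_closure : Subgroup.closure ({S, S * T} : Set SL(2, ℤ)) = ⊤ := by
  rw [eq_top_iff, ← SpecialLinearGroup.SL2Z_generators, Subgroup.closure_le]
  rintro g (rfl | rfl)
  · exact Subgroup.subset_closure (Set.mem_insert _ _)
  · have h1 : S ∈ Subgroup.closure ({S, S * T} : Set SL(2, ℤ)) :=
      Subgroup.subset_closure (Set.mem_insert _ _)
    have h2 : S * T ∈ Subgroup.closure ({S, S * T} : Set SL(2, ℤ)) :=
      Subgroup.subset_closure (Set.mem_insert_of_mem _ rfl)
    have h3 := Subgroup.mul_mem _ (Subgroup.inv_mem _ h1) h2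
    rwa [inv_mul_cancel_left] at h3

section Cocycle

variable {Q A : Type*} [AddCommGroup A] [MulAction SL(2, ℤ) Q]

/-- the cocycle condition. -/
def IsCoc (z : SL(2, ℤ) → Q → A) : Prop :=
  ∀ g h x, z (g * h) x = z h x + z g (h • x)

theorem IsCoc.one {z : SL(2, ℤ) → Q → A} (hz : IsCoc z) (x : Q) : z 1 x = 0 := by
  have := hz 1 1 x
  rw [one_mul, one_smul] at this
  exact left_eq_add.mp this

theorem IsCoc.inv {z : SL(2, ℤ) → Q → A} (hz : IsCoc z) (g : SL(2, ℤ)) (x : Q) :
    z g⁻¹ x = - z g (g⁻¹ • x) := by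
  have := hz g g⁻¹ x
  rw [mul_inv_cancel, hz.one] at this
  exact eq_neg_of_add_eq_zero_left this.symm

theorem IsCoc.ext {z w : SL(2, ℤ) → Q → A} (hz : IsCoc z) (hw : IsCoc w)
    (hS : z S = w S) (hU : z (S * T) = w (S * T)) : z = w := by
  funext g
  have hg : g ∈ Subgroup.closure ({S, S * T} : Set SL(2, ℤ)) := by rw [coc_closure]; trivial
  induction hg using Subgroup.closure_induction with
  | mem x hx =>
    rcases hx with rfl | rfl
    · exact hS
    · exact hU
  | one => funext x; rw [hz.one, hw.one]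
  | mul x y _ _ hx hy => funext q; rw [hz, hw, hx, hy]
  | inv x _ hx => funext q; rw [hz.inv, hw.inv, hx]

theorem IsCoc.sum_eq_zero [Fintype Q] {z : SL(2, ℤ) → Q → A} (hz : IsCoc z)
    (hS : ∑ x, z S x = 0) (hU : ∑ x, z (S * T) x = 0) (g : SL(2, ℤ)) : ∑ x, z g x = 0 := by
  have hg : g ∈ Subgroup.closure ({S, S * T} : Set SL(2, ℤ)) := by rw [coc_closure]; trivial
  induction hg using Subgroup.closure_induction with
  | mem x hx =>
    rcases hx with rfl | rfl
    · exact hS
    · exact hU
  | one => simp [hz.one]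
  | mul x y _ _ hx hy =>
    simp only [hz x y, Finset.sum_add_distrib, hy, zero_add]
    rw [← hx]
    exact Equiv.sum_comp (MulAction.toPerm y) (z x)
  | inv x _ hx =>
    simp only [hz.inv, Finset.sum_neg_distrib, neg_eq_zero]
    rw [← hx]
    exact Equiv.sum_comp (MulAction.toPerm x⁻¹) (z x)

/-- **Existence of cocycles** with prescribed values on the generators `S`, `S * T`. -/
theorem exists_cocycle (hneg : ∀ x : Q, (-1 : SL(2, ℤ)) • x = x) (aS aU : Q → A)
    (hS : ∀ x, aS x + aS (S • x) = 0)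
    (hU : ∀ x, aU x + aU ((S * T) • x) + aU ((S * T) • (S * T) • x) = 0) :
    ∃ z : SL(2, ℤ) → Q → A, IsCoc z ∧ z S = aS ∧ z (S * T) = aU := by
  have hSS : ∀ x : Q, S • S • x = x := fun x => by
    rw [← mul_smul, ← pow_two, pres_S_sq, hneg]
  have hUUU : ∀ x : Q, (S * T) • (S * T) • (S * T) • x = x := fun x => by
    rw [← mul_smul, ← mul_smul, ← pow_two, ← pow_succ, pres_ST_cube, hneg]
  set s : Equiv.Perm (Q × A) := bShift (MulAction.toPerm S) aS with hs
  set u : Equiv.Perm (Q × A) := bShift (MulAction.toPerm (S * T)) aU with hu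
  have hs2 : s ^ 2 = 1 := by
    refine Equiv.ext fun ⟨x, n⟩ => ?_
    rw [pow_two, Equiv.Perm.mul_apply, hs, bShift_apply, bShift_apply, Equiv.Perm.one_apply,
      MulAction.toPerm_apply, MulAction.toPerm_apply, hSS, add_assoc, hS, add_zero]
  have hu3 : u ^ 3 = 1 := by
    refine Equiv.ext fun ⟨x, n⟩ => ?_
    rw [pow_succ, pow_two, Equiv.Perm.mul_apply, Equiv.Perm.mul_apply, hu, bShift_apply,
      bShift_apply, bShift_apply, Equiv.Perm.one_apply]
    simp only [MulAction.toPerm_apply]
    rw [hUUU, add_assoc, add_assoc, ← add_assoc (aU x), hU, add_zero]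
  obtain ⟨ψ, hψS, hψU⟩ := sl2_lift s u hs2 hu3
  have hE : ∀ g : SL(2, ℤ), ∃ a : Q → A, ∀ x n, ψ g (x, n) = (g • x, n + a x) := by
    intro g
    have hg : g ∈ Subgroup.closure ({S, S * T} : Set SL(2, ℤ)) := by rw [coc_closure]; trivial
    induction hg using Subgroup.closure_induction with
    | mem y hy =>
      rcases hy with rfl | rfl
      · exact ⟨aS, fun x n => by rw [hψS]; rfl⟩
      · exact ⟨aU, fun x n => by rw [hψU]; rfl⟩
    | one => exact ⟨0, fun x n => by simp⟩
    | mul y y' _ _ hy hy' =>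
      obtain ⟨a, ha⟩ := hy
      obtain ⟨b, hb⟩ := hy'
      exact ⟨fun x => b x + a (y' • x), fun x n => by
        rw [map_mul, Equiv.Perm.mul_apply, hb, ha, mul_smul, add_assoc]⟩
    | inv y _ hy =>
      obtain ⟨a, ha⟩ := hy
      refine ⟨fun x => - a (y⁻¹ • x), fun x n => ?_⟩
      rw [map_inv, Equiv.Perm.inv_eq_iff_eq, ha, smul_inv_smul, add_assoc, neg_add_cancel,
        add_zero]
  choose z hz using hE
  refine ⟨z, fun g h x => ?_, ?_, ?_⟩
  · have h1 := hz (g * h) x 0
    rw [map_mul, Equiv.Perm.mul_apply, hz h x 0, hz g] at h1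
    have h2 := congrArg Prod.snd h1
    simp only [zero_add] at h2
    exact h2.symm
  · funext x
    have h1 := hz S x 0
    rw [hψS, hs, bShift_apply] at h1
    have h2 := congrArg Prod.snd h1
    simp only [zero_add] at h2
    exact h2.symm
  · funext x
    have h1 := hz (S * T) x 0
    rw [hψU, hu, bShift_apply] at h1
    have h2 := congrArg Prod.snd h1
    simp only [zero_add] at h2
    exact h2.symm

end Cocycle

end

end Fermat.Agent.S16
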