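import Fermat.Agent.S16.LDefs
import Fermat.Agent.S16.LCoc

/-!
# S16, leaf (L): parabolicity criterion for `ℤ`-valued cocycles on `SL(2, ℤ) ⧸ Γ₀(p)`

`parabolic_of_cocycle`: a cocycle `z` whose total sums `∑ x, z g x` vanish and with
`z T x₀ = 0` satisfies `z γ x₀ = 0` for every `γ ∈ Γ₀(p)` with `tr² = 4`.
-/

set_option autoImplicit false

namespace Fermat.Agent.S16

open CongruenceSubgroup ModularCurve ModularCurve.Period ModularGroup
open scoped MatrixGroups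

/-- an element of `SL(2, ℤ)` with vanishing lower left entry is `± T ^ n`. -/
theorem parab_eq_T_zpow (g : SL(2, ℤ)) (hc : g 1 0 = 0) : ∃ n : ℤ, g = T ^ n ∨ g = -T ^ n := by
  have had := g.det_coe
  replace had : g 0 0 * g 1 1 = 1 := by rw [Matrix.det_fin_two, hc] at had; linarith
  rcases Int.eq_one_or_neg_one_of_mul_eq_one' had with (⟨ha, hd⟩ | ⟨ha, hd⟩)
  · refine ⟨g 0 1, Or.inl ?_⟩
    ext i j; fin_cases i <;> fin_cases j <;>
      simp [ha, hc, hd, coe_T_zpow, show (1 : Fin (0 + 2)) = (1 : Fin 2) from rfl]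
  · refine ⟨-(g 0 1), Or.inr ?_⟩
    ext i j; fin_cases i <;> fin_cases j <;>
      simp [ha, hc, hd, coe_T_zpow, show (1 : Fin (0 + 2)) = (1 : Fin 2) from rfl]

/-- the lower left entry of `g'⁻¹ * (T ^ i * g)`. -/
theorem parab_entry (g g' : SL(2, ℤ)) (i : ℤ) :
    (g'⁻¹ * (T ^ i * g)) 1 0 = g' 0 0 * g 1 0 - g' 1 0 * (g 0 0 + i * g 1 0) := by
  simp only [Matrix.SpecialLinearGroup.coe_mul, Matrix.SpecialLinearGroup.coe_inv,
    Matrix.adjugate_fin_two, coe_T_zpow, Matrix.mul_apply, Fin.sum_univ_two, Matrix.of_apply,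
    Matrix.cons_val_zero, Matrix.cons_val_one, Matrix.cons_val', Matrix.cons_val_fin_one]
  ring

section

variable {Q : Type*} [MulAction SL(2, ℤ) Q]

theorem IsCoc.pow_fixed {z : SL(2, ℤ) → Q → ℤ} (hz : IsCoc z) (g : SL(2, ℤ)) (y : Q)
    (hy : g • y = y) (b : ℕ) : z (g ^ b) y = b * z g y := by
  induction b with
  | zero => simp [hz.one]
  | succ b ih =>
    have hb : g ^ b • y = y := by
      clear ih
      induction b with
      | zero => simp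
      | succ b ih => rw [pow_succ, mul_smul, hy, ih]
    rw [pow_succ', hz, ih, hb]
    push_cast
    ring

theorem IsCoc.comm_fixed {z : SL(2, ℤ) → Q → ℤ} (hz : IsCoc z) (g h : SL(2, ℤ))
    (hcomm : g * h = h * g) (hg : ∀ y : Q, g • y = y) (y : Q) : z g (h • y) = z g y := by
  have h1 := hz g h y
  have h2 := hz h g y
  rw [hcomm, h2, hg] at h1
  linarith

end

variable (p : ℕ) [Fact p.Prime]

theorem parab_mk_ne {g : SL(2, ℤ)}
    (hg : (g : SL(2, ℤ) ⧸ Gamma0 p) ≠ ((1 : SL(2, ℤ)) : SL(2, ℤ) ⧸ Gamma0 p)) :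
    ((g 1 0 : ℤ) : ZMod p) ≠ 0 := by
  intro h
  apply hg
  refine (QuotientGroup.eq.mpr ?_).symm
  rw [inv_one, one_mul, Gamma0_mem]
  exact h

theorem parab_T_zpow_smul_base (i : ℤ) :
    (T ^ i : SL(2, ℤ)) • ((1 : SL(2, ℤ)) : SL(2, ℤ) ⧸ Gamma0 p) = ((1 : SL(2, ℤ)) : _) := by
  rw [MulAction.Quotient.smul_mk, smul_eq_mul, mul_one]
  refine (QuotientGroup.eq.mpr ?_).symm
  rw [inv_one, one_mul, Gamma0_mem, coe_T_zpow]
  simp

theorem parab_T_pow_p_smul (y : SL(2, ℤ) ⧸ Gamma0 p) : (T ^ p : SL(2, ℤ)) • y = y := by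
  induction y using QuotientGroup.induction_on with
  | H g =>
    rw [MulAction.Quotient.smul_mk, smul_eq_mul]
    refine (QuotientGroup.eq.mpr ?_).symm
    rw [Gamma0_mem, ← zpow_natCast, parab_entry]
    push_cast
    have : ((p : ℕ) : ZMod p) = 0 := ZMod.natCast_self p
    rw [this]
    ring

theorem parab_transitive (y y' : SL(2, ℤ) ⧸ Gamma0 p)
    (hy : y ≠ ((1 : SL(2, ℤ)) : SL(2, ℤ) ⧸ Gamma0 p))
    (hy' : y' ≠ ((1 : SL(2, ℤ)) : SL(2, ℤ) ⧸ Gamma0 p)) :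
    ∃ i : ℤ, (T ^ i : SL(2, ℤ)) • y = y' := by
  induction y using QuotientGroup.induction_on with
  | H g =>
  induction y' using QuotientGroup.induction_on with
  | H g' =>
    have hc := parab_mk_ne p hy
    have hc' := parab_mk_ne p hy'
    obtain ⟨i, hi⟩ := ZMod.intCast_surjective
      (((g' 0 0 : ℤ) * (g 1 0 : ℤ) - (g' 1 0 : ℤ) * (g 0 0 : ℤ) : ZMod p) /
        ((g' 1 0 : ℤ) * (g 1 0 : ℤ) : ZMod p))
    refine ⟨i, ?_⟩
    rw [MulAction.Quotient.smul_mk, smul_eq_mul]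
    refine (QuotientGroup.eq.mpr ?_).symm
    rw [Gamma0_mem, parab_entry]
    push_cast
    rw [hi]
    field_simp
    ring

/-- **(L-P)** parabolicity criterion. -/
theorem parabolic_of_cocycle [Fintype (SL(2, ℤ) ⧸ Gamma0 p)]
    (z : SL(2, ℤ) → SL(2, ℤ) ⧸ Gamma0 p → ℤ)
    (hz : ∀ g h x, z (g * h) x = z h x + z g (h • x))
    (hsum : ∀ g, ∑ x, z g x = 0)
    (hT : z T ((1 : SL(2, ℤ)) : SL(2, ℤ) ⧸ Gamma0 p) = 0)
    (γ : Gamma0 p) (hγ : ((γ : SL(2, ℤ)) : Matrix (Fin 2) (Fin 2) ℤ).trace ^ 2 = 4) :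
    z (γ : SL(2, ℤ)) ((1 : SL(2, ℤ)) : SL(2, ℤ) ⧸ Gamma0 p) = 0 := by
  classical
  have hzc : IsCoc z := hz
  have hp0 : (p : ℤ) ≠ 0 := by exact_mod_cast (Fact.out : p.Prime).ne_zero
  set x₀ : SL(2, ℤ) ⧸ Gamma0 p := ((1 : SL(2, ℤ)) : SL(2, ℤ) ⧸ Gamma0 p) with hx₀
  have hTx₀ : T • x₀ = x₀ := by
    have := parab_T_zpow_smul_base p 1
    rwa [zpow_one] at this
  -- (K): `z (T ^ p)` vanishes identically
  have hF0 : z (T ^ p) x₀ = 0 := by
    rw [hzc.pow_fixed T x₀ hTx₀ p, hT, mul_zero]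
  have hFinv : ∀ (i : ℤ) (y : SL(2, ℤ) ⧸ Gamma0 p), z (T ^ p) ((T ^ i : SL(2, ℤ)) • y) =
      z (T ^ p) y := fun i y =>
    hzc.comm_fixed (T ^ p) (T ^ i) (by rw [← zpow_natCast, ← zpow_add, ← zpow_add, add_comm])
      (parab_T_pow_p_smul p) y
  have hK : ∀ y : SL(2, ℤ) ⧸ Gamma0 p, z (T ^ p) y = 0 := by
    intro y
    by_cases hy : y = x₀
    · rw [hy, hF0]
    · have h1 : ∑ x, z (T ^ p) x = 0 := hsum _
      have h2 : ∀ x ∈ (Finset.univ : Finset (SL(2, ℤ) ⧸ Gamma0 p)).erase x₀,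
          z (T ^ p) x = z (T ^ p) y := by
        intro x hx
        obtain ⟨i, hi⟩ := parab_transitive p y x hy (Finset.ne_of_mem_erase hx)
        rw [← hi, hFinv]
      rw [← Finset.add_sum_erase _ _ (Finset.mem_univ x₀), hF0, zero_add,
        Finset.sum_congr rfl h2, Finset.sum_const, nsmul_eq_mul] at h1
      have h3 : (((Finset.univ : Finset (SL(2, ℤ) ⧸ Gamma0 p)).erase x₀).card : ℤ) ≠ 0 := by
        have : y ∈ (Finset.univ : Finset (SL(2, ℤ) ⧸ Gamma0 p)).erase x₀ :=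
          Finset.mem_erase.mpr ⟨hy, Finset.mem_univ _⟩
        exact_mod_cast (Finset.card_pos.mpr ⟨y, this⟩).ne'
      exact (mul_eq_zero.mp h1).resolve_left h3
  -- natural powers of `T` fixing a point
  have hC' : ∀ (k : ℕ) (y : SL(2, ℤ) ⧸ Gamma0 p), (T ^ k : SL(2, ℤ)) • y = y →
      z (T ^ k) y = 0 := by
    intro k y hy
    have h1 := hzc.pow_fixed (T ^ k) y hy p
    have h2 := hzc.pow_fixed (T ^ p) y (parab_T_pow_p_smul p y) k
    rw [← pow_mul] at h1 h2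
    rw [mul_comm k p, h2, hK, mul_zero] at h1
    exact (mul_eq_zero.mp h1.symm).resolve_left hp0
  have hC : ∀ (n : ℤ) (y : SL(2, ℤ) ⧸ Gamma0 p), (T ^ n : SL(2, ℤ)) • y = y →
      z (T ^ n) y = 0 := by
    intro n y hy
    obtain ⟨k, rfl | rfl⟩ := Int.eq_nat_or_neg n
    · rw [zpow_natCast] at hy ⊢
      exact hC' k y hy
    · rw [zpow_neg, zpow_natCast] at hy ⊢
      have hy' : (T ^ k : SL(2, ℤ)) • y = y := by
        rw [inv_smul_eq_iff] at hy
        exact hy.symm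
      rw [hzc.inv, hy, hC' k y hy', neg_zero]
  -- conjugates of powers of `T`
  have hconj : ∀ (δ : SL(2, ℤ)) (n : ℤ), (δ * T ^ n * δ⁻¹) • x₀ = x₀ →
      z (δ * T ^ n * δ⁻¹) x₀ = 0 := by
    intro δ n hfix
    have hy : (T ^ n : SL(2, ℤ)) • (δ⁻¹ • x₀) = δ⁻¹ • x₀ := by
      rw [eq_inv_smul_iff, ← mul_smul, ← mul_smul]
      exact hfix
    rw [mul_assoc, hzc, hzc, mul_smul, hy, hC n _ hy, hzc.inv]
    ring
  have hneg : z (-1) x₀ = 0 := by
    have hfix : (-1 : SL(2, ℤ)) • x₀ = x₀ := by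
      rw [hx₀, MulAction.Quotient.smul_mk, smul_eq_mul, mul_one]
      refine (QuotientGroup.eq.mpr ?_).symm
      rw [inv_one, one_mul, Gamma0_mem]
      simp
    have h1 := hzc (-1) (-1) x₀
    rw [neg_mul_neg, one_mul, hzc.one, hfix] at h1
    omega
  have hγfix : (γ : SL(2, ℤ)) • x₀ = x₀ := by
    rw [hx₀, MulAction.Quotient.smul_mk, smul_eq_mul, mul_one]
    refine (QuotientGroup.eq.mpr ?_).symm
    rw [inv_one, one_mul]
    exact γ.2
  obtain ⟨δ, hδ⟩ := Fermat.Agent.ES.exists_conj_upper (γ : SL(2, ℤ)) hγ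
  obtain ⟨n, hn | hn⟩ := parab_eq_T_zpow _ hδ
  · have hγ' : (γ : SL(2, ℤ)) = δ * T ^ n * δ⁻¹ := by
      rw [← hn]; group
    rw [hγ']
    apply hconj
    rw [← hγ']
    exact hγfix
  · have hγ' : (γ : SL(2, ℤ)) = -1 * (δ * T ^ n * δ⁻¹) := by
      have : δ * T ^ n * δ⁻¹ = -(δ * (δ⁻¹ * γ * δ) * δ⁻¹) := by
        rw [hn]; simp
      rw [this]
      simp only [neg_mul, one_mul, neg_neg]
      group
    have hfix' : (δ * T ^ n * δ⁻¹) • x₀ = x₀ := by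
      have h1 : δ * T ^ n * δ⁻¹ = -1 * (γ : SL(2, ℤ)) := by
        rw [hγ']; simp
      rw [h1, mul_smul, hγfix]
      rw [hx₀, MulAction.Quotient.smul_mk, smul_eq_mul, mul_one]
      refine (QuotientGroup.eq.mpr ?_).symm
      rw [inv_one, one_mul, Gamma0_mem]
      simp
    rw [hγ', hzc, hconj δ n hfix', hfix', hneg]
    rfl

end Fermat.Agent.S16
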