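import Fermat.Agent.S16.LDefs
import Fermat.Agent.S16.LCoc
import Fermat.Agent.S16.LParab

/-!
# S16, leaf (L): the integral parabolic lift of the Shimura character

`exists_parabolic_lift`: there are an additive homomorphism `φ : Γ₀(p) → ℤ`, vanishing on all
elements with `tr² = 4`, and a unit `g` of `ZMod p` with `g ^ φ(γ) = d_γ ^ 12` for all `γ`.
-/

set_option autoImplicit false

namespace Fermat.Agent.S16

open CongruenceSubgroup ModularCurve ModularCurve.Period ModularGroup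
open scoped MatrixGroups

noncomputable section

variable (p : ℕ) [Fact p.Prime]

theorem lift_neg_one_mem : (-1 : SL(2, ℤ)) ∈ Gamma0 p := by
  rw [Gamma0_mem]; simp

theorem lift_T_mem : (T : SL(2, ℤ)) ∈ Gamma0 p := by
  rw [Gamma0_mem]; simp [coe_T]

theorem lift_neg_one_smul (x : SL(2, ℤ) ⧸ Gamma0 p) : (-1 : SL(2, ℤ)) • x = x := by
  induction x using QuotientGroup.induction_on with
  | H h =>
    rw [MulAction.Quotient.smul_mk, smul_eq_mul, neg_one_mul, ← mul_neg_one]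
    exact QuotientGroup.mk_mul_of_mem h (lift_neg_one_mem p)

/-- a section of `SL(2, ℤ) → SL(2, ℤ) ⧸ Γ₀(p)`. -/
def liftSec (x : SL(2, ℤ) ⧸ Gamma0 p) : SL(2, ℤ) := Quotient.out x

omit [Fact p.Prime] in
theorem mk_liftSec (x : SL(2, ℤ) ⧸ Gamma0 p) :
    ((liftSec p x : SL(2, ℤ)) : SL(2, ℤ) ⧸ Gamma0 p) = x :=
  QuotientGroup.out_eq' x

omit [Fact p.Prime] in
theorem liftGam_mem (g : SL(2, ℤ)) (x : SL(2, ℤ) ⧸ Gamma0 p) :
    (liftSec p (g • x))⁻¹ * g * liftSec p x ∈ Gamma0 p := by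
  rw [mul_assoc, ← QuotientGroup.eq, mk_liftSec]
  conv_lhs => rw [← mk_liftSec p x]
  rfl

/-- the element of `Γ₀(p)` attached to `(g, x)` by the section. -/
def liftGam (g : SL(2, ℤ)) (x : SL(2, ℤ) ⧸ Gamma0 p) : Gamma0 p :=
  ⟨_, liftGam_mem p g x⟩

omit [Fact p.Prime] in
theorem liftGam_mul (g h : SL(2, ℤ)) (x : SL(2, ℤ) ⧸ Gamma0 p) :
    liftGam p (g * h) x = liftGam p g (h • x) * liftGam p h x := by
  apply Subtype.ext
  show (liftSec p ((g * h) • x))⁻¹ * (g * h) * liftSec p x =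
    ((liftSec p (g • h • x))⁻¹ * g * liftSec p (h • x)) *
      ((liftSec p (h • x))⁻¹ * h * liftSec p x)
  rw [mul_smul]
  group

/-- the `(ZMod p)ˣ`-valued cocycle of `γ ↦ d_γ ^ 2`, written additively. -/
def wCoc (g : SL(2, ℤ)) (x : SL(2, ℤ) ⧸ Gamma0 p) : Additive (ZMod p)ˣ :=
  Additive.ofMul (dChar p (liftGam p g x) ^ 2)

theorem wCoc_isCoc : IsCoc (wCoc p) := by
  intro g h x
  show Additive.ofMul (dChar p (liftGam p (g * h) x) ^ 2) =
    Additive.ofMul (dChar p (liftGam p h x) ^ 2) +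
      Additive.ofMul (dChar p (liftGam p g (h • x)) ^ 2)
  rw [liftGam_mul, map_mul, mul_pow, mul_comm, ofMul_mul]

theorem dChar_neg_one_sq : dChar p ⟨-1, lift_neg_one_mem p⟩ ^ 2 = 1 := by
  apply Units.ext
  rw [Units.val_pow_eq_pow_val, coe_dChar]
  simp

theorem dChar_T : dChar p ⟨T, lift_T_mem p⟩ = 1 := by
  apply Units.ext
  rw [coe_dChar]
  simp [coe_T]

theorem wCoc_neg_one (x : SL(2, ℤ) ⧸ Gamma0 p) : wCoc p (-1) x = 0 := by
  have h : liftGam p (-1) x = ⟨-1, lift_neg_one_mem p⟩ := by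
    apply Subtype.ext
    show (liftSec p ((-1 : SL(2, ℤ)) • x))⁻¹ * (-1) * liftSec p x = -1
    rw [lift_neg_one_smul, mul_neg_one, neg_mul, inv_mul_cancel]
  show Additive.ofMul (dChar p (liftGam p (-1) x) ^ 2) = 0
  rw [h, dChar_neg_one_sq]
  rfl

theorem wCoc_S (x : SL(2, ℤ) ⧸ Gamma0 p) : wCoc p S (S • x) = - wCoc p S x := by
  have := wCoc_isCoc p S S x
  rw [← pow_two, pres_S_sq, wCoc_neg_one] at this
  exact eq_neg_of_add_eq_zero_right this.symm

theorem wCoc_U (x : SL(2, ℤ) ⧸ Gamma0 p) :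
    wCoc p (S * T) ((S * T) • (S * T) • x) =
      - wCoc p (S * T) x - wCoc p (S * T) ((S * T) • x) := by
  have e : (S * T) * ((S * T) * (S * T)) = (-1 : SL(2, ℤ)) := by
    have := pres_ST_cube
    rw [pow_succ', pow_two] at this
    exact this
  have h0 : wCoc p ((S * T) * ((S * T) * (S * T))) x = 0 := by
    rw [e]; exact wCoc_neg_one p x
  have h1 := wCoc_isCoc p (S * T) ((S * T) * (S * T)) x
  have h2 := wCoc_isCoc p (S * T) (S * T) x
  rw [h0, h2, mul_smul (S * T) (S * T) x] at h1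
  rw [eq_neg_of_add_eq_zero_right h1.symm, neg_add']

/-- **(L1)** the integral parabolic lift of the Shimura character `γ ↦ d_γ ^ 12`. -/
theorem exists_parabolic_lift :
    ∃ (φ : Additive (Gamma0 p) →+ ℤ) (g : (ZMod p)ˣ),
      IsParabolicHom (Gamma0 p) φ ∧
      ∀ γ : Gamma0 p, g ^ (φ (Additive.ofMul γ)) = dChar p γ ^ 12 := by
  classical
  have _instF : Fintype (SL(2, ℤ) ⧸ Gamma0 p) := Fintype.ofFinite _
  obtain ⟨g₀, hg₀⟩ := IsCyclic.exists_generator (α := (ZMod p)ˣ)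
  have hdl' : ∀ u : Additive (ZMod p)ˣ, ∃ k : ℤ, Additive.ofMul (g₀ ^ k) = u := fun u => by
    obtain ⟨k, hk⟩ := Subgroup.mem_zpowers_iff.mp (hg₀ (Additive.toMul u))
    exact ⟨k, by rw [hk]; rfl⟩
  choose dl hdl using hdl'
  have hSS : ∀ x : SL(2, ℤ) ⧸ Gamma0 p, S • S • x = x := fun x => by
    rw [← mul_smul, ← pow_two, pres_S_sq, lift_neg_one_smul]
  have hUUU : ∀ x : SL(2, ℤ) ⧸ Gamma0 p, (S * T) • (S * T) • (S * T) • x = x := fun x => by
    rw [← mul_smul, ← mul_smul, ← pow_two, ← pow_succ, pres_ST_cube, lift_neg_one_smul]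
  -- the lifts on the generators
  set bS : SL(2, ℤ) ⧸ Gamma0 p → ℤ := fun x => dl (wCoc p S x) with hbS
  set bU : SL(2, ℤ) ⧸ Gamma0 p → ℤ := fun x => dl (wCoc p (S * T) x) with hbU
  set aS : SL(2, ℤ) ⧸ Gamma0 p → ℤ := fun x => 3 * (bS x - bS (S • x)) with haSdef
  set aU : SL(2, ℤ) ⧸ Gamma0 p → ℤ :=
    fun x => 2 * (2 * bU x - bU ((S * T) • x) - bU ((S * T) • (S * T) • x)) with haUdef
  have haS : ∀ x, aS x + aS (S • x) = 0 := fun x => by
    simp only [haSdef, hSS]; ring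
  have haU : ∀ x, aU x + aU ((S * T) • x) + aU ((S * T) • (S * T) • x) = 0 := fun x => by
    simp only [haUdef, hUUU]; ring
  obtain ⟨z, hz, hzS, hzU⟩ := exists_cocycle (lift_neg_one_smul p) aS aU haS haU
  -- comparison with the honest cocycle
  have hπ : ∀ k l : ℤ, Additive.ofMul (g₀ ^ (k + l)) =
      Additive.ofMul (g₀ ^ k) + Additive.ofMul (g₀ ^ l) := fun k l => by
    rw [zpow_add, ofMul_mul]
  have hπneg : ∀ k : ℤ, Additive.ofMul (g₀ ^ (-k)) = - Additive.ofMul (g₀ ^ k) := fun k => by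
    rw [zpow_neg, ofMul_inv]
  have hcomp : (fun g x => Additive.ofMul (g₀ ^ z g x)) = fun g x => 6 • wCoc p g x := by
    refine IsCoc.ext ?_ ?_ ?_ ?_
    · intro g h x
      show Additive.ofMul (g₀ ^ z (g * h) x) = Additive.ofMul (g₀ ^ z h x) +
        Additive.ofMul (g₀ ^ z g (h • x))
      rw [hz, hπ]
    · intro g h x
      show 6 • wCoc p (g * h) x = 6 • wCoc p h x + 6 • wCoc p g (h • x)
      rw [wCoc_isCoc, nsmul_add]
    · funext x
      show Additive.ofMul (g₀ ^ z S x) = 6 • wCoc p S x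
      rw [hzS]
      have e : aS x = bS x + bS x + bS x + (-bS (S • x) + (-bS (S • x) + -bS (S • x))) := by
        simp only [haSdef]; ring
      rw [e]
      simp only [hπ, hπneg, hbS, hdl, wCoc_S]
      abel
    · funext x
      show Additive.ofMul (g₀ ^ z (S * T) x) = 6 • wCoc p (S * T) x
      rw [hzU]
      have e : aU x = bU x + bU x + bU x + bU x + (-bU ((S * T) • x) + (-bU ((S * T) • x) +
          (-bU ((S * T) • (S * T) • x) + -bU ((S * T) • (S * T) • x)))) := by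
        simp only [haUdef]; ring
      rw [e]
      simp only [hπ, hπneg, hbU, hdl, wCoc_U]
      abel
  -- the base point
  set x₀ : SL(2, ℤ) ⧸ Gamma0 p := ((1 : SL(2, ℤ)) : SL(2, ℤ) ⧸ Gamma0 p) with hx₀
  have hfix : ∀ γ : SL(2, ℤ), γ ∈ Gamma0 p → γ • x₀ = x₀ := fun γ hγ => by
    rw [hx₀, MulAction.Quotient.smul_mk, smul_eq_mul, mul_one]
    exact (QuotientGroup.eq.mpr (by simpa using hγ)).symm
  have hSx₀ : S • x₀ ≠ x₀ := by
    intro h
    rw [hx₀, MulAction.Quotient.smul_mk, smul_eq_mul, mul_one] at h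
    have h1 : (1 : SL(2, ℤ))⁻¹ * S ∈ Gamma0 p := QuotientGroup.eq.mp h.symm
    rw [inv_one, one_mul, Gamma0_mem] at h1
    simp [coe_S] at h1
  -- the cocycle with `T ↦ 1`
  set a0 : SL(2, ℤ) ⧸ Gamma0 p → ℤ :=
    fun x => if x = S • x₀ then 1 else if x = x₀ then -1 else 0 with ha0def
  have e1 : a0 (S • x₀) = 1 := by
    show (if S • x₀ = S • x₀ then (1 : ℤ) else if S • x₀ = x₀ then -1 else 0) = 1
    rw [if_pos rfl]
  have e2 : a0 x₀ = -1 := by
    show (if x₀ = S • x₀ then (1 : ℤ) else if x₀ = x₀ then -1 else 0) = -1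
    rw [if_neg hSx₀.symm, if_pos rfl]
  have ha0 : ∀ x, a0 x + a0 (S • x) = 0 := by
    intro x
    by_cases h1 : x = S • x₀
    · rw [h1, hSS, e1, e2]
      norm_num
    · by_cases h2 : x = x₀
      · rw [h2, e1, e2]
        norm_num
      · have h3 : S • x ≠ S • x₀ := fun h => h2 (smul_left_cancel S h)
        have h4 : S • x ≠ x₀ := fun h => h1 (by rw [← h, hSS])
        show (if x = S • x₀ then (1 : ℤ) else if x = x₀ then -1 else 0) +
          (if S • x = S • x₀ then (1 : ℤ) else if S • x = x₀ then -1 else 0) = 0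
        rw [if_neg h1, if_neg h2, if_neg h3, if_neg h4]
        norm_num
  obtain ⟨z0, hz0, hz0S, hz0U⟩ := exists_cocycle (lift_neg_one_smul p) a0 0 ha0 (fun x => by simp)
  have hz0T : z0 T x₀ = 1 := by
    have hT : (T : SL(2, ℤ)) = S⁻¹ * (S * T) := by rw [inv_mul_cancel_left]
    have hU0 : (S * T) • x₀ = S • x₀ := by rw [mul_smul, hfix T (lift_T_mem p)]
    rw [hT, hz0, hz0U, hU0, hz0.inv, inv_smul_smul, hz0S, e2]
    simp
  -- total sums
  have hsumS : ∀ a : SL(2, ℤ) ⧸ Gamma0 p → ℤ, (∀ x, a x + a (S • x) = 0) → ∑ x, a x = 0 := by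
    intro a ha
    have h1 : ∑ x, (a x + a (S • x)) = 0 := Finset.sum_eq_zero fun x _ => ha x
    rw [Finset.sum_add_distrib] at h1
    have h2 : ∑ x, a (S • x) = ∑ x, a x := Equiv.sum_comp (MulAction.toPerm S) a
    rw [h2] at h1
    omega
  have hsumU : ∀ a : SL(2, ℤ) ⧸ Gamma0 p → ℤ,
      (∀ x, a x + a ((S * T) • x) + a ((S * T) • (S * T) • x) = 0) → ∑ x, a x = 0 := by
    intro a ha
    have h1 : ∑ x, (a x + a ((S * T) • x) + a ((S * T) • (S * T) • x)) = 0 :=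
      Finset.sum_eq_zero fun x _ => ha x
    rw [Finset.sum_add_distrib, Finset.sum_add_distrib] at h1
    have h2 : ∑ x, a ((S * T) • x) = ∑ x, a x := Equiv.sum_comp (MulAction.toPerm (S * T)) a
    have h3 : ∑ x, a ((S * T) • (S * T) • x) = ∑ x, a x := by
      rw [← h2]
      exact Equiv.sum_comp (MulAction.toPerm (S * T)) fun x => a ((S * T) • x)
    rw [h2, h3] at h1
    omega
  have hsumz : ∀ g, ∑ x, z g x = 0 :=
    hz.sum_eq_zero (by rw [hzS]; exact hsumS aS haS) (by rw [hzU]; exact hsumU aU haU)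
  have hsumz0 : ∀ g, ∑ x, z0 g x = 0 :=
    hz0.sum_eq_zero (by rw [hz0S]; exact hsumS a0 ha0) (by rw [hz0U]; simp)
  -- the corrected cocycle
  set c : ℤ := z T x₀ with hc
  set z1 : SL(2, ℤ) → SL(2, ℤ) ⧸ Gamma0 p → ℤ := fun g x => z g x - c * z0 g x with hz1def
  have hz1 : IsCoc z1 := fun g h x => by
    simp only [hz1def]; rw [hz, hz0]; ring
  have hsum1 : ∀ g, ∑ x, z1 g x = 0 := fun g => by
    simp only [hz1def, Finset.sum_sub_distrib, ← Finset.mul_sum, hsumz, hsumz0]; ring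
  have hT1 : z1 T x₀ = 0 := by
    simp only [hz1def]; rw [hz0T]; ring
  have hpar := parabolic_of_cocycle p z1 (fun g h x => hz1 g h x) hsum1 hT1
  -- the homomorphism
  let φ : Additive (Gamma0 p) →+ ℤ :=
    { toFun := fun γ => z1 ((Additive.toMul γ : Gamma0 p) : SL(2, ℤ)) x₀
      map_zero' := hz1.one x₀
      map_add' := fun γ δ => by
        show z1 (((Additive.toMul γ * Additive.toMul δ : Gamma0 p)) : SL(2, ℤ)) x₀ = _
        rw [Subgroup.coe_mul, hz1, hfix _ (Additive.toMul δ).2, add_comm] }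
  -- the comparison at the base point
  have key : ∀ γ : Gamma0 p, g₀ ^ (z (γ : SL(2, ℤ)) x₀) = dChar p γ ^ 12 := by
    intro γ
    have h1 : Additive.ofMul (g₀ ^ z (γ : SL(2, ℤ)) x₀) = 6 • wCoc p (γ : SL(2, ℤ)) x₀ :=
      congrFun (congrFun hcomp (γ : SL(2, ℤ))) x₀
    have hs0 : liftSec p x₀ ∈ Gamma0 p := by
      have h' : (1 : SL(2, ℤ))⁻¹ * liftSec p x₀ ∈ Gamma0 p :=
        QuotientGroup.eq.mp (mk_liftSec p x₀).symm
      simpa using h'
    have h2 : dChar p (liftGam p (γ : SL(2, ℤ)) x₀) = dChar p γ := by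
      have h3 : liftGam p (γ : SL(2, ℤ)) x₀ =
          (⟨liftSec p x₀, hs0⟩ : Gamma0 p)⁻¹ * γ * ⟨liftSec p x₀, hs0⟩ := by
        apply Subtype.ext
        show (liftSec p ((γ : SL(2, ℤ)) • x₀))⁻¹ * γ * liftSec p x₀ = _
        rw [hfix _ γ.2]
        rfl
      rw [h3, map_mul, map_mul, map_inv, mul_comm, mul_inv_cancel_left]
    have h4 : g₀ ^ z (γ : SL(2, ℤ)) x₀ = (dChar p γ ^ 2) ^ 6 := by
      have h5 := congrArg Additive.toMul h1
      rw [show wCoc p (γ : SL(2, ℤ)) x₀ =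
        Additive.ofMul (dChar p (liftGam p (γ : SL(2, ℤ)) x₀) ^ 2) from rfl, h2] at h5
      exact h5
    rw [h4, ← pow_mul]
  have hgc : g₀ ^ c = 1 := by
    have := key ⟨T, lift_T_mem p⟩
    rw [dChar_T, one_pow] at this
    exact this
  refine ⟨φ, g₀, fun γ hγ => hpar γ hγ, fun γ => ?_⟩
  show g₀ ^ (z (γ : SL(2, ℤ)) x₀ - c * z0 (γ : SL(2, ℤ)) x₀) = dChar p γ ^ 12
  rw [zpow_sub, zpow_mul, hgc, one_zpow]
  simp only [inv_one, mul_one]
  exact key γ

end

end Fermat.Agent.S16
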