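import Fermat.Agent.S16.HeckeHom
import Fermat.Agent.S16.LLift

/-!
# S16 leaf (L): the Eisenstein character (final wiring of the cohomological route)

`exists_parabolic_lift` (`S16/LLift.lean`: an integral parabolic lift `φ` of the Shimura
character, `g ^ φ γ = d_γ ^ 12`) + `eisenstein_character_of_parabolic_lift`
(`S16/HeckeHom.lean`: Eichler–Shimura + Hecke correspondences on periods).

(`HeckeHom.lean` also accepts the lift in the shape `exists_shimura_lift`:
`eisenstein_character_of_shimura_lift p (exists_shimura_lift p)`.)
-/

set_option autoImplicit false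

namespace Fermat.Agent.S16

open ModularCurve CuspForm

/-- (L) lower bound: the Eisenstein character mod `n = (p-1)/gcd(p-1,12)` exists. -/
theorem exists_eisenstein_character (p : ℕ) [Fact p.Prime] :
    ∃ μ : ↥(heckeLatticeAlgebra p ∅) →+* ZMod (eisensteinNumerator p),
      ∀ ℓ : Nat.Primes, μ (psi p (heckeGen ℓ)) =
        ((eisensteinSystem p ℓ : ℤ) : ZMod (eisensteinNumerator p)) :=
  eisenstein_character_of_parabolic_lift p
    (by obtain ⟨φ, g, h1, h2⟩ := exists_parabolic_lift p
        exact ⟨φ, g, h1, fun γ => by rw [h2, Units.val_pow_eq_pow_val]; rfl⟩)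

end Fermat.Agent.S16
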