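import Fermat.Agent.S16.ULeaves
import Fermat.Agent.S16.Sigma
import Fermat.Agent.S23.Integral

/-!
# S16, block (U'): assembly `upper_bound` from the leaves

A cusp form `f ≡ Σ σ'(m) q^m` mod `k` gives, for a prime `ℓ` with `v_ℓ(k) > v_ℓ(n)`,
`n = (p-1)/gcd(p-1,12)`, a weight-2 form `≡ 1` modulo `ℓ^(1+t)` for every `t` with
`ℓ^t ∣ 24/gcd(p-1,12)`; the leaves `not_unitMod_*` exclude that.
-/

set_option autoImplicit false

namespace Fermat.Agent.S16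

open ModularCurve CuspForm ModularFormClass UpperHalfPlane Fermat.Agent.S23

theorem exists_prime_pow_of_not_dvd {k n : ℕ} (hk : k ≠ 0) (hn : n ≠ 0) (h : ¬ k ∣ n) :
    ∃ ℓ s : ℕ, ℓ.Prime ∧ ℓ ^ s ∣ n ∧ ¬ ℓ ^ (s + 1) ∣ n ∧ ℓ ^ (s + 1) ∣ k := by
  rw [← Nat.factorization_le_iff_dvd hk hn, Finsupp.le_def] at h
  push Not at h
  obtain ⟨ℓ, hℓ⟩ := h
  have hℓp : ℓ.Prime := by
    by_contra hnp
    rw [Nat.factorization_eq_zero_of_not_prime k hnp] at hℓ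
    omega
  exact ⟨ℓ, n.factorization ℓ, hℓp, Nat.ordProj_dvd n ℓ,
    Nat.pow_succ_factorization_not_dvd hn hℓp,
    (hℓp.pow_dvd_iff_le_factorization hk).mpr hℓ⟩

/-- The key construction: from a cusp form congruent to the Eisenstein series modulo `k` to a
weight-2 form `≡ 1` modulo `ℓ^(1+t)`. -/
theorem unitMod_of_congruence (p : ℕ) [Fact p.Prime] (k : ℕ)
    (f : CuspForm (CongruenceSubgroup.Gamma0 p) 2)
    (hf : ∀ m : ℕ, 1 ≤ m → ∃ c : ℤ,
      ModularFormClass.qCoeff f m = ((sigmaP p m + (k : ℤ) * c : ℤ) : ℂ))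
    (ℓ s t : ℕ) (hℓ : ℓ.Prime)
    (h1 : ℓ ^ s ∣ eisensteinNumerator p) (h2 : ¬ ℓ ^ (s + 1) ∣ eisensteinNumerator p)
    (h3 : ℓ ^ (s + 1) ∣ k) (ht : ℓ ^ t ∣ 24 / Nat.gcd (p - 1) 12) : UnitMod p ℓ (1 + t) := by
  have hp : p.Prime := Fact.out
  obtain ⟨E, hE0, hEm⟩ := exists_eisForm p
  have hd1 : Nat.gcd (p - 1) 12 ∣ p - 1 := Nat.gcd_dvd_left _ _
  have hd12 : Nat.gcd (p - 1) 12 ∣ 12 := Nat.gcd_dvd_right _ _
  have hdpos : 0 < Nat.gcd (p - 1) 12 := Nat.gcd_pos_of_pos_right _ (by norm_num)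
  have hd24 : Nat.gcd (p - 1) 12 ∣ 24 := hd12.trans (by norm_num)
  obtain ⟨u, hu⟩ := h1
  obtain ⟨k₁, hk₁⟩ := h3
  obtain ⟨w₁, hw₁⟩ := ht
  have hn : p - 1 = Nat.gcd (p - 1) 12 * (ℓ ^ s * u) := by
    rw [← hu]
    unfold eisensteinNumerator
    exact (Nat.mul_div_cancel' hd1).symm
  have h24 : 24 = Nat.gcd (p - 1) 12 * (ℓ ^ t * w₁) := by
    rw [← hw₁]
    exact (Nat.mul_div_cancel' hd24).symm
  set d := Nat.gcd (p - 1) 12 with hd
  have hℓu : ¬ ℓ ∣ u := by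
    rintro ⟨u₁, rfl⟩
    apply h2
    rw [hu]
    exact ⟨u₁, by ring⟩
  have hcop : IsCoprime (u : ℤ) ((ℓ : ℤ) ^ (1 + t)) := by
    apply IsCoprime.pow_right
    rw [Int.isCoprime_iff_gcd_eq_one, Int.gcd_natCast_natCast]
    exact ((Nat.Prime.coprime_iff_not_dvd hℓ).mpr hℓu).symm
  obtain ⟨a, b, hab⟩ := hcop
  -- the integer coefficients
  let cc : ℕ → ℤ := fun m => if h : 1 ≤ m then (hf m h).choose else 0
  have hcc : ∀ m, 1 ≤ m → qCoeff f m = ((sigmaP p m + (k : ℤ) * cc m : ℤ) : ℂ) := by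
    intro m hm
    have := (hf m hm).choose_spec
    simp only [cc, dif_pos hm]
    exact this
  have h1N := CongruenceSubgroup.one_mem_strictPeriods_Gamma0 p
  have hPE : PB (⇑E : ℍ → ℂ) := PB.of_modularForm h1N E
  have hPf : PB (⇑f : ℍ → ℂ) := PB.of_modularForm h1N f
  have hf0 : qCoeff f 0 = 0 := CuspFormClass.qExpansion_coeff_zero f one_pos h1N
  set lam : ℂ := (a : ℂ) * ((ℓ : ℂ) ^ t * w₁) / (ℓ : ℂ) ^ s with hlam
  let F : ModularForm (CongruenceSubgroup.Gamma0 p) 2 :=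
    lam • (E - ModularFormClass.modularForm f)
  have hF : (⇑F : ℍ → ℂ) = lam • ((⇑E : ℍ → ℂ) - (⇑f : ℍ → ℂ)) := rfl
  have hq : ∀ m, qCoeff F m = lam * (qCoeff E m - qCoeff f m) := by
    intro m
    unfold ModularFormClass.qCoeff
    rw [hF, qExp_smul lam (hPE.sub hPf), qExp_sub hPE hPf, PowerSeries.coeff_smul, map_sub,
      smul_eq_mul]
  have hℓ0 : (ℓ : ℂ) ≠ 0 := Nat.cast_ne_zero.mpr hℓ.ne_zero
  have hd0 : (d : ℂ) ≠ 0 := Nat.cast_ne_zero.mpr hdpos.ne'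
  have hw0 : (w₁ : ℂ) ≠ 0 := by
    apply Nat.cast_ne_zero.mpr
    rintro rfl
    simp at h24
  have hpC : (p : ℂ) - 1 = (d : ℂ) * ((ℓ : ℂ) ^ s * u) := by
    have h1p : 1 ≤ p := hp.one_le
    have : ((p - 1 : ℕ) : ℂ) = (d : ℂ) * ((ℓ : ℂ) ^ s * u) := by
      rw [hn]
      push_cast
      ring
    rw [← this, Nat.cast_sub h1p, Nat.cast_one]
  have h24C : (24 : ℂ) = (d : ℂ) * ((ℓ : ℂ) ^ t * w₁) := by
    have : ((24 : ℕ) : ℂ) = (d : ℂ) * ((ℓ : ℂ) ^ t * w₁) := by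
      rw [h24]
      push_cast
      ring
    rw [← this]
    norm_num
  let c : ℕ → ℤ := fun m => if m = 0 then a * u else -((ℓ : ℤ) ^ (1 + t) * (a * w₁ * k₁ * cc m))
  have hc0 : c 0 = a * u := if_pos rfl
  have hcm : ∀ m, 1 ≤ m → c m = -((ℓ : ℤ) ^ (1 + t) * (a * w₁ * k₁ * cc m)) :=
    fun m hm => if_neg (by omega)
  refine ⟨F, c, fun m => ?_, ?_, fun m hm => ?_⟩
  · rcases Nat.eq_zero_or_pos m with rfl | hm
    · rw [hq, hE0, hf0, sub_zero, hc0, hpC, h24C, hlam]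
      push_cast
      field_simp
    · rw [hq, hEm m hm, hcc m hm, hcm m hm, hlam, hk₁]
      push_cast
      field_simp
      ring
  · rw [hc0]
    exact ⟨-b, by linear_combination hab⟩
  · rw [hcm m hm]
    exact (Dvd.intro _ rfl).neg_right

/-- [UA] upper bound: a cusp form congruent to the Eisenstein series mod `k` forces
`k ∣ (p-1)/gcd(p-1,12)`. -/
theorem upper_bound (p : ℕ) [Fact p.Prime] (k : ℕ) (hk : 1 ≤ k)
    (f : CuspForm (CongruenceSubgroup.Gamma0 p) 2)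
    (hf : ∀ m : ℕ, 1 ≤ m → ∃ c : ℤ,
      ModularFormClass.qCoeff f m = ((sigmaP p m + (k : ℤ) * c : ℤ) : ℂ)) :
    k ∣ eisensteinNumerator p := by
  have hp : p.Prime := Fact.out
  by_cases hp3 : p ≤ 3
  · have h1 := cuspForm_coeff_one_small p hp3 f
    obtain ⟨c, hc⟩ := hf 1 le_rfl
    rw [h1, sigmaP_one hp] at hc
    have h0 : (1 + (k : ℤ) * c : ℤ) = 0 := by exact_mod_cast hc.symm
    have hk1 : (k : ℤ) ∣ 1 := ⟨-c, by linarith⟩
    have : k ∣ 1 := by exact_mod_cast hk1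
    rw [Nat.dvd_one.mp this]
    exact one_dvd _
  · push Not at hp3
    have hp5 : 5 ≤ p := by
      rcases Nat.lt_or_ge p 5 with h | h
      · have : p = 4 := by omega
        subst this
        exact absurd hp (by norm_num)
      · exact h
    have hd1 : Nat.gcd (p - 1) 12 ∣ p - 1 := Nat.gcd_dvd_left _ _
    have hd12 : Nat.gcd (p - 1) 12 ∣ 12 := Nat.gcd_dvd_right _ _
    have hdle : Nat.gcd (p - 1) 12 ≤ 12 := Nat.le_of_dvd (by norm_num) hd12
    have hn0 : eisensteinNumerator p ≠ 0 := by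
      unfold eisensteinNumerator
      exact (Nat.div_pos (Nat.le_of_dvd (by omega) hd1)
        (Nat.gcd_pos_of_pos_right _ (by norm_num))).ne'
    by_contra hnd
    obtain ⟨ℓ, s, hℓ, h1, h2, h3⟩ := exists_prime_pow_of_not_dvd (by omega) hn0 hnd
    have hℓ2 := hℓ.two_le
    rcases (by omega : ℓ = 2 ∨ ℓ = 3 ∨ ℓ = 4 ∨ 5 ≤ ℓ) with rfl | rfl | rfl | h5
    · -- ℓ = 2
      have hodd : p % 2 = 1 := by
        rcases hp.eq_two_or_odd with h | h
        · omega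
        · exact h
      rcases (by omega : p % 4 = 1 ∨ p % 4 = 3) with h4 | h4
      · have hdiv : 2 ^ 1 ∣ 24 / Nat.gcd (p - 1) 12 := by
          have key : ∀ d ≤ 12, d ∣ 12 → 2 ^ 1 ∣ 24 / d := by decide
          exact key _ hdle hd12
        exact not_unitMod_two_two p h4 (unitMod_of_congruence p k f hf 2 s 1 hℓ h1 h2 h3 hdiv)
      · have hnd4 : ¬ 4 ∣ Nat.gcd (p - 1) 12 := fun h => by
          have := h.trans hd1
          omega
        have hdiv : 2 ^ 2 ∣ 24 / Nat.gcd (p - 1) 12 := by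
          have key : ∀ d ≤ 12, d ∣ 12 → ¬ 4 ∣ d → 2 ^ 2 ∣ 24 / d := by decide
          exact key _ hdle hd12 hnd4
        exact not_unitMod_two_three p hp5 (unitMod_of_congruence p k f hf 2 s 2 hℓ h1 h2 h3 hdiv)
    · -- ℓ = 3
      have hp3' : p % 3 ≠ 0 := fun h => by
        have : 3 ∣ p := Nat.dvd_of_mod_eq_zero h
        have := (Nat.prime_dvd_prime_iff_eq (by norm_num) hp).mp this
        omega
      rcases (by omega : p % 3 = 1 ∨ p % 3 = 2) with h3' | h3'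
      · exact not_unitMod_three_one p h3'
          (unitMod_of_congruence p k f hf 3 s 0 hℓ h1 h2 h3 (one_dvd _))
      · have hnd3 : ¬ 3 ∣ Nat.gcd (p - 1) 12 := fun h => by
          have := h.trans hd1
          omega
        have hdiv : 3 ^ 1 ∣ 24 / Nat.gcd (p - 1) 12 := by
          have key : ∀ d ≤ 12, d ∣ 12 → ¬ 3 ∣ d → 3 ^ 1 ∣ 24 / d := by decide
          exact key _ hdle hd12 hnd3
        exact not_unitMod_three_two p hp5 (unitMod_of_congruence p k f hf 3 s 1 hℓ h1 h2 h3 hdiv)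
    · exact absurd hℓ (by norm_num)
    · exact not_unitMod_ge_five p ℓ hℓ h5
        (unitMod_of_congruence p k f hf ℓ s 0 hℓ h1 h2 h3 (one_dvd _))

end Fermat.Agent.S16
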