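import Mathlib
import Fermat.Prelude.Def_FLTPrelim_Modularity
import Fermat.Agent.S23.Scale
import Fermat.Agent.ES.J.Ramanujan

/-!
# S16, leaf [E]: the Eisenstein series of weight `2` on `Γ₀(p)`

`E_p(z) = (p E₂(pz) - E₂(z)) / 24 = (p - 1)/24 + ∑_{m ≥ 1} (σ(m) - p σ(m/p)) q^m` is a modular
form of weight `2` on `Γ₀(p)` (any level `p ≥ 1`).

* `Eis.eis_slash` : if `diag(p, 1) * γ = γ' * u` with `u` upper triangular then
  `(E₂ ∣ diag(p, 1) - E₂) ∣ γ = E₂ ∣ u - E₂` (the quasi-modular defects cancel);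
* `Eis.eisForm` : the modular form (`Eis.coe_eisForm`, `Eis.coeff_qExp_eisFun`);
* `Eis.pb_E2`, `Eis.coeff_qExp_E2` : `E₂` is periodic, holomorphic, bounded; its `q`-expansion;
* `Eis.qCoeff_eisForm_zero`, `Eis.qCoeff_eisForm` : the `q`-coefficients;
* `Eis.sum_divisors_filter_not_dvd` : `σ(m) - p σ(m/p)` is the sum of the divisors prime to `p`.
-/

set_option autoImplicit false

namespace Fermat.Agent.S16

open UpperHalfPlane hiding I
open Complex Filter ModularForm ModularFormClass EisensteinSeries CongruenceSubgroup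
open scoped MatrixGroups ModularForm Topology Manifold
open Fermat.Agent.S23

noncomputable section

namespace Eis

/-! ### `E₂` and its `q`-expansion -/

/-- `E₂` is periodic, holomorphic and bounded at `i∞`. -/
theorem pb_E2 : PB E2 := ⟨ES.periodic_E2, E2_mdifferentiable, isBoundedAtImInfty_E2⟩

theorem coeff_qExp_E2 (m : ℕ) :
    (qExpansion 1 E2).coeff m =
      if m = 0 then 1 else -24 * (ArithmeticFunction.sigma 1 m : ℂ) := by
  have ha : AnalyticAt ℂ (cuspFunction 1 E2) 0 := pb_E2.analytic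
  have h1 := (UpperHalfPlane.hasFPowerSeriesOnBall_cuspFunction (h := 1) (f := E2)
    (c := fun m : ℕ ↦ (if m = 0 then 1 else -24 * (ArithmeticFunction.sigma 1 m : ℂ)))
    one_pos ha ES.hasSum_E2_qParam).hasFPowerSeriesAt
  have h2 : HasFPowerSeriesAt (cuspFunction 1 E2)
      (FormalMultilinearSeries.ofScalars ℂ (fun m => (qExpansion 1 E2).coeff m)) 0 := by
    simpa [qExpansion_coeff, div_eq_mul_inv, mul_comm] using ha.hasFPowerSeriesAt
  have h3 := h1.eq_formalMultilinearSeries h2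
  have h4 := congr_arg (FormalMultilinearSeries.coeff · m) h3
  simpa [FormalMultilinearSeries.coeff_ofScalars] using h4.symm

theorem pb_heckeT_E2 (p : ℕ) : PB (heckeT 2 p E2) where
  per := ModularForm.periodic_heckeT_comp_ofComplex pb_E2.per 2 p
  holo := ModularForm.mdifferentiable_heckeT pb_E2.holo 2 p
  bdd := ModularForm.isBoundedAtImInfty_heckeT pb_E2.bdd 2 p

theorem pb_heckeU_E2 (p : ℕ) : PB (heckeU 2 p E2) where
  per := ModularForm.periodic_heckeU_comp_ofComplex pb_E2.per 2 p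
  holo := ModularForm.mdifferentiable_heckeU pb_E2.holo 2 p
  bdd := ModularForm.isBoundedAtImInfty_heckeU pb_E2.bdd 2 p

theorem E2_slash_diag_eq_sub (p : ℕ) :
    E2 ∣[(2 : ℤ)] heckeDiagMatrix p = heckeT 2 p E2 - heckeU 2 p E2 := by
  rw [heckeT_eq_heckeU_add, add_sub_cancel_left]

theorem pb_E2_slash_diag (p : ℕ) : PB (E2 ∣[(2 : ℤ)] heckeDiagMatrix p) := by
  rw [E2_slash_diag_eq_sub]
  exact (pb_heckeT_E2 p).sub (pb_heckeU_E2 p)

theorem coeff_qExp_E2_slash_diag (p : ℕ) (hp : p ≠ 0) (n : ℕ) :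
    (qExpansion 1 (E2 ∣[(2 : ℤ)] heckeDiagMatrix p)).coeff n =
      if p ∣ n then (p : ℂ) * (qExpansion 1 E2).coeff (n / p) else 0 := by
  rw [E2_slash_diag_eq_sub, qExp_sub (pb_heckeT_E2 p) (pb_heckeU_E2 p), map_sub]
  have h1 := UpperHalfPlane.qCoeff_heckeT pb_E2.per pb_E2.holo pb_E2.bdd 2 hp n
  have h2 := UpperHalfPlane.qCoeff_heckeU pb_E2.per pb_E2.holo pb_E2.bdd 2 hp n
  unfold ModularFormClass.qCoeff at h1 h2
  rw [h1, h2, coeffHeckeT_eq_coeffHeckeU_add, add_sub_cancel_left]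
  split_ifs
  · norm_num
  · rfl

/-! ### The function `E_p` -/

/-- `E_p(z) = (p E₂(pz) - E₂(z)) / 24`. -/
def eisFun (p : ℕ) : ℍ → ℂ := (24 : ℂ)⁻¹ • (E2 ∣[(2 : ℤ)] heckeDiagMatrix p - E2)

theorem pb_eisFun (p : ℕ) : PB (eisFun p) := ((pb_E2_slash_diag p).sub pb_E2).smul _

theorem coeff_qExp_eisFun (p : ℕ) (hp : p ≠ 0) (n : ℕ) :
    (qExpansion 1 (eisFun p)).coeff n =
      (24 : ℂ)⁻¹ * ((if p ∣ n then (p : ℂ) * (qExpansion 1 E2).coeff (n / p) else 0) -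
        (qExpansion 1 E2).coeff n) := by
  unfold eisFun
  rw [qExp_smul _ ((pb_E2_slash_diag p).sub pb_E2), qExp_sub (pb_E2_slash_diag p) pb_E2,
    map_smul, map_sub, coeff_qExp_E2_slash_diag p hp, smul_eq_mul]

/-! ### Divisor sums -/

theorem sum_divisors_filter_dvd (p n : ℕ) (hp : p ≠ 0) (hn : n ≠ 0) :
    ∑ d ∈ n.divisors.filter (fun d => p ∣ d), d =
      if p ∣ n then p * ∑ d ∈ (n / p).divisors, d else 0 := by
  classical
  split_ifs with h
  · have himg : n.divisors.filter (fun d => p ∣ d) = (n / p).divisors.image (fun d => p * d) := by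
      ext d
      simp only [Finset.mem_filter, Nat.mem_divisors, Finset.mem_image]
      constructor
      · rintro ⟨⟨hdn, -⟩, hpd⟩
        obtain ⟨d', rfl⟩ := hpd
        refine ⟨d', ⟨?_, ?_⟩, rfl⟩
        · obtain ⟨k, hk⟩ := hdn
          refine ⟨k, ?_⟩
          rw [hk, mul_assoc, Nat.mul_div_cancel_left _ (Nat.pos_of_ne_zero hp)]
        · intro h0
          obtain ⟨m, rfl⟩ := h
          rw [Nat.mul_div_cancel_left _ (Nat.pos_of_ne_zero hp)] at h0
          exact hn (by rw [h0, mul_zero])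
      · rintro ⟨d', ⟨hd', -⟩, rfl⟩
        refine ⟨⟨?_, hn⟩, dvd_mul_right p d'⟩
        obtain ⟨m, rfl⟩ := h
        rw [Nat.mul_div_cancel_left _ (Nat.pos_of_ne_zero hp)] at hd'
        exact mul_dvd_mul_left p hd'
    rw [himg, Finset.sum_image (fun a _ b _ hab => Nat.eq_of_mul_eq_mul_left
      (Nat.pos_of_ne_zero hp) hab), Finset.mul_sum]
  · refine Finset.sum_eq_zero fun d hd => ?_
    rw [Finset.mem_filter, Nat.mem_divisors] at hd
    exact absurd (hd.2.trans hd.1.1) h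

theorem sum_divisors_filter_not_dvd (p n : ℕ) (hp : p ≠ 0) (hn : n ≠ 0) :
    ((∑ d ∈ n.divisors.filter (fun d => ¬ p ∣ d), d : ℕ) : ℂ) =
      (ArithmeticFunction.sigma 1 n : ℂ) -
        if p ∣ n then (p : ℂ) * (ArithmeticFunction.sigma 1 (n / p) : ℂ) else 0 := by
  classical
  have h1 : ∑ d ∈ n.divisors, d = ∑ d ∈ n.divisors.filter (fun d => p ∣ d), d +
      ∑ d ∈ n.divisors.filter (fun d => ¬ p ∣ d), d :=
    (Finset.sum_filter_add_sum_filter_not n.divisors (fun d => p ∣ d) (fun d => d)).symm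
  rw [sum_divisors_filter_dvd p n hp hn] at h1
  rw [ArithmeticFunction.sigma_one_apply, ArithmeticFunction.sigma_one_apply, h1]
  split_ifs
  · push_cast
    ring
  · push_cast
    ring

/-! ### Transformation behaviour -/

theorem tendsto_upperTriangularGL_smul {a b d : ℝ} (ha : 0 < a) (hd : 0 < d) :
    Tendsto (fun τ : ℍ => upperTriangularGL a b d (mul_pos ha hd).ne' • τ)
      atImInfty atImInfty := by
  rw [UpperHalfPlane.atImInfty, tendsto_comap_iff]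
  have h1 : (UpperHalfPlane.im ∘ fun τ : ℍ => upperTriangularGL a b d (mul_pos ha hd).ne' • τ) =
      fun τ : ℍ => (a / d) * τ.im := by
    funext τ
    rw [Function.comp_apply, Scale.im_upperTriangularGL_smul ha hd]
    ring
  rw [h1]
  exact Filter.Tendsto.const_mul_atTop (div_pos ha hd) tendsto_comap

theorem isBoundedAtImInfty_E2_slash_upper {a b d : ℝ} (ha : 0 < a) (hd : 0 < d) :
    IsBoundedAtImInfty (E2 ∣[(2 : ℤ)] upperTriangularGL a b d (mul_pos ha hd).ne') := by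
  have h1 : IsBoundedAtImInfty
      (fun τ : ℍ => E2 (upperTriangularGL a b d (mul_pos ha hd).ne' • τ)) :=
    isBoundedAtImInfty_E2.comp_tendsto (tendsto_upperTriangularGL_smul ha hd)
  have h2 : (E2 ∣[(2 : ℤ)] upperTriangularGL a b d (mul_pos ha hd).ne') =
      (fun τ : ℍ => E2 (upperTriangularGL a b d (mul_pos ha hd).ne' • τ)) *
        fun _ : ℍ => (((a * d : ℝ) : ℂ) ^ ((2 : ℤ) - 1) * (d : ℂ) ^ (-(2 : ℤ))) := by
    funext τ
    rw [Scale.slash_upperTriangularGL_apply 2 ha hd, Pi.mul_apply, mul_assoc]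
  rw [h2]
  exact h1.mul (Filter.const_boundedAtFilter _ _)

theorem smul_slash_upper (c : ℂ) (f : ℍ → ℂ) {a b d : ℝ} (ha : 0 < a) (hd : 0 < d) :
    (c • f) ∣[(2 : ℤ)] upperTriangularGL a b d (mul_pos ha hd).ne' =
      c • (f ∣[(2 : ℤ)] upperTriangularGL a b d (mul_pos ha hd).ne') := by
  funext τ
  rw [Scale.slash_upperTriangularGL_apply 2 ha hd, Pi.smul_apply, Pi.smul_apply,
    Scale.slash_upperTriangularGL_apply 2 ha hd, smul_eq_mul, smul_eq_mul]
  ring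

/-- The quasi-modular defect of `γ'` transported by an upper triangular matrix. -/
theorem D2_slash_upper (p : ℕ) (hp : p ≠ 0) (γ γ' : SL(2, ℤ)) {e B D : ℝ} (he : 0 < e)
    (hD : 0 < D)
    (h : heckeDiagMatrix p * (Matrix.SpecialLinearGroup.mapGL ℝ γ : GL (Fin 2) ℝ) =
      (Matrix.SpecialLinearGroup.mapGL ℝ γ' : GL (Fin 2) ℝ) *
        upperTriangularGL e B D (mul_pos he hD).ne') :
    D2 γ' ∣[(2 : ℤ)] upperTriangularGL e B D (mul_pos he hD).ne' = D2 γ := by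
  have h10 : ((γ 1 0 : ℤ) : ℝ) = (γ' 1 0 : ℤ) * e := by
    have := congrArg (fun M : GL (Fin 2) ℝ => (M : Matrix (Fin 2) (Fin 2) ℝ) 1 0) h
    simpa [Matrix.mul_apply, Fin.sum_univ_two, val_heckeDiagMatrix hp] using this
  have h11 : ((γ 1 1 : ℤ) : ℝ) = (γ' 1 0 : ℤ) * B + (γ' 1 1 : ℤ) * D := by
    have := congrArg (fun M : GL (Fin 2) ℝ => (M : Matrix (Fin 2) (Fin 2) ℝ) 1 1) h
    simpa [Matrix.mul_apply, Fin.sum_univ_two, val_heckeDiagMatrix hp] using this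
  have hc : ((γ 1 0 : ℤ) : ℂ) = ((γ' 1 0 : ℤ) : ℂ) * (e : ℂ) := by
    have := congrArg (fun x : ℝ => (x : ℂ)) h10
    push_cast at this
    exact this
  have hd : ((γ 1 1 : ℤ) : ℂ) = ((γ' 1 0 : ℤ) : ℂ) * (B : ℂ) + ((γ' 1 1 : ℤ) : ℂ) * (D : ℂ) := by
    have := congrArg (fun x : ℝ => (x : ℂ)) h11
    push_cast at this
    exact this
  funext τ
  have hden' := UpperHalfPlane.denom_ne_zero (Matrix.SpecialLinearGroup.mapGL ℝ γ' : GL (Fin 2) ℝ)
    (upperTriangularGL e B D (mul_pos he hD).ne' • τ)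
  rw [Scale.slash_upperTriangularGL_apply 2 he hD]
  unfold D2
  rw [ModularGroup.denom_apply, ModularGroup.denom_apply] at *
  rw [Scale.coe_upperTriangularGL_smul he hD] at hden' ⊢
  rw [hc, hd]
  have hDC : (D : ℂ) ≠ 0 := by exact_mod_cast hD.ne'
  have key : ((γ' 1 0 : ℤ) : ℂ) * (e : ℂ) * (τ : ℂ) +
      (((γ' 1 0 : ℤ) : ℂ) * (B : ℂ) + ((γ' 1 1 : ℤ) : ℂ) * (D : ℂ)) =
      (D : ℂ) * (((γ' 1 0 : ℤ) : ℂ) * (((e : ℂ) * τ + B) / D) + ((γ' 1 1 : ℤ) : ℂ)) := by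
    field_simp
    ring
  rw [key]
  have e1 : (((e * D : ℝ) : ℂ)) ^ ((2 : ℤ) - 1) = (e : ℂ) * (D : ℂ) := by
    norm_num
  have e2 : (D : ℂ) ^ (-(2 : ℤ)) = ((D : ℂ) ^ 2)⁻¹ := by
    rw [zpow_neg]
    norm_cast
  rw [e1, e2]
  field_simp

/-- **The transformation formula**: if `diag(p, 1) * γ = γ' * u` with `u` upper triangular, then
`(E₂ ∣ diag(p, 1) - E₂) ∣ γ = E₂ ∣ u - E₂`. -/
theorem eis_slash (p : ℕ) (hp : p ≠ 0) (γ γ' : SL(2, ℤ)) {e B D : ℝ} (he : 0 < e) (hD : 0 < D)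
    (h : heckeDiagMatrix p * (Matrix.SpecialLinearGroup.mapGL ℝ γ : GL (Fin 2) ℝ) =
      (Matrix.SpecialLinearGroup.mapGL ℝ γ' : GL (Fin 2) ℝ) *
        upperTriangularGL e B D (mul_pos he hD).ne') :
    (E2 ∣[(2 : ℤ)] heckeDiagMatrix p - E2) ∣[(2 : ℤ)] γ =
      E2 ∣[(2 : ℤ)] upperTriangularGL e B D (mul_pos he hD).ne' - E2 := by
  have h1 : (E2 ∣[(2 : ℤ)] heckeDiagMatrix p) ∣[(2 : ℤ)] γ =
      (E2 ∣[(2 : ℤ)] γ') ∣[(2 : ℤ)] upperTriangularGL e B D (mul_pos he hD).ne' := by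
    rw [Scale.SL_slash_eq_mapGL, Scale.SL_slash_eq_mapGL, ← SlashAction.slash_mul,
      ← SlashAction.slash_mul, h]
  rw [sub_eq_add_neg, SlashAction.add_slash, SlashAction.neg_slash, h1, E2_slash_action γ',
    E2_slash_action γ, sub_eq_add_neg E2, SlashAction.add_slash, SlashAction.neg_slash,
    smul_slash_upper _ _ he hD, D2_slash_upper p hp γ γ' he hD h]
  abel

theorem heckeDiagMatrix_eq_upper (p : ℕ) (hp : p ≠ 0) (hp' : (0 : ℝ) < p) :
    heckeDiagMatrix p = upperTriangularGL (p : ℝ) 0 1 (mul_pos hp' one_pos).ne' := by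
  unfold heckeDiagMatrix
  rw [dif_neg hp]

theorem eisFun_slash_of_mem (p : ℕ) [NeZero p] (γ : SL(2, ℤ)) (hγ : γ ∈ Gamma0 p) :
    eisFun p ∣[(2 : ℤ)] γ = eisFun p := by
  have hp : p ≠ 0 := NeZero.ne p
  have hp' : (0 : ℝ) < p := by exact_mod_cast Nat.pos_of_ne_zero hp
  have hmem : (Matrix.SpecialLinearGroup.mapGL ℝ γ : GL (Fin 2) ℝ) ∈
      ((Gamma0 p : Subgroup SL(2, ℤ)) : Subgroup (GL (Fin 2) ℝ)) := ⟨γ, hγ, rfl⟩
  have h := Scale.Gamma0_le_conj p hmem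
  rw [Subgroup.mem_pointwise_smul_iff_inv_smul_mem, ← ConjAct.toConjAct_inv, inv_inv,
    ConjAct.toConjAct_smul] at h
  obtain ⟨γ', hγ'⟩ := h
  have h2 : heckeDiagMatrix p * (Matrix.SpecialLinearGroup.mapGL ℝ γ : GL (Fin 2) ℝ) =
      (Matrix.SpecialLinearGroup.mapGL ℝ γ' : GL (Fin 2) ℝ) *
        upperTriangularGL (p : ℝ) 0 1 (mul_pos hp' one_pos).ne' := by
    rw [← heckeDiagMatrix_eq_upper p hp hp']
    exact (eq_mul_inv_iff_mul_eq.mp hγ').symm
  unfold eisFun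
  rw [ModularForm.SL_smul_slash, eis_slash p hp γ γ' hp' one_pos h2,
    ← heckeDiagMatrix_eq_upper p hp hp']

theorem isBoundedAtImInfty_eisFun_slash (p : ℕ) [NeZero p] (γ : SL(2, ℤ)) :
    IsBoundedAtImInfty (eisFun p ∣[(2 : ℤ)] γ) := by
  have hp : p ≠ 0 := NeZero.ne p
  obtain ⟨γ', e, B, D, he, hD, -, -, had, h⟩ := Scale.exists_hermite p γ
  have heR : (0 : ℝ) < e := by exact_mod_cast he
  have hDR : (0 : ℝ) < D := by exact_mod_cast hD
  unfold eisFun
  rw [ModularForm.SL_smul_slash, eis_slash p hp γ γ' heR hDR h]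
  have h1 : IsBoundedAtImInfty
      (E2 ∣[(2 : ℤ)] upperTriangularGL (e : ℝ) (B : ℝ) (D : ℝ) (mul_pos heR hDR).ne' - E2) :=
    (isBoundedAtImInfty_E2_slash_upper heR hDR).sub isBoundedAtImInfty_E2
  exact Filter.BoundedAtFilter.smul ((24 : ℂ)⁻¹) h1

/-- The Eisenstein series of weight `2` on `Γ₀(p)`. -/
def eisForm (p : ℕ) [NeZero p] : ModularForm (Gamma0 p) 2 where
  toFun := eisFun p
  slash_action_eq' := by
    rintro _ ⟨γ, hγ, rfl⟩
    exact eisFun_slash_of_mem p γ hγ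
  holo' := (pb_eisFun p).holo
  bdd_at_cusps' := by
    intro c hc
    rw [Subgroup.IsArithmetic.isCusp_iff_isCusp_SL2Z] at hc
    rw [OnePoint.isBoundedAt_iff_forall_SL2Z hc]
    intro γ _
    exact isBoundedAtImInfty_eisFun_slash p γ

theorem coe_eisForm (p : ℕ) [NeZero p] : (⇑(eisForm p) : ℍ → ℂ) = eisFun p := rfl

theorem qCoeff_eisForm_zero (p : ℕ) [NeZero p] :
    ModularFormClass.qCoeff (eisForm p) 0 = ((p : ℂ) - 1) / 24 := by
  have hp : p ≠ 0 := NeZero.ne p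
  unfold ModularFormClass.qCoeff
  rw [coe_eisForm, coeff_qExp_eisFun p hp 0, if_pos (dvd_zero p), Nat.zero_div, coeff_qExp_E2,
    if_pos rfl]
  ring

theorem qCoeff_eisForm (p : ℕ) [NeZero p] (m : ℕ) (hm : 1 ≤ m) :
    ModularFormClass.qCoeff (eisForm p) m = (ArithmeticFunction.sigma 1 m : ℂ) -
      if p ∣ m then (p : ℂ) * (ArithmeticFunction.sigma 1 (m / p) : ℂ) else 0 := by
  have hp : p ≠ 0 := NeZero.ne p
  have hm0 : m ≠ 0 := by omega
  unfold ModularFormClass.qCoeff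
  rw [coe_eisForm, coeff_qExp_eisFun p hp m, coeff_qExp_E2 m, if_neg hm0]
  split_ifs with hdvd
  · have hq : m / p ≠ 0 := by
      obtain ⟨k, rfl⟩ := hdvd
      rw [Nat.mul_div_cancel_left _ (Nat.pos_of_ne_zero hp)]
      rintro rfl
      exact hm0 (mul_zero p)
    rw [coeff_qExp_E2, if_neg hq]
    ring
  · ring

end Eis

end

end Fermat.Agent.S16
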