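import Fermat.Agent.S16.Defs
import Fermat.Agent.S16.Eis

/-!
# S16, leaf [E]: the Eisenstein form of weight `2` on `Γ₀(p)`, in terms of `sigmaP`
-/

set_option autoImplicit false

namespace Fermat.Agent.S16

open ModularCurve CuspForm

/-- **Leaf [E].** The Eisenstein series `E_p = (p - 1)/24 + ∑ σ'(m) q^m` of weight `2` on
`Γ₀(p)`. -/
theorem exists_eisForm (p : ℕ) [Fact p.Prime] :
    ∃ E : ModularForm (CongruenceSubgroup.Gamma0 p) 2,
      ModularFormClass.qCoeff E 0 = ((p : ℂ) - 1) / 24 ∧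
        ∀ m : ℕ, 1 ≤ m → ModularFormClass.qCoeff E m = (sigmaP p m : ℂ) := by
  have hp : p ≠ 0 := (Fact.out : p.Prime).ne_zero
  have : NeZero p := ⟨hp⟩
  refine ⟨Eis.eisForm p, Eis.qCoeff_eisForm_zero p, fun m hm => ?_⟩
  rw [Eis.qCoeff_eisForm p m hm]
  unfold sigmaP
  split_ifs <;> push_cast <;> ring

end Fermat.Agent.S16
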