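import Mathlib
import Fermat.Agent.S28.CoeffOO

/-!
# S16, leaf INTVAL: integrality of the values of level-`p` modular functions

Let `f` be a `Γ₀(p)`-modular function (holomorphic on `ℍ`, `S24.ModFun p f`), and let `A` be a
subring of `ℂ` containing the `p`-th roots of unity.  If the `q`-expansions of `f` and of
`τ ↦ f (-1/(pτ))` have coefficients in `A`, then

* every `SL₂(ℤ)`-translate `τ ↦ f (γ • (pτ))` has a `q`-expansion with coefficients in `A`
  (`exists_conj_expansion_prime`);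
* the coefficients of the characteristic polynomial of `f` over `ℂ[j]` are polynomials in `j`
  with coefficients in `A` (`coeff_mem_of_charpoly_prime`);
* `f τ` is integral over `A` at every point `τ` with `j(τ) ∈ A`
  (`isIntegral_value_of_expansions`), hence `f τ ∈ OO ℓ` if `A = OO ℓ` (`value_mem_OO`).
-/

set_option autoImplicit false

noncomputable section

namespace Fermat.Agent.S16

open UpperHalfPlane hiding I
open ModularForm Function ModularCurve Polynomial
open Fermat.Agent Fermat.Agent.S24B Fermat.Agent.S24 Fermat.Agent.S28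
open scoped Real MatrixGroups

/-- Coset decomposition at prime level: a matrix outside `Γ₀(p)` is `β * S * T^k` with
`β ∈ Γ₀(p)`. -/
theorem exists_gamma0_mul_S_T (p : ℕ) [Fact p.Prime] (γ : SL(2, ℤ))
    (hγ : ¬ (p : ℤ) ∣ γ 1 0) :
    ∃ k : ℤ, γ * (ModularGroup.S * ModularGroup.T ^ k)⁻¹ ∈ CongruenceSubgroup.Gamma0 p := by
  have hc : ((γ 1 0 : ℤ) : ZMod p) ≠ 0 := by
    rwa [Ne, ZMod.intCast_zmod_eq_zero_iff_dvd]
  obtain ⟨k, hk⟩ : ∃ k : ℤ, (k : ZMod p) = ((γ 1 1 : ℤ) : ZMod p) * ((γ 1 0 : ℤ) : ZMod p)⁻¹ :=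
    ZMod.intCast_surjective _
  refine ⟨k, ?_⟩
  rw [CongruenceSubgroup.Gamma0_mem]
  have e : ((γ * (ModularGroup.S * ModularGroup.T ^ k)⁻¹ : SL(2, ℤ)) 1 0 : ℤ) =
      γ 1 0 * k - γ 1 1 := by
    have hinv : ((ModularGroup.S * ModularGroup.T ^ k)⁻¹ : SL(2, ℤ)).1 = !![k, 1; -1, 0] := by
      rw [Matrix.SpecialLinearGroup.SL2_inv_expl]
      simp only [ModularGroup.coe_T_zpow, ModularGroup.coe_S, Matrix.SpecialLinearGroup.coe_mul,
        Matrix.mul_apply, Fin.sum_univ_two, Matrix.of_apply, Matrix.cons_val', Matrix.cons_val_zero,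
        Matrix.cons_val_one, Matrix.cons_val_fin_one]
      ext i j
      fin_cases i <;> fin_cases j <;> simp
    rw [Matrix.SpecialLinearGroup.coe_mul, hinv, Matrix.mul_apply, Fin.sum_univ_two]
    simp
    ring
  rw [e]
  push_cast
  rw [hk]
  field_simp
  ring

/-- Expansion of the translates `τ ↦ f (γ • (pτ))` of a level-`p` modular function in terms of
the expansions of `f` and `f ∘ fricke`. -/
theorem exists_conj_expansion_prime (p : ℕ) [Fact p.Prime] (A : Subring ℂ)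
    (hζ : ∀ ζ : ℂ, ζ ^ p = 1 → ζ ∈ A)
    {f : ℍ → ℂ} (hf : S24.ModFun p f) {s sW : LaurentSeries ℂ} (hs : s ∈ LSO A)
    (hsW : sW ∈ LSO A) (h1 : IsLaurentOf s f)
    (h2 : IsLaurentOf sW (fun τ : ℍ => f (S28A.fricke p τ))) (γ : SL(2, ℤ)) :
    ∃ S : LaurentSeries ℂ, S ∈ LSO A ∧
      IsLaurentOf S (fun τ : ℍ => f (γ • (heckeDiagMatrix p • τ))) := by
  have hp : p ≠ 0 := (Fact.out : p.Prime).ne_zero
  have : NeZero p := ⟨hp⟩
  by_cases hγ : (p : ℤ) ∣ γ 1 0
  · -- `γ ∈ Γ₀(p)`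
    have hmem : γ ∈ CongruenceSubgroup.Gamma0 p := by
      rw [CongruenceSubgroup.Gamma0_mem, ZMod.intCast_zmod_eq_zero_iff_dvd]
      exact hγ
    refine ⟨qExpand ℂ p s, qExpand_mem_LSO p hs, ?_⟩
    have h := h1.scale (d := p) (D := fun τ => heckeDiagMatrix p • τ)
      (fun τ => coe_heckeDiagMatrix_smul hp τ)
    have e : (f ∘ fun τ : ℍ => heckeDiagMatrix p • τ) =
        fun τ : ℍ => f (γ • (heckeDiagMatrix p • τ)) := by
      funext τ
      simp only [comp_apply]
      exact (hf.inv γ hmem _).symm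
    rwa [e] at h
  · obtain ⟨k, hk⟩ := exists_gamma0_mul_S_T p γ hγ
    set t : ℝ := (k : ℝ) / (p : ℝ) with ht
    set ζ : ℂ := Complex.exp (2 * π * Complex.I * t) with hζdef
    have hpC : (p : ℂ) ≠ 0 := by exact_mod_cast hp
    have hζp : ζ ^ p = 1 := by
      rw [hζdef, ← Complex.exp_nat_mul]
      have : (p : ℂ) * (2 * π * Complex.I * (t : ℂ)) = (k : ℂ) * (2 * π * Complex.I) := by
        rw [ht]
        push_cast
        field_simp
      rw [this]
      exact Complex.exp_int_mul_two_pi_mul_I k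
    have hζinv : ζ⁻¹ ^ p = 1 := by rw [inv_pow, hζp, inv_one]
    let Sh : ℍ → ℍ := fun τ => (t : ℝ) +ᵥ τ
    have hSh : ∀ τ : ℍ, (Sh τ : ℂ) = τ + t := fun τ => by
      show (((t : ℝ) +ᵥ τ : ℍ) : ℂ) = τ + t
      rw [UpperHalfPlane.coe_vadd, add_comm]
    have h := isLaurentOf_shift h2 t hSh
    refine ⟨twistL ζ sW, twistL_mem_LSO (hζ ζ hζp) (hζ ζ⁻¹ hζinv) hsW, ?_⟩
    have e : ((fun τ : ℍ => f (S28A.fricke p τ)) ∘ Sh) =
        fun τ : ℍ => f (γ • (heckeDiagMatrix p • τ)) := by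
      funext τ
      simp only [comp_apply]
      have e1 : γ • (heckeDiagMatrix p • τ) =
          (γ * (ModularGroup.S * ModularGroup.T ^ k)⁻¹) •
            ((ModularGroup.S * ModularGroup.T ^ k) • (heckeDiagMatrix p • τ)) := by
        rw [← mul_smul, inv_mul_cancel_right]
      rw [e1, hf.inv _ hk, mul_smul]
      congr 1
      unfold S28A.fricke
      congr 1
      apply UpperHalfPlane.ext
      rw [UpperHalfPlane.modular_T_zpow_smul, UpperHalfPlane.coe_vadd,
        coe_heckeDiagMatrix_smul hp, coe_heckeDiagMatrix_smul hp, hSh, ht]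
      push_cast
      field_simp
      ring
    rwa [e] at h

/-- The coefficients of the characteristic polynomial of a level-`p` modular function with
`A`-integral expansions at both cusps are polynomials in `j` with coefficients in `A`. -/
theorem coeff_mem_of_charpoly_prime (p : ℕ) [Fact p.Prime] (A : Subring ℂ)
    (hζ : ∀ ζ : ℂ, ζ ^ p = 1 → ζ ∈ A)
    {f : ℍ → ℂ} (hf : S24.ModFun p f) {s sW : LaurentSeries ℂ} (hs : s ∈ LSO A)
    (hsW : sW ∈ LSO A) (h1 : IsLaurentOf s f)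
    (h2 : IsLaurentOf sW (fun τ : ℍ => f (S28A.fricke p τ)))
    (χ : Polynomial (Polynomial ℂ))
    (hχ : ∀ τ : ℍ, χ.map (Polynomial.evalRingHom (S24.jA τ)) =
      ∏ x : ES.X p, (Polynomial.X - Polynomial.C (S24.conjF x f τ))) :
    ∀ i j, (χ.coeff i).coeff j ∈ A := by
  have hp : p ≠ 0 := (Fact.out : p.Prime).ne_zero
  have : NeZero p := ⟨hp⟩
  intro i j
  have H : ∀ x : ES.X p, ∃ S : LaurentSeries ℂ, S ∈ LSO A ∧
      IsLaurentOf S (fun τ : ℍ => f ((S24.rep x)⁻¹ • (heckeDiagMatrix p • τ))) :=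
    fun x => exists_conj_expansion_prime p A hζ hf hs hsW h1 h2 (S24.rep x)⁻¹
  choose S hS hL using H
  have h1' := isLaurentOf_coeff_prod_X_sub_C A Finset.univ (S := S)
    (F := fun x τ => f ((S24.rep x)⁻¹ • (heckeDiagMatrix p • τ)))
    (fun x _ => hS x) (fun x _ => hL x) i
  have hj : IsLaurentOf (jqModC ℂ) S24.jA := isLaurentOf_jFun
  have hjN : IsLaurentOf (qExpand ℂ p (jqModC ℂ)) (S24.jA ∘ fun τ => heckeDiagMatrix p • τ) :=
    hj.scale (fun τ => coe_heckeDiagMatrix_smul hp τ)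
  have h2' := hjN.polynomial (χ.coeff i)
  have e : (fun τ => (χ.coeff i).eval ((S24.jA ∘ fun τ => heckeDiagMatrix p • τ) τ)) =
      fun τ => (∏ x : ES.X p,
        (X - C (f ((S24.rep x)⁻¹ • (heckeDiagMatrix p • τ))))).coeff i := by
    funext τ
    have h3 := congrArg (fun q => q.coeff i) (hχ (heckeDiagMatrix p • τ))
    simp only [Polynomial.coeff_map, Polynomial.coe_evalRingHom] at h3
    exact h3
  rw [e] at h2'
  have h3 := h2'.unique_left h1'.2
  have h4 : (χ.coeff i).eval₂ HahnSeries.C (qExpand ℂ p (jqModC ℂ)) ∈ LSO A := by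
    rw [h3]
    exact h1'.1
  exact coeff_mem_of_eval₂_mem_LSO p (χ.coeff i) h4 j

/-- **INTVAL.** A level-`p` modular function with `A`-integral expansions at both cusps takes
values integral over `A` at every point whose `j`-invariant lies in `A`. -/
theorem isIntegral_value_of_expansions (p : ℕ) [Fact p.Prime] (A : Subring ℂ)
    (hζ : ∀ ζ : ℂ, ζ ^ p = 1 → ζ ∈ A)
    {f : ℍ → ℂ} (hf : S24.ModFun p f) {s sW : LaurentSeries ℂ} (hs : s ∈ LSO A)
    (hsW : sW ∈ LSO A) (h1 : IsLaurentOf s f)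
    (h2 : IsLaurentOf sW (fun τ : ℍ => f (S28A.fricke p τ)))
    (τ : ℍ) (hj : S24.jA τ ∈ A) : IsIntegral A (f τ) := by
  obtain ⟨χ, hmonic, -, hχ⟩ := hf.exists_charpoly_conjF
  have hcoef := coeff_mem_of_charpoly_prime p A hζ hf hs hsW h1 h2 χ hχ
  set P : ℂ[X] := χ.map (Polynomial.evalRingHom (S24.jA τ)) with hP
  have hPmonic : P.Monic := hmonic.map _
  have hPcoef : ∀ i, P.coeff i ∈ A := by
    intro i
    rw [hP, Polynomial.coeff_map, Polynomial.coe_evalRingHom, Polynomial.eval_eq_sum_range]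
    exact Subring.sum_mem _ fun n _ => A.mul_mem (hcoef i n) (A.pow_mem hj n)
  have hroot : P.eval (f τ) = 0 := by
    rw [hP, hχ τ, Polynomial.eval_prod]
    refine Finset.prod_eq_zero (Finset.mem_univ (ES.x0 p)) ?_
    rw [hf.conjF_x0]
    simp
  have hsub : (↑P.coeffs : Set ℂ) ⊆ A := by
    intro c hc
    obtain ⟨i, -, rfl⟩ := Polynomial.mem_coeffs_iff.mp hc
    exact hPcoef i
  refine ⟨P.toSubring A hsub, (Polynomial.monic_toSubring P A hsub).mpr hPmonic, ?_⟩
  rw [← Polynomial.eval_map]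
  have : (P.toSubring A hsub).map (algebraMap A ℂ) = P := Polynomial.map_toSubring P A hsub
  rw [this]
  exact hroot

/-- A root of a monic complex polynomial with algebraic-integer coefficients is an algebraic
integer. -/
theorem isIntegral_int_of_root {Q : ℂ[X]} (hQ : Q.Monic) (hcoef : ∀ i, IsIntegral ℤ (Q.coeff i))
    {w : ℂ} (hw : Q.eval w = 0) : IsIntegral ℤ w := by
  let T : Subring ℂ := (integralClosure ℤ ℂ).toSubring
  have hsub : (↑Q.coeffs : Set ℂ) ⊆ T := by
    intro c hc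
    obtain ⟨n, -, rfl⟩ := Polynomial.mem_coeffs_iff.mp hc
    exact hcoef n
  have : Algebra.IsIntegral ℤ T :=
    ⟨fun x => (isIntegral_algebraMap_iff (A := T) (B := ℂ) Subtype.val_injective).mp x.2⟩
  have h1 : IsIntegral T w := by
    refine ⟨Q.toSubring T hsub, (Polynomial.monic_toSubring Q T hsub).mpr hQ, ?_⟩
    rw [← Polynomial.eval_map]
    have : (Q.toSubring T hsub).map (algebraMap T ℂ) = Q := Polynomial.map_toSubring Q T hsub
    rw [this]
    exact hw
  exact isIntegral_trans w h1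

/-- `OO ℓ` is integrally closed in `ℂ`. -/
theorem mem_OO_of_isIntegral {ℓ : ℕ} {z : ℂ} (hz : IsIntegral (OO ℓ) z) : z ∈ OO ℓ := by
  classical
  obtain ⟨P, hP, hz0⟩ := hz
  set P' : ℂ[X] := P.map (algebraMap (OO ℓ) ℂ) with hP'
  have hP'monic : P'.Monic := hP.map _
  have hroot : P'.eval z = 0 := by rw [hP', Polynomial.eval_map]; exact hz0
  have hden : ∀ i : ℕ, ∃ d : ℕ, d.Coprime ℓ ∧ d ≠ 0 ∧ IsIntegral ℤ ((d : ℂ) * P'.coeff i) := by
    intro i
    rw [hP', Polynomial.coeff_map]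
    exact (P.coeff i).2
  choose d hd1 hd2 hd3 using hden
  set n := P'.natDegree with hn
  set D : ℕ := ∏ i ∈ Finset.range n, d i with hD
  have hD1 : D.Coprime ℓ := Nat.Coprime.prod_left fun i _ => hd1 i
  have hD0 : D ≠ 0 := Finset.prod_ne_zero_iff.mpr fun i _ => hd2 i
  have hnat : ∀ m : ℕ, IsIntegral ℤ (m : ℂ) := fun m => by
    simpa using (isIntegral_algebraMap (R := ℤ) (A := ℂ) (x := (m : ℤ)))
  have hDi : ∀ i ∈ Finset.range n, IsIntegral ℤ ((D : ℂ) * P'.coeff i) := by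
    intro i hi
    have e : (D : ℂ) = ((∏ j ∈ (Finset.range n).erase i, d j : ℕ) : ℂ) * (d i : ℂ) := by
      rw [hD, ← Finset.prod_erase_mul _ _ hi]
      push_cast
      rfl
    rw [e, mul_assoc]
    exact (hnat _).mul (hd3 i)
  refine ⟨D, hD1, hD0, ?_⟩
  have hQmonic : (Polynomial.scaleRoots P' (D : ℂ)).Monic :=
    (Polynomial.monic_scaleRoots_iff (D : ℂ)).mpr hP'monic
  have hQroot : (Polynomial.scaleRoots P' (D : ℂ)).eval ((D : ℂ) * z) = 0 := by
    have h := Polynomial.scaleRoots_eval₂_eq_zero (RingHom.id ℂ) (p := P') (r := z)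
      (s := (D : ℂ)) (by rw [Polynomial.eval₂_id]; exact hroot)
    rwa [Polynomial.eval₂_id, RingHom.id_apply] at h
  refine isIntegral_int_of_root hQmonic (fun i => ?_) hQroot
  rw [Polynomial.coeff_scaleRoots, ← hn]
  rcases lt_trichotomy i n with hi | hi | hi
  · have e : P'.coeff i * (D : ℂ) ^ (n - i) = ((D : ℂ) * P'.coeff i) * (D : ℂ) ^ (n - i - 1) := by
      have : n - i = (n - i - 1) + 1 := by omega
      rw [this, pow_succ]
      simp only [Nat.add_sub_cancel]
      ring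
    rw [e]
    exact (hDi i (Finset.mem_range.mpr hi)).mul ((hnat D).pow _)
  · rw [hi, hn, hP'monic.coeff_natDegree, Nat.sub_self, pow_zero, mul_one]
    exact isIntegral_one
  · rw [Polynomial.coeff_eq_zero_of_natDegree_lt (by rw [← hn]; exact hi), zero_mul]
    exact isIntegral_zero

/-- Values at points with `ℓ`-integral `j`-invariant of a level-`p` modular function with
`OO ℓ`-integral expansions at both cusps lie in `OO ℓ`. -/
theorem value_mem_OO (p ℓ : ℕ) [Fact p.Prime]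
    {f : ℍ → ℂ} (hf : S24.ModFun p f) {s sW : LaurentSeries ℂ} (hs : s ∈ LSO (OO ℓ))
    (hsW : sW ∈ LSO (OO ℓ)) (h1 : IsLaurentOf s f)
    (h2 : IsLaurentOf sW (fun τ : ℍ => f (S28A.fricke p τ)))
    (τ : ℍ) (hj : S24.jA τ ∈ OO ℓ) : f τ ∈ OO ℓ := by
  have hp : 0 < p := (Fact.out : p.Prime).pos
  exact mem_OO_of_isIntegral (isIntegral_value_of_expansions p (OO ℓ)
    (fun ζ h => root_of_unity_mem_OO hp h) hf hs hsW h1 h2 τ hj)

/-- `j(ρ) = 0`. -/
theorem jA_rho : S24.jA UpperHalfPlane.ρ = 0 := by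
  unfold S24.jA
  rw [ES.E₄_ρ]
  simp

/-- **INTVAL at `ρ`.** A level-`p` modular function with `ℓ`-integral expansions at both cusps
has an `ℓ`-integral value at `ρ`. -/
theorem value_rho_mem_OO (p ℓ : ℕ) [Fact p.Prime]
    {f : ℍ → ℂ} (hf : S24.ModFun p f) {s sW : LaurentSeries ℂ} (hs : s ∈ LSO (OO ℓ))
    (hsW : sW ∈ LSO (OO ℓ)) (h1 : IsLaurentOf s f)
    (h2 : IsLaurentOf sW (fun τ : ℍ => f (S28A.fricke p τ))) :
    f UpperHalfPlane.ρ ∈ OO ℓ :=
  value_mem_OO p ℓ hf hs hsW h1 h2 _ (by rw [jA_rho]; exact (OO ℓ).zero_mem)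

end Fermat.Agent.S16
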