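import Mathlib
import Fermat.Prelude.Thm_ModularFormClass_qCoeff_heckeU
import Fermat.Prelude.Thm_ModularForm_periodic_heckeU_comp_ofComplex
import Fermat.Prelude.Thm_ModularForm_mdifferentiable_heckeU
import Fermat.Prelude.Thm_ModularForm_isBoundedAtImInfty_heckeU
import Fermat.Prelude.Thm_CongruenceSubgroup_one_mem_strictPeriods_Gamma0
import Fermat.Agent.S16.IntVal

/-!
# S16, leaf FRICKE-TRACE: `F | W_p = - U_p F` for weight-2 forms on `Γ₀(p)`

For `F ∈ M₂(Γ₀(p))` (`p` prime) the trace of `F` to level one vanishes (`M₂(SL₂(ℤ)) = 0`).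
With the coset representatives `1, S T^m` (`0 ≤ m < p`) this reads

  `F(τ) + ∑_{m < p} (F ∣[2] S T^m)(τ) = 0`,

and applied to `F ∣[2] W_p` it gives the expansion of `F` at the cusp `0`:

  `F(-1/(pτ)) = - p τ² · (U_p F)(τ)`   (`fricke_eq_neg_heckeU`).
-/

set_option autoImplicit false

noncomputable section

namespace Fermat.Agent.S16

open UpperHalfPlane hiding I
open ModularForm Function ModularCurve
open Fermat.Agent Fermat.Agent.S24
open scoped Real MatrixGroups ModularForm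

/-! ### Coset representatives of `Γ₀(p)` in `SL₂(ℤ)` -/

theorem coe_ST_zpow (k : ℤ) :
    ((ModularGroup.S * ModularGroup.T ^ k : SL(2, ℤ)) : Matrix (Fin 2) (Fin 2) ℤ) =
      !![0, -1; 1, k] := by
  rw [Matrix.SpecialLinearGroup.coe_mul, ModularGroup.coe_T_zpow, ModularGroup.coe_S]
  ext i j
  fin_cases i <;> fin_cases j <;> simp [Matrix.mul_apply, Fin.sum_univ_two]

theorem coe_mul_ST_inv (γ : SL(2, ℤ)) (k : ℤ) :
    ((γ * (ModularGroup.S * ModularGroup.T ^ k)⁻¹ : SL(2, ℤ)) 1 0 : ℤ) = γ 1 0 * k - γ 1 1 := by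
  have hinv : ((ModularGroup.S * ModularGroup.T ^ k)⁻¹ : SL(2, ℤ)).1 = !![k, 1; -1, 0] := by
    rw [Matrix.SpecialLinearGroup.SL2_inv_expl]
    have h := coe_ST_zpow k
    ext i j
    fin_cases i <;> fin_cases j <;> simp [h]
  rw [Matrix.SpecialLinearGroup.coe_mul, hinv, Matrix.mul_apply, Fin.sum_univ_two]
  simp
  ring

/-- Coset decomposition at prime level with a representative `0 ≤ m < p`. -/
theorem exists_gamma0_mul_S_T_nat (p : ℕ) [Fact p.Prime] (γ : SL(2, ℤ))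
    (hγ : ¬ (p : ℤ) ∣ γ 1 0) :
    ∃ m : ℕ, m < p ∧
      γ * (ModularGroup.S * ModularGroup.T ^ (m : ℤ))⁻¹ ∈ CongruenceSubgroup.Gamma0 p := by
  have hp : p ≠ 0 := (Fact.out : p.Prime).ne_zero
  have : NeZero p := ⟨hp⟩
  have hc : ((γ 1 0 : ℤ) : ZMod p) ≠ 0 := by
    rwa [Ne, ZMod.intCast_zmod_eq_zero_iff_dvd]
  refine ⟨(((γ 1 1 : ℤ) : ZMod p) * ((γ 1 0 : ℤ) : ZMod p)⁻¹).val, ZMod.val_lt _, ?_⟩
  rw [CongruenceSubgroup.Gamma0_mem, coe_mul_ST_inv]
  push_cast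
  rw [ZMod.natCast_zmod_val]
  field_simp
  ring

/-- Representatives of the `p + 1` cosets of `Γ₀(p)`. -/
def cosetRep (p : ℕ) : Option (Fin p) → SL(2, ℤ)
  | none => 1
  | some m => (ModularGroup.S * ModularGroup.T ^ ((m : ℕ) : ℤ))⁻¹

theorem cosetRep_bijective (p : ℕ) [Fact p.Prime] :
    Function.Bijective
      (fun o : Option (Fin p) => (QuotientGroup.mk (ES.toSL (cosetRep p o)) : ES.X p)) := by
  have hp : p ≠ 0 := (Fact.out : p.Prime).ne_zero
  have : NeZero p := ⟨hp⟩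
  constructor
  · intro o o' h
    simp only at h
    rw [S24.mk_toSL_eq_iff, CongruenceSubgroup.Gamma0_mem] at h
    rcases o with _ | m <;> rcases o' with _ | m'
    · rfl
    · exfalso
      simp only [cosetRep, inv_one] at h
      rw [coe_mul_ST_inv] at h
      simp at h
    · exfalso
      simp only [cosetRep, mul_one, inv_inv] at h
      rw [coe_ST_zpow] at h
      simp at h
    · simp only [cosetRep, inv_inv] at h
      rw [coe_mul_ST_inv, coe_ST_zpow] at h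
      simp only [Matrix.of_apply, Matrix.cons_val', Matrix.cons_val_zero, Matrix.cons_val_one,
        Matrix.cons_val_fin_one, one_mul] at h
      push_cast at h
      rw [sub_eq_zero, ZMod.natCast_eq_natCast_iff'] at h
      rw [Nat.mod_eq_of_lt m'.2, Nat.mod_eq_of_lt m.2] at h
      exact congrArg some (Fin.ext h.symm)
  · intro x
    obtain ⟨γ, rfl⟩ := S24.exists_mk_toSL x
    by_cases hγ : (p : ℤ) ∣ (γ⁻¹ : SL(2, ℤ)) 1 0
    · refine ⟨none, ?_⟩
      simp only [cosetRep]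
      rw [S24.mk_toSL_eq_iff, inv_one, one_mul, ← inv_mem_iff, CongruenceSubgroup.Gamma0_mem,
        ZMod.intCast_zmod_eq_zero_iff_dvd]
      exact hγ
    · obtain ⟨m, hm, hmem⟩ := exists_gamma0_mul_S_T_nat p γ⁻¹ hγ
      refine ⟨some ⟨m, hm⟩, ?_⟩
      simp only [cosetRep]
      rw [S24.mk_toSL_eq_iff, inv_inv, ← inv_mem_iff, mul_inv_rev]
      exact hmem

/-! ### The trace to level one vanishes -/

theorem sum_cj_eq_zero (p : ℕ) [Fact p.Prime] (F : ModularForm (CongruenceSubgroup.Gamma0 p) 2) :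
    (∑ x : ES.X p, ES.cj F x) = 0 := by
  have h0 : ModularForm.trace 𝒮ℒ F = 0 :=
    rank_zero_iff_forall_zero.mp levelOne_weight_two_rank_zero _
  have h1 := congrArg (fun G : ModularForm 𝒮ℒ 2 => (⇑G : ℍ → ℂ)) h0
  simp only [ModularForm.coe_trace] at h1
  exact h1

/-- `F̃(τ) = (pτ)⁻² F(-1/(pτ))`: the expansion of `F` at the cusp `0`. -/
def frickeTwist (p : ℕ) (F : ℍ → ℂ) (τ : ℍ) : ℂ :=
  (((p : ℂ) * (τ : ℂ)) ^ 2)⁻¹ * F (S28A.fricke p τ)

theorem slash_ST_apply (p : ℕ) [NeZero p] (F : ℍ → ℂ) (m : ℕ) (τ : ℍ) :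
    (F ∣[(2 : ℤ)] (ModularGroup.S * ModularGroup.T ^ (m : ℤ) : SL(2, ℤ))) τ =
      frickeTwist p F (heckeMatrix p m • τ) := by
  have hp' : p ≠ 0 := NeZero.ne p
  have hp : (p : ℂ) ≠ 0 := by exact_mod_cast hp'
  rw [ModularForm.SL_slash_apply, ModularGroup.denom_apply, coe_ST_zpow]
  unfold frickeTwist
  have e1 : (ModularGroup.S * ModularGroup.T ^ (m : ℤ)) • τ =
      S28A.fricke p (heckeMatrix p m • τ) := by
    unfold S28A.fricke
    rw [mul_smul]
    congr 1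
    apply UpperHalfPlane.ext
    rw [UpperHalfPlane.modular_T_zpow_smul, UpperHalfPlane.coe_vadd,
      coe_heckeDiagMatrix_smul hp', coe_heckeMatrix_smul hp']
    push_cast
    field_simp
    ring
  rw [e1, coe_heckeMatrix_smul hp']
  simp only [Matrix.of_apply, Matrix.cons_val', Matrix.cons_val_zero, Matrix.cons_val_one,
    Matrix.cons_val_fin_one, Int.cast_one, one_mul, Int.cast_natCast]
  rw [mul_comm, mul_div_cancel₀ _ hp, zpow_neg]
  norm_cast

/-- **Trace identity.** `F + ∑_{m<p} F ∣ S T^m = 0` for `F ∈ M₂(Γ₀(p))`. -/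
theorem trace_identity (p : ℕ) [Fact p.Prime] (F : ModularForm (CongruenceSubgroup.Gamma0 p) 2)
    (τ : ℍ) :
    F τ + ∑ m ∈ Finset.range p, frickeTwist p F (heckeMatrix p m • τ) = 0 := by
  have hp : p ≠ 0 := (Fact.out : p.Prime).ne_zero
  have : NeZero p := ⟨hp⟩
  have h := congrFun (sum_cj_eq_zero p F) τ
  rw [Finset.sum_apply, ← (cosetRep_bijective p).sum_comp (fun x => ES.cj F x τ),
    Fintype.sum_option] at h
  simp only [cosetRep, ES.cj_toSL, inv_one, inv_inv, Pi.zero_apply] at h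
  rw [← Fin.sum_univ_eq_sum_range (fun m => frickeTwist p F (heckeMatrix p m • τ)) p]
  convert h using 2
  · simp
  · refine Finset.sum_congr rfl fun m _ => ?_
    rw [slash_ST_apply p]

/-- The Fricke matrix `W_p = [[0,-1],[p,0]]`. -/
def frickeMat (p : ℕ) [NeZero p] : GL (Fin 2) ℝ :=
  Matrix.GeneralLinearGroup.mkOfDetNeZero !![0, -1; (p : ℝ), 0]
    (by rw [Matrix.det_fin_two_of]; simpa using NeZero.ne p)

@[simp] theorem val_frickeMat (p : ℕ) [NeZero p] :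
    ((frickeMat p : GL (Fin 2) ℝ) : Matrix (Fin 2) (Fin 2) ℝ) = !![0, -1; (p : ℝ), 0] := rfl

theorem det_frickeMat (p : ℕ) [NeZero p] : ((frickeMat p).det : ℝ) = p := by
  rw [Matrix.GeneralLinearGroup.val_det_apply, val_frickeMat, Matrix.det_fin_two_of]
  ring

theorem det_frickeMat_pos (p : ℕ) [NeZero p] : 0 < ((frickeMat p).det : ℝ) := by
  rw [det_frickeMat]
  exact_mod_cast Nat.pos_of_ne_zero (NeZero.ne p)

theorem denom_frickeMat (p : ℕ) [NeZero p] (τ : ℍ) :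
    UpperHalfPlane.denom (frickeMat p) τ = (p : ℂ) * τ := by
  simp [UpperHalfPlane.denom, val_frickeMat]

theorem σ_frickeMat (p : ℕ) [NeZero p] : UpperHalfPlane.σ (frickeMat p) = .refl ℝ ℂ := by
  rw [UpperHalfPlane.σ, if_pos (det_frickeMat_pos p)]

theorem frickeMat_smul (p : ℕ) [NeZero p] (τ : ℍ) : frickeMat p • τ = S28A.fricke p τ := by
  apply UpperHalfPlane.ext
  rw [UpperHalfPlane.coe_smul_of_det_pos (det_frickeMat_pos p), S28A.coe_fricke]
  simp [UpperHalfPlane.num, UpperHalfPlane.denom, val_frickeMat]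
  field_simp

theorem slash_frickeMat_apply (p : ℕ) [NeZero p] (F : ℍ → ℂ) (τ : ℍ) :
    (F ∣[(2 : ℤ)] frickeMat p) τ = (p : ℂ) * frickeTwist p F τ := by
  have hp : (p : ℂ) ≠ 0 := by exact_mod_cast NeZero.ne p
  rw [ModularForm.slash_apply, σ_frickeMat, det_frickeMat, denom_frickeMat, frickeMat_smul]
  simp only [ContinuousAlgEquiv.refl_apply, Nat.abs_cast, Complex.ofReal_natCast]
  unfold frickeTwist
  rw [zpow_neg]
  norm_num
  ring

theorem mapGL_apply_apply (γ : SL(2, ℤ)) (i j : Fin 2) :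
    ((Matrix.SpecialLinearGroup.mapGL ℝ γ : GL (Fin 2) ℝ) : Matrix (Fin 2) (Fin 2) ℝ) i j =
      ((γ i j : ℤ) : ℝ) := rfl

/-- The conjugate `W γ W⁻¹` of `γ = [[a,b],[pc',d]] ∈ Γ₀(p)`, namely `[[d,-c'],[-pb,a]]`. -/
theorem exists_frickeConj (p : ℕ) [NeZero p] {γ : SL(2, ℤ)}
    (hγ : γ ∈ CongruenceSubgroup.Gamma0 p) :
    ∃ γ' : SL(2, ℤ), γ' ∈ CongruenceSubgroup.Gamma0 p ∧
      frickeMat p * Matrix.SpecialLinearGroup.mapGL ℝ γ =
        Matrix.SpecialLinearGroup.mapGL ℝ γ' * frickeMat p ∧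
      Matrix.SpecialLinearGroup.mapGL ℝ γ * frickeMat p =
        frickeMat p * Matrix.SpecialLinearGroup.mapGL ℝ γ' := by
  rw [CongruenceSubgroup.Gamma0_mem, ZMod.intCast_zmod_eq_zero_iff_dvd] at hγ
  obtain ⟨c', hc'⟩ := hγ
  have hdet : γ 0 0 * γ 1 1 - γ 0 1 * γ 1 0 = 1 := by
    have := γ.det_coe
    rwa [Matrix.det_fin_two] at this
  have hdet' : Matrix.det !![γ 1 1, -c'; -(p : ℤ) * γ 0 1, γ 0 0] = 1 := by
    rw [Matrix.det_fin_two_of]
    rw [hc'] at hdet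
    linear_combination hdet
  let γ' : SL(2, ℤ) := ⟨!![γ 1 1, -c'; -(p : ℤ) * γ 0 1, γ 0 0], hdet'⟩
  have h00 : (γ' 0 0 : ℤ) = γ 1 1 := rfl
  have h01 : (γ' 0 1 : ℤ) = -c' := rfl
  have h10 : (γ' 1 0 : ℤ) = -(p : ℤ) * γ 0 1 := rfl
  have h11 : (γ' 1 1 : ℤ) = γ 0 0 := rfl
  refine ⟨γ', ?_, ?_, ?_⟩
  · rw [CongruenceSubgroup.Gamma0_mem, h10]
    simp
  · apply Units.ext
    ext i j
    fin_cases i <;> fin_cases j <;>
      simp [Matrix.mul_apply, Fin.sum_univ_two, hc', h00, h01, h10, h11] <;> ring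
  · apply Units.ext
    ext i j
    fin_cases i <;> fin_cases j <;>
      simp [Matrix.mul_apply, Fin.sum_univ_two, hc', h00, h01, h10, h11] <;> ring

open ConjAct Pointwise in
theorem conj_frickeMat_Gamma0 (p : ℕ) [NeZero p] :
    toConjAct (frickeMat p)⁻¹ • (CongruenceSubgroup.Gamma0 p : Subgroup (GL (Fin 2) ℝ)) =
      (CongruenceSubgroup.Gamma0 p : Subgroup (GL (Fin 2) ℝ)) := by
  ext g
  rw [map_inv, Subgroup.mem_inv_pointwise_smul_iff, toConjAct_smul]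
  constructor
  · rintro ⟨γ, hγ, hg⟩
    obtain ⟨γ', hγ', -, h2⟩ := exists_frickeConj p hγ
    refine ⟨γ', hγ', ?_⟩
    have : g = (frickeMat p)⁻¹ * Matrix.SpecialLinearGroup.mapGL ℝ γ * frickeMat p := by
      rw [hg]; group
    rw [this, mul_assoc, h2, ← mul_assoc, inv_mul_cancel, one_mul]
  · rintro ⟨γ, hγ, rfl⟩
    obtain ⟨γ', hγ', h1, -⟩ := exists_frickeConj p hγ
    refine ⟨γ', hγ', ?_⟩
    rw [h1, mul_assoc, mul_inv_cancel, mul_one]

/-- Transport of a modular form along an equality of levels. -/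
def castLevel {Γ Γ' : Subgroup (GL (Fin 2) ℝ)} {k : ℤ} (h : Γ = Γ') (f : ModularForm Γ k) :
    ModularForm Γ' k := h ▸ f

theorem castLevel_apply {Γ Γ' : Subgroup (GL (Fin 2) ℝ)} {k : ℤ} (h : Γ = Γ')
    (f : ModularForm Γ k) (τ : ℍ) : castLevel h f τ = f τ := by
  subst h
  rfl

/-- `F ∣[2] W_p` as a modular form on `Γ₀(p)`. -/
def frickeForm (p : ℕ) [NeZero p] (F : ModularForm (CongruenceSubgroup.Gamma0 p) 2) :
    ModularForm (CongruenceSubgroup.Gamma0 p) 2 :=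
  castLevel (conj_frickeMat_Gamma0 p) (ModularForm.translate F (frickeMat p))

theorem frickeForm_apply (p : ℕ) [NeZero p] (F : ModularForm (CongruenceSubgroup.Gamma0 p) 2)
    (τ : ℍ) : frickeForm p F τ = (p : ℂ) * frickeTwist p F τ := by
  rw [frickeForm, castLevel_apply, ModularForm.coe_translate, slash_frickeMat_apply]

theorem fricke_fricke (p : ℕ) [NeZero p] (τ : ℍ) : S28A.fricke p (S28A.fricke p τ) = τ := by
  have hp : (p : ℂ) ≠ 0 := by exact_mod_cast NeZero.ne p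
  have hτ : (τ : ℂ) ≠ 0 := UpperHalfPlane.ne_zero τ
  apply UpperHalfPlane.ext
  rw [S28A.coe_fricke, S28A.coe_fricke]
  field_simp

theorem frickeTwist_frickeForm (p : ℕ) [NeZero p]
    (F : ModularForm (CongruenceSubgroup.Gamma0 p) 2) (τ : ℍ) :
    frickeTwist p (frickeForm p F) τ = (p : ℂ)⁻¹ * F τ := by
  have hp : (p : ℂ) ≠ 0 := by exact_mod_cast NeZero.ne p
  have hτ : (τ : ℂ) ≠ 0 := UpperHalfPlane.ne_zero τ
  rw [frickeTwist, frickeForm_apply, frickeTwist, fricke_fricke, S28A.coe_fricke]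
  field_simp

/-- **`F | W_p = - U_p F`.**  For `F ∈ M₂(Γ₀(p))`:
`(pτ)⁻² F(-1/(pτ)) = - p⁻¹ (U_p F)(τ)`. -/
theorem frickeTwist_eq_neg_heckeU (p : ℕ) [Fact p.Prime]
    (F : ModularForm (CongruenceSubgroup.Gamma0 p) 2) (τ : ℍ) :
    frickeTwist p F τ = -(p : ℂ)⁻¹ * ModularForm.heckeU 2 p F τ := by
  have hp' : p ≠ 0 := (Fact.out : p.Prime).ne_zero
  have : NeZero p := ⟨hp'⟩
  have hp : (p : ℂ) ≠ 0 := by exact_mod_cast hp'
  have h := trace_identity p (frickeForm p F) τ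
  simp only [frickeTwist_frickeForm, frickeForm_apply] at h
  rw [ModularForm.heckeU_apply 2 hp', Finset.mul_sum]
  have h' : (p : ℂ) * frickeTwist p F τ =
      -∑ m ∈ Finset.range p, (p : ℂ)⁻¹ * F (heckeMatrix p m • τ) := eq_neg_of_add_eq_zero_left h
  have h2 : frickeTwist p F τ = (p : ℂ)⁻¹ * ((p : ℂ) * frickeTwist p F τ) := by field_simp
  rw [h2, h']
  ring

/-- `F(-1/(pτ)) = - p τ² (U_p F)(τ)` for `F ∈ M₂(Γ₀(p))`. -/
theorem fricke_eq_neg_heckeU (p : ℕ) [Fact p.Prime]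
    (F : ModularForm (CongruenceSubgroup.Gamma0 p) 2) (τ : ℍ) :
    F (S28A.fricke p τ) = -(p : ℂ) * (τ : ℂ) ^ 2 * ModularForm.heckeU 2 p F τ := by
  have hp' : p ≠ 0 := (Fact.out : p.Prime).ne_zero
  have hp : (p : ℂ) ≠ 0 := by exact_mod_cast hp'
  have hτ : (τ : ℂ) ≠ 0 := UpperHalfPlane.ne_zero τ
  have h := frickeTwist_eq_neg_heckeU p F τ
  unfold frickeTwist at h
  field_simp at h
  rw [h]
  ring

/-! ### `q`-expansions at the cusp `0` -/

theorem isQHol_modularForm (N : ℕ) {k : ℤ} (F : ModularForm (CongruenceSubgroup.Gamma0 N) k) :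
    S24B.IsQHol (F : ℍ → ℂ) :=
  have h := S23.PB.of_modularForm (CongruenceSubgroup.one_mem_strictPeriods_Gamma0 N) F
  ⟨h.per, h.holo, h.bdd⟩

theorem isQHol_heckeU (p : ℕ) (F : ModularForm (CongruenceSubgroup.Gamma0 p) 2) :
    S24B.IsQHol (ModularForm.heckeU 2 p (F : ℍ → ℂ)) :=
  ⟨ModularForm.periodic_heckeU_comp_ofComplex (isQHol_modularForm p F).per 2 p,
    ModularForm.mdifferentiable_heckeU (isQHol_modularForm p F).hol 2 p,
    ModularForm.isBoundedAtImInfty_heckeU (isQHol_modularForm p F).bdd 2 p⟩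

/-- The `q`-expansion of a modular form on `Γ₀(N)`, as a Laurent expansion. -/
theorem isLaurentOf_modularForm (N : ℕ) {k : ℤ}
    (F : ModularForm (CongruenceSubgroup.Gamma0 N) k) :
    S24B.IsLaurentOf (HahnSeries.ofPowerSeries ℤ ℂ (qExpansion 1 F)) (F : ℍ → ℂ) :=
  S28.isLaurentOf_of_isQHol (isQHol_modularForm N F)

/-- **Expansion at the cusp `0`.**  The function `τ ↦ (pτ)⁻² F(-1/(pτ))` has the `q`-expansion
`- p⁻¹ ∑ a_{pn}(F) qⁿ`. -/
theorem isLaurentOf_frickeTwist (p : ℕ) [Fact p.Prime]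
    (F : ModularForm (CongruenceSubgroup.Gamma0 p) 2) :
    S24B.IsLaurentOf (HahnSeries.ofPowerSeries ℤ ℂ
      (PowerSeries.mk fun n => -(p : ℂ)⁻¹ * (qExpansion 1 F).coeff (n * p)))
      (frickeTwist p (F : ℍ → ℂ)) := by
  have hp' : p ≠ 0 := (Fact.out : p.Prime).ne_zero
  have h1 := S28.isLaurentOf_of_isQHol (isQHol_heckeU p F)
  have h2 := (S24B.IsLaurentOf.const (-(p : ℂ)⁻¹)).mul h1
  have e1 : ((fun _ : ℍ => -(p : ℂ)⁻¹) * ModularForm.heckeU 2 p (F : ℍ → ℂ)) =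
      frickeTwist p (F : ℍ → ℂ) := by
    funext τ
    rw [Pi.mul_apply, frickeTwist_eq_neg_heckeU]
  have e2 : HahnSeries.C (-(p : ℂ)⁻¹) *
      HahnSeries.ofPowerSeries ℤ ℂ (qExpansion 1 (ModularForm.heckeU 2 p (F : ℍ → ℂ))) =
      HahnSeries.ofPowerSeries ℤ ℂ
        (PowerSeries.mk fun n => -(p : ℂ)⁻¹ * (qExpansion 1 F).coeff (n * p)) := by
    rw [← HahnSeries.ofPowerSeries_C, ← map_mul]
    congr 1
    ext n
    rw [PowerSeries.coeff_C_mul, PowerSeries.coeff_mk]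
    have h := ModularFormClass.qCoeff_heckeU F
      (CongruenceSubgroup.one_mem_strictPeriods_Gamma0 p) hp' n
    rw [ModularForm.coeffHeckeU_apply] at h
    rw [show (qExpansion 1 (ModularForm.heckeU 2 p (F : ℍ → ℂ))).coeff n =
      ModularFormClass.qCoeff (ModularForm.heckeU 2 p (F : ℍ → ℂ)) n from rfl, h]
    rfl
  rwa [e1, e2] at h2

/-- `F ∣[2] W_p = - U_p F` as functions. -/
theorem frickeForm_eq_neg_heckeU (p : ℕ) [Fact p.Prime]
    (F : ModularForm (CongruenceSubgroup.Gamma0 p) 2) :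
    haveI : NeZero p := ⟨(Fact.out : p.Prime).ne_zero⟩
    (frickeForm p F : ℍ → ℂ) = -ModularForm.heckeU 2 p (F : ℍ → ℂ) := by
  have hp' : p ≠ 0 := (Fact.out : p.Prime).ne_zero
  have hp : (p : ℂ) ≠ 0 := by exact_mod_cast hp'
  funext τ
  rw [frickeForm_apply, frickeTwist_eq_neg_heckeU, Pi.neg_apply]
  field_simp

/-- `q`-coefficients of `F ∣[2] W_p`: `a_m(F|W) = - a_{pm}(F)`. -/
theorem qExpansion_frickeForm_coeff (p : ℕ) [Fact p.Prime]
    (F : ModularForm (CongruenceSubgroup.Gamma0 p) 2) (m : ℕ) :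
    haveI : NeZero p := ⟨(Fact.out : p.Prime).ne_zero⟩
    (qExpansion 1 (frickeForm p F : ℍ → ℂ)).coeff m = -(qExpansion 1 (F : ℍ → ℂ)).coeff (p * m) := by
  have hp' : p ≠ 0 := (Fact.out : p.Prime).ne_zero
  rw [frickeForm_eq_neg_heckeU, (isQHol_heckeU p F).qExpansion_neg, map_neg]
  have h := ModularFormClass.qCoeff_heckeU F
    (CongruenceSubgroup.one_mem_strictPeriods_Gamma0 p) hp' m
  rw [ModularForm.coeffHeckeU_apply, mul_comm] at h
  rw [show (qExpansion 1 (ModularForm.heckeU 2 p (F : ℍ → ℂ))).coeff m =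
    ModularFormClass.qCoeff (ModularForm.heckeU 2 p (F : ℍ → ℂ)) m from rfl, h]
  rfl

/-- **Leaf [W].** `F(-1/(pτ)) = p τ² F^W(τ)` with `F^W ∈ M₂(Γ₀(p))`, `a_m(F^W) = - a_{pm}(F)`. -/
theorem exists_fricke_form (p : ℕ) [Fact p.Prime]
    (F : ModularForm (CongruenceSubgroup.Gamma0 p) 2) :
    ∃ FW : ModularForm (CongruenceSubgroup.Gamma0 p) 2,
      (∀ τ : ℍ, F (S28A.fricke p τ) = (p : ℂ) * (τ : ℂ) ^ 2 * FW τ) ∧
      (∀ τ : ℍ, FW τ = -ModularForm.heckeU 2 p (F : ℍ → ℂ) τ) ∧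
      ∀ m : ℕ, (qExpansion 1 (FW : ℍ → ℂ)).coeff m = -(qExpansion 1 (F : ℍ → ℂ)).coeff (p * m) := by
  have hp' : p ≠ 0 := (Fact.out : p.Prime).ne_zero
  have : NeZero p := ⟨hp'⟩
  refine ⟨frickeForm p F, fun τ => ?_, fun τ => ?_, fun m => qExpansion_frickeForm_coeff p F m⟩
  · rw [fricke_eq_neg_heckeU, congrFun (frickeForm_eq_neg_heckeU p F) τ, Pi.neg_apply]
    ring
  · rw [congrFun (frickeForm_eq_neg_heckeU p F) τ, Pi.neg_apply]

/-! ### Level-one forms under the Fricke substitution -/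

theorem levelOne_fricke (p : ℕ) [NeZero p] {k : ℤ} (f : ModularForm 𝒮ℒ k) (τ : ℍ) :
    f (S28A.fricke p τ) = ((p : ℂ) * (τ : ℂ)) ^ k * f (heckeDiagMatrix p • τ) := by
  unfold S28A.fricke
  rw [ES.levelOne_smul_apply, ModularGroup.denom_S, coe_heckeDiagMatrix_smul (NeZero.ne p)]

theorem E₄_fricke (p : ℕ) [NeZero p] (τ : ℍ) :
    E₄ (S28A.fricke p τ) = ((p : ℂ) * (τ : ℂ)) ^ 4 * E₄ (heckeDiagMatrix p • τ) := by
  rw [levelOne_fricke]
  norm_cast

theorem E₆_fricke (p : ℕ) [NeZero p] (τ : ℍ) :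
    E₆ (S28A.fricke p τ) = ((p : ℂ) * (τ : ℂ)) ^ 6 * E₆ (heckeDiagMatrix p • τ) := by
  rw [levelOne_fricke]
  norm_cast

end Fermat.Agent.S16
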