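import Mathlib
import Fermat.Prelude.Def_ModularForm_HeckeOperatorForms
import Fermat.Agent.S16.FrickeTrace

/-!
# S16, leaf [W14]: `Ψ | W_p = - U_p Ψ` for weight-14 cusp forms on `Γ₀(p)`

For `F ∈ S₁₄(Γ₀(p))` (`p` prime) the trace of `F` to level one vanishes (`S₁₄(SL₂(ℤ)) = 0`,
because `S₁₄ ≅ M₂ = 0`).  With the coset representatives `1, S T^m` (`0 ≤ m < p`) this reads

  `F(τ) + ∑_{m < p} (F ∣[14] S T^m)(τ) = 0`,

and applied to `F ∣[14] W_p` it gives the expansion of `F` at the cusp `0`: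

  `(pτ)⁻¹⁴ F(-1/(pτ)) = - p⁻¹³ · (U_p F)(τ)`   (`frickeTwist14_eq_neg_heckeU`).
-/

set_option autoImplicit false

noncomputable section

namespace Fermat.Agent.S16

open UpperHalfPlane hiding I
open ModularForm Function ModularCurve
open Fermat.Agent Fermat.Agent.S24
open scoped Real MatrixGroups ModularForm

/-! ### `S₁₄(SL₂(ℤ)) = 0` -/

theorem cuspForm_levelOne_fourteen_eq_zero (G : CuspForm 𝒮ℒ 14) : G = 0 := by
  have h : Module.rank ℂ (CuspForm 𝒮ℒ 14) = 0 := by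
    rw [CuspForm.discriminantEquiv.rank_eq]
    exact levelOne_weight_two_rank_zero
  exact rank_zero_iff_forall_zero.mp h G

theorem sum_cj_eq_zero14 (p : ℕ) [Fact p.Prime] (F : CuspForm (CongruenceSubgroup.Gamma0 p) 14) :
    (∑ x : ES.X p, ES.cj F x) = 0 := by
  have h0 : CuspForm.trace 𝒮ℒ F = 0 := cuspForm_levelOne_fourteen_eq_zero _
  have h1 := congrArg (fun G : CuspForm 𝒮ℒ 14 => (⇑G : ℍ → ℂ)) h0
  simp only [CuspForm.coe_trace] at h1
  exact h1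

/-- `F°(τ) = (pτ)⁻¹⁴ F(-1/(pτ))`: the expansion of a weight-14 form `F` at the cusp `0`. -/
def frickeTwist14 (p : ℕ) (F : ℍ → ℂ) (τ : ℍ) : ℂ :=
  (((p : ℂ) * (τ : ℂ)) ^ 14)⁻¹ * F (S28A.fricke p τ)

/-- Unfolding: `F(-1/(pτ)) = (pτ)¹⁴ F°(τ)`. -/
theorem fricke14_eq (p : ℕ) [NeZero p] (F : ℍ → ℂ) (τ : ℍ) :
    F (S28A.fricke p τ) = ((p : ℂ) * (τ : ℂ)) ^ 14 * frickeTwist14 p F τ := by
  have hp : (p : ℂ) ≠ 0 := by exact_mod_cast NeZero.ne p
  have hτ : (τ : ℂ) ≠ 0 := UpperHalfPlane.ne_zero τ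
  unfold frickeTwist14
  field_simp

theorem slash_ST_apply14 (p : ℕ) [NeZero p] (F : ℍ → ℂ) (m : ℕ) (τ : ℍ) :
    (F ∣[(14 : ℤ)] (ModularGroup.S * ModularGroup.T ^ (m : ℤ) : SL(2, ℤ))) τ =
      frickeTwist14 p F (heckeMatrix p m • τ) := by
  have hp' : p ≠ 0 := NeZero.ne p
  have hp : (p : ℂ) ≠ 0 := by exact_mod_cast hp'
  rw [ModularForm.SL_slash_apply, ModularGroup.denom_apply, coe_ST_zpow]
  unfold frickeTwist14
  have e1 : (ModularGroup.S * ModularGroup.T ^ (m : ℤ)) • τ =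
      S28A.fricke p (heckeMatrix p m • τ) := by
    unfold S28A.fricke
    rw [mul_smul]
    congr 1
    apply UpperHalfPlane.ext
    rw [UpperHalfPlane.modular_T_zpow_smul, UpperHalfPlane.coe_vadd,
      coe_heckeDiagMatrix_smul hp', coe_heckeMatrix_smul hp']
    push_cast
    field_simp
    ring
  rw [e1, coe_heckeMatrix_smul hp']
  simp only [Matrix.of_apply, Matrix.cons_val', Matrix.cons_val_zero, Matrix.cons_val_one,
    Matrix.cons_val_fin_one, Int.cast_one, one_mul, Int.cast_natCast]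
  rw [mul_comm, mul_div_cancel₀ _ hp, zpow_neg]
  norm_cast

/-- **Trace identity.** `F + ∑_{m<p} F ∣ S T^m = 0` for `F ∈ S₁₄(Γ₀(p))`. -/
theorem trace_identity14 (p : ℕ) [Fact p.Prime] (F : CuspForm (CongruenceSubgroup.Gamma0 p) 14)
    (τ : ℍ) :
    F τ + ∑ m ∈ Finset.range p, frickeTwist14 p F (heckeMatrix p m • τ) = 0 := by
  have hp : p ≠ 0 := (Fact.out : p.Prime).ne_zero
  have : NeZero p := ⟨hp⟩
  have h := congrFun (sum_cj_eq_zero14 p F) τ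
  rw [Finset.sum_apply, ← (cosetRep_bijective p).sum_comp (fun x => ES.cj F x τ),
    Fintype.sum_option] at h
  simp only [cosetRep, ES.cj_toSL, inv_one, inv_inv, Pi.zero_apply] at h
  rw [← Fin.sum_univ_eq_sum_range (fun m => frickeTwist14 p F (heckeMatrix p m • τ)) p]
  convert h using 2
  · simp
  · refine Finset.sum_congr rfl fun m _ => ?_
    rw [slash_ST_apply14 p]

theorem slash_frickeMat_apply14 (p : ℕ) [NeZero p] (F : ℍ → ℂ) (τ : ℍ) :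
    (F ∣[(14 : ℤ)] frickeMat p) τ = (p : ℂ) ^ 13 * frickeTwist14 p F τ := by
  have hp : (p : ℂ) ≠ 0 := by exact_mod_cast NeZero.ne p
  rw [ModularForm.slash_apply, σ_frickeMat, det_frickeMat, denom_frickeMat, frickeMat_smul]
  simp only [ContinuousAlgEquiv.refl_apply, Nat.abs_cast, Complex.ofReal_natCast]
  unfold frickeTwist14
  rw [zpow_neg]
  norm_num
  ring

/-- Transport of a cusp form along an equality of levels. -/
def castLevelCusp {Γ Γ' : Subgroup (GL (Fin 2) ℝ)} {k : ℤ} (h : Γ = Γ') (f : CuspForm Γ k) :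
    CuspForm Γ' k := h ▸ f

theorem castLevelCusp_apply {Γ Γ' : Subgroup (GL (Fin 2) ℝ)} {k : ℤ} (h : Γ = Γ')
    (f : CuspForm Γ k) (τ : ℍ) : castLevelCusp h f τ = f τ := by
  subst h
  rfl

/-- `F ∣[14] W_p` as a cusp form on `Γ₀(p)`. -/
def frickeForm14 (p : ℕ) [NeZero p] (F : CuspForm (CongruenceSubgroup.Gamma0 p) 14) :
    CuspForm (CongruenceSubgroup.Gamma0 p) 14 :=
  castLevelCusp (conj_frickeMat_Gamma0 p) (CuspForm.translate F (frickeMat p))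

theorem frickeForm14_apply (p : ℕ) [NeZero p] (F : CuspForm (CongruenceSubgroup.Gamma0 p) 14)
    (τ : ℍ) : frickeForm14 p F τ = (p : ℂ) ^ 13 * frickeTwist14 p F τ := by
  rw [frickeForm14, castLevelCusp_apply, ← slash_frickeMat_apply14]
  rfl

theorem frickeTwist14_frickeForm14 (p : ℕ) [NeZero p]
    (F : CuspForm (CongruenceSubgroup.Gamma0 p) 14) (τ : ℍ) :
    frickeTwist14 p (frickeForm14 p F) τ = (p : ℂ)⁻¹ * F τ := by
  have hp : (p : ℂ) ≠ 0 := by exact_mod_cast NeZero.ne p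
  have hτ : (τ : ℂ) ≠ 0 := UpperHalfPlane.ne_zero τ
  rw [frickeTwist14, frickeForm14_apply, frickeTwist14, fricke_fricke, S28A.coe_fricke]
  field_simp

/-- **`F | W_p = - U_p F` in weight 14.**  For `F ∈ S₁₄(Γ₀(p))`:
`(pτ)⁻¹⁴ F(-1/(pτ)) = - p⁻¹³ (U_p F)(τ)`. -/
theorem frickeTwist14_eq_neg_heckeU (p : ℕ) [Fact p.Prime]
    (F : CuspForm (CongruenceSubgroup.Gamma0 p) 14) (τ : ℍ) :
    frickeTwist14 p F τ = -((p : ℂ) ^ 13)⁻¹ * ModularForm.heckeU 14 p F τ := by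
  have hp' : p ≠ 0 := (Fact.out : p.Prime).ne_zero
  have : NeZero p := ⟨hp'⟩
  have hp : (p : ℂ) ≠ 0 := by exact_mod_cast hp'
  have h := trace_identity14 p (frickeForm14 p F) τ
  simp only [frickeTwist14_frickeForm14, frickeForm14_apply] at h
  rw [ModularForm.heckeU_apply 14 hp', Finset.mul_sum]
  have h' : (p : ℂ) ^ 13 * frickeTwist14 p F τ =
      -∑ m ∈ Finset.range p, (p : ℂ)⁻¹ * F (heckeMatrix p m • τ) := eq_neg_of_add_eq_zero_left h
  have h2 : frickeTwist14 p F τ = ((p : ℂ) ^ 13)⁻¹ * ((p : ℂ) ^ 13 * frickeTwist14 p F τ) := by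
    field_simp
  rw [h2, h']
  ring

/-- `p¹³ · F°(τ) = - (U_p F)(τ)`. -/
theorem pow_mul_frickeTwist14 (p : ℕ) [Fact p.Prime]
    (F : CuspForm (CongruenceSubgroup.Gamma0 p) 14) (τ : ℍ) :
    (p : ℂ) ^ 13 * frickeTwist14 p F τ = -ModularForm.heckeU 14 p F τ := by
  have hp' : p ≠ 0 := (Fact.out : p.Prime).ne_zero
  have hp : (p : ℂ) ≠ 0 := by exact_mod_cast hp'
  rw [frickeTwist14_eq_neg_heckeU]
  field_simp

/-- `F(-1/(pτ)) = - p τ¹⁴ (U_p F)(τ)` for `F ∈ S₁₄(Γ₀(p))`. -/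
theorem fricke_eq_neg_heckeU14 (p : ℕ) [Fact p.Prime]
    (F : CuspForm (CongruenceSubgroup.Gamma0 p) 14) (τ : ℍ) :
    F (S28A.fricke p τ) = -(p : ℂ) * (τ : ℂ) ^ 14 * ModularForm.heckeU 14 p F τ := by
  have hp' : p ≠ 0 := (Fact.out : p.Prime).ne_zero
  have : NeZero p := ⟨hp'⟩
  have hp : (p : ℂ) ≠ 0 := by exact_mod_cast hp'
  have hτ : (τ : ℂ) ≠ 0 := UpperHalfPlane.ne_zero τ
  rw [fricke14_eq p (F : ℍ → ℂ) τ, frickeTwist14_eq_neg_heckeU]
  field_simp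

/-! ### `q`-expansions at the cusp `0` -/

theorem isQHol_cuspForm (N : ℕ) {k : ℤ} (F : CuspForm (CongruenceSubgroup.Gamma0 N) k) :
    S24B.IsQHol (F : ℍ → ℂ) :=
  have h := S23.PB.of_modularForm (CongruenceSubgroup.one_mem_strictPeriods_Gamma0 N) F
  ⟨h.per, h.holo, h.bdd⟩

theorem isQHol_heckeU_cuspForm (p : ℕ) {k : ℤ} (F : CuspForm (CongruenceSubgroup.Gamma0 p) k) :
    S24B.IsQHol (ModularForm.heckeU k p (F : ℍ → ℂ)) :=
  ⟨ModularForm.periodic_heckeU_comp_ofComplex (isQHol_cuspForm p F).per k p,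
    ModularForm.mdifferentiable_heckeU (isQHol_cuspForm p F).hol k p,
    ModularForm.isBoundedAtImInfty_heckeU (isQHol_cuspForm p F).bdd k p⟩

/-- The `q`-expansion of a cusp form on `Γ₀(N)`, as a Laurent expansion. -/
theorem isLaurentOf_cuspForm (N : ℕ) {k : ℤ}
    (F : CuspForm (CongruenceSubgroup.Gamma0 N) k) :
    S24B.IsLaurentOf (HahnSeries.ofPowerSeries ℤ ℂ (qExpansion 1 F)) (F : ℍ → ℂ) :=
  S28.isLaurentOf_of_isQHol (isQHol_cuspForm N F)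

/-- `q`-coefficients of `U_p F`: `a_n(U_p F) = a_{np}(F)`. -/
theorem qExpansion_heckeU_cuspForm_coeff (p : ℕ) (hp' : p ≠ 0) {k : ℤ}
    (F : CuspForm (CongruenceSubgroup.Gamma0 p) k) (n : ℕ) :
    (qExpansion 1 (ModularForm.heckeU k p (F : ℍ → ℂ))).coeff n =
      (qExpansion 1 (F : ℍ → ℂ)).coeff (n * p) := by
  have h := ModularFormClass.qCoeff_heckeU F
    (CongruenceSubgroup.one_mem_strictPeriods_Gamma0 p) hp' n
  rw [ModularForm.coeffHeckeU_apply] at h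
  rw [show (qExpansion 1 (ModularForm.heckeU k p (F : ℍ → ℂ))).coeff n =
    ModularFormClass.qCoeff (ModularForm.heckeU k p (F : ℍ → ℂ)) n from rfl, h]
  rfl

/-- The `q`-expansion of `U_p F`, as a Laurent expansion. -/
theorem isLaurentOf_heckeU_cuspForm (p : ℕ) (hp' : p ≠ 0) {k : ℤ}
    (F : CuspForm (CongruenceSubgroup.Gamma0 p) k) :
    S24B.IsLaurentOf (HahnSeries.ofPowerSeries ℤ ℂ
      (PowerSeries.mk fun n => (qExpansion 1 F).coeff (n * p)))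
      (ModularForm.heckeU k p (F : ℍ → ℂ)) := by
  have h1 := S28.isLaurentOf_of_isQHol (isQHol_heckeU_cuspForm p F)
  have e : qExpansion 1 (ModularForm.heckeU k p (F : ℍ → ℂ)) =
      PowerSeries.mk fun n => (qExpansion 1 F).coeff (n * p) := by
    ext n
    rw [PowerSeries.coeff_mk, qExpansion_heckeU_cuspForm_coeff p hp']
  rwa [e] at h1

/-- **Expansion at the cusp `0` (weight 14).**  The function `τ ↦ (pτ)⁻¹⁴ F(-1/(pτ))` has the
`q`-expansion `- p⁻¹³ ∑ a_{pn}(F) qⁿ`. -/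
theorem isLaurentOf_frickeTwist14 (p : ℕ) [Fact p.Prime]
    (F : CuspForm (CongruenceSubgroup.Gamma0 p) 14) :
    S24B.IsLaurentOf (HahnSeries.ofPowerSeries ℤ ℂ
      (PowerSeries.mk fun n => -((p : ℂ) ^ 13)⁻¹ * (qExpansion 1 F).coeff (n * p)))
      (frickeTwist14 p (F : ℍ → ℂ)) := by
  have hp' : p ≠ 0 := (Fact.out : p.Prime).ne_zero
  have h1 := isLaurentOf_heckeU_cuspForm p hp' F
  have h2 := (S24B.IsLaurentOf.const (-((p : ℂ) ^ 13)⁻¹)).mul h1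
  have e1 : ((fun _ : ℍ => -((p : ℂ) ^ 13)⁻¹) * ModularForm.heckeU 14 p (F : ℍ → ℂ)) =
      frickeTwist14 p (F : ℍ → ℂ) := by
    funext τ
    rw [Pi.mul_apply, frickeTwist14_eq_neg_heckeU]
  have e2 : HahnSeries.C (-((p : ℂ) ^ 13)⁻¹) *
      HahnSeries.ofPowerSeries ℤ ℂ (PowerSeries.mk fun n => (qExpansion 1 F).coeff (n * p)) =
      HahnSeries.ofPowerSeries ℤ ℂ
        (PowerSeries.mk fun n => -((p : ℂ) ^ 13)⁻¹ * (qExpansion 1 F).coeff (n * p)) := by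
    rw [← HahnSeries.ofPowerSeries_C, ← map_mul]
    congr 1
    ext n
    rw [PowerSeries.coeff_C_mul, PowerSeries.coeff_mk, PowerSeries.coeff_mk]
  rwa [e1, e2] at h2

/-- **Expansion at the cusp `0`, integral normalisation.**  The function
`τ ↦ p¹³ (pτ)⁻¹⁴ F(-1/(pτ))` has the `q`-expansion `- ∑ a_{pn}(F) qⁿ`. -/
theorem isLaurentOf_pow_mul_frickeTwist14 (p : ℕ) [Fact p.Prime]
    (F : CuspForm (CongruenceSubgroup.Gamma0 p) 14) :
    S24B.IsLaurentOf (HahnSeries.ofPowerSeries ℤ ℂ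
      (PowerSeries.mk fun n => -(qExpansion 1 F).coeff (n * p)))
      (fun τ => (p : ℂ) ^ 13 * frickeTwist14 p (F : ℍ → ℂ) τ) := by
  have hp' : p ≠ 0 := (Fact.out : p.Prime).ne_zero
  have h1 := isLaurentOf_heckeU_cuspForm p hp' F
  have h2 := (S24B.IsLaurentOf.const (-1 : ℂ)).mul h1
  have e1 : ((fun _ : ℍ => (-1 : ℂ)) * ModularForm.heckeU 14 p (F : ℍ → ℂ)) =
      fun τ => (p : ℂ) ^ 13 * frickeTwist14 p (F : ℍ → ℂ) τ := by
    funext τ
    rw [Pi.mul_apply, pow_mul_frickeTwist14]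
    ring
  have e2 : HahnSeries.C (-1 : ℂ) *
      HahnSeries.ofPowerSeries ℤ ℂ (PowerSeries.mk fun n => (qExpansion 1 F).coeff (n * p)) =
      HahnSeries.ofPowerSeries ℤ ℂ
        (PowerSeries.mk fun n => -(qExpansion 1 F).coeff (n * p)) := by
    rw [← HahnSeries.ofPowerSeries_C, ← map_mul]
    congr 1
    ext n
    rw [PowerSeries.coeff_C_mul, PowerSeries.coeff_mk, PowerSeries.coeff_mk]
    ring
  rwa [e1, e2] at h2

/-- `F ∣[14] W_p = - U_p F` as functions. -/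
theorem frickeForm14_eq_neg_heckeU (p : ℕ) [Fact p.Prime]
    (F : CuspForm (CongruenceSubgroup.Gamma0 p) 14) :
    haveI : NeZero p := ⟨(Fact.out : p.Prime).ne_zero⟩
    (frickeForm14 p F : ℍ → ℂ) = -ModularForm.heckeU 14 p (F : ℍ → ℂ) := by
  funext τ
  rw [frickeForm14_apply, pow_mul_frickeTwist14, Pi.neg_apply]

/-- `q`-coefficients of `F ∣[14] W_p`: `a_m(F|W) = - a_{pm}(F)`. -/
theorem qExpansion_frickeForm14_coeff (p : ℕ) [Fact p.Prime]
    (F : CuspForm (CongruenceSubgroup.Gamma0 p) 14) (m : ℕ) :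
    haveI : NeZero p := ⟨(Fact.out : p.Prime).ne_zero⟩
    (qExpansion 1 (frickeForm14 p F : ℍ → ℂ)).coeff m =
      -(qExpansion 1 (F : ℍ → ℂ)).coeff (p * m) := by
  have hp' : p ≠ 0 := (Fact.out : p.Prime).ne_zero
  rw [frickeForm14_eq_neg_heckeU, (isQHol_heckeU_cuspForm p F).qExpansion_neg, map_neg,
    qExpansion_heckeU_cuspForm_coeff p hp', mul_comm]

/-- **Leaf [W14].** `F(-1/(pτ)) = p τ¹⁴ F^W(τ)` with `F^W ∈ S₁₄(Γ₀(p))`,
`a_m(F^W) = - a_{pm}(F)`. -/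
theorem exists_fricke_form14 (p : ℕ) [Fact p.Prime]
    (F : CuspForm (CongruenceSubgroup.Gamma0 p) 14) :
    ∃ FW : CuspForm (CongruenceSubgroup.Gamma0 p) 14,
      (∀ τ : ℍ, F (S28A.fricke p τ) = (p : ℂ) * (τ : ℂ) ^ 14 * FW τ) ∧
      (∀ τ : ℍ, FW τ = -ModularForm.heckeU 14 p (F : ℍ → ℂ) τ) ∧
      ∀ m : ℕ, (qExpansion 1 (FW : ℍ → ℂ)).coeff m =
        -(qExpansion 1 (F : ℍ → ℂ)).coeff (p * m) := by
  have hp' : p ≠ 0 := (Fact.out : p.Prime).ne_zero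
  have : NeZero p := ⟨hp'⟩
  refine ⟨frickeForm14 p F, fun τ => ?_, fun τ => ?_, fun m => qExpansion_frickeForm14_coeff p F m⟩
  · rw [fricke_eq_neg_heckeU14, congrFun (frickeForm14_eq_neg_heckeU p F) τ, Pi.neg_apply]
    ring
  · rw [congrFun (frickeForm14_eq_neg_heckeU p F) τ, Pi.neg_apply]

/-! ### The two statements in the exact shape requested by the `[HX]` / `[ST']` consumers -/

/-- `Ψ(-1/(pτ)) = - p⁻¹³ (pτ)¹⁴ (U_p Ψ)(τ)` for `Ψ ∈ S₁₄(Γ₀(p))`. -/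
theorem fricke14 (p : ℕ) [Fact p.Prime] (Ψ : CuspForm (CongruenceSubgroup.Gamma0 p) 14) (τ : ℍ) :
    Ψ (S28A.fricke p τ) =
      -((p : ℂ) ^ 13)⁻¹ * ((p : ℂ) * (τ : ℂ)) ^ 14 * ModularForm.heckeU 14 p (Ψ : ℍ → ℂ) τ := by
  have hp' : p ≠ 0 := (Fact.out : p.Prime).ne_zero
  have : NeZero p := ⟨hp'⟩
  rw [fricke14_eq p (Ψ : ℍ → ℂ) τ, frickeTwist14_eq_neg_heckeU]
  ring

/-- The `q`-expansion of `U_p Ψ` for `Ψ ∈ S₁₄(Γ₀(p))`: coefficients `a_{np}(Ψ)`. -/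
theorem isLaurentOf_heckeU14 (p : ℕ) [Fact p.Prime]
    (Ψ : CuspForm (CongruenceSubgroup.Gamma0 p) 14) :
    S24B.IsLaurentOf (HahnSeries.ofPowerSeries ℤ ℂ
      (PowerSeries.mk fun n => (qExpansion 1 (Ψ : ℍ → ℂ)).coeff (n * p)))
      (ModularForm.heckeU 14 p (Ψ : ℍ → ℂ)) :=
  isLaurentOf_heckeU_cuspForm p (Fact.out : p.Prime).ne_zero Ψ

end Fermat.Agent.S16
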