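import Mathlib
import Fermat.Agent.S28.Defs

/-!
# S16, the gap at `ℓ = 2`, `p ≡ 7 mod 8`: pure algebra

For a weight-2 form `F ≡ 1 mod 8` put `G = (F² - E₄)/16`, `H = (F E₄ - E₆)/8`,
`M = (H - F G)/4`, `X = F G M + 2 G³ + 2 M²`.  Then `27 Δ = E₄ (F M + 3 G²) - 8 X`, and `X` is
`2`-integral.  Evaluating at a zero of `E₄` gives `X / Δ = -27/8`, which is not `2`-integral.
-/

set_option autoImplicit false

namespace Fermat.Agent.S16

section Field

variable {K : Type*} [Field K]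

/-- `G = (F² - E₄)/16`. -/
def gapG (F E4 : K) : K := (F ^ 2 - E4) / 16

/-- `H = (F E₄ - E₆)/8`. -/
def gapH (F E4 E6 : K) : K := (F * E4 - E6) / 8

/-- `M = (H - F G)/4`. -/
def gapM (F E4 E6 : K) : K := (gapH F E4 E6 - F * gapG F E4) / 4

/-- `X = F G M + 2 G³ + 2 M²`. -/
def gapX (F E4 E6 : K) : K :=
  F * gapG F E4 * gapM F E4 E6 + 2 * gapG F E4 ^ 3 + 2 * gapM F E4 E6 ^ 2

/-- `R = F M + 3 G²`. -/
def gapR (F E4 E6 : K) : K := F * gapM F E4 E6 + 3 * gapG F E4 ^ 2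

variable [CharZero K]

/-- The key identity `27 Δ = E₄ R - 8 X`. -/
theorem gap_identity (F E4 E6 D : K) (h : E4 ^ 3 - E6 ^ 2 = 1728 * D) :
    27 * D = E4 * gapR F E4 E6 - 8 * gapX F E4 E6 := by
  unfold gapR gapX gapM gapH gapG
  linear_combination (-1 / 64 : K) * h

/-- At a zero of `E₄`: `X = -(27/8) Δ`. -/
theorem gapX_of_E4_eq_zero (F E6 D : K) (h : (0 : K) ^ 3 - E6 ^ 2 = 1728 * D) :
    gapX F 0 E6 = -(27 / 8) * D := by
  have := gap_identity F 0 E6 D h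
  linear_combination (1 / 8 : K) * this

/-- The explicit `2`-integral form of `X` when `F = 1 + 8a`, `E₄ = 1 + 16b`, `E₆ = 1 + 8c` and
`3b - c = 4d`. -/
theorem gapX_eq (a b c d : K) (h : 3 * b - c = 4 * d) :
    gapX (1 + 8 * a) (1 + 16 * b) (1 + 8 * c) =
      (1 + 8 * a) * (a + 4 * a ^ 2 - b) * (d + 6 * a * b - 3 * a ^ 2 - 8 * a ^ 3)
        + 2 * (a + 4 * a ^ 2 - b) ^ 3 + 2 * (d + 6 * a * b - 3 * a ^ 2 - 8 * a ^ 3) ^ 2 := by
  have hc : c = 3 * b - 4 * d := by linear_combination -h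
  subst hc
  unfold gapX gapM gapH gapG
  field_simp
  ring

/-- The relation `3b - c = 4d` follows from `E₄³ - E₆² = 1728 Δ`. -/
theorem gap_d_eq (b c D : K) (h : (1 + 16 * b) ^ 3 - (1 + 8 * c) ^ 2 = 1728 * D) :
    3 * b - c = 4 * (27 * D - 12 * b ^ 2 - 64 * b ^ 3 + c ^ 2) := by
  linear_combination (1 / 16 : K) * h

/-- Subring version: if `a, b, c, D` lie in a subring `B`, so does `X`. -/
theorem gapX_mem (B : Subring K) {a b c D : K} (ha : a ∈ B) (hb : b ∈ B) (hc : c ∈ B)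
    (hD : D ∈ B) (h : (1 + 16 * b) ^ 3 - (1 + 8 * c) ^ 2 = 1728 * D) :
    gapX (1 + 8 * a) (1 + 16 * b) (1 + 8 * c) ∈ B := by
  rw [gapX_eq a b c _ (gap_d_eq b c D h)]
  have h1 : (1 : K) ∈ B := B.one_mem
  have hn : ∀ n : ℕ, (n : K) ∈ B := fun n => natCast_mem B n
  have h2 : (2 : K) ∈ B := by exact_mod_cast hn 2
  have h3 : (3 : K) ∈ B := by exact_mod_cast hn 3
  have h4 : (4 : K) ∈ B := by exact_mod_cast hn 4
  have h6 : (6 : K) ∈ B := by exact_mod_cast hn 6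
  have h8 : (8 : K) ∈ B := by exact_mod_cast hn 8
  have h12 : (12 : K) ∈ B := by exact_mod_cast hn 12
  have h27 : (27 : K) ∈ B := by exact_mod_cast hn 27
  have h64 : (64 : K) ∈ B := by exact_mod_cast hn 64
  have hd : 27 * D - 12 * b ^ 2 - 64 * b ^ 3 + c ^ 2 ∈ B :=
    B.add_mem (B.sub_mem (B.sub_mem (B.mul_mem h27 hD) (B.mul_mem h12 (B.pow_mem hb 2)))
      (B.mul_mem h64 (B.pow_mem hb 3))) (B.pow_mem hc 2)
  have hγ : a + 4 * a ^ 2 - b ∈ B :=
    B.sub_mem (B.add_mem ha (B.mul_mem h4 (B.pow_mem ha 2))) hb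
  have hμ : (27 * D - 12 * b ^ 2 - 64 * b ^ 3 + c ^ 2) + 6 * a * b - 3 * a ^ 2 - 8 * a ^ 3 ∈ B :=
    B.sub_mem (B.sub_mem (B.add_mem hd (B.mul_mem (B.mul_mem h6 ha) hb))
      (B.mul_mem h3 (B.pow_mem ha 2))) (B.mul_mem h8 (B.pow_mem ha 3))
  exact B.add_mem (B.add_mem (B.mul_mem (B.mul_mem (B.add_mem h1 (B.mul_mem h8 ha)) hγ) hμ)
    (B.mul_mem h2 (B.pow_mem hγ 3))) (B.mul_mem h2 (B.pow_mem hμ 2))

end Field

/-! ### `-27/8` is not a root of a monic polynomial with coefficients in `OO 2` -/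

open Polynomial in
/-- A root of a monic polynomial with coefficients in `OO ℓ` which is of the form `m / ℓ ^ k`
... we only need: `-27/8` is not such a root for `ℓ = 2`. -/
theorem gap_not_root (P : Polynomial ℂ) (hP : P.Monic)
    (hc : ∀ i, P.coeff i ∈ Fermat.Agent.S28.OO 2) : P.eval (-(27 / 8) : ℂ) ≠ 0 := by
  intro h0
  set n := P.natDegree with hn
  -- multiply by `8 ^ n`
  have h1 : ∑ i ∈ Finset.range (n + 1), P.coeff i * (-(27 / 8) : ℂ) ^ i = 0 := by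
    rw [← h0, Polynomial.eval_eq_sum_range]
  have h2 : ∑ i ∈ Finset.range (n + 1), P.coeff i * (-27 : ℂ) ^ i * 8 ^ (n - i) = 0 := by
    have : ∑ i ∈ Finset.range (n + 1), P.coeff i * (-27 : ℂ) ^ i * 8 ^ (n - i)
        = 8 ^ n * ∑ i ∈ Finset.range (n + 1), P.coeff i * (-(27 / 8) : ℂ) ^ i := by
      rw [Finset.mul_sum]
      refine Finset.sum_congr rfl fun i hi => ?_
      have hi' : i ≤ n := Nat.lt_succ_iff.mp (Finset.mem_range.mp hi)
      have e : (8 : ℂ) ^ n = 8 ^ (n - i) * 8 ^ i := by rw [← pow_add, Nat.sub_add_cancel hi']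
      have e2 : (-(27 / 8) : ℂ) ^ i * 8 ^ i = (-27) ^ i := by
        rw [← mul_pow]; norm_num
      rw [e]
      linear_combination (-(P.coeff i) * 8 ^ (n - i)) * e2
    rw [this, h1, mul_zero]
  rw [Finset.sum_range_succ] at h2
  have hlead : P.coeff n = 1 := hP.coeff_natDegree
  rw [hlead, Nat.sub_self, pow_zero, one_mul, mul_one] at h2
  -- the lower terms are divisible by 8 in `OO 2`
  have h3 : ∃ w ∈ Fermat.Agent.S28.OO 2,
      ∑ i ∈ Finset.range n, P.coeff i * (-27 : ℂ) ^ i * 8 ^ (n - i) = 8 * w := by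
    refine ⟨∑ i ∈ Finset.range n, P.coeff i * (-27 : ℂ) ^ i * 8 ^ (n - i - 1), ?_, ?_⟩
    · refine Subring.sum_mem _ fun i _ => ?_
      have h27 : (-27 : ℂ) ∈ Fermat.Agent.S28.OO 2 := by
        exact_mod_cast intCast_mem (Fermat.Agent.S28.OO 2) (-27 : ℤ)
      have h8 : (8 : ℂ) ∈ Fermat.Agent.S28.OO 2 := by
        exact_mod_cast natCast_mem (Fermat.Agent.S28.OO 2) 8
      exact Subring.mul_mem _ (Subring.mul_mem _ (hc i) (Subring.pow_mem _ h27 i))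
        (Subring.pow_mem _ h8 _)
    · rw [Finset.mul_sum]
      refine Finset.sum_congr rfl fun i hi => ?_
      have hi' : i < n := Finset.mem_range.mp hi
      have e : (8 : ℂ) ^ (n - i) = 8 * 8 ^ (n - i - 1) := by
        rw [← pow_succ']
        congr 1
        omega
      rw [e]
      ring
  obtain ⟨w, hw, hw2⟩ := h3
  rw [hw2] at h2
  -- so `(-27)^n = -8 w`
  obtain ⟨d, hd, hd0, hint⟩ := hw
  have h4 : (d : ℂ) * w = ((-(d : ℤ) * (-27) ^ n : ℤ) : ℂ) / 8 := by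
    push_cast
    linear_combination ((d : ℂ) / 8) * h2
  rw [h4] at hint
  have h5 : (((-(d : ℤ) * (-27) ^ n : ℤ) : ℂ) / 8) = algebraMap ℚ ℂ ((-(d : ℤ) * (-27) ^ n : ℤ) / 8) := by
    simp
  rw [h5] at hint
  have h6 : IsIntegral ℤ (((-(d : ℤ) * (-27) ^ n : ℤ) : ℚ) / 8) :=
    (isIntegral_algebraMap_iff (algebraMap ℚ ℂ).injective).mp hint
  obtain ⟨m, hm⟩ := IsIntegrallyClosed.isIntegral_iff.mp h6
  rw [eq_intCast] at hm
  have h7 : (8 : ℤ) * m = -(d : ℤ) * (-27) ^ n := by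
    have : ((8 * m : ℤ) : ℚ) = ((-(d : ℤ) * (-27) ^ n : ℤ) : ℚ) := by
      push_cast
      rw [hm]
      push_cast
      field_simp
    exact_mod_cast this
  -- parity contradiction
  have hdodd : ¬ (2 : ℤ) ∣ (d : ℤ) := by
    intro h
    have h2d : 2 ∣ d := by exact_mod_cast h
    have := Nat.Coprime.eq_one_of_dvd hd.symm h2d
    omega
  have h8 : (2 : ℤ) ∣ -(d : ℤ) * (-27) ^ n := by
    rw [← h7]
    exact Dvd.intro _ (by ring : (2 : ℤ) * (4 * m) = 8 * m)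
  have hprime : Prime (2 : ℤ) := Int.prime_two
  rcases hprime.dvd_mul.mp h8 with h | h
  · exact hdodd ((dvd_neg).mp h)
  · have := hprime.dvd_of_dvd_pow h
    norm_num at this

end Fermat.Agent.S16
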