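import Mathlib
import Fermat.Agent.S28.MemFull
import Fermat.Agent.S28.Charts
import Fermat.Agent.S28.Descent
import Fermat.Agent.S28.Assemble
import Fermat.Agent.S28.LevelOne
import Fermat.Agent.S28.OOrat

/-!
# S16, leaf INT: values of modular functions with `ℓ`-integral expansion at infinity

Let `f` be a modular function of level `Γ₀(N)` (holomorphic on `ℍ`, `S24.ModFun N f`) whose
`q`-expansion AT INFINITY ONLY has rational coefficients and lies in the Gauss ring at a prime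
`ℓ ∤ N` (for instance: integer coefficients).  Then

* `exists_monic_ratLoc_relation` : `f` is a root of a monic polynomial in `ℤ_(ℓ)[j][X]`;
* `value_mem_OO_of_gauss` : `f τ ∈ OO ℓ` at every `τ` with `j(τ) ∈ OO ℓ`;
* `ratLoc_of_value` : if moreover `f τ` is a rational number `r`, then `r ∈ ℤ_(ℓ)`;
* `value_mem_OO_of_int`, `ratLoc_of_value_int` : the same for expansions with integer
  coefficients (given as `iotaC a`).

No information on the other cusps is needed: this is the strong form of the `q`-expansion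
principle (`S28.qp_integral`), available at every level prime to `ℓ`.
-/

set_option autoImplicit false

noncomputable section

namespace Fermat.Agent.S16

open UpperHalfPlane hiding I
open ModularCurve ModularCurve.IgusaScheme Polynomial
open Fermat.Agent Fermat.Agent.S24 Fermat.Agent.S28

/-! ### The modular input at every level prime to `ℓ` -/

/-- The modular input exists for every level prime to `ℓ`. -/
theorem exists_modInput_of_not_dvd (N : ℕ) [NeZero N] (ℓ : ℕ) [Fact ℓ.Prime] (hℓN : ¬ ℓ ∣ N) :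
    ∃ n : ℕ, Nonempty (ModInput N ℓ n) := by
  by_cases hN : 2 ≤ N
  · obtain ⟨D⟩ := nonempty_unitData N ℓ hN hℓN
    exact ⟨_, nonempty_modInput_of_unitData D⟩
  · have h1 : N = 1 := by
      have := NeZero.ne N
      omega
    subst h1
    exact ⟨1, nonempty_modInput_one ℓ⟩

/-! ### Monic descent of relations from `ℂ` to `ℚ` -/

/-- A `ℚ`-linear functional on `ℂ` with value `1` at `1`. -/
theorem exists_functional_one (φ : ℚ →+* ℂ) :
    ∃ l : ℂ →+ ℚ, (∀ (a : ℚ) (z : ℂ), l (z * φ a) = l z * a) ∧ l 1 = 1 := by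
  obtain ⟨l₀, h1, h2⟩ := ld_exists_functional φ (c := 1) one_ne_zero
  refine ⟨(AddMonoidHom.mulRight (l₀ 1)⁻¹).comp l₀, fun a z => ?_, ?_⟩
  · simp only [AddMonoidHom.comp_apply, AddMonoidHom.mulRight_apply, h1]
    ring
  · simp only [AddMonoidHom.comp_apply, AddMonoidHom.mulRight_apply]
    exact mul_inv_cancel₀ h2

/-- **Monic descent**: a monic relation `P(J, r) = 0` with complex coefficients between (the
images of) two Laurent series over `ℚ` yields a monic relation with rational coefficients. -/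
theorem monic_descent (φ : ℚ →+* ℂ) (J r : LaurentSeries ℚ) (P : ℂ[X][X]) (hP : P.Monic)
    (h : P.eval₂ (Polynomial.eval₂RingHom HahnSeries.C (coeffMap φ J)) (coeffMap φ r) = 0) :
    ∃ Q : ℚ[X][X], Q.Monic ∧ Q.eval₂ (Polynomial.eval₂RingHom HahnSeries.C J) r = 0 := by
  classical
  obtain ⟨l, hl, hl1⟩ := exists_functional_one φ
  set M := P.natDegree with hM
  obtain ⟨A, hA⟩ : ∃ A, ∀ k, (P.coeff k).natDegree < A := by
    refine ⟨(Finset.range (M + 1)).sup (fun k => (P.coeff k).natDegree) + 1, fun k => ?_⟩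
    by_cases hk : k ≤ M
    · exact Nat.lt_succ_of_le (Finset.le_sup (f := fun k => (P.coeff k).natDegree)
        (Finset.mem_range.mpr (by omega)))
    · rw [Polynomial.coeff_eq_zero_of_natDegree_lt (by omega)]
      simp
  have hA0 : 0 < A := lt_of_le_of_lt (Nat.zero_le _) (hA 0)
  rw [ld_eval₂_expand _ _ _ P (M + 1) A (Nat.lt_succ_self _) hA] at h
  have h' : ∑ p ∈ Finset.range A ×ˢ Finset.range (M + 1),
      HahnSeries.C ((P.coeff p.2).coeff p.1) * coeffMap φ (J ^ p.1 * r ^ p.2) = 0 := by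
    rw [← h]
    refine Finset.sum_congr rfl fun p _ => ?_
    rw [map_mul, map_pow, map_pow]
  have hd : ∑ p ∈ Finset.range A ×ˢ Finset.range (M + 1),
      HahnSeries.C (l ((P.coeff p.2).coeff p.1)) * (J ^ p.1 * r ^ p.2) = 0 := by
    ext n
    have h := congrArg (fun x : LaurentSeries ℂ => l (x.coeff n)) h'
    simp only [HahnSeries.coeff_zero, map_zero, HahnSeries.coeff_sum, map_sum,
      HahnSeries.C_mul_eq_smul, HahnSeries.coeff_smul, coeffMap_coeff, smul_eq_mul, hl] at h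
    simp only [HahnSeries.coeff_zero, HahnSeries.coeff_sum, HahnSeries.C_mul_eq_smul,
      HahnSeries.coeff_smul, smul_eq_mul]
    exact h
  refine ⟨∑ p ∈ Finset.range A ×ˢ Finset.range (M + 1),
    Polynomial.monomial p.2 (Polynomial.monomial p.1 (l ((P.coeff p.2).coeff p.1))), ?_, ?_⟩
  · refine Polynomial.monic_of_natDegree_le_of_coeff_eq_one M ?_ ?_
    · refine Polynomial.natDegree_sum_le_of_forall_le _ _ fun p hp => ?_
      refine (Polynomial.natDegree_monomial_le _).trans ?_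
      have := Finset.mem_range.mp (Finset.mem_product.mp hp).2
      omega
    · rw [Polynomial.finsetSum_coeff]
      simp only [Polynomial.coeff_monomial]
      rw [Finset.sum_eq_single ((0 : ℕ), M)]
      · rw [if_pos rfl, hM, hP.coeff_natDegree, Polynomial.coeff_one_zero, hl1]
        rfl
      · intro p hp hne
        by_cases h2 : p.2 = M
        · rw [if_pos h2, h2, hM, hP.coeff_natDegree, Polynomial.coeff_one, if_neg, map_zero,
            map_zero]
          intro h3
          exact hne (Prod.ext h3 h2)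
        · rw [if_neg h2]
      · intro hmem
        exact absurd (Finset.mem_product.mpr
          ⟨Finset.mem_range.mpr hA0, Finset.mem_range.mpr (Nat.lt_succ_self M)⟩) hmem
  · rw [Polynomial.eval₂_finsetSum, ← hd]
    refine Finset.sum_congr rfl fun p _ => ?_
    rw [Polynomial.eval₂_monomial, Polynomial.coe_eval₂RingHom, Polynomial.eval₂_monomial]
    ring

/-! ### Integrality over `ℚ[j]` -/

/-- A modular function of level `N` with rational `q`-expansion is integral over `ℚ[j]`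
(as an element of the function field). -/
theorem isIntegral_adjoin_rat (N : ℕ) [NeZero N] (φ : ℚ →+* ℂ) (xq : LaurentSeries ℚ)
    (f : ℍ → ℂ) (h1 : S24B.IsLaurentOf (coeffMap φ xq) f) (h2 : ModFun N f)
    (y : ↥(modularFunctionFieldFull N)) (hy : (y : LaurentSeries ℚ) = xq) :
    IsIntegral ↥(Algebra.adjoin ℚ {jFull N}) y := by
  have hφ : φ = S28A.phiQ := Subsingleton.elim _ _
  subst hφ
  obtain ⟨P, hP1, -, hP3⟩ := h2.exists_monic_relation
  have h := ((S28A.isLaurentOf_jA_phiQ.bivariate h1 P).eq_zero_iff).mpr (funext hP3)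
  obtain ⟨Q, hQ1, hQ2⟩ := monic_descent S28A.phiQ jq xq P hP1 h
  set jR : ↥(Algebra.adjoin ℚ {jFull N}) :=
    ⟨jFull N, Algebra.subset_adjoin (Set.mem_singleton _)⟩ with hjR
  set ψ : ℚ[X] →+* ↥(Algebra.adjoin ℚ {jFull N}) :=
    ((Polynomial.aeval jR : ℚ[X] →ₐ[ℚ] ↥(Algebra.adjoin ℚ {jFull N})) :
      ℚ[X] →+* ↥(Algebra.adjoin ℚ {jFull N})) with hψ
  refine ⟨Q.map ψ, hQ1.map _, ?_⟩
  rw [Polynomial.eval₂_map]
  have h3 := Polynomial.hom_eval₂ Q
    ((algebraMap ↥(Algebra.adjoin ℚ {jFull N}) ↥(modularFunctionFieldFull N)).comp ψ)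
    (S28A.incE (modularFunctionFieldFull N)) y
  have h4 : (S28A.incE (modularFunctionFieldFull N)).comp
      ((algebraMap ↥(Algebra.adjoin ℚ {jFull N}) ↥(modularFunctionFieldFull N)).comp ψ) =
      Polynomial.eval₂RingHom HahnSeries.C jq := by
    refine Polynomial.ringHom_ext (fun c => ?_) ?_
    · simp only [hψ, RingHom.comp_apply, RingHom.coe_coe, Polynomial.aeval_C,
        Polynomial.coe_eval₂RingHom, Polynomial.eval₂_C]
      rw [← IsScalarTower.algebraMap_apply, S28A.incE_apply, S28A.incE_algebraMap,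
        algebraMap_laurentSeries_eq_single]
      rfl
    · simp only [hψ, RingHom.comp_apply, RingHom.coe_coe, Polynomial.aeval_X,
        Polynomial.coe_eval₂RingHom, Polynomial.eval₂_X]
      rfl
  rw [h4, S28A.incE_apply, S28A.incE_apply, hy, hQ2] at h3
  exact Subtype.ext h3

/-! ### The strong `q`-expansion principle -/

/-- A modular function of level `N` prime to `ℓ` whose expansion at infinity lies in the Gauss
ring satisfies a monic equation over `ℤ_(ℓ)[j]` (identity of Laurent series). -/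
theorem exists_monic_ratLoc_series (N ℓ : ℕ) [NeZero N] [Fact ℓ.Prime] (hℓ : ¬ ℓ ∣ N)
    (φ : ℚ →+* ℂ) (xq : LaurentSeries ℚ) (f : ℍ → ℂ)
    (h1 : S24B.IsLaurentOf (coeffMap φ xq) f) (h2 : ModFun N f) (h3 : xq ∈ gaussRing ℓ) :
    ∃ q : (↥(GaloisRep.ratLocalizedAt ℓ))[X][X], q.Monic ∧
      (q.map (Polynomial.mapRingHom (algebraMap ↥(GaloisRep.ratLocalizedAt ℓ) ℚ))).eval₂
        (Polynomial.eval₂RingHom HahnSeries.C jq) xq = 0 := by
  obtain ⟨n, ⟨I⟩⟩ := exists_modInput_of_not_dvd N ℓ hℓ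
  have hmem : xq ∈ modularFunctionFieldFull N := by
    have hφ : φ = S28A.phiQ := Subsingleton.elim _ _
    rw [hφ] at h1
    exact S28A.mem_full_of_isLaurentOf N xq f h1 h2
  set y : ↥(modularFunctionFieldFull N) := ⟨xq, hmem⟩ with hy
  have hyQ : IsIntegral ↥(Algebra.adjoin ℚ {jFull N}) y :=
    isIntegral_adjoin_rat N φ xq f h1 h2 y rfl
  have hchart : y ∈ chartAlg N ℓ {jFull N} :=
    qp_integral (jFull N) (jqModC ℤ) I.t I.θ htr_jq coe_jFull_eq_iotaQ (fun _ => rfl)
      I.hspan I.indep' y h3 hyQ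
  rw [mem_chartAlg_iff] at hchart
  obtain ⟨p, hp1, hp2⟩ := hchart
  set jR' : ↥(Algebra.adjoin ↥(GaloisRep.ratLocalizedAt ℓ) {jFull N}) :=
    ⟨jFull N, Algebra.subset_adjoin (Set.mem_singleton _)⟩ with hjR'
  set ψ' : (↥(GaloisRep.ratLocalizedAt ℓ))[X] →+*
      ↥(Algebra.adjoin ↥(GaloisRep.ratLocalizedAt ℓ) {jFull N}) :=
    ((Polynomial.aeval jR' : (↥(GaloisRep.ratLocalizedAt ℓ))[X] →ₐ[↥(GaloisRep.ratLocalizedAt ℓ)]
      ↥(Algebra.adjoin ↥(GaloisRep.ratLocalizedAt ℓ) {jFull N})) :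
      (↥(GaloisRep.ratLocalizedAt ℓ))[X] →+*
        ↥(Algebra.adjoin ↥(GaloisRep.ratLocalizedAt ℓ) {jFull N})) with hψ'
  have hlift : p ∈ Polynomial.lifts ψ' := by
    rw [Polynomial.lifts_iff_coeff_lifts]
    intro i
    have key : ∀ z : ↥(modularFunctionFieldFull N),
        z ∈ Algebra.adjoin ↥(GaloisRep.ratLocalizedAt ℓ) {jFull N} →
        ∃ r : (↥(GaloisRep.ratLocalizedAt ℓ))[X], Polynomial.aeval (jFull N) r = z := by
      intro z hz
      rw [Algebra.adjoin_singleton_eq_range_aeval] at hz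
      exact hz
    obtain ⟨r, hr⟩ := key _ (p.coeff i).2
    refine ⟨r, Subtype.ext ?_⟩
    rw [← hr]
    exact (Subalgebra.aeval_coe _ jR' r).symm
  obtain ⟨q, hq, -, hqm⟩ := Polynomial.lifts_and_natDegree_eq_and_monic hlift hp1
  refine ⟨q, hqm, ?_⟩
  rw [Polynomial.eval₂_map]
  rw [← hq, Polynomial.eval₂_map] at hp2
  have h5 := Polynomial.hom_eval₂ q
    ((algebraMap ↥(Algebra.adjoin ↥(GaloisRep.ratLocalizedAt ℓ) {jFull N})
      ↥(modularFunctionFieldFull N)).comp ψ') (S28A.incE (modularFunctionFieldFull N)) y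
  rw [hp2, map_zero] at h5
  have h6 : (S28A.incE (modularFunctionFieldFull N)).comp
      ((algebraMap ↥(Algebra.adjoin ↥(GaloisRep.ratLocalizedAt ℓ) {jFull N})
        ↥(modularFunctionFieldFull N)).comp ψ') =
      (Polynomial.eval₂RingHom HahnSeries.C jq).comp
        (Polynomial.mapRingHom (algebraMap ↥(GaloisRep.ratLocalizedAt ℓ) ℚ)) := by
    refine Polynomial.ringHom_ext (fun c => ?_) ?_
    · simp only [hψ', RingHom.comp_apply, RingHom.coe_coe, Polynomial.aeval_C,
        Polynomial.coe_eval₂RingHom, Polynomial.coe_mapRingHom, Polynomial.map_C,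
        Polynomial.eval₂_C]
      rw [← IsScalarTower.algebraMap_apply, S28A.incE_apply,
        IsScalarTower.algebraMap_apply ↥(GaloisRep.ratLocalizedAt ℓ) ℚ
          ↥(modularFunctionFieldFull N), S28A.incE_algebraMap,
        algebraMap_laurentSeries_eq_single]
      rfl
    · simp only [hψ', RingHom.comp_apply, RingHom.coe_coe, Polynomial.aeval_X,
        Polynomial.coe_eval₂RingHom, Polynomial.coe_mapRingHom, Polynomial.map_X,
        Polynomial.eval₂_X]
      rfl
  rw [h6, S28A.incE_apply] at h5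
  exact h5.symm

/-- **The strong `q`-expansion principle for modular functions.**  A modular function of level
`N` prime to `ℓ` whose expansion at infinity has rational coefficients and lies in the Gauss
ring at `ℓ` is a root of a monic polynomial with coefficients in `ℤ_(ℓ)[j]`. -/
theorem exists_monic_ratLoc_relation (N ℓ : ℕ) [NeZero N] [Fact ℓ.Prime] (hℓ : ¬ ℓ ∣ N)
    (φ : ℚ →+* ℂ) (xq : LaurentSeries ℚ) (f : ℍ → ℂ)
    (h1 : S24B.IsLaurentOf (coeffMap φ xq) f) (h2 : ModFun N f) (h3 : xq ∈ gaussRing ℓ) :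
    ∃ P : ℚ[X][X], P.Monic ∧ (∀ i k, (P.coeff i).coeff k ∈ GaloisRep.ratLocalizedAt ℓ) ∧
      ∀ τ : ℍ, ((P.map (Polynomial.mapRingHom φ)).map
        (Polynomial.evalRingHom (jA τ))).eval (f τ) = 0 := by
  obtain ⟨q, hq1, hq2⟩ := exists_monic_ratLoc_series N ℓ hℓ φ xq f h1 h2 h3
  refine ⟨q.map (Polynomial.mapRingHom (algebraMap ↥(GaloisRep.ratLocalizedAt ℓ) ℚ)),
    hq1.map _, fun i k => ?_, ?_⟩
  · rw [Polynomial.coeff_map, Polynomial.coe_mapRingHom, Polynomial.coeff_map]
    exact ((q.coeff i).coeff k).2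
  · set P := q.map (Polynomial.mapRingHom (algebraMap ↥(GaloisRep.ratLocalizedAt ℓ) ℚ)) with hP
    have h4 := congrArg (coeffMap φ) hq2
    rw [map_zero, Polynomial.hom_eval₂] at h4
    have h5 : (coeffMap φ).comp (Polynomial.eval₂RingHom HahnSeries.C jq) =
        (Polynomial.eval₂RingHom HahnSeries.C (coeffMap φ jq)).comp
          (Polynomial.mapRingHom φ) := by
      refine Polynomial.ringHom_ext (fun c => ?_) ?_
      · simp only [RingHom.comp_apply, Polynomial.coe_eval₂RingHom, Polynomial.coe_mapRingHom,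
          Polynomial.map_C, Polynomial.eval₂_C]
        exact coeffMap_single φ 0 c
      · simp only [RingHom.comp_apply, Polynomial.coe_eval₂RingHom, Polynomial.coe_mapRingHom,
          Polynomial.map_X, Polynomial.eval₂_X]
    rw [h5, ← Polynomial.eval₂_map] at h4
    have hφ : φ = S28A.phiQ := Subsingleton.elim _ _
    have hJ : S24B.IsLaurentOf (coeffMap φ jq) jA := by
      rw [hφ]
      exact S28A.isLaurentOf_jA_phiQ
    have h6 := ((hJ.bivariate h1 (P.map (Polynomial.mapRingHom φ))).eq_zero_iff).mp h4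
    exact fun τ => congrFun h6 τ

/-! ### `OO ℓ` is integrally closed -/

/-- A root of a monic polynomial whose coefficients are algebraic integers is an algebraic
integer. -/
theorem int_isIntegral_of_root {Q : ℂ[X]} (hQ : Q.Monic) (hcoef : ∀ i, IsIntegral ℤ (Q.coeff i))
    {w : ℂ} (hw : Q.eval w = 0) : IsIntegral ℤ w := by
  let T : Subring ℂ := (integralClosure ℤ ℂ).toSubring
  have hsub : (↑Q.coeffs : Set ℂ) ⊆ T := by
    intro c hc
    obtain ⟨n, -, rfl⟩ := Polynomial.mem_coeffs_iff.mp hc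
    exact hcoef n
  have : Algebra.IsIntegral ℤ T :=
    ⟨fun x => (isIntegral_algebraMap_iff (A := T) (B := ℂ) Subtype.val_injective).mp x.2⟩
  have h1 : IsIntegral T w := by
    refine ⟨Q.toSubring T hsub, (Polynomial.monic_toSubring Q T hsub).mpr hQ, ?_⟩
    rw [← Polynomial.eval_map]
    have : (Q.toSubring T hsub).map (algebraMap T ℂ) = Q := Polynomial.map_toSubring Q T hsub
    rw [this]
    exact hw
  exact isIntegral_trans w h1

/-- A root of a monic polynomial with coefficients in `OO ℓ` lies in `OO ℓ`. -/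
theorem int_mem_OO_of_root {ℓ : ℕ} {P' : ℂ[X]} (hP'monic : P'.Monic)
    (hcoef : ∀ i, P'.coeff i ∈ OO ℓ) {z : ℂ} (hroot : P'.eval z = 0) : z ∈ OO ℓ := by
  classical
  have hden : ∀ i : ℕ, ∃ d : ℕ, d.Coprime ℓ ∧ d ≠ 0 ∧ IsIntegral ℤ ((d : ℂ) * P'.coeff i) :=
    fun i => hcoef i
  choose d hd1 hd2 hd3 using hden
  set n := P'.natDegree with hn
  set D : ℕ := ∏ i ∈ Finset.range n, d i with hD
  have hD1 : D.Coprime ℓ := Nat.Coprime.prod_left fun i _ => hd1 i
  have hD0 : D ≠ 0 := Finset.prod_ne_zero_iff.mpr fun i _ => hd2 i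
  have hnat : ∀ m : ℕ, IsIntegral ℤ (m : ℂ) := fun m => by
    simpa using (isIntegral_algebraMap (R := ℤ) (A := ℂ) (x := (m : ℤ)))
  have hDi : ∀ i ∈ Finset.range n, IsIntegral ℤ ((D : ℂ) * P'.coeff i) := by
    intro i hi
    have e : (D : ℂ) = ((∏ j ∈ (Finset.range n).erase i, d j : ℕ) : ℂ) * (d i : ℂ) := by
      rw [hD, ← Finset.prod_erase_mul _ _ hi]
      push_cast
      rfl
    rw [e, mul_assoc]
    exact (hnat _).mul (hd3 i)
  refine ⟨D, hD1, hD0, ?_⟩
  have hQmonic : (Polynomial.scaleRoots P' (D : ℂ)).Monic :=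
    (Polynomial.monic_scaleRoots_iff (D : ℂ)).mpr hP'monic
  have hQroot : (Polynomial.scaleRoots P' (D : ℂ)).eval ((D : ℂ) * z) = 0 := by
    have h := Polynomial.scaleRoots_eval₂_eq_zero (RingHom.id ℂ) (p := P') (r := z)
      (s := (D : ℂ)) (by rw [Polynomial.eval₂_id]; exact hroot)
    rwa [Polynomial.eval₂_id, RingHom.id_apply] at h
  refine int_isIntegral_of_root hQmonic (fun i => ?_) hQroot
  rw [Polynomial.coeff_scaleRoots, ← hn]
  rcases lt_trichotomy i n with hi | hi | hi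
  · have e : P'.coeff i * (D : ℂ) ^ (n - i) = ((D : ℂ) * P'.coeff i) * (D : ℂ) ^ (n - i - 1) := by
      have : n - i = (n - i - 1) + 1 := by omega
      rw [this, pow_succ]
      simp only [Nat.add_sub_cancel]
      ring
    rw [e]
    exact (hDi i (Finset.mem_range.mpr hi)).mul ((hnat D).pow _)
  · rw [hi, hn, hP'monic.coeff_natDegree, Nat.sub_self, pow_zero, mul_one]
    exact isIntegral_one
  · rw [Polynomial.coeff_eq_zero_of_natDegree_lt (by rw [← hn]; exact hi), zero_mul]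
    exact isIntegral_zero

/-- `ℤ_(ℓ) ⊆ OO ℓ`. -/
theorem ratCast_mem_OO {ℓ : ℕ} {c : ℚ} (hc : c ∈ GaloisRep.ratLocalizedAt ℓ) :
    (c : ℂ) ∈ OO ℓ := by
  refine ⟨c.den, hc, c.den_ne_zero, ?_⟩
  have e : ((c.den : ℂ)) * (c : ℂ) = ((c.num : ℤ) : ℂ) := by
    have h : ((c.den : ℚ) * c : ℚ) = (c.num : ℚ) := Rat.den_mul_eq_num c
    have h' : (((c.den : ℚ) * c : ℚ) : ℂ) = ((c.num : ℚ) : ℂ) := by rw [h]
    push_cast at h'
    exact h'
  rw [e]
  simpa using (isIntegral_algebraMap (R := ℤ) (A := ℂ) (x := c.num))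

/-! ### Values -/

/-- **INT.** A modular function of level `N` prime to `ℓ` whose expansion at infinity has
rational coefficients and lies in the Gauss ring at `ℓ` takes values in `OO ℓ` at all points
whose `j`-invariant lies in `OO ℓ`. -/
theorem value_mem_OO_of_gauss (N ℓ : ℕ) [NeZero N] [Fact ℓ.Prime] (hℓ : ¬ ℓ ∣ N)
    (φ : ℚ →+* ℂ) (xq : LaurentSeries ℚ) (f : ℍ → ℂ)
    (h1 : S24B.IsLaurentOf (coeffMap φ xq) f) (h2 : ModFun N f) (h3 : xq ∈ gaussRing ℓ)
    (τ : ℍ) (hj : jA τ ∈ OO ℓ) : f τ ∈ OO ℓ := by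
  obtain ⟨P, hP1, hP2, hP3⟩ := exists_monic_ratLoc_relation N ℓ hℓ φ xq f h1 h2 h3
  refine int_mem_OO_of_root (P' := (P.map (Polynomial.mapRingHom φ)).map
    (Polynomial.evalRingHom (jA τ))) ((hP1.map _).map _) (fun i => ?_) (hP3 τ)
  rw [Polynomial.coeff_map, Polynomial.coeff_map, Polynomial.coe_mapRingHom,
    Polynomial.coe_evalRingHom, Polynomial.eval_map, Polynomial.eval₂_eq_sum_range]
  refine Subring.sum_mem _ fun k _ => ?_
  refine (OO ℓ).mul_mem ?_ ((OO ℓ).pow_mem hj k)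
  rw [eq_ratCast φ]
  exact ratCast_mem_OO (hP2 i k)

/-- **INT, rational values.** If moreover the value is a rational number, it is `ℓ`-integral. -/
theorem ratLoc_of_value (N ℓ : ℕ) [NeZero N] [Fact ℓ.Prime] (hℓ : ¬ ℓ ∣ N)
    (φ : ℚ →+* ℂ) (xq : LaurentSeries ℚ) (f : ℍ → ℂ)
    (h1 : S24B.IsLaurentOf (coeffMap φ xq) f) (h2 : ModFun N f) (h3 : xq ∈ gaussRing ℓ)
    (τ : ℍ) (hj : jA τ ∈ OO ℓ) (r : ℚ) (hr : f τ = (r : ℂ)) :
    r ∈ GaloisRep.ratLocalizedAt ℓ := by
  refine mem_ratLocalizedAt_of_mem_OO r ?_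
  rw [← hr]
  exact value_mem_OO_of_gauss N ℓ hℓ φ xq f h1 h2 h3 τ hj

/-- **INT for integer expansions.** A modular function of level `N` whose expansion at infinity
has integer coefficients takes values in `OO ℓ` (for every prime `ℓ ∤ N`) at all points whose
`j`-invariant lies in `OO ℓ`. -/
theorem value_mem_OO_of_int (N ℓ : ℕ) [NeZero N] [Fact ℓ.Prime] (hℓ : ¬ ℓ ∣ N)
    (a : LaurentSeries ℤ) (f : ℍ → ℂ) (h1 : S24B.IsLaurentOf (iotaC a) f) (h2 : ModFun N f)
    (τ : ℍ) (hj : jA τ ∈ OO ℓ) : f τ ∈ OO ℓ := by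
  refine value_mem_OO_of_gauss N ℓ hℓ (algebraMap ℚ ℂ) (iotaQ a) f ?_ h2
    (iotaQ_mem_gaussRing ℓ a) τ hj
  have e : coeffMap (algebraMap ℚ ℂ) (iotaQ a) = iotaC a := by
    rw [iotaQ, iotaC, coeffMap_coeffMap]
    exact coeffMap_congr (RingHom.ext_int _ _) a
  rw [e]
  exact h1

/-- **INT for integer expansions, rational values.** -/
theorem ratLoc_of_value_int (N ℓ : ℕ) [NeZero N] [Fact ℓ.Prime] (hℓ : ¬ ℓ ∣ N)
    (a : LaurentSeries ℤ) (f : ℍ → ℂ) (h1 : S24B.IsLaurentOf (iotaC a) f) (h2 : ModFun N f)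
    (τ : ℍ) (hj : jA τ ∈ OO ℓ) (r : ℚ) (hr : f τ = (r : ℂ)) :
    r ∈ GaloisRep.ratLocalizedAt ℓ := by
  refine mem_ratLocalizedAt_of_mem_OO r ?_
  rw [← hr]
  exact value_mem_OO_of_int N ℓ hℓ a f h1 h2 τ hj

end Fermat.Agent.S16
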