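import Mathlib
import Fermat.Agent.S24.JLevel
import Fermat.Agent.S28.Formal
import Fermat.Agent.S28.Gauss
import Fermat.Agent.S16.IntPrinciple

/-!
# S16, block (U'): plumbing for the one-expansion arguments

* `Plumb.WF p k W` : `W : ℍ → ℂ` is holomorphic, `Γ₀(p)`-slash-invariant of weight `k` and bounded
  at all cusps (a function-level modular form); closed under `+`, `-`, `*`, `^`, `n •`,
  multiplication by constants; holds for `ModularForm (Gamma0 p) k` and for level-one forms.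
* `Plumb.LF p k a W` : moreover the `q`-expansion of `W` is the rational Laurent series `a`.
* `Plumb.WF.modFun_div` : `W / Δ` is a modular function of level `p` if `W` has weight `12`.
* `Plumb.ratLoc_of_LF` : **master lemma**.  If `W` has weight `12` and an `ℓ`-integral
  `q`-expansion (`ℓ ∤ p`), and `W τ = r Δ τ` with `r` rational at a point `τ` whose
  `j`-invariant is `ℓ`-integral, then `r` is `ℓ`-integral.
* `Plumb.LF.E4`, `Plumb.LF.E6`, `Plumb.LF.of_modularForm` : the basic inputs;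
  `Plumb.eis_rel` : `E₄³ - E₆² = 1728 Δ` for the formal series.
-/

set_option autoImplicit false

noncomputable section

namespace Fermat.Agent.S16.Plumb

open UpperHalfPlane hiding I
open Complex Filter ModularForm ModularFormClass EisensteinSeries SlashInvariantForm
  SlashInvariantFormClass
open scoped MatrixGroups ModularForm Topology Manifold
open ModularCurve Fermat.Agent.S24B Fermat.Agent.S28

/-! ### Function-level modular forms -/

/-- Function-level modular forms of weight `k` on `Γ₀(p)`. -/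
structure WF (p : ℕ) (k : ℤ) (W : ℍ → ℂ) : Prop where
  mdiff : MDiff W
  inv : ∀ γ : SL(2, ℤ), γ ∈ CongruenceSubgroup.Gamma0 p → W ∣[k] γ = W
  bdd : ∀ γ : SL(2, ℤ), IsBoundedAtImInfty (W ∣[k] γ)

namespace WF

variable {p : ℕ} {k k₁ k₂ : ℤ} {W W₁ W₂ : ℍ → ℂ}

theorem of_modularForm [NeZero p] (F : ModularForm (CongruenceSubgroup.Gamma0 p) k) :
    WF p k F where
  mdiff := ModularFormClass.holo F
  inv := fun γ hγ => by
    have hmem : (Matrix.SpecialLinearGroup.mapGL ℝ γ : GL (Fin 2) ℝ) ∈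
        ((CongruenceSubgroup.Gamma0 p : Subgroup SL(2, ℤ)) : Subgroup (GL (Fin 2) ℝ)) :=
      ⟨γ, hγ, rfl⟩
    rw [SL_slash]
    exact slash_action_eqn F _ hmem
  bdd := fun γ => ModularFormClass.bdd_at_infty_slash F γ

theorem of_levelOne (p : ℕ) (f : ModularForm 𝒮ℒ k) : WF p k f where
  mdiff := ModularFormClass.holo f
  inv := fun γ _ => ES.levelOne_slash_eq f γ
  bdd := fun γ => by
    rw [ES.levelOne_slash_eq f γ]
    exact ModularFormClass.bdd_at_infty f

theorem zero (p : ℕ) (k : ℤ) : WF p k 0 where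
  mdiff := mdifferentiable_const
  inv := fun γ _ => SlashAction.zero_slash _ _
  bdd := fun γ => by
    rw [SlashAction.zero_slash]
    exact Filter.const_boundedAtFilter atImInfty (0 : ℂ)

theorem add (h₁ : WF p k W₁) (h₂ : WF p k W₂) : WF p k (W₁ + W₂) where
  mdiff := h₁.mdiff.add h₂.mdiff
  inv := fun γ hγ => by rw [SlashAction.add_slash, h₁.inv γ hγ, h₂.inv γ hγ]
  bdd := fun γ => by
    rw [SlashAction.add_slash]
    exact (h₁.bdd γ).add (h₂.bdd γ)

theorem neg (h : WF p k W) : WF p k (-W) where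
  mdiff := h.mdiff.neg
  inv := fun γ hγ => by rw [SlashAction.neg_slash, h.inv γ hγ]
  bdd := fun γ => by
    rw [SlashAction.neg_slash]
    exact (h.bdd γ).neg_left

theorem sub (h₁ : WF p k W₁) (h₂ : WF p k W₂) : WF p k (W₁ - W₂) := by
  rw [sub_eq_add_neg]
  exact h₁.add h₂.neg

theorem mul (h₁ : WF p k₁ W₁) (h₂ : WF p k₂ W₂) {k : ℤ} (hk : k₁ + k₂ = k) :
    WF p k (W₁ * W₂) := by
  subst hk
  exact
    { mdiff := h₁.mdiff.mul h₂.mdiff
      inv := fun γ hγ => by rw [mul_slash_SL2, h₁.inv γ hγ, h₂.inv γ hγ]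
      bdd := fun γ => by
        rw [mul_slash_SL2]
        exact (h₁.bdd γ).mul (h₂.bdd γ) }

theorem const (p : ℕ) (c : ℂ) : WF p 0 (fun _ => c) where
  mdiff := mdifferentiable_const
  inv := fun γ _ => by
    funext τ
    rw [SL_slash_apply]
    simp
  bdd := fun γ => by
    have e : (fun _ : ℍ => c) ∣[(0 : ℤ)] γ = fun _ => c := by
      funext τ
      rw [SL_slash_apply]
      simp
    rw [e]
    exact Filter.const_boundedAtFilter atImInfty c

theorem const_mul (c : ℂ) (h : WF p k W) : WF p k (fun τ => c * W τ) :=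
  (const p c).mul h (zero_add k)

theorem pow (h : WF p k W) : ∀ (n : ℕ) {k' : ℤ}, (n : ℤ) * k = k' → WF p k' (W ^ n)
  | 0, k', hk => by
    have hk0 : k' = 0 := by rw [← hk]; simp
    subst hk0
    rw [pow_zero]
    exact const p 1
  | n + 1, k', hk => by
    rw [pow_succ]
    exact (h.pow n rfl).mul h (by rw [← hk]; push_cast; ring)

theorem nsmul (n : ℕ) (h : WF p k W) : WF p k (n • W) := by
  induction n with
  | zero =>
    rw [zero_smul]
    exact zero p k
  | succ n ih =>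
    rw [succ_nsmul]
    exact ih.add h

/-- A function-level modular form is `1`-periodic, holomorphic and bounded at `i∞`. -/
theorem isQHol (h : WF p k W) : IsQHol W where
  per := periodic_comp_ofComplex_of fun τ => by
    have hT : ModularGroup.T ∈ CongruenceSubgroup.Gamma0 p := by
      rw [CongruenceSubgroup.Gamma0_mem]
      simp [ModularGroup.T]
    have h1 := congrFun (h.inv _ hT) τ
    rw [SL_slash_apply] at h1
    have hd : denom (ModularGroup.T : SL(2, ℤ)) τ = 1 := by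
      rw [ModularGroup.denom_apply]
      simp [ModularGroup.T]
    rw [hd, one_zpow, mul_one, UpperHalfPlane.modular_T_smul] at h1
    exact h1
  hol := h.mdiff
  bdd := by
    have := h.bdd 1
    rwa [SlashAction.slash_one] at this

/-- A weight-`12` form divided by `Δ` is a modular function of level `p`. -/
theorem modFun_div (h : WF p 12 W) :
    S24.ModFun p (fun τ => W τ / ModularForm.discriminant τ) where
  mdiff := S24.mdiff_div h.mdiff S24.mdiff_discriminant discriminant_ne_zero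
  inv := fun γ hγ τ => by
    have h1 := congrFun (h.inv γ hγ) τ
    rw [SL_slash_apply] at h1
    have hd : denom γ τ ≠ 0 := denom_ne_zero γ τ
    rw [S24.discriminant_smul, ← h1, zpow_neg]
    have hΔ := discriminant_ne_zero τ
    have hz : denom γ τ ^ (12 : ℤ) ≠ 0 := zpow_ne_zero _ hd
    field_simp
  growth := fun γ => by
    refine ⟨1, ?_⟩
    have e : (fun τ : ℍ => W (γ • τ) / ModularForm.discriminant (γ • τ) *
        ModularForm.discriminant τ ^ 1) = W ∣[(12 : ℤ)] γ := by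
      funext τ
      rw [SL_slash_apply, S24.discriminant_smul, zpow_neg, pow_one]
      have hd : denom γ τ ≠ 0 := denom_ne_zero γ τ
      have hΔ := discriminant_ne_zero τ
      have hz : denom γ τ ^ (12 : ℤ) ≠ 0 := zpow_ne_zero _ hd
      field_simp
    rw [e]
    exact h.bdd γ

end WF

/-! ### Integer power series as Laurent series -/

/-- Integer power series as rational Laurent series. -/
def zQ : PowerSeries ℤ →+* LaurentSeries ℚ := iotaQ.comp (HahnSeries.ofPowerSeries ℤ ℤ)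

theorem zQ_mem_gaussRing (ℓ : ℕ) [Fact ℓ.Prime] (a : PowerSeries ℤ) : zQ a ∈ gaussRing ℓ :=
  iotaQ_mem_gaussRing ℓ _

theorem coeffMap_iotaQ (z : LaurentSeries ℤ) : coeffMap (algebraMap ℚ ℂ) (iotaQ z) = iotaC z := by
  rw [iotaQ, iotaC, coeffMap_coeffMap]
  exact coeffMap_congr (RingHom.ext_int _ _) z

theorem coeffMap_zQ (a : PowerSeries ℤ) :
    coeffMap (algebraMap ℚ ℂ) (zQ a) =
      HahnSeries.ofPowerSeries ℤ ℂ (a.map (Int.castRingHom ℂ)) := by
  change coeffMap (algebraMap ℚ ℂ) (iotaQ (HahnSeries.ofPowerSeries ℤ ℤ a)) = _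
  rw [coeffMap_iotaQ, iotaC, coeffMap_ofPowerSeries]

theorem coeffMap_injective : Function.Injective (coeffMap (algebraMap ℚ ℂ)) := by
  intro a b hab
  ext n
  have h := congrArg (fun s : LaurentSeries ℂ => s.coeff n) hab
  simp only [coeffMap_coeff] at h
  exact (algebraMap ℚ ℂ).injective h

instance charZero_laurentSeries_rat : CharZero (LaurentSeries ℚ) :=
  charZero_of_injective_algebraMap (algebraMap ℚ (LaurentSeries ℚ)).injective

theorem coeffMap_C (q : ℚ) :
    coeffMap (algebraMap ℚ ℂ) (HahnSeries.C q) = HahnSeries.C (q : ℂ) := by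
  change coeffMap (algebraMap ℚ ℂ) (HahnSeries.single 0 q) = HahnSeries.single 0 (q : ℂ)
  rw [coeffMap_single]
  simp

/-! ### Forms with rational expansions -/

/-- `W` is a function-level modular form of weight `k` on `Γ₀(p)` with `q`-expansion `a`. -/
structure LF (p : ℕ) (k : ℤ) (a : LaurentSeries ℚ) (W : ℍ → ℂ) : Prop where
  wf : WF p k W
  lau : IsLaurentOf (coeffMap (algebraMap ℚ ℂ) a) W

namespace LF

variable {p : ℕ} {k k₁ k₂ : ℤ} {a a₁ a₂ : LaurentSeries ℚ} {W W₁ W₂ : ℍ → ℂ}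

theorem zero (p : ℕ) (k : ℤ) : LF p k 0 0 where
  wf := WF.zero p k
  lau := by
    rw [map_zero]
    exact IsLaurentOf.zero

theorem add (h₁ : LF p k a₁ W₁) (h₂ : LF p k a₂ W₂) : LF p k (a₁ + a₂) (W₁ + W₂) where
  wf := h₁.wf.add h₂.wf
  lau := by
    rw [map_add]
    exact h₁.lau.add h₂.lau

theorem sub (h₁ : LF p k a₁ W₁) (h₂ : LF p k a₂ W₂) : LF p k (a₁ - a₂) (W₁ - W₂) where
  wf := h₁.wf.sub h₂.wf
  lau := by
    rw [map_sub]
    exact h₁.lau.sub h₂.lau

theorem mul (h₁ : LF p k₁ a₁ W₁) (h₂ : LF p k₂ a₂ W₂) {k : ℤ} (hk : k₁ + k₂ = k) :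
    LF p k (a₁ * a₂) (W₁ * W₂) where
  wf := h₁.wf.mul h₂.wf hk
  lau := by
    rw [map_mul]
    exact h₁.lau.mul h₂.lau

theorem pow (h : LF p k a W) (n : ℕ) {k' : ℤ} (hk : (n : ℤ) * k = k') :
    LF p k' (a ^ n) (W ^ n) where
  wf := h.wf.pow n hk
  lau := by
    rw [map_pow]
    exact h.lau.pow n

theorem nsmul (n : ℕ) (h : LF p k a W) : LF p k (n • a) (n • W) := by
  induction n with
  | zero =>
    rw [zero_smul, zero_smul]
    exact zero p k
  | succ n ih =>
    rw [succ_nsmul, succ_nsmul]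
    exact ih.add h

/-- Multiplication by a rational constant. -/
theorem const_mul (q : ℚ) (h : LF p k a W) :
    LF p k (HahnSeries.C q * a) (fun τ => (q : ℂ) * W τ) where
  wf := h.wf.const_mul _
  lau := by
    rw [map_mul, coeffMap_C]
    exact (IsLaurentOf.const (q : ℂ)).mul h.lau

/-- A modular form on `Γ₀(p)` with integer `q`-coefficients. -/
theorem of_modularForm [NeZero p] (F : ModularForm (CongruenceSubgroup.Gamma0 p) k)
    (c : PowerSeries ℤ)
    (hc : ∀ m : ℕ, (qExpansion 1 F).coeff m = ((PowerSeries.coeff m c : ℤ) : ℂ)) :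
    LF p k (zQ c) F where
  wf := WF.of_modularForm F
  lau := by
    have h := isLaurentOf_of_isQHol (WF.of_modularForm F).isQHol
    have e : qExpansion 1 (F : ℍ → ℂ) = c.map (Int.castRingHom ℂ) := by
      ext m
      rw [hc m, PowerSeries.coeff_map]
      rfl
    rw [coeffMap_zQ, ← e]
    exact h

/-- A level-one form with integer `q`-coefficients. -/
theorem of_levelOne (p : ℕ) (f : ModularForm 𝒮ℒ k) (c : PowerSeries ℤ)
    (hc : qExpansion 1 (f : ℍ → ℂ) = c.map (Int.castRingHom ℂ)) : LF p k (zQ c) f where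
  wf := WF.of_levelOne p f
  lau := by
    have h := isLaurentOf_of_isQHol (WF.of_levelOne p f).isQHol
    rw [coeffMap_zQ, ← hc]
    exact h

/-- The expansion of `W / Δ`. -/
theorem isLaurentOf_div (h : LF p 12 a W) :
    IsLaurentOf (coeffMap (algebraMap ℚ ℂ)
      (a * iotaQ ((deltaZ⁻¹ : (LaurentSeries ℤ)ˣ) : LaurentSeries ℤ)))
      (fun τ => W τ / ModularForm.discriminant τ) := by
  have h1 := h.lau.mul isLaurentOf_discriminant_inv
  rw [map_mul, coeffMap_iotaQ]
  have e : (fun τ => W τ / ModularForm.discriminant τ) =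
      W * fun τ : ℍ => (ModularForm.discriminant τ)⁻¹ := by
    funext τ
    rw [Pi.mul_apply, div_eq_mul_inv]
  rw [e]
  exact h1

end LF

/-- **Master lemma.** If `W` has weight `12` on `Γ₀(p)` and an `ℓ`-integral `q`-expansion
(`ℓ ∤ p`), and `W τ = r Δ τ` with `r` rational at a point `τ` whose `j`-invariant lies in `OO ℓ`,
then `r` is `ℓ`-integral. -/
theorem ratLoc_of_LF (p ℓ : ℕ) [NeZero p] [Fact ℓ.Prime] (hℓ : ¬ ℓ ∣ p) {a : LaurentSeries ℚ}
    {W : ℍ → ℂ} (h : LF p 12 a W) (ha : a ∈ gaussRing ℓ) (τ : ℍ) (hj : S24.jA τ ∈ OO ℓ)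
    (r : ℚ) (hr : W τ = (r : ℂ) * ModularForm.discriminant τ) :
    r ∈ GaloisRep.ratLocalizedAt ℓ := by
  refine ratLoc_of_value p ℓ hℓ (algebraMap ℚ ℂ) _ _ h.isLaurentOf_div h.wf.modFun_div
    ((gaussRing ℓ).mul_mem ha (iotaQ_mem_gaussRing ℓ _)) τ hj r ?_
  have hΔ := discriminant_ne_zero τ
  rw [hr]
  field_simp

/-- A fraction `a / b` with `ℓ ∣ b`, `ℓ ∤ a` is not `ℓ`-integral. -/
theorem not_mem_ratLoc (ℓ : ℕ) [Fact ℓ.Prime] (a : ℤ) (b : ℕ) (hb0 : b ≠ 0) (hb : ℓ ∣ b)
    (ha : ¬ (ℓ : ℤ) ∣ a) : ((a : ℚ) / (b : ℚ)) ∉ GaloisRep.ratLocalizedAt ℓ := by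
  intro hmem
  set q : ℚ := (a : ℚ) / (b : ℚ) with hq
  have hcop : q.den.Coprime ℓ := hmem
  have h1 : (q.den : ℚ) * q = (q.num : ℚ) := Rat.den_mul_eq_num q
  have hbQ : (b : ℚ) ≠ 0 := by exact_mod_cast hb0
  have h2 : (q.den : ℚ) * (a : ℚ) = (q.num : ℚ) * (b : ℚ) := by
    rw [← h1, hq]
    field_simp
  have h3 : (q.den : ℤ) * a = q.num * (b : ℤ) := by exact_mod_cast h2
  have hprime : Prime (ℓ : ℤ) := Nat.prime_iff_prime_int.mp (Fact.out : ℓ.Prime)
  have h4 : (ℓ : ℤ) ∣ (q.den : ℤ) * a := by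
    rw [h3]
    exact Dvd.dvd.mul_left (by exact_mod_cast hb) _
  rcases hprime.dvd_mul.mp h4 with h5 | h5
  · have h6 : ℓ ∣ q.den := by exact_mod_cast h5
    have h7 := Nat.Coprime.eq_one_of_dvd hcop.symm h6
    exact (Fact.out : ℓ.Prime).one_lt.ne' h7
  · exact ha h5

/-! ### The basic inputs: `E₄`, `E₆` -/

/-- `∑ σ₃(n) qⁿ`. -/
def s3 : PowerSeries ℤ := PowerSeries.mk fun n => if n = 0 then 0 else ∑ d ∈ n.divisors, (d : ℤ) ^ 3

/-- `∑ σ₅(n) qⁿ`. -/
def s5 : PowerSeries ℤ := PowerSeries.mk fun n => if n = 0 then 0 else ∑ d ∈ n.divisors, (d : ℤ) ^ 5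

/-- The formal `E₄ = 1 + 240 ∑ σ₃(n) qⁿ`. -/
def e4 : PowerSeries ℤ := 1 + 240 * s3

/-- The formal `E₆ = 1 - 504 ∑ σ₅(n) qⁿ`. -/
def e6 : PowerSeries ℤ := 1 - 504 * s5

theorem qExpansion_E4' : qExpansion 1 (E₄ : ℍ → ℂ) = e4.map (Int.castRingHom ℂ) := by
  ext m
  have h := E_qExpansion_coeff (k := 4) (by norm_num) (by decide) m
  rw [h, PowerSeries.coeff_map, e4, s3]
  have hb : bernoulli 4 = -1 / 30 := by
    rw [bernoulli_eq_bernoulli'_of_ne_one (by norm_num), bernoulli'_four]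
  by_cases hm : m = 0
  · simp [hm]
  · have hC : (240 : PowerSeries ℤ) = PowerSeries.C (240 : ℤ) := by simp
    rw [if_neg hm, hb, map_add, hC, PowerSeries.coeff_C_mul, PowerSeries.coeff_mk, if_neg hm,
      PowerSeries.coeff_one, if_neg hm, ArithmeticFunction.sigma_apply]
    simp only [eq_intCast]
    push_cast
    ring

theorem qExpansion_E6' : qExpansion 1 (E₆ : ℍ → ℂ) = e6.map (Int.castRingHom ℂ) := by
  ext m
  have h := E_qExpansion_coeff (k := 6) (by norm_num) (by decide) m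
  rw [h, PowerSeries.coeff_map, e6, s5]
  have hb : bernoulli 6 = 1 / 42 := by decide +kernel
  by_cases hm : m = 0
  · simp [hm]
  · have hC : (504 : PowerSeries ℤ) = PowerSeries.C (504 : ℤ) := by simp
    rw [if_neg hm, hb, map_sub, hC, PowerSeries.coeff_C_mul, PowerSeries.coeff_mk, if_neg hm,
      PowerSeries.coeff_one, if_neg hm, ArithmeticFunction.sigma_apply]
    simp only [eq_intCast]
    push_cast
    ring

theorem LF.E4 (p : ℕ) : LF p 4 (zQ e4) E₄ := LF.of_levelOne p E₄ e4 qExpansion_E4'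

theorem LF.E6 (p : ℕ) : LF p 6 (zQ e6) E₆ := LF.of_levelOne p E₆ e6 qExpansion_E6'

/-- The formal identity `E₄³ - E₆² = 1728 Δ`. -/
theorem eis_rel :
    zQ e4 ^ 3 - zQ e6 ^ 2 = 1728 * iotaQ ((deltaZ : (LaurentSeries ℤ)ˣ) : LaurentSeries ℤ) := by
  apply coeffMap_injective
  have h4 := ((LF.E4 1).lau.pow 3).sub ((LF.E6 1).lau.pow 2)
  have hΔ := (IsLaurentOf.const (1728 : ℂ)).mul isLaurentOf_discriminant
  have e : ((E₄ : ℍ → ℂ) ^ 3 - (E₆ : ℍ → ℂ) ^ 2) =
      (fun _ : ℍ => (1728 : ℂ)) * fun τ : ℍ => ModularForm.discriminant τ := by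
    funext τ
    simp only [Pi.sub_apply, Pi.pow_apply, Pi.mul_apply]
    rw [discriminant_eq_E₄_cube_sub_E₆_sq τ]
    ring
  rw [e] at h4
  have h5 := h4.unique_left hΔ
  rw [map_sub, map_pow, map_pow, h5, map_mul, coeffMap_iotaQ]
  congr 1
  rw [map_ofNat, map_ofNat]

end Fermat.Agent.S16.Plumb
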