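import Mathlib
import Fermat.Agent.S28.ConjExp
import Fermat.Agent.S16.Plumb
import Fermat.Agent.S16.Fricke14

/-!
# S16, leaf [HX]: the modular function `h = Ψ⁶ / Δ⁷` and its two Laurent expansions

For `Ψ ∈ S₁₄(Γ₀(p))`:

* `hx_modFun` : `h = Ψ⁶/Δ⁷` is a modular function of level `Γ₀(p)` (weight `84 = 6·14 = 7·12`);
* `hx_isLaurentOf` : its expansion at `∞` is `(∑ a_n qⁿ)⁶ · (Δ⁻¹)⁷`;
* `hx_isLaurentOf_fricke` : the expansion of `h(-1/(pτ))` is
  `p⁻⁷⁸ (∑ a_{pn} qⁿ)⁶ · (Δ⁻¹(q^p))⁷`  (weight-14 Fricke, `Fricke14.lean`).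
-/

set_option autoImplicit false

noncomputable section

namespace Fermat.Agent.S16

open UpperHalfPlane hiding I
open ModularForm Function ModularCurve
open Fermat.Agent Fermat.Agent.S24
open scoped Real MatrixGroups ModularForm Manifold

/-- Cusp forms on `Γ₀(p)` are function-level modular forms in the sense of `Plumb.WF`. -/
theorem hx_wf_cuspForm {p : ℕ} [NeZero p] {k : ℤ}
    (F : CuspForm (CongruenceSubgroup.Gamma0 p) k) : Plumb.WF p k F where
  mdiff := CuspFormClass.holo F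
  inv := fun γ hγ => by
    have hmem : (Matrix.SpecialLinearGroup.mapGL ℝ γ : GL (Fin 2) ℝ) ∈
        ((CongruenceSubgroup.Gamma0 p : Subgroup SL(2, ℤ)) : Subgroup (GL (Fin 2) ℝ)) :=
      ⟨γ, hγ, rfl⟩
    rw [SL_slash]
    exact SlashInvariantForm.slash_action_eqn F _ hmem
  bdd := fun γ => ModularFormClass.bdd_at_infty_slash F γ

theorem hx_mdiff_discriminant_pow (m : ℕ) :
    MDiff (fun τ : ℍ => ModularForm.discriminant τ ^ m) := by
  induction m with
  | zero => simpa using (mdifferentiable_const : MDiff (fun _ : ℍ => (1 : ℂ)))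
  | succ m ih =>
    have h := ih.mul S24.mdiff_discriminant
    have e : (fun τ : ℍ => ModularForm.discriminant τ ^ (m + 1)) =
        (fun τ : ℍ => ModularForm.discriminant τ ^ m) * ModularForm.discriminant := by
      funext τ
      rw [Pi.mul_apply, pow_succ]
    rw [e]
    exact h

/-- A weight-`12 m` function-level form divided by `Δ^m` is a modular function of level `p`. -/
theorem hx_modFun_div_pow {p : ℕ} {W : ℍ → ℂ} (m : ℕ) {k : ℤ} (hk : k = 12 * (m : ℤ))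
    (h : Plumb.WF p k W) :
    S24.ModFun p (fun τ => W τ / ModularForm.discriminant τ ^ m) where
  mdiff := S24.mdiff_div h.mdiff (hx_mdiff_discriminant_pow m)
    (fun τ => pow_ne_zero _ (discriminant_ne_zero τ))
  inv := fun γ hγ τ => by
    have h1 := congrFun (h.inv γ hγ) τ
    rw [SL_slash_apply] at h1
    have hd : denom γ τ ≠ 0 := denom_ne_zero γ τ
    have hΔ := discriminant_ne_zero τ
    have hz : denom γ τ ^ ((12 : ℤ) * (m : ℤ)) ≠ 0 := zpow_ne_zero _ hd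
    have e : (denom γ τ ^ (12 : ℤ) * ModularForm.discriminant τ) ^ m =
        denom γ τ ^ ((12 : ℤ) * (m : ℤ)) * ModularForm.discriminant τ ^ m := by
      rw [mul_pow, ← zpow_natCast (denom γ τ ^ (12 : ℤ)) m, ← zpow_mul]
    rw [S24.discriminant_smul, e, ← h1, hk, zpow_neg]
    field_simp
  growth := fun γ => by
    refine ⟨m, ?_⟩
    have e : (fun τ : ℍ => W (γ • τ) / ModularForm.discriminant (γ • τ) ^ m *
        ModularForm.discriminant τ ^ m) = W ∣[k] γ := by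
      funext τ
      have hd : denom γ τ ≠ 0 := denom_ne_zero γ τ
      have hΔ := discriminant_ne_zero τ
      have hz : denom γ τ ^ ((12 : ℤ) * (m : ℤ)) ≠ 0 := zpow_ne_zero _ hd
      have e : (denom γ τ ^ (12 : ℤ) * ModularForm.discriminant τ) ^ m =
          denom γ τ ^ ((12 : ℤ) * (m : ℤ)) * ModularForm.discriminant τ ^ m := by
        rw [mul_pow, ← zpow_natCast (denom γ τ ^ (12 : ℤ)) m, ← zpow_mul]
      rw [SL_slash_apply, S24.discriminant_smul, e, hk, zpow_neg]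
      field_simp
    rw [e]
    exact h.bdd γ

/-- **[HX](a).** `Ψ⁶/Δ⁷` is a modular function of level `Γ₀(p)`. -/
theorem hx_modFun (p : ℕ) [Fact p.Prime] (Ψ : CuspForm (CongruenceSubgroup.Gamma0 p) 14) :
    S24.ModFun p (fun τ => Ψ τ ^ 6 / ModularForm.discriminant τ ^ 7) := by
  have : NeZero p := ⟨(Fact.out : p.Prime).ne_zero⟩
  exact hx_modFun_div_pow 7 (k := 84) (by norm_num)
    ((hx_wf_cuspForm Ψ).pow 6 (by norm_num))

/-- **[HX](b).** The expansion of `Ψ⁶/Δ⁷` at `∞`. -/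
theorem hx_isLaurentOf (p : ℕ) [Fact p.Prime] (Ψ : CuspForm (CongruenceSubgroup.Gamma0 p) 14) :
    S24B.IsLaurentOf
      (HahnSeries.ofPowerSeries ℤ ℂ (qExpansion 1 (Ψ : ℍ → ℂ)) ^ 6 *
        S28.iotaC ((S28.deltaZ⁻¹ : (LaurentSeries ℤ)ˣ) : LaurentSeries ℤ) ^ 7)
      (fun τ => Ψ τ ^ 6 / ModularForm.discriminant τ ^ 7) := by
  have h := ((isLaurentOf_cuspForm p Ψ).pow 6).mul (S28.isLaurentOf_discriminant_inv.pow 7)
  have e : ((Ψ : ℍ → ℂ) ^ 6 * (fun τ : ℍ => (ModularForm.discriminant τ)⁻¹) ^ 7) =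
      fun τ => Ψ τ ^ 6 / ModularForm.discriminant τ ^ 7 := by
    funext τ
    simp only [Pi.mul_apply, Pi.pow_apply, inv_pow]
    rw [div_eq_mul_inv]
  rwa [e] at h

/-- Pointwise form of the expansion at the cusp `0`:
`h(-1/(pτ)) = p⁻⁷⁸ (U_pΨ)(τ)⁶ / Δ(pτ)⁷`. -/
theorem hx_fricke_apply (p : ℕ) [Fact p.Prime] (Ψ : CuspForm (CongruenceSubgroup.Gamma0 p) 14)
    (τ : ℍ) :
    Ψ (S28A.fricke p τ) ^ 6 / ModularForm.discriminant (S28A.fricke p τ) ^ 7 =
      ((p : ℂ) ^ 78)⁻¹ * (ModularForm.heckeU 14 p (Ψ : ℍ → ℂ) τ ^ 6 *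
        ((ModularForm.discriminant (heckeDiagMatrix p • τ))⁻¹) ^ 7) := by
  have hp' : p ≠ 0 := (Fact.out : p.Prime).ne_zero
  have : NeZero p := ⟨hp'⟩
  have hp : (p : ℂ) ≠ 0 := by exact_mod_cast hp'
  have hτ : (τ : ℂ) ≠ 0 := UpperHalfPlane.ne_zero τ
  have hΔ : ModularForm.discriminant (heckeDiagMatrix p • τ) ≠ 0 := discriminant_ne_zero _
  rw [fricke14, S28A.discriminant_fricke]
  unfold S28A.dS
  field_simp

/-- **[HX](c).** The expansion of `h(-1/(pτ))`, `h = Ψ⁶/Δ⁷`. -/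
theorem hx_isLaurentOf_fricke (p : ℕ) [Fact p.Prime]
    (Ψ : CuspForm (CongruenceSubgroup.Gamma0 p) 14) :
    S24B.IsLaurentOf
      (HahnSeries.C (((p : ℂ) ^ 78)⁻¹) *
        (HahnSeries.ofPowerSeries ℤ ℂ
            (PowerSeries.mk fun n => (qExpansion 1 (Ψ : ℍ → ℂ)).coeff (n * p)) ^ 6 *
          ModularCurve.qExpand ℂ p
            (S28.iotaC ((S28.deltaZ⁻¹ : (LaurentSeries ℤ)ˣ) : LaurentSeries ℤ)) ^ 7))
      (fun τ => Ψ (S28A.fricke p τ) ^ 6 / ModularForm.discriminant (S28A.fricke p τ) ^ 7) := by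
  have hp' : p ≠ 0 := (Fact.out : p.Prime).ne_zero
  have : NeZero p := ⟨hp'⟩
  have hΔ := S28.isLaurentOf_discriminant_inv.scale (d := p)
    (D := fun τ => heckeDiagMatrix p • τ) (S28.coe_dFun p)
  have h := (S24B.IsLaurentOf.const (((p : ℂ) ^ 78)⁻¹)).mul
    (((isLaurentOf_heckeU14 p Ψ).pow 6).mul (hΔ.pow 7))
  have e : ((fun _ : ℍ => ((p : ℂ) ^ 78)⁻¹) * (ModularForm.heckeU 14 p (Ψ : ℍ → ℂ) ^ 6 *
      ((fun τ : ℍ => (ModularForm.discriminant τ)⁻¹) ∘ fun τ => heckeDiagMatrix p • τ) ^ 7)) =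
      fun τ => Ψ (S28A.fricke p τ) ^ 6 / ModularForm.discriminant (S28A.fricke p τ) ^ 7 := by
    funext τ
    rw [hx_fricke_apply]
    rfl
  rwa [e] at h

end Fermat.Agent.S16
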