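import Fermat.Agent.S16.Defs
import Fermat.Agent.ES.Final
import Fermat.Agent.S22.Hecke
import Fermat.Agent.S23

/-!
# S16 (L-B): from the integral Shimura lift to the Eisenstein character of the Hecke algebra

Input: an integral parabolic homomorphism `ψ : Γ₀(p) → ℤ` lifting the Shimura character, in
either of two shapes (`eisenstein_character_of_shimura_lift`: `ψ ≡ lam (a_γ)` modulo
`n = eisensteinNumerator p`; `eisenstein_character_of_parabolic_lift`: `g ^ ψ γ = d_γ ^ 12` in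
`(ℤ/p)ˣ`).
Output: the Eisenstein character, a ring homomorphism `𝕋 → ℤ/n` with `T_ℓ ↦ 1 + ℓ`, `U_p ↦ 1`
(leaf (L) of S16).

Method: Eichler–Shimura (S21) writes `ψ` through periods of cusp forms; the Hecke operators act on
periods through explicit coset correspondences (S22 `period_hecke` in weight two), under which
`lam ∘ a` is an eigenvector with the Eisenstein eigenvalues. A polynomial `P` in the Hecke
operators killing all cusp forms therefore has `P(eisenstein) = 0` in `ℤ/n`.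
-/

set_option autoImplicit false

namespace Fermat.Agent.S16

open UpperHalfPlane hiding I
open Real Complex Filter CongruenceSubgroup
open scoped Manifold MatrixGroups ModularForm Topology Polynomial
open Derivative
open ModularCurve ModularCurve.Period CuspForm
open P2MW.S_ModularForm_heckeT_slash_eq_self_of_mem_Gamma0.ModularForm.HeckeSlashInvariance

variable {N : ℕ}

/-! ### The bridge between S22 (Eichler integrals) and ES (period map) in weight two -/

/-- bridge: the weight-two Eichler integral of S22 is `2πi` times the primitive of ES. -/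
theorem hh_eichler_zero_eq (f : CuspForm (Gamma0 N) 2) :
    S22.eichler (N := N) 0 f = (2 * (π : ℂ) * I) • ES.prim N f := by
  refine S22.eichler_unique one_pos 1 (S22.eichler_cuspidal 0 f) ((ES.prim_cuspidal f).smul _) ?_
  have h := S22.iterate_D_smul 1 (2 * (π : ℂ) * I) (ES.prim_mdiff f)
  have h1 := S22.iterate_D_eichler (N := N) 0 f
  simp only [Function.iterate_one, zero_add] at h h1 ⊢
  rw [h, ES.D_prim, h1, smul_smul, mul_inv_cancel₀ Complex.two_pi_I_ne_zero, one_smul]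

/-- the weight-two period polynomial of S22 is the constant `2πi · periodMap`. -/
theorem hh_period_zero_eq [NeZero N] (f : CuspForm (Gamma0 N) 2) (γ : Gamma0 N) :
    S22.period (N := N) 0 f γ =
      Polynomial.C ((2 * (π : ℂ) * I) * periodMap N f (Additive.ofMul γ)) := by
  apply S22.period_eq_of_eval
  intro τ
  rw [Polynomial.eval_C, hh_eichler_zero_eq, ES.periodMap_apply_prim f γ τ]
  have h0 : (-((0 : ℕ) : ℤ)) = 0 := by simp
  rw [h0, ES.slash_zero_apply]
  simp only [Pi.smul_apply, smul_eq_mul]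
  ring

section abstract

variable {ι : Type} [Fintype ι] (α : ι → GL (Fin 2) ℝ) (a b d : ι → ℤ) (Dt : ℕ)
  (T : CuspForm (Gamma0 N) 2 →ₗ[ℂ] CuspForm (Gamma0 N) 2)

/-- the period homomorphism of `T f` for a Hecke-type operator given by upper triangular
cosets. -/
theorem hh_periodMap_hecke [NeZero N] (hDt : 0 < Dt)
    (h00 : ∀ i, (α i) 0 0 = a i) (h01 : ∀ i, (α i) 0 1 = b i) (h10 : ∀ i, (α i) 1 0 = 0)
    (h11 : ∀ i, (α i) 1 1 = d i) (hdet : ∀ i, (α i).val.det = (Dt : ℝ))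
    (hT : ∀ f : CuspForm (Gamma0 N) 2, (⇑(T f) : ℍ → ℂ) = ∑ i, (⇑f) ∣[(2 : ℤ)] α i)
    (γ : Gamma0 N) (σ : Equiv.Perm ι) (γ' : ι → Gamma0 N)
    (hcos : ∀ i, α i * Matrix.SpecialLinearGroup.mapGL ℝ (γ : SL(2, ℤ)) =
      Matrix.SpecialLinearGroup.mapGL ℝ (γ' i : SL(2, ℤ)) * α (σ i))
    (f : CuspForm (Gamma0 N) 2) :
    periodMap N (T f) (Additive.ofMul γ) = ∑ i, periodMap N f (Additive.ofMul (γ' i)) := by
  have h := S22.period_hecke (N := N) 0 α a b d Dt T hDt h00 h01 h10 h11 hdet hT γ σ γ' hcos f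
  rw [hh_period_zero_eq] at h
  have h2 : ∀ i, S22.polySlash 0 ((a (σ i) : ℤ) : ℂ) ((b (σ i) : ℤ) : ℂ) 0 ((d (σ i) : ℤ) : ℂ)
      (S22.period (N := N) 0 f (γ' i)) =
      Polynomial.C ((2 * (π : ℂ) * I) * periodMap N f (Additive.ofMul (γ' i))) := by
    intro i
    rw [hh_period_zero_eq]
    simp [S22.polySlash]
  rw [Finset.sum_congr rfl (fun i _ => h2 i), ← map_sum, Polynomial.C_inj, ← Finset.mul_sum] at h
  exact mul_left_cancel₀ Complex.two_pi_I_ne_zero h

omit [Fintype ι] in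
/-- the upper left entries in a coset relation. -/
theorem hh_entry (h00 : ∀ i, (α i) 0 0 = a i) (h01 : ∀ i, (α i) 0 1 = b i)
    (h10 : ∀ i, (α i) 1 0 = 0) (g g' : SL(2, ℤ)) (i j : ι)
    (hcos : α i * Matrix.SpecialLinearGroup.mapGL ℝ g =
      Matrix.SpecialLinearGroup.mapGL ℝ g' * α j) :
    a i * g 0 0 + b i * g 1 0 = g' 0 0 * a j := by
  have h := congrArg (fun M : GL (Fin 2) ℝ => M 0 0) hcos
  simp only [Matrix.GeneralLinearGroup.coe_mul, Matrix.mul_apply, Fin.sum_univ_two, h00, h01,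
    h10, mapGL_apply, mul_zero, add_zero] at h
  exact_mod_cast h

/-- `lam ∘ (upper left entry)` is multiplied by the number of cosets under a Hecke-type
correspondence whose coset representatives have upper left entries prime to `p`. -/
theorem hh_sum_lam {p : ℕ} [Fact p.Prime] {A : Type*} [AddCommGroup A]
    (h00 : ∀ i, (α i) 0 0 = a i) (h01 : ∀ i, (α i) 0 1 = b i) (h10 : ∀ i, (α i) 1 0 = 0)
    (ha : ∀ i, ((a i : ℤ) : ZMod p) ≠ 0)
    (lam : ZMod p → A) (hlam : ∀ x y, x ≠ 0 → y ≠ 0 → lam (x * y) = lam x + lam y)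
    (γ : Gamma0 p) (σ : Equiv.Perm ι) (γ' : ι → Gamma0 p)
    (hcos : ∀ i, α i * Matrix.SpecialLinearGroup.mapGL ℝ (γ : SL(2, ℤ)) =
      Matrix.SpecialLinearGroup.mapGL ℝ (γ' i : SL(2, ℤ)) * α (σ i)) :
    ∑ i, lam ((((γ' i : SL(2, ℤ)) 0 0 : ℤ) : ZMod p)) =
      Fintype.card ι • lam ((((γ : SL(2, ℤ)) 0 0 : ℤ) : ZMod p)) := by
  have hne : ∀ δ : Gamma0 p, ((((δ : SL(2, ℤ)) 0 0 : ℤ) : ZMod p)) ≠ 0 := by
    intro δ h
    have h1 := unit_of_apply_one_zero_eq_zero (δ : SL(2, ℤ)) (Gamma0_mem.mp δ.2)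
    rw [h, zero_mul] at h1
    exact zero_ne_one h1
  have key : ∀ i, lam ((((γ' i : SL(2, ℤ)) 0 0 : ℤ) : ZMod p)) =
      lam ((((γ : SL(2, ℤ)) 0 0 : ℤ) : ZMod p)) + lam ((a i : ℤ) : ZMod p)
        - lam ((a (σ i) : ℤ) : ZMod p) := by
    intro i
    have h1 := hh_entry α a b h00 h01 h10 (γ : SL(2, ℤ)) (γ' i : SL(2, ℤ)) i (σ i) (hcos i)
    have h2 := congrArg (Int.cast : ℤ → ZMod p) h1
    push_cast at h2
    rw [Gamma0_mem.mp γ.2, mul_zero, add_zero] at h2
    have h3 := congrArg lam h2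
    rw [hlam _ _ (ha i) (hne γ), hlam _ _ (hne (γ' i)) (ha (σ i))] at h3
    rw [eq_sub_iff_add_eq, ← h3, add_comm]
  rw [Finset.sum_congr rfl (fun i _ => key i), Finset.sum_sub_distrib, Finset.sum_add_distrib,
    Equiv.sum_comp σ (fun i => lam ((a i : ℤ) : ZMod p)), add_sub_cancel_right,
    Finset.sum_const, Finset.card_univ]

end abstract

/-! ### The concrete coset data of `T_ℓ` and `U_q` -/

section cosetsT

variable {ℓ : ℕ} [Fact ℓ.Prime]

/-- upper left entries of the representatives of `T_ℓ`. -/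
def hhA (ℓ : ℕ) (x : OnePoint (ZMod ℓ)) : ℤ := x.elim (ℓ : ℤ) (fun _ => 1)

/-- upper right entries of the representatives of `T_ℓ`. -/
def hhB (ℓ : ℕ) (x : OnePoint (ZMod ℓ)) : ℤ := x.elim 0 (fun j => (j.val : ℤ))

/-- lower right entries of the representatives of `T_ℓ`. -/
def hhD (ℓ : ℕ) (x : OnePoint (ZMod ℓ)) : ℤ := x.elim 1 (fun _ => (ℓ : ℤ))

theorem hh_heckeRep_00 (x : OnePoint (ZMod ℓ)) : (heckeRep ℓ x) 0 0 = hhA ℓ x := by
  have hp0 : ℓ ≠ 0 := (Fact.out : ℓ.Prime).ne_zero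
  induction x using OnePoint.rec with
  | infty => simp [hhA, heckeRep, ModularForm.val_heckeDiagMatrix hp0]
  | coe j => simp [hhA, heckeRep, ModularForm.val_heckeMatrix hp0]

theorem hh_heckeRep_01 (x : OnePoint (ZMod ℓ)) : (heckeRep ℓ x) 0 1 = hhB ℓ x := by
  have hp0 : ℓ ≠ 0 := (Fact.out : ℓ.Prime).ne_zero
  induction x using OnePoint.rec with
  | infty => simp [hhB, heckeRep, ModularForm.val_heckeDiagMatrix hp0]
  | coe j => simp [hhB, heckeRep, ModularForm.val_heckeMatrix hp0]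

theorem hh_heckeRep_10 (x : OnePoint (ZMod ℓ)) : (heckeRep ℓ x) 1 0 = 0 := by
  have hp0 : ℓ ≠ 0 := (Fact.out : ℓ.Prime).ne_zero
  induction x using OnePoint.rec with
  | infty => simp [heckeRep, ModularForm.val_heckeDiagMatrix hp0]
  | coe j => simp [heckeRep, ModularForm.val_heckeMatrix hp0]

theorem hh_heckeRep_11 (x : OnePoint (ZMod ℓ)) : (heckeRep ℓ x) 1 1 = hhD ℓ x := by
  have hp0 : ℓ ≠ 0 := (Fact.out : ℓ.Prime).ne_zero
  induction x using OnePoint.rec with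
  | infty => simp [hhD, heckeRep, ModularForm.val_heckeDiagMatrix hp0]
  | coe j => simp [hhD, heckeRep, ModularForm.val_heckeMatrix hp0]

theorem hh_heckeRep_det (x : OnePoint (ZMod ℓ)) : (heckeRep ℓ x).val.det = (ℓ : ℝ) := by
  have hp0 : ℓ ≠ 0 := (Fact.out : ℓ.Prime).ne_zero
  rw [← Matrix.GeneralLinearGroup.val_det_apply]
  induction x using OnePoint.rec with
  | infty => exact ModularForm.det_heckeDiagMatrix hp0
  | coe j => exact ModularForm.det_heckeMatrix hp0 _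

/-- existence of the coset correspondence of `T_ℓ`. -/
theorem hh_exists_cosets_T (hℓN : ¬ ℓ ∣ N) (γ : Gamma0 N) :
    ∃ (σ : Equiv.Perm (OnePoint (ZMod ℓ))) (γ' : OnePoint (ZMod ℓ) → Gamma0 N),
      ∀ x, heckeRep ℓ x * Matrix.SpecialLinearGroup.mapGL ℝ (γ : SL(2, ℤ)) =
        Matrix.SpecialLinearGroup.mapGL ℝ (γ' x : SL(2, ℤ)) * heckeRep ℓ (σ x) := by
  have hg : (N : ℤ) ∣ (γ : SL(2, ℤ)) 1 0 :=
    (ZMod.intCast_zmod_eq_zero_iff_dvd _ _).mp (Gamma0_mem.mp γ.2)
  choose g' hg'N hmul using fun x => heckeRep_mul hℓN (γ : SL(2, ℤ)) hg x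
  exact ⟨MulAction.toPerm (redMatrix ℓ (γ : SL(2, ℤ))),
    fun x => ⟨g' x, Gamma0_mem.mpr ((ZMod.intCast_zmod_eq_zero_iff_dvd _ _).mpr (hg'N x))⟩,
    fun x => hmul x⟩

/-- periods of `T_ℓ f`. -/
theorem hh_periodMap_heckeT [NeZero N] (hℓN : ¬ ℓ ∣ N)
    (γ : Gamma0 N) (σ : Equiv.Perm (OnePoint (ZMod ℓ))) (γ' : OnePoint (ZMod ℓ) → Gamma0 N)
    (hcos : ∀ x, heckeRep ℓ x * Matrix.SpecialLinearGroup.mapGL ℝ (γ : SL(2, ℤ)) =
      Matrix.SpecialLinearGroup.mapGL ℝ (γ' x : SL(2, ℤ)) * heckeRep ℓ (σ x))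
    (f : CuspForm (Gamma0 N) 2) :
    periodMap N (CuspForm.heckeTLin 2 (Fact.out : ℓ.Prime) hℓN f) (Additive.ofMul γ) =
      ∑ x, periodMap N f (Additive.ofMul (γ' x)) := by
  refine hh_periodMap_hecke (heckeRep ℓ) (hhA ℓ) (hhB ℓ) (hhD ℓ) ℓ _ (Fact.out : ℓ.Prime).pos
    hh_heckeRep_00 hh_heckeRep_01 hh_heckeRep_10 hh_heckeRep_11 hh_heckeRep_det ?_ γ σ γ' hcos f
  intro f
  rw [CuspForm.coe_heckeTLin_apply, heckeT_eq_sum_onePoint]

end cosetsT

section cosetsU

variable {q : ℕ} [NeZero q]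

/-- existence of the coset correspondence of `U_q`. -/
theorem hh_exists_cosets_U (hqN : q ∣ N) (γ : Gamma0 N) :
    ∃ (σ : Equiv.Perm (ZMod q)) (γ' : ZMod q → Gamma0 N),
      ∀ x : ZMod q, ModularForm.heckeMatrix q x.val *
          Matrix.SpecialLinearGroup.mapGL ℝ (γ : SL(2, ℤ)) =
        Matrix.SpecialLinearGroup.mapGL ℝ (γ' x : SL(2, ℤ)) *
          ModularForm.heckeMatrix q (σ x).val := by
  have hcN : (N : ℤ) ∣ (γ : SL(2, ℤ)) 1 0 :=
    (ZMod.intCast_zmod_eq_zero_iff_dvd _ _).mp (Gamma0_mem.mp γ.2)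
  have hc : (q : ℤ) ∣ (γ : SL(2, ℤ)) 1 0 := (Int.natCast_dvd_natCast.mpr hqN).trans hcN
  choose g' hg' hmul using fun x => heckeMatrix_mul_of_dvd (γ : SL(2, ℤ)) hc x
  refine ⟨affinePerm (γ : SL(2, ℤ)) ((ZMod.intCast_zmod_eq_zero_iff_dvd _ _).mpr hc),
    fun x => ⟨g' x, ?_⟩, fun x => hmul x⟩
  rw [Gamma0_mem, hg' x]
  push_cast
  rw [Gamma0_mem.mp γ.2, mul_zero]

/-- periods of `U_q f`. -/
theorem hh_periodMap_heckeU [NeZero N] (hqN : q ∣ N)
    (γ : Gamma0 N) (σ : Equiv.Perm (ZMod q)) (γ' : ZMod q → Gamma0 N)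
    (hcos : ∀ x : ZMod q, ModularForm.heckeMatrix q x.val *
        Matrix.SpecialLinearGroup.mapGL ℝ (γ : SL(2, ℤ)) =
      Matrix.SpecialLinearGroup.mapGL ℝ (γ' x : SL(2, ℤ)) *
        ModularForm.heckeMatrix q (σ x).val)
    (f : CuspForm (Gamma0 N) 2) :
    periodMap N (CuspForm.heckeULin 2 hqN f) (Additive.ofMul γ) =
      ∑ x, periodMap N f (Additive.ofMul (γ' x)) := by
  have hq0 : q ≠ 0 := NeZero.ne q
  refine hh_periodMap_hecke (fun x : ZMod q => ModularForm.heckeMatrix q x.val)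
    (fun _ => 1) (fun x => (x.val : ℤ)) (fun _ => (q : ℤ)) q _ (Nat.pos_of_ne_zero hq0)
    ?_ ?_ ?_ ?_ ?_ ?_ γ σ γ' hcos f
  · intro x; simp [ModularForm.val_heckeMatrix hq0]
  · intro x; simp [ModularForm.val_heckeMatrix hq0]
  · intro x; simp [ModularForm.val_heckeMatrix hq0]
  · intro x; simp [ModularForm.val_heckeMatrix hq0]
  · intro x
    rw [← Matrix.GeneralLinearGroup.val_det_apply]
    exact ModularForm.det_heckeMatrix hq0 _
  · intro f
    rw [CuspForm.coe_heckeULin_apply, heckeU_eq_sum_zmod]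

end cosetsU

/-! ### Formal sums of elements of `Γ₀(N)` -/

/-- the period map of `f`, extended linearly to formal sums of elements of `Γ₀(N)`. -/
noncomputable def hhPm (N : ℕ) (f : CuspForm (Gamma0 N) 2) : FreeAbelianGroup (Gamma0 N) →+ ℂ :=
  FreeAbelianGroup.lift (fun γ => periodMap N f (Additive.ofMul γ))

theorem hhPm_of (f : CuspForm (Gamma0 N) 2) (γ : Gamma0 N) :
    hhPm N f (FreeAbelianGroup.of γ) = periodMap N f (Additive.ofMul γ) :=
  FreeAbelianGroup.lift_apply_of _ _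

theorem hhPm_add [NeZero N] (f g : CuspForm (Gamma0 N) 2) (x : FreeAbelianGroup (Gamma0 N)) :
    hhPm N (f + g) x = hhPm N f x + hhPm N g x := by
  have h : hhPm N (f + g) = hhPm N f + hhPm N g := by
    refine FreeAbelianGroup.lift_ext _ _ fun γ => ?_
    rw [AddMonoidHom.add_apply, hhPm_of, hhPm_of, hhPm_of, ES.upper_periodMap_add]
    rfl
  rw [h]
  rfl

theorem hhPm_smul [NeZero N] (c : ℂ) (f : CuspForm (Gamma0 N) 2)
    (x : FreeAbelianGroup (Gamma0 N)) : hhPm N (c • f) x = c * hhPm N f x := by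
  have h : hhPm N (c • f) = (AddMonoidHom.mulLeft c).comp (hhPm N f) := by
    refine FreeAbelianGroup.lift_ext _ _ fun γ => ?_
    rw [AddMonoidHom.comp_apply, hhPm_of, hhPm_of, ES.upper_periodMap_smul]
    rfl
  rw [h]
  rfl

theorem hhPm_zero [NeZero N] (x : FreeAbelianGroup (Gamma0 N)) :
    hhPm N (0 : CuspForm (Gamma0 N) 2) x = 0 := by
  have h := hhPm_smul (N := N) 0 0 x
  rw [smul_zero, zero_mul] at h
  exact h

/-- `γ ↦ lam (a_γ mod p)`, extended linearly to formal sums of elements of `Γ₀(p)`. -/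
noncomputable def hhPhi {p : ℕ} {A : Type*} [AddCommGroup A] (lam : ZMod p → A) :
    FreeAbelianGroup (Gamma0 p) →+ A :=
  FreeAbelianGroup.lift (fun γ => lam ((((γ : SL(2, ℤ)) 0 0 : ℤ) : ZMod p)))

theorem hhPhi_of {p : ℕ} {A : Type*} [AddCommGroup A] (lam : ZMod p → A) (γ : Gamma0 p) :
    hhPhi lam (FreeAbelianGroup.of γ) = lam ((((γ : SL(2, ℤ)) 0 0 : ℤ) : ZMod p)) :=
  FreeAbelianGroup.lift_apply_of _ _

/-- every nonzero residue is the upper left entry of an element of `Γ₀(p)`. -/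
theorem hh_exists_gamma0 (p : ℕ) [Fact p.Prime] (x : ZMod p) (hx : x ≠ 0) :
    ∃ γ : Gamma0 p, ((((γ : SL(2, ℤ)) 0 0 : ℤ) : ZMod p)) = x := by
  have hp : p.Prime := Fact.out
  have hcop : IsCoprime ((x.val : ℕ) : ℤ) ((p : ℕ) : ℤ) := by
    rw [Nat.isCoprime_iff_coprime]
    refine (Nat.Coprime.symm ((Nat.Prime.coprime_iff_not_dvd hp).mpr fun hdvd => hx ?_))
    have := (ZMod.natCast_eq_zero_iff x.val p).mpr hdvd
    rwa [ZMod.natCast_zmod_val] at this
  obtain ⟨g0, hg00, hg10⟩ := hcop.exists_SL2_col 0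
  have hg0 : g0 ∈ Gamma0 p := by
    rw [Gamma0_mem, hg10]
    simp
  refine ⟨⟨g0, hg0⟩, ?_⟩
  show (((g0 0 0 : ℤ) : ZMod p)) = x
  rw [hg00, Int.cast_natCast, ZMod.natCast_zmod_val]

/-! ### Hecke correspondences on formal sums -/

section corr

variable (p : ℕ) [Fact p.Prime] {A : Type*} [AddCommGroup A] (lam : ZMod p → A)

/-- the correspondence of a generator. -/
theorem hh_exists_corr_gen
    (hlam : ∀ x y, x ≠ 0 → y ≠ 0 → lam (x * y) = lam x + lam y)
    (hp1 : ∀ x, x ≠ 0 → p • lam x = lam x) (ℓ : Nat.Primes) :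
    ∃ E : FreeAbelianGroup (Gamma0 p) →+ FreeAbelianGroup (Gamma0 p),
      (∀ (f : CuspForm (Gamma0 p) 2) (x : FreeAbelianGroup (Gamma0 p)),
        hhPm p ((heckeEvalForms p 2 (heckeGen ℓ)).1 f) x = hhPm p f (E x)) ∧
      (∀ x, hhPhi lam (E x) = (eisensteinSystem p ℓ) • hhPhi lam x) := by
  have : Fact (ℓ : ℕ).Prime := ⟨ℓ.2⟩
  have hne : ∀ δ : Gamma0 p, ((((δ : SL(2, ℤ)) 0 0 : ℤ) : ZMod p)) ≠ 0 := by
    intro δ h
    have h1 := unit_of_apply_one_zero_eq_zero (δ : SL(2, ℤ)) (Gamma0_mem.mp δ.2)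
    rw [h, zero_mul] at h1
    exact zero_ne_one h1
  by_cases h : (ℓ : ℕ) ∣ p
  · -- `U_p`
    have hℓp : (ℓ : ℕ) = p := (Nat.prime_dvd_prime_iff_eq ℓ.2 Fact.out).mp h
    choose σ γ' hcos using fun γ : Gamma0 p => hh_exists_cosets_U (q := (ℓ : ℕ)) h γ
    refine ⟨FreeAbelianGroup.lift (fun γ => ∑ x, FreeAbelianGroup.of (γ' γ x)), ?_, ?_⟩
    · intro f x
      have hE : hhPm p ((heckeEvalForms p 2 (heckeGen ℓ)).1 f) = (hhPm p f).comp
          (FreeAbelianGroup.lift (fun γ => ∑ x, FreeAbelianGroup.of (γ' γ x))) := by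
        refine FreeAbelianGroup.lift_ext _ _ fun γ => ?_
        rw [AddMonoidHom.comp_apply, hhPm_of, FreeAbelianGroup.lift_apply_of, map_sum,
          heckeEvalForms_heckeGen_of_dvd h]
        simp only [hhPm_of]
        exact hh_periodMap_heckeU h γ (σ γ) (γ' γ) (hcos γ) f
      rw [hE]
      rfl
    · intro x
      have hE : (hhPhi lam).comp
          (FreeAbelianGroup.lift (fun γ => ∑ x, FreeAbelianGroup.of (γ' γ x))) =
          (eisensteinSystem p ℓ) • (hhPhi lam) := by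
        refine FreeAbelianGroup.lift_ext _ _ fun γ => ?_
        rw [AddMonoidHom.comp_apply, AddMonoidHom.smul_apply, FreeAbelianGroup.lift_apply_of,
          map_sum, hhPhi_of, eisensteinSystem_of_dvd h, one_smul]
        simp only [hhPhi_of]
        have hq0 : (ℓ : ℕ) ≠ 0 := ℓ.2.ne_zero
        rw [hh_sum_lam (fun x : ZMod (ℓ : ℕ) => ModularForm.heckeMatrix (ℓ : ℕ) x.val)
          (fun _ => 1) (fun x => (x.val : ℤ)) (fun x => by simp [ModularForm.val_heckeMatrix hq0])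
          (fun x => by simp [ModularForm.val_heckeMatrix hq0])
          (fun x => by simp [ModularForm.val_heckeMatrix hq0])
          (fun _ => by simp) lam hlam γ (σ γ) (γ' γ) (hcos γ), ZMod.card, hℓp]
        exact hp1 _ (hne γ)
      have := congrArg (fun φ : FreeAbelianGroup (Gamma0 p) →+ A => φ x) hE
      exact this
  · -- `T_ℓ`
    have hpℓ : ¬ p ∣ (ℓ : ℕ) := fun h' =>
      h (((Nat.prime_dvd_prime_iff_eq Fact.out ℓ.2).mp h') ▸ dvd_rfl)
    choose σ γ' hcos using fun γ : Gamma0 p => hh_exists_cosets_T (ℓ := (ℓ : ℕ)) h γ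
    refine ⟨FreeAbelianGroup.lift (fun γ => ∑ x, FreeAbelianGroup.of (γ' γ x)), ?_, ?_⟩
    · intro f x
      have hE : hhPm p ((heckeEvalForms p 2 (heckeGen ℓ)).1 f) = (hhPm p f).comp
          (FreeAbelianGroup.lift (fun γ => ∑ x, FreeAbelianGroup.of (γ' γ x))) := by
        refine FreeAbelianGroup.lift_ext _ _ fun γ => ?_
        rw [AddMonoidHom.comp_apply, hhPm_of, FreeAbelianGroup.lift_apply_of, map_sum,
          heckeEvalForms_heckeGen_of_not_dvd h]
        simp only [hhPm_of]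
        exact hh_periodMap_heckeT h γ (σ γ) (γ' γ) (hcos γ) f
      rw [hE]
      rfl
    · intro x
      have hE : (hhPhi lam).comp
          (FreeAbelianGroup.lift (fun γ => ∑ x, FreeAbelianGroup.of (γ' γ x))) =
          (eisensteinSystem p ℓ) • (hhPhi lam) := by
        refine FreeAbelianGroup.lift_ext _ _ fun γ => ?_
        rw [AddMonoidHom.comp_apply, AddMonoidHom.smul_apply, FreeAbelianGroup.lift_apply_of,
          map_sum, hhPhi_of, eisensteinSystem_of_not_dvd h]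
        simp only [hhPhi_of]
        have ha : ∀ x : OnePoint (ZMod (ℓ : ℕ)), ((hhA (ℓ : ℕ) x : ℤ) : ZMod p) ≠ 0 := by
          intro x
          induction x using OnePoint.rec with
          | infty =>
            simp only [hhA, OnePoint.elim_infty]
            rw [Int.cast_natCast, Ne, ZMod.natCast_eq_zero_iff]
            exact hpℓ
          | coe j => simp [hhA]
        rw [hh_sum_lam (heckeRep (ℓ : ℕ)) (hhA (ℓ : ℕ)) (hhB (ℓ : ℕ)) hh_heckeRep_00
          hh_heckeRep_01 hh_heckeRep_10 ha lam hlam γ (σ γ) (γ' γ) (hcos γ)]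
        have hcard : Fintype.card (OnePoint (ZMod (ℓ : ℕ))) = (ℓ : ℕ) + 1 := by
          rw [show Fintype.card (OnePoint (ZMod (ℓ : ℕ))) = Fintype.card (Option (ZMod (ℓ : ℕ)))
            from rfl, Fintype.card_option, ZMod.card]
        rw [hcard, ← natCast_zsmul]
        congr 1
        push_cast
        ring
      have := congrArg (fun φ : FreeAbelianGroup (Gamma0 p) →+ A => φ x) hE
      exact this

/-- the correspondence attached to a polynomial in the Hecke operators. -/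
theorem hh_exists_corr
    (hlam : ∀ x y, x ≠ 0 → y ≠ 0 → lam (x * y) = lam x + lam y)
    (hp1 : ∀ x, x ≠ 0 → p • lam x = lam x) (P : HeckeAlg) :
    ∃ E : FreeAbelianGroup (Gamma0 p) →+ FreeAbelianGroup (Gamma0 p),
      (∀ (f : CuspForm (Gamma0 p) 2) (x : FreeAbelianGroup (Gamma0 p)),
        hhPm p ((heckeEvalForms p 2 P).1 f) x = hhPm p f (E x)) ∧
      (∀ x, hhPhi lam (E x) = (evE p P) • hhPhi lam x) := by
  induction P using MvPolynomial.induction_on with
  | C c =>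
    refine ⟨c • AddMonoidHom.id _, fun f x => ?_, fun x => ?_⟩
    · rw [heckeEvalForms_C]
      have h1 : ((algebraMap ℤ (heckeAlgebra p 2 ∅) c).1 : Module.End ℂ _) f = (c : ℂ) • f := by
        show (algebraMap ℤ (Module.End ℂ (CuspForm (Gamma0 p) 2)) c) f = _
        rw [Module.algebraMap_end_apply]
        exact (Int.cast_smul_eq_zsmul ℂ c f).symm
      rw [h1, hhPm_smul, AddMonoidHom.smul_apply, AddMonoidHom.id_apply, map_zsmul, zsmul_eq_mul]
    · have h2 : evE p (MvPolynomial.C c) = c := by simp [evE]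
      rw [h2, AddMonoidHom.smul_apply, AddMonoidHom.id_apply, map_zsmul]
  | add P Q hP hQ =>
    obtain ⟨E1, h1, h1'⟩ := hP
    obtain ⟨E2, h2, h2'⟩ := hQ
    refine ⟨E1 + E2, fun f x => ?_, fun x => ?_⟩
    · rw [map_add]
      show hhPm p ((heckeEvalForms p 2 P).1 f + (heckeEvalForms p 2 Q).1 f) x = _
      rw [hhPm_add, h1, h2, AddMonoidHom.add_apply, map_add]
    · rw [map_add, add_smul, AddMonoidHom.add_apply, map_add, h1', h2']
  | mul_X P ℓ hP =>
    obtain ⟨E1, h1, h1'⟩ := hP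
    obtain ⟨E2, h2, h2'⟩ := hh_exists_corr_gen p lam hlam hp1 ℓ
    refine ⟨E2.comp E1, fun f x => ?_, fun x => ?_⟩
    · rw [map_mul]
      show hhPm p ((heckeEvalForms p 2 P).1 ((heckeEvalForms p 2 (heckeGen ℓ)).1 f)) x = _
      rw [h1, h2]
      rfl
    · have h3 : evE p (P * MvPolynomial.X ℓ) = eisensteinSystem p ℓ * evE p P := by
        rw [map_mul, mul_comm]
        congr 1
        exact evE_heckeGen p ℓ
      rw [AddMonoidHom.comp_apply, h2', h1', h3, mul_smul]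

/-- **Core.** Let `ψ : Γ₀(p) → ℤ` be a parabolic homomorphism with `ψ γ • u = lam (a_γ)`, where
`lam` is multiplicative-to-additive on `(ℤ/p)ˣ` with values in an abelian group killed by
`p - 1`. If the polynomial `P` in the Hecke operators kills the cusp forms of weight two, then
`P(eisenstein) • lam = 0`. -/
theorem hh_core (ψ : Additive (Gamma0 p) →+ ℤ) (hpar : IsParabolicHom (Gamma0 p) ψ)
    (hlam : ∀ x y, x ≠ 0 → y ≠ 0 → lam (x * y) = lam x + lam y)
    (hp1 : ∀ x, x ≠ 0 → p • lam x = lam x) (u : A)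
    (hψ : ∀ γ : Gamma0 p, ψ (Additive.ofMul γ) • u = lam ((((γ : SL(2, ℤ)) 0 0 : ℤ) : ZMod p)))
    (P : HeckeAlg) (hP : psi p P = 0) (x : ZMod p) (hx : x ≠ 0) :
    (evE p P) • lam x = 0 := by
  -- `P` kills all cusp forms
  have h0 : heckeEvalForms p 2 P = 0 := by
    apply (latticeRestrictHom_bijective p ∅ (S23.hasIntegralStructure p)).1
    rw [map_zero]
    exact hP
  obtain ⟨E, hE1, hE2⟩ := hh_exists_corr p lam hlam hp1 P
  have hz : ∀ (f : CuspForm (Gamma0 p) 2) (x : FreeAbelianGroup (Gamma0 p)),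
      hhPm p f (E x) = 0 := by
    intro f x
    rw [← hE1, h0]
    exact hhPm_zero x
  -- `ψ` through periods (Eichler–Shimura)
  have hmem : (Int.castAddHom ℂ).comp ψ ∈ parabolicHoms ℂ (Gamma0 p) ℂ := by
    rw [mem_parabolicHoms_iff]
    intro γ hγ
    rw [AddMonoidHom.comp_apply, hpar γ hγ, map_zero]
  rw [← (ES.periodHomPair_eichlerShimura p).2] at hmem
  obtain ⟨⟨f, g⟩, hfg⟩ := hmem
  obtain ⟨fc, hfc⟩ := ES.hasConjForms p f
  obtain ⟨gc, hgc⟩ := ES.hasConjForms p g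
  have hpt : ∀ γ : Gamma0 p, ((ψ (Additive.ofMul γ) : ℤ) : ℂ) =
      (periodMap p f (Additive.ofMul γ)
        - (starRingEnd ℂ) (periodMap p fc (Additive.ofMul γ)))
      + (periodMap p g (Additive.ofMul γ)
        + (starRingEnd ℂ) (periodMap p gc (Additive.ofMul γ))) := by
    intro γ
    have h1 := congrArg (fun φ : Additive (Gamma0 p) →+ ℂ => φ (Additive.ofMul γ)) hfg
    rw [ES.periodHomPair_apply] at h1
    simp only [AddMonoidHom.add_apply, AddMonoidHom.sub_apply, charInvolution_apply,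
      toMul_ofMul, AddMonoidHom.comp_apply, Int.coe_castAddHom] at h1
    have h2 := hfc (jConjGamma0 p γ)
    have h3 := hgc (jConjGamma0 p γ)
    rw [jConjGamma0_jConjGamma0] at h2 h3
    rw [← h1, h2, h3]
    simp only [map_neg, Complex.conj_conj]
    ring
  -- linear extension to formal sums
  have hext : ∀ x : FreeAbelianGroup (Gamma0 p),
      ((FreeAbelianGroup.lift (fun γ => ψ (Additive.ofMul γ)) x : ℤ) : ℂ) =
      (hhPm p f x - (starRingEnd ℂ) (hhPm p fc x))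
        + (hhPm p g x + (starRingEnd ℂ) (hhPm p gc x)) := by
    intro x
    induction x using FreeAbelianGroup.induction_on with
    | zero => simp
    | of γ => simp only [FreeAbelianGroup.lift_apply_of, hhPm_of]; exact hpt γ
    | neg γ ih =>
      simp only [map_neg, Int.cast_neg, ih]
      ring
    | add x y hx hy =>
      simp only [map_add, Int.cast_add, hx, hy]
      ring
  have hzero : ∀ x : FreeAbelianGroup (Gamma0 p),
      FreeAbelianGroup.lift (fun γ => ψ (Additive.ofMul γ)) (E x) = 0 := by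
    intro x
    have h := hext (E x)
    rw [hz, hz, hz, hz] at h
    simpa using h
  -- comparison with `lam`
  have hred : ((smulAddHom ℤ A).flip u).comp
      (FreeAbelianGroup.lift (fun γ => ψ (Additive.ofMul γ))) = hhPhi lam := by
    refine FreeAbelianGroup.lift_ext _ _ fun γ => ?_
    rw [AddMonoidHom.comp_apply, FreeAbelianGroup.lift_apply_of, hhPhi_of]
    exact hψ γ
  have hphi : ∀ x : FreeAbelianGroup (Gamma0 p), hhPhi lam (E x) = 0 := by
    intro x
    rw [← hred, AddMonoidHom.comp_apply, hzero, map_zero]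
  obtain ⟨γ0, hγ0⟩ := hh_exists_gamma0 p x hx
  have h4 := hE2 (FreeAbelianGroup.of γ0)
  rw [hphi, hhPhi_of, hγ0] at h4
  exact h4.symm

end corr

/-! ### The Eisenstein character -/

section main

variable (p : ℕ) [Fact p.Prime]

theorem hh_natCast_eisensteinNumerator : ((p : ℕ) : ZMod (eisensteinNumerator p)) = 1 := by
  have hp : 1 ≤ p := (Fact.out : p.Prime).one_le
  have h := (ZMod.natCast_eq_zero_iff (p - 1) (eisensteinNumerator p)).mpr
    (eisensteinNumerator_dvd p)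
  have h2 : ((p : ℕ) : ZMod (eisensteinNumerator p)) = ((p - 1 : ℕ) : ZMod _) + 1 := by
    rw [← Nat.cast_succ, Nat.succ_eq_add_one, Nat.sub_add_cancel hp]
  rw [h2, h, zero_add]

/-- the character of `𝕋` from the vanishing of `evE` modulo `n` on the kernel of `psi`. -/
theorem eisenstein_character_of_ker
    (hker : ∀ P : HeckeAlg, psi p P = 0 →
      ((evE p P : ℤ) : ZMod (eisensteinNumerator p)) = 0) :
    ∃ μ : ↥(heckeLatticeAlgebra p ∅) →+* ZMod (eisensteinNumerator p),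
      ∀ ℓ : Nat.Primes, μ (psi p (heckeGen ℓ)) =
        ((eisensteinSystem p ℓ : ℤ) : ZMod (eisensteinNumerator p)) := by
  have hker' : RingHom.ker (psi p) ≤
      RingHom.ker ((Int.castRingHom (ZMod (eisensteinNumerator p))).comp (evE p)) := by
    intro P hP
    rw [RingHom.mem_ker] at hP ⊢
    rw [RingHom.comp_apply]
    exact hker P hP
  refine ⟨(psi p).liftOfRightInverse _ (Function.rightInverse_surjInv (psi_surjective p))
    ⟨_, hker'⟩, fun ℓ => ?_⟩
  rw [RingHom.liftOfRightInverse_comp_apply]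
  show ((evE p (heckeGen ℓ) : ℤ) : ZMod (eisensteinNumerator p)) = _
  rw [evE_heckeGen]

/-- **(L), first shape of the lift** (`exists_shimura_lift`): `ψ ≡ lam (a_γ)` modulo `n`. -/
theorem eisenstein_character_of_shimura_lift
    (h : ∃ (ψ : Additive (Gamma0 p) →+ ℤ) (lam : ZMod p → ZMod (eisensteinNumerator p)),
      IsParabolicHom (Gamma0 p) ψ ∧
      (∀ x y, x ≠ 0 → y ≠ 0 → lam (x * y) = lam x + lam y) ∧
      (∀ z, ∃ x, x ≠ 0 ∧ lam x = z) ∧
      ∀ γ : Gamma0 p, ((ψ (Additive.ofMul γ) : ℤ) : ZMod (eisensteinNumerator p)) =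
        lam ((((γ : SL(2, ℤ)) 0 0 : ℤ) : ZMod p))) :
    ∃ μ : ↥(heckeLatticeAlgebra p ∅) →+* ZMod (eisensteinNumerator p),
      ∀ ℓ : Nat.Primes, μ (psi p (heckeGen ℓ)) =
        ((eisensteinSystem p ℓ : ℤ) : ZMod (eisensteinNumerator p)) := by
  obtain ⟨ψ, lam, hpar, hlam, hsurj, hψ⟩ := h
  refine eisenstein_character_of_ker p fun P hP => ?_
  obtain ⟨x0, hx0, hx1⟩ := hsurj 1
  have h1 := hh_core p lam ψ hpar hlam
    (fun x _ => by rw [nsmul_eq_mul, hh_natCast_eisensteinNumerator, one_mul]) 1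
    (fun γ => by rw [zsmul_eq_mul, mul_one]; exact hψ γ) P hP x0 hx0
  rw [hx1, zsmul_eq_mul, mul_one] at h1
  exact h1

/-- **(L), second shape of the lift** (`exists_parabolic_lift`): `g ^ φ γ = d_γ ^ 12` in
`(ℤ/p)ˣ`. -/
theorem eisenstein_character_of_parabolic_lift
    (h : ∃ (φ : Additive (Gamma0 p) →+ ℤ) (g : (ZMod p)ˣ),
      IsParabolicHom (Gamma0 p) φ ∧
      ∀ γ : Gamma0 p, ((g ^ (φ (Additive.ofMul γ)) : (ZMod p)ˣ) : ZMod p) =
        ((((γ : SL(2, ℤ)) 1 1 : ℤ) : ZMod p)) ^ 12) :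
    ∃ μ : ↥(heckeLatticeAlgebra p ∅) →+* ZMod (eisensteinNumerator p),
      ∀ ℓ : Nat.Primes, μ (psi p (heckeGen ℓ)) =
        ((eisensteinSystem p ℓ : ℤ) : ZMod (eisensteinNumerator p)) := by
  classical
  obtain ⟨φ, g, hpar, hφ⟩ := h
  have hp : p.Prime := Fact.out
  refine eisenstein_character_of_ker p fun P hP => ?_
  -- the character `x ↦ x⁻¹ ^ 12` with values in `Additive (ZMod p)ˣ`
  set lam : ZMod p → Additive (ZMod p)ˣ := fun x =>
    if hx : x = 0 then 0 else Additive.ofMul ((Units.mk0 x hx)⁻¹ ^ 12) with hlamdef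
  have hlam_ne : ∀ (x : ZMod p) (hx : x ≠ 0),
      lam x = Additive.ofMul ((Units.mk0 x hx)⁻¹ ^ 12) := fun x hx => dif_neg hx
  have hlam : ∀ x y, x ≠ 0 → y ≠ 0 → lam (x * y) = lam x + lam y := by
    intro x y hx hy
    rw [hlam_ne _ (mul_ne_zero hx hy), hlam_ne _ hx, hlam_ne _ hy, ← ofMul_mul,
      Units.mk0_mul x y (mul_ne_zero hx hy), mul_inv, mul_pow]
  have hp1 : ∀ x, x ≠ 0 → p • lam x = lam x := by
    intro x hx
    rw [hlam_ne _ hx, ← ofMul_pow]
    congr 1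
    have h1 := ZMod.units_pow_card_sub_one_eq_one p ((Units.mk0 x hx)⁻¹ ^ 12)
    calc ((Units.mk0 x hx)⁻¹ ^ 12) ^ p
        = ((Units.mk0 x hx)⁻¹ ^ 12) ^ (p - 1 + 1) := by rw [Nat.sub_add_cancel hp.one_le]
      _ = (Units.mk0 x hx)⁻¹ ^ 12 := by rw [pow_succ, h1, one_mul]
  have hψ : ∀ γ : Gamma0 p, φ (Additive.ofMul γ) • Additive.ofMul g =
      lam ((((γ : SL(2, ℤ)) 0 0 : ℤ) : ZMod p)) := by
    intro γ
    have hne : ((((γ : SL(2, ℤ)) 0 0 : ℤ) : ZMod p)) ≠ 0 := by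
      intro h
      have h1 := unit_of_apply_one_zero_eq_zero (γ : SL(2, ℤ)) (Gamma0_mem.mp γ.2)
      rw [h, zero_mul] at h1
      exact zero_ne_one h1
    rw [hlam_ne _ hne, ← ofMul_zpow]
    congr 1
    apply Units.ext
    rw [hφ γ, Units.val_pow_eq_pow_val, Units.val_inv_eq_inv_val, Units.val_mk0]
    congr 1
    exact eq_inv_of_mul_eq_one_right
      (unit_of_apply_one_zero_eq_zero (γ : SL(2, ℤ)) (Gamma0_mem.mp γ.2))
  -- a generator of `(ZMod p)ˣ`
  obtain ⟨z, hz⟩ := IsCyclic.exists_generator (α := (ZMod p)ˣ)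
  have hord : orderOf z = p - 1 := by
    rw [orderOf_eq_card_of_forall_mem_zpowers hz, Nat.card_eq_fintype_card, ZMod.card_units]
  have h1 := hh_core p lam φ hpar hlam hp1 (Additive.ofMul g) hψ P hP (z : ZMod p) z.ne_zero
  rw [hlam_ne _ z.ne_zero, ← ofMul_zpow] at h1
  have h2 : ((Units.mk0 (z : ZMod p) z.ne_zero)⁻¹ ^ 12) ^ (evE p P) = 1 := h1
  have h3 : z ^ (12 * evE p P) = 1 := by
    have h4 : Units.mk0 (z : ZMod p) z.ne_zero = z := Units.ext rfl
    rw [h4, inv_pow, inv_zpow, inv_eq_one, ← zpow_natCast, ← zpow_mul] at h2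
    exact_mod_cast h2
  have h5 : ((p - 1 : ℕ) : ℤ) ∣ 12 * evE p P := by
    rw [← hord]
    exact orderOf_dvd_iff_zpow_eq_one.mpr h3
  -- arithmetic: `(p - 1) ∣ 12 e ⟹ n ∣ e`
  have hG : 0 < Nat.gcd (p - 1) 12 := Nat.gcd_pos_of_pos_right _ (by norm_num)
  have hcop : Nat.Coprime ((p - 1) / Nat.gcd (p - 1) 12) (12 / Nat.gcd (p - 1) 12) :=
    Nat.coprime_div_gcd_div_gcd hG
  have e1 : ((p - 1 : ℕ) : ℤ) =
      (((p - 1) / Nat.gcd (p - 1) 12 : ℕ) : ℤ) * ((Nat.gcd (p - 1) 12 : ℕ) : ℤ) := by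
    rw [← Nat.cast_mul, Nat.div_mul_cancel (Nat.gcd_dvd_left _ _)]
  have e2 : (12 : ℤ) =
      ((12 / Nat.gcd (p - 1) 12 : ℕ) : ℤ) * ((Nat.gcd (p - 1) 12 : ℕ) : ℤ) := by
    rw [← Nat.cast_mul, Nat.div_mul_cancel (Nat.gcd_dvd_right _ _)]
    rfl
  have h6 : (((p - 1) / Nat.gcd (p - 1) 12 : ℕ) : ℤ) ∣
      ((12 / Nat.gcd (p - 1) 12 : ℕ) : ℤ) * evE p P := by
    rw [e1] at h5
    have h7 : (((p - 1) / Nat.gcd (p - 1) 12 : ℕ) : ℤ) * ((Nat.gcd (p - 1) 12 : ℕ) : ℤ) ∣
        (((12 / Nat.gcd (p - 1) 12 : ℕ) : ℤ) * evE p P) * ((Nat.gcd (p - 1) 12 : ℕ) : ℤ) := by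
      have : (((12 / Nat.gcd (p - 1) 12 : ℕ) : ℤ) * evE p P) * ((Nat.gcd (p - 1) 12 : ℕ) : ℤ)
          = 12 * evE p P := by
        linear_combination (-(evE p P)) * e2
      rw [this]
      exact h5
    exact Int.dvd_of_mul_dvd_mul_right (by exact_mod_cast hG.ne') h7
  have h8 : (((p - 1) / Nat.gcd (p - 1) 12 : ℕ) : ℤ) ∣ evE p P :=
    (Nat.isCoprime_iff_coprime.mpr hcop).dvd_of_dvd_mul_left h6
  exact (ZMod.intCast_zmod_eq_zero_iff_dvd _ _).mpr h8

end main

end Fermat.Agent.S16
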