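import Mathlib
import Fermat.Prelude.Def_FLTPrelim_Modularity
import Fermat.Prelude.Def_ModularForm_HeckeOperatorForms
import Fermat.Prelude.Thm_UpperHalfPlane_qCoeff_heckeT
import Fermat.Prelude.Thm_ModularForm_mdifferentiable_heckeT
import Fermat.Prelude.Thm_ModularForm_periodic_heckeT_comp_ofComplex
import Fermat.Prelude.Thm_ModularForm_isBoundedAtImInfty_heckeT
import Fermat.Prelude.Thm_CongruenceSubgroup_one_mem_strictPeriods_Gamma0
import Fermat.Agent.S23.Scale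
import Fermat.Agent.S24.BridgeJ

/-!
# S16, upper bound: the Hecke trick

For a weight-2 form `H` on `Γ₀(p)` with integer `q`-expansion `≡ 1 mod M` and a prime `r ≠ p`,
the cusp form of weight 14

  `Ψ = T_r^{(14)}(Δ_p · H) − T_r^{(12)}(Δ_p) · H`,   `Δ_p(z) = Δ(p z)`,

has integer `q`-coefficients `b_n ≡ r^11 (r² − 1) · τ(n/(r p))  mod M`
(`τ(x) = 0` unless `x` is a natural number).
-/

set_option autoImplicit false

noncomputable section

namespace Fermat.Agent.S16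

open UpperHalfPlane hiding I
open Complex ModularForm ModularFormClass CongruenceSubgroup
open scoped MatrixGroups ModularForm Manifold

/-! ### Ramanujan's tau -/

/-- Ramanujan's `τ`, as the coefficients of `X · ∏ (1 - Xⁿ)^24`. -/
def htTau (n : ℕ) : ℤ :=
  PowerSeries.coeff n (PowerSeries.X * ModularCurve.dedekindEtaUnit : PowerSeries ℤ)

theorem htTau_zero : htTau 0 = 0 := by
  simp [htTau]

theorem htTau_one : htTau 1 = 1 := by
  rw [htTau, show (1 : ℕ) = 0 + 1 from rfl, PowerSeries.coeff_succ_X_mul,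
    PowerSeries.coeff_zero_eq_constantCoeff_apply, ModularCurve.constantCoeff_dedekindEtaUnit]

theorem ht_pb_discriminant : S23.PB ModularForm.discriminant := S23.Scale.pb_discriminant

theorem ht_qExpansion_discriminant_eq :
    qExpansion 1 ModularForm.discriminant =
      (PowerSeries.X * ModularCurve.dedekindEtaUnit : PowerSeries ℤ).map (Int.castRingHom ℂ) := by
  have e1 : (ModularForm.discriminant : ℍ → ℂ) = S24B.qFun * S24B.etaFun ^ 24 := by
    funext τ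
    rw [S24B.discriminant_eq_qFun_mul]
    rfl
  rw [e1, S24B.qFun_isQHol.qExpansion_mul (S24B.etaFun_isQHol.pow 24), S24B.qExpansion_qFun,
    S24B.etaFun_isQHol.qExpansion_pow, S24B.qExpansion_etaFun, map_mul, PowerSeries.map_X,
    ModularCurve.dedekindEtaUnit, map_pow]

theorem ht_qExpansion_discriminant_coeff (n : ℕ) :
    (qExpansion 1 ModularForm.discriminant).coeff n = (htTau n : ℂ) := by
  rw [ht_qExpansion_discriminant_eq, PowerSeries.coeff_map, htTau]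
  rfl

/-! ### Integer coefficient bookkeeping -/

/-- The action of `T_r` in weight `e + 1` on coefficient sequences. -/
def htHecke (e r : ℕ) (a : ℕ → ℤ) (n : ℕ) : ℤ :=
  a (n * r) + if r ∣ n then (r : ℤ) ^ e * a (n / r) else 0

/-- Cauchy product of coefficient sequences. -/
def htConv (a c : ℕ → ℤ) (n : ℕ) : ℤ :=
  ∑ x ∈ Finset.HasAntidiagonal.antidiagonal n, a x.1 * c x.2

theorem ht_qCoeff_heckeT_int {f : ℍ → ℂ} (hf : S23.PB f) (a : ℕ → ℤ)
    (ha : ∀ n, qCoeff f n = (a n : ℂ)) (k : ℤ) (e r : ℕ) (hk : k = (e : ℤ) + 1) (hr : r ≠ 0)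
    (n : ℕ) :
    qCoeff (heckeT k r f) n = (htHecke e r a n : ℂ) := by
  subst hk
  rw [UpperHalfPlane.qCoeff_heckeT hf.per hf.holo hf.bdd _ hr, coeffHeckeT_apply, htHecke, ha]
  split_ifs with h
  · rw [ha]
    push_cast
    rw [add_sub_cancel_right, zpow_natCast]
  · simp

theorem ht_qCoeff_mul_int {f g : ℍ → ℂ} (hf : S23.PB f) (hg : S23.PB g) (a c : ℕ → ℤ)
    (ha : ∀ n, qCoeff f n = (a n : ℂ)) (hc : ∀ n, qCoeff g n = (c n : ℂ)) (n : ℕ) :
    qCoeff (f * g) n = (htConv a c n : ℂ) := by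
  rw [qCoeff, S23.qExp_mul hf hg, PowerSeries.coeff_mul, htConv]
  push_cast
  refine Finset.sum_congr rfl fun x _ => ?_
  rw [← ha, ← hc]
  rfl

theorem htConv_sub_dvd (M : ℕ) (a c : ℕ → ℤ) (h0 : (M : ℤ) ∣ c 0 - 1)
    (hm : ∀ m, 1 ≤ m → (M : ℤ) ∣ c m) (n : ℕ) : (M : ℤ) ∣ htConv a c n - a n := by
  have h1 : a n = ∑ x ∈ Finset.HasAntidiagonal.antidiagonal n, a x.1 * (if x.2 = 0 then 1 else 0) := by
    rw [Finset.sum_eq_single (n, 0)]
    · simp
    · rintro ⟨i, j⟩ hx hne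
      have hij : i + j = n := Finset.HasAntidiagonal.mem_antidiagonal.mp hx
      have hj : j ≠ 0 := by
        rintro rfl
        exact hne (by simp at hij; simp [hij])
      simp [hj]
    · intro h
      exact absurd (Finset.HasAntidiagonal.mem_antidiagonal.mpr (by simp)) h
  have h2 : htConv a c n - a n =
      ∑ x ∈ Finset.HasAntidiagonal.antidiagonal n, a x.1 * (c x.2 - if x.2 = 0 then 1 else 0) := by
    conv_lhs => rw [h1]
    rw [htConv, ← Finset.sum_sub_distrib]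
    refine Finset.sum_congr rfl fun x _ => ?_
    ring
  rw [h2]
  refine Finset.dvd_sum fun x _ => Dvd.dvd.mul_left ?_ _
  by_cases hx : x.2 = 0
  · simp only [hx, if_true]
    exact h0
  · simp only [hx, if_false, sub_zero]
    exact hm _ (Nat.one_le_iff_ne_zero.mpr hx)

/-- The arithmetic heart of the Hecke trick. -/
theorem ht_congruence (M p r : ℕ) (hr : 0 < r) (c : ℕ → ℤ) (h0 : (M : ℤ) ∣ c 0 - 1)
    (hm : ∀ m, 1 ≤ m → (M : ℤ) ∣ c m) (n : ℕ) :
    (M : ℤ) ∣ (htHecke 13 r (htConv (fun n => if p ∣ n then htTau (n / p) else 0) c) n -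
        htConv (htHecke 11 r (fun n => if p ∣ n then htTau (n / p) else 0)) c n) -
      (r : ℤ) ^ 11 * ((r : ℤ) ^ 2 - 1) * (if r * p ∣ n then htTau (n / (r * p)) else 0) := by
  set α : ℕ → ℤ := fun n => if p ∣ n then htTau (n / p) else 0 with hα
  have key : htHecke 13 r α n - htHecke 11 r α n =
      (r : ℤ) ^ 11 * ((r : ℤ) ^ 2 - 1) * (if r * p ∣ n then htTau (n / (r * p)) else 0) := by
    rw [htHecke, htHecke]
    by_cases hrn : r ∣ n
    · rw [if_pos hrn, if_pos hrn]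
      have e1 : α (n / r) = if r * p ∣ n then htTau (n / (r * p)) else 0 := by
        obtain ⟨k, rfl⟩ := hrn
        rw [hα]
        simp only [Nat.mul_div_cancel_left k hr, Nat.mul_dvd_mul_iff_left hr,
          Nat.mul_div_mul_left k p hr]
      rw [e1]
      ring
    · rw [if_neg hrn, if_neg hrn, if_neg (fun h => hrn (dvd_of_mul_right_dvd h))]
      ring
  have h1 : (M : ℤ) ∣ htHecke 13 r (htConv α c) n - htHecke 13 r α n := by
    rw [htHecke, htHecke]
    by_cases hrn : r ∣ n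
    · rw [if_pos hrn, if_pos hrn]
      have := (htConv_sub_dvd M α c h0 hm (n * r)).add
        ((htConv_sub_dvd M α c h0 hm (n / r)).mul_left ((r : ℤ) ^ 13))
      have e : htConv α c (n * r) + (r : ℤ) ^ 13 * htConv α c (n / r) -
          (α (n * r) + (r : ℤ) ^ 13 * α (n / r)) =
          htConv α c (n * r) - α (n * r) + (r : ℤ) ^ 13 * (htConv α c (n / r) - α (n / r)) := by
        ring
      rw [e]
      exact this
    · rw [if_neg hrn, if_neg hrn]
      simpa using htConv_sub_dvd M α c h0 hm (n * r)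
  have h2 := htConv_sub_dvd M (htHecke 11 r α) c h0 hm n
  rw [← key]
  have := h1.sub h2
  have e : htHecke 13 r (htConv α c) n - htConv (htHecke 11 r α) c n -
      (htHecke 13 r α n - htHecke 11 r α n) =
      htHecke 13 r (htConv α c) n - htHecke 13 r α n -
        (htConv (htHecke 11 r α) c n - htHecke 11 r α n) := by ring
  rw [e]
  exact this

/-! ### The forms -/

/-- Restriction of a cusp form to a smaller subgroup. -/
def htRestrict {Γ Γ' : Subgroup (GL (Fin 2) ℝ)} {k : ℤ} (h : Γ' ≤ Γ) (f : CuspForm Γ k) :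
    CuspForm Γ' k where
  toFun := f
  slash_action_eq' A hA := f.slash_action_eq' A (h hA)
  holo' := f.holo'
  zero_at_cusps' hc := f.zero_at_cusps' (hc.mono h)

/-- The product of a cusp form and a modular form, as a cusp form. -/
def htMul {Γ : Subgroup (GL (Fin 2) ℝ)} [Γ.HasDetPlusMinusOne] {k₁ k₂ k : ℤ} (hk : k₁ + k₂ = k)
    (f : CuspForm Γ k₁) (g : ModularForm Γ k₂) : CuspForm Γ k where
  toFun := f * g
  slash_action_eq' := by
    subst hk
    exact (f.1.mul g.1).slash_action_eq'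
  holo' := f.holo'.mul g.holo'
  zero_at_cusps' := by
    subst hk
    intro c hc γ hγ
    simpa [mul_slash] using!
      ((f.zero_at_cusps' hc γ hγ).mul_boundedAtFilter (g.bdd_at_cusps' hc γ hγ)).smul _

theorem coe_htMul {Γ : Subgroup (GL (Fin 2) ℝ)} [Γ.HasDetPlusMinusOne] {k₁ k₂ k : ℤ}
    (hk : k₁ + k₂ = k) (f : CuspForm Γ k₁) (g : ModularForm Γ k₂) :
    (⇑(htMul hk f g) : ℍ → ℂ) = ⇑f * ⇑g := rfl

/-- `z ↦ Δ(p z)` as a cusp form of weight 12 and level `Γ₀(p)`. -/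
def htDelta (p : ℕ) [NeZero p] : CuspForm (Gamma0 p) 12 :=
  ((p : ℂ) ^ 11)⁻¹ • htRestrict (S23.Scale.Gamma0_le_conj p)
    (CuspForm.translate CuspForm.discriminant (heckeDiagMatrix p))

theorem coe_htDelta (p : ℕ) [NeZero p] :
    (⇑(htDelta p) : ℍ → ℂ) = ((p : ℂ) ^ 11)⁻¹ • ⇑(S23.scaledDelta p) := rfl

theorem ht_pb_form {N : ℕ} {k : ℤ} {F : Type*} [FunLike F ℍ ℂ]
    [ModularFormClass F (Gamma0 N) k] (f : F) : S23.PB (f : ℍ → ℂ) :=
  S23.PB.of_modularForm (CongruenceSubgroup.one_mem_strictPeriods_Gamma0 N) f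

theorem ht_pb_heckeT {f : ℍ → ℂ} (hf : S23.PB f) (k : ℤ) (r : ℕ) : S23.PB (heckeT k r f) where
  per := ModularForm.periodic_heckeT_comp_ofComplex hf.per k r
  holo := ModularForm.mdifferentiable_heckeT hf.holo k r
  bdd := ModularForm.isBoundedAtImInfty_heckeT hf.bdd k r

theorem qCoeff_htDelta (p : ℕ) [NeZero p] (n : ℕ) :
    qCoeff (htDelta p) n = ((if p ∣ n then htTau (n / p) else 0 : ℤ) : ℂ) := by
  have hp : (p : ℂ) ^ 11 ≠ 0 := pow_ne_zero _ (by exact_mod_cast NeZero.ne p)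
  rw [qCoeff, coe_htDelta, S23.qExp_smul _ (ht_pb_form (S23.scaledDelta p)), PowerSeries.coeff_smul,
    S23.Scale.coeff_qExp_scaledDelta]
  split_ifs with h
  · rw [ht_qExpansion_discriminant_coeff, smul_eq_mul, ← mul_assoc, inv_mul_cancel₀ hp, one_mul]
  · simp

/-- The Hecke-trick form `Ψ = T_r^{(14)}(Δ_p · H) − T_r^{(12)}(Δ_p) · H`. -/
def htPsi (p r : ℕ) [NeZero p] (hr : r.Prime) (hrp : ¬ r ∣ p) (H : ModularForm (Gamma0 p) 2) :
    CuspForm (Gamma0 p) 14 :=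
  CuspForm.heckeTLin 14 hr hrp (htMul (by norm_num) (htDelta p) H) -
    htMul (by norm_num) (CuspForm.heckeTLin 12 hr hrp (htDelta p)) H

theorem heckeTrick_coe (p r : ℕ) [NeZero p] (hr : r.Prime) (hrp : ¬ r ∣ p)
    (H : ModularForm (Gamma0 p) 2) :
    (⇑(htPsi p r hr hrp H) : ℍ → ℂ) =
      heckeT 14 r (⇑(htDelta p) * ⇑H) - heckeT 12 r ⇑(htDelta p) * ⇑H := rfl

/-- The integer `q`-coefficients of the Hecke-trick form. -/
def htCoeff (p r : ℕ) (c : ℕ → ℤ) (n : ℕ) : ℤ :=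
  htHecke 13 r (htConv (fun n => if p ∣ n then htTau (n / p) else 0) c) n -
    htConv (htHecke 11 r (fun n => if p ∣ n then htTau (n / p) else 0)) c n

theorem qCoeff_htPsi (p r : ℕ) [NeZero p] (hr : r.Prime) (hrp : ¬ r ∣ p)
    (H : ModularForm (Gamma0 p) 2) (c : ℕ → ℤ) (hc : ∀ m, qCoeff H m = (c m : ℂ)) (n : ℕ) :
    qCoeff (htPsi p r hr hrp H) n = (htCoeff p r c n : ℂ) := by
  have hD : S23.PB (⇑(htDelta p) : ℍ → ℂ) := ht_pb_form (htDelta p)
  have hH : S23.PB (⇑H : ℍ → ℂ) := ht_pb_form H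
  have h1 := ht_qCoeff_heckeT_int (hD.mul hH) _ (ht_qCoeff_mul_int hD hH _ c (qCoeff_htDelta p) hc)
    14 13 r (by norm_num) hr.ne_zero n
  have hT := ht_qCoeff_heckeT_int hD _ (qCoeff_htDelta p) 12 11 r (by norm_num) hr.ne_zero
  have h2 := ht_qCoeff_mul_int (ht_pb_heckeT hD 12 r) hH _ c hT hc n
  rw [qCoeff, heckeTrick_coe,
    S23.qExp_sub (ht_pb_heckeT (hD.mul hH) 14 r) ((ht_pb_heckeT hD 12 r).mul hH), map_sub]
  rw [qCoeff] at h1 h2
  rw [h1, h2, htCoeff]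
  push_cast
  rfl

/-- **The Hecke trick.** -/
theorem exists_heckeTrick (p : ℕ) [Fact p.Prime] (r : ℕ) (hr : r.Prime) (hrp : r ≠ p) (M : ℕ)
    (H : ModularForm (CongruenceSubgroup.Gamma0 p) 2) (c : ℕ → ℤ)
    (hc : ∀ m, ModularFormClass.qCoeff H m = (c m : ℂ))
    (h0 : (M : ℤ) ∣ c 0 - 1) (hm : ∀ m, 1 ≤ m → (M : ℤ) ∣ c m) :
    ∃ (Ψ : CuspForm (CongruenceSubgroup.Gamma0 p) 14) (b : ℕ → ℤ),
      (∀ n, ModularFormClass.qCoeff Ψ n = (b n : ℂ)) ∧
      ∀ n, (M : ℤ) ∣ b n - (r : ℤ) ^ 11 * ((r : ℤ) ^ 2 - 1) *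
        (if r * p ∣ n then htTau (n / (r * p)) else 0) := by
  have hp : p.Prime := Fact.out
  have : NeZero p := ⟨hp.ne_zero⟩
  have hrp' : ¬ r ∣ p := fun h => hrp ((Nat.prime_dvd_prime_iff_eq hr hp).mp h)
  exact ⟨htPsi p r hr hrp' H, htCoeff p r c, qCoeff_htPsi p r hr hrp' H c hc,
    ht_congruence M p r hr.pos c h0 hm⟩

theorem exists_heckeTrick' (p : ℕ) [Fact p.Prime] (r : ℕ) (hr : r.Prime) (hrp : r ≠ p) (M : ℕ)
    (H : ModularForm (CongruenceSubgroup.Gamma0 p) 2) (c : ℕ → ℤ)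
    (hc : ∀ m, ModularFormClass.qCoeff H m = (c m : ℂ))
    (h0 : (M : ℤ) ∣ c 0 - 1) (hm : ∀ m, 1 ≤ m → (M : ℤ) ∣ c m) :
    ∃ (Ψ : CuspForm (CongruenceSubgroup.Gamma0 p) 14) (b : ℕ → ℤ),
      (∀ n, ModularFormClass.qCoeff Ψ n = (b n : ℂ)) ∧
      (∀ n, n < r * p → (M : ℤ) ∣ b n) ∧
      (M : ℤ) ∣ b (r * p) - (r : ℤ) ^ 11 * ((r : ℤ) ^ 2 - 1) := by
  have hp : p.Prime := Fact.out
  obtain ⟨Ψ, b, hb, hcong⟩ := exists_heckeTrick p r hr hrp M H c hc h0 hm
  refine ⟨Ψ, b, hb, fun n hn => ?_, ?_⟩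
  · have h := hcong n
    by_cases hn0 : n = 0
    · subst hn0
      simpa [htTau_zero] using h
    · have hnd : ¬ r * p ∣ n := fun hd =>
        absurd (Nat.le_of_dvd (Nat.pos_of_ne_zero hn0) hd) (not_le.mpr hn)
      simpa [hnd] using h
  · have h := hcong (r * p)
    have hpos : 0 < r * p := Nat.mul_pos hr.pos hp.pos
    simpa [Nat.div_self hpos, htTau_one] using h

/-- The Hecke trick with an integer modulus, with the two leading-term congruences and the
divisibility of all coefficients by the common divisors of `M` and `r^11 (r² - 1)`. -/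
theorem exists_heckeTrick_int (p : ℕ) [Fact p.Prime] (r : ℕ) (hr : r.Prime) (hrp : r ≠ p) (M : ℤ)
    (F : ModularForm (CongruenceSubgroup.Gamma0 p) 2) (c : ℕ → ℤ)
    (hc : ∀ m, ModularFormClass.qCoeff F m = (c m : ℂ))
    (h0 : M ∣ c 0 - 1) (h1 : ∀ m, 1 ≤ m → M ∣ c m) :
    ∃ (Ψ : CuspForm (CongruenceSubgroup.Gamma0 p) 14) (b : ℕ → ℤ),
      (∀ n, ModularFormClass.qCoeff Ψ n = (b n : ℂ)) ∧
      (∀ n, n < r * p → M ∣ b n) ∧
      M ∣ b (r * p) - (r : ℤ) ^ 11 * ((r : ℤ) ^ 2 - 1) ∧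
      ∀ n, ∀ d : ℤ, d ∣ M → d ∣ (r : ℤ) ^ 11 * ((r : ℤ) ^ 2 - 1) → d ∣ b n := by
  have hp : p.Prime := Fact.out
  obtain ⟨Ψ, b, hb, hcong⟩ := exists_heckeTrick p r hr hrp M.natAbs F c hc
    (Int.natAbs_dvd.mpr h0) (fun m hm => Int.natAbs_dvd.mpr (h1 m hm))
  have hcong' : ∀ n, M ∣ b n - (r : ℤ) ^ 11 * ((r : ℤ) ^ 2 - 1) *
      (if r * p ∣ n then htTau (n / (r * p)) else 0) := fun n => Int.natAbs_dvd.mp (hcong n)
  refine ⟨Ψ, b, hb, fun n hn => ?_, ?_, fun n d hdM hdD => ?_⟩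
  · have h := hcong' n
    by_cases hn0 : n = 0
    · subst hn0
      simpa [htTau_zero] using h
    · have hnd : ¬ r * p ∣ n := fun hd =>
        absurd (Nat.le_of_dvd (Nat.pos_of_ne_zero hn0) hd) (not_le.mpr hn)
      simpa [hnd] using h
  · have h := hcong' (r * p)
    have hpos : 0 < r * p := Nat.mul_pos hr.pos hp.pos
    simpa [Nat.div_self hpos, htTau_one] using h
  · have h2 := (hdM.trans (hcong' n)).add (hdD.mul_right
      (if r * p ∣ n then htTau (n / (r * p)) else 0))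
    simpa using h2

end Fermat.Agent.S16
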