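import Fermat.Agent.ES.Primitive

/-!
# S16, leaf (L) (cohomological route): shared definitions

* `dChar N : Gamma0 N →* (ZMod N)ˣ` : the class of the lower right entry;
* `periodEval N γ : Module.Dual ℂ (CuspForm (Gamma0 N) 2)` : `f ↦ periodMap N f γ`.
-/

set_option autoImplicit false

namespace Fermat.Agent.S16

open CongruenceSubgroup ModularCurve ModularCurve.Period
open scoped MatrixGroups

noncomputable section

/-- the class of the lower right entry of `γ ∈ Γ₀(N)` as a unit mod `N`. -/
def dChar (N : ℕ) : Gamma0 N →* (ZMod N)ˣ := (Gamma0Map N).toHomUnits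

theorem coe_dChar (N : ℕ) (γ : Gamma0 N) :
    ((dChar N γ : (ZMod N)ˣ) : ZMod N) = (((γ : SL(2, ℤ)) 1 1 : ℤ) : ZMod N) := rfl

/-- the period functional of `γ`: `f ↦ ∫_γ f`. -/
def periodEval (N : ℕ) [NeZero N] (γ : Gamma0 N) : Module.Dual ℂ (CuspForm (Gamma0 N) 2) where
  toFun f := periodMap N f (Additive.ofMul γ)
  map_add' f g := by
    have := (Fermat.Agent.ES.periodMapLin N).map_add f g
    exact congrArg (fun ψ : Additive (Gamma0 N) →+ ℂ => ψ (Additive.ofMul γ)) this
  map_smul' c f := by
    have := (Fermat.Agent.ES.periodMapLin N).map_smul c f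
    exact congrArg (fun ψ : Additive (Gamma0 N) →+ ℂ => ψ (Additive.ofMul γ)) this

theorem periodEval_apply (N : ℕ) [NeZero N] (γ : Gamma0 N) (f : CuspForm (Gamma0 N) 2) :
    periodEval N γ f = periodMap N f (Additive.ofMul γ) := rfl

end

end Fermat.Agent.S16
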