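import Mathlib

/-!
# S16, leaf (L): the presentation `PSL(2, ℤ) = C₂ * C₃` in the form of a lifting property

`sl2_lift`: for every group `X` and `s u : X` with `s ^ 2 = 1`, `u ^ 3 = 1` there is a
homomorphism `SL(2, ℤ) →* X` with `S ↦ s`, `S * T ↦ u`.  Proof: ping-pong on the upper half plane.
-/

set_option autoImplicit false

namespace Fermat.Agent.S16

open UpperHalfPlane ModularGroup Monoid
open scoped MatrixGroups Pointwise

noncomputable section

/-- the hom from a cyclic group given by an element of finite order. -/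
def cycHom {X : Type*} [Group X] (n : ℕ) (x : X) (hx : x ^ n = 1) :
    Multiplicative (ZMod n) →* X :=
  AddMonoidHom.toMultiplicativeLeft
    (ZMod.lift n ⟨zmultiplesHom (Additive X) (Additive.ofMul x), by
      show (n : ℤ) • Additive.ofMul x = 0
      rw [natCast_zsmul, ← ofMul_pow, hx]; rfl⟩)

theorem cycHom_intCast {X : Type*} [Group X] (n : ℕ) (x : X) (hx : x ^ n = 1) (m : ℤ) :
    cycHom n x hx (Multiplicative.ofAdd ((m : ℤ) : ZMod n)) = x ^ m := by
  unfold cycHom
  rw [AddMonoidHom.toMultiplicativeLeft_apply_apply]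
  simp only [toAdd_ofAdd]
  rw [ZMod.lift_coe]
  show Additive.toMul (m • Additive.ofMul x) = x ^ m
  rw [← ofMul_zpow]; rfl

theorem cycHom_one {X : Type*} [Group X] (n : ℕ) (x : X) (hx : x ^ n = 1) :
    cycHom n x hx (Multiplicative.ofAdd (1 : ZMod n)) = x := by
  have := cycHom_intCast n x hx 1
  simpa using this

/-- orders of the two free factors. -/
def presOrd (b : Bool) : ℕ := cond b 2 3

/-- the two free factors `C₂`, `C₃`. -/
abbrev PresG (b : Bool) : Type := Multiplicative (ZMod (presOrd b))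

/-- the family of homs `C₂ → X`, `C₃ → X` given by `s`, `u`. -/
def presFam {X : Type*} [Group X] (s u : X) (hs : s ^ 2 = 1) (hu : u ^ 3 = 1) :
    ∀ b, PresG b →* X
  | true => cycHom 2 s hs
  | false => cycHom 3 u hu

/-- the action of `SL(2, ℤ)` on the upper half plane as a permutation representation. -/
def hPerm : SL(2, ℤ) →* Equiv.Perm ℍ := MulAction.toPermHom SL(2, ℤ) ℍ

theorem hPerm_apply (g : SL(2, ℤ)) (z : ℍ) : hPerm g z = g • z := rfl

theorem pres_S_sq : (S ^ 2 : SL(2, ℤ)) = -1 := by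
  rw [pow_two]
  apply Subtype.ext
  ext i j
  fin_cases i <;> fin_cases j <;> simp [Matrix.mul_apply, Fin.sum_univ_two]

theorem pres_ST_cube : ((S * T) ^ 3 : SL(2, ℤ)) = -1 := by
  rw [pow_succ, pow_two]
  apply Subtype.ext
  ext i j
  fin_cases i <;> fin_cases j <;> simp [Matrix.mul_apply, Fin.sum_univ_two]

theorem hPerm_neg_one : hPerm (-1 : SL(2, ℤ)) = 1 := by
  ext z
  rw [hPerm_apply, ModularGroup.SL_neg_smul, one_smul]
  rfl

theorem hPerm_S_sq : hPerm S ^ 2 = 1 := by
  rw [← map_pow, pres_S_sq, hPerm_neg_one]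

theorem hPerm_U_cube : hPerm (S * T) ^ 3 = 1 := by
  rw [← map_pow, pres_ST_cube, hPerm_neg_one]

theorem re_S_smul (z : ℍ) : (S • z).re = -z.re / Complex.normSq (z : ℂ) := by
  have h : ((S • z : ℍ) : ℂ) = (-(z : ℂ))⁻¹ := by rw [modular_S_smul]
  show ((S • z : ℍ) : ℂ).re = _
  rw [h, Complex.inv_re, Complex.neg_re, Complex.normSq_neg]
  rfl

theorem re_S_smul_pos {z : ℍ} (hz : z.re < 0) : 0 < (S • z).re := by
  rw [re_S_smul]
  have : 0 < Complex.normSq (z : ℂ) := Complex.normSq_pos.mpr z.ne_zero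
  exact div_pos (by linarith) this

theorem re_S_smul_neg {z : ℍ} (hz : 0 < z.re) : (S • z).re < 0 := by
  rw [re_S_smul]
  have : 0 < Complex.normSq (z : ℂ) := Complex.normSq_pos.mpr z.ne_zero
  exact div_neg_of_neg_of_pos (by linarith) this

/-- the ping-pong sets. -/
def ppSet (b : Bool) : Set ℍ := cond b {z | 0 < z.re} {z | z.re < 0}

theorem zmod2_eq_one : ∀ k : ZMod 2, k ≠ 0 → k = 1 := by decide

theorem zmod3_eq : ∀ k : ZMod 3, k ≠ 0 → k = 1 ∨ k = 2 := by decide

theorem presLift_injective :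
    Function.Injective
      (CoprodI.lift (presFam (hPerm S) (hPerm (S * T)) hPerm_S_sq hPerm_U_cube)) := by
  refine CoprodI.lift_injective_of_ping_pong _ (Or.inr ⟨false, ?_⟩) ppSet ?_ ?_ ?_
  · show (3 : Cardinal) ≤ Cardinal.mk (Multiplicative (ZMod 3))
    rw [Cardinal.mk_fintype]
    simp
  · intro b
    cases b
    · refine ⟨UpperHalfPlane.mk (-1 + Complex.I) (by simp), ?_⟩
      show (UpperHalfPlane.mk (-1 + Complex.I) (by simp)).re < 0
      simp [UpperHalfPlane.re]
    · refine ⟨UpperHalfPlane.mk (1 + Complex.I) (by simp), ?_⟩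
      show 0 < (UpperHalfPlane.mk (1 + Complex.I) (by simp)).re
      simp [UpperHalfPlane.re]
  · intro i j hij
    rw [Function.onFun, Set.disjoint_left]
    cases i <;> cases j
    · exact absurd rfl hij
    · intro z (h1 : z.re < 0) (h2 : 0 < z.re)
      exact lt_asymm h1 h2
    · intro z (h1 : 0 < z.re) (h2 : z.re < 0)
      exact lt_asymm h1 h2
    · exact absurd rfl hij
  · intro i j hij
    cases i <;> cases j
    · exact absurd rfl hij
    · -- `C₃` maps `{Re > 0}` into `{Re < 0}`
      show ∀ h : Multiplicative (ZMod 3), h ≠ 1 →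
        (cycHom 3 (hPerm (S * T)) hPerm_U_cube h) • {z : ℍ | 0 < z.re} ⊆ {z : ℍ | z.re < 0}
      intro h hh
      have hk : Multiplicative.toAdd h ≠ 0 := fun h0 => hh (by
        have : h = Multiplicative.ofAdd (Multiplicative.toAdd h) := rfl
        rw [this, h0]; rfl)
      rintro _ ⟨w, (hw : 0 < w.re), rfl⟩
      show ((cycHom 3 (hPerm (S * T)) hPerm_U_cube h) • w).re < 0
      have hrep : h = Multiplicative.ofAdd (Multiplicative.toAdd h) := rfl
      rcases zmod3_eq _ hk with h1 | h2
      · rw [hrep, h1, cycHom_one, Equiv.Perm.smul_def, hPerm_apply, mul_smul]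
        apply re_S_smul_neg
        rw [ModularGroup.re_T_smul]
        linarith
      · have h2' : Multiplicative.toAdd h = ((2 : ℤ) : ZMod 3) := by rw [h2]; rfl
        have hinv : hPerm (S * T) ^ (2 : ℤ) = hPerm ((S * T)⁻¹) := by
          rw [map_inv]
          apply eq_inv_of_mul_eq_one_left
          have := hPerm_U_cube
          rw [pow_succ] at this
          exact_mod_cast this
        rw [hrep, h2', cycHom_intCast, hinv, Equiv.Perm.smul_def, hPerm_apply, mul_inv_rev,
          mul_smul, ModularGroup.re_T_inv_smul]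
        have hS : (S⁻¹ : SL(2, ℤ)) • w = S • w := by
          have h3 : (S : SL(2, ℤ)) • (S • w) = w := by
            rw [← mul_smul, ← pow_two, pres_S_sq, ModularGroup.SL_neg_smul, one_smul]
          rw [inv_smul_eq_iff, h3]
        rw [hS]
        have := re_S_smul_neg hw
        linarith
    · -- `C₂` maps `{Re < 0}` into `{Re > 0}`
      show ∀ h : Multiplicative (ZMod 2), h ≠ 1 →
        (cycHom 2 (hPerm S) hPerm_S_sq h) • {z : ℍ | z.re < 0} ⊆ {z : ℍ | 0 < z.re}
      intro h hh
      have hk : Multiplicative.toAdd h ≠ 0 := fun h0 => hh (by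
        have : h = Multiplicative.ofAdd (Multiplicative.toAdd h) := rfl
        rw [this, h0]; rfl)
      rintro _ ⟨w, (hw : w.re < 0), rfl⟩
      show 0 < ((cycHom 2 (hPerm S) hPerm_S_sq h) • w).re
      have hrep : h = Multiplicative.ofAdd (Multiplicative.toAdd h) := rfl
      rw [hrep, zmod2_eq_one _ hk, cycHom_one, Equiv.Perm.smul_def, hPerm_apply]
      exact re_S_smul_pos hw
    · exact absurd rfl hij

/-- **Presentation of `PSL(2, ℤ)`** as a lifting property. -/
theorem sl2_lift {X : Type*} [Group X] (s u : X) (hs : s ^ 2 = 1) (hu : u ^ 3 = 1) :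
    ∃ ψ : SL(2, ℤ) →* X, ψ S = s ∧ ψ (S * T) = u := by
  classical
  set F := CoprodI.lift (presFam (hPerm S) (hPerm (S * T)) hPerm_S_sq hPerm_U_cube) with hF
  have hinj : Function.Injective F := presLift_injective
  have hS : F (CoprodI.of (M := PresG) (i := true) (Multiplicative.ofAdd 1)) = hPerm S := by
    rw [hF, CoprodI.lift_of]
    exact cycHom_one 2 (hPerm S) hPerm_S_sq
  have hU : F (CoprodI.of (M := PresG) (i := false) (Multiplicative.ofAdd 1)) =
      hPerm (S * T) := by
    rw [hF, CoprodI.lift_of]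
    exact cycHom_one 3 (hPerm (S * T)) hPerm_U_cube
  have hrange : ∀ g : SL(2, ℤ), hPerm g ∈ F.range := by
    intro g
    have hg : g ∈ Subgroup.closure ({S, T} : Set SL(2, ℤ)) := by
      rw [SpecialLinearGroup.SL2Z_generators]; trivial
    have hle : Subgroup.closure ({S, T} : Set SL(2, ℤ)) ≤ F.range.comap hPerm := by
      rw [Subgroup.closure_le]
      rintro x (rfl | rfl)
      · exact ⟨_, hS⟩
      · show hPerm T ∈ F.range
        have : hPerm T = (hPerm S)⁻¹ * hPerm (S * T) := by
          rw [← map_inv, ← map_mul, inv_mul_cancel_left]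
        rw [this]
        exact F.range.mul_mem (F.range.inv_mem ⟨_, hS⟩) ⟨_, hU⟩
    exact hle hg
  choose θ hθ using hrange
  have hθmul : ∀ g h, θ (g * h) = θ g * θ h := fun g h =>
    hinj (by rw [map_mul, hθ, hθ, hθ, map_mul])
  have hθone : θ 1 = 1 := hinj (by rw [hθ, map_one, map_one])
  let Θ : SL(2, ℤ) →* CoprodI PresG := ⟨⟨θ, hθone⟩, hθmul⟩
  refine ⟨(CoprodI.lift (presFam s u hs hu)).comp Θ, ?_, ?_⟩
  · show CoprodI.lift (presFam s u hs hu) (θ S) = s
    have : θ S = CoprodI.of (M := PresG) (i := true) (Multiplicative.ofAdd 1) :=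
      hinj (by rw [hθ, hS])
    rw [this, CoprodI.lift_of]
    exact cycHom_one 2 s hs
  · show CoprodI.lift (presFam s u hs hu) (θ (S * T)) = u
    have : θ (S * T) = CoprodI.of (M := PresG) (i := false) (Multiplicative.ofAdd 1) :=
      hinj (by rw [hθ, hU])
    rw [this, CoprodI.lift_of]
    exact cycHom_one 3 u hu

end

end Fermat.Agent.S16
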