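import Mathlib

/-!
# S16, duality: an abstract perfect-pairing lemma over `ℤ`

`M`, `N` finite free `ℤ`-modules, `B : M →ₗ N →ₗ ℤ` non-degenerate on both sides and
*saturated* in `N` (if `D ∣ B t f` for all `t` then `f ∈ D • N`).  Then every
functional on `M` is `B · f` for some `f`.
-/

set_option autoImplicit false

namespace Fermat.Agent.S16

open Module

theorem finrank_dual_int (M : Type*) [AddCommGroup M] [Module ℤ M] [Module.Free ℤ M]
    [Module.Finite ℤ M] : finrank ℤ (Module.Dual ℤ M) = finrank ℤ M := by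
  classical
  let b := Module.Free.chooseBasis ℤ M
  let _ : Fintype (Module.Free.ChooseBasisIndex ℤ M) := Module.Free.ChooseBasisIndex.fintype ℤ M
  rw [Module.finrank_eq_card_basis b, Module.finrank_eq_card_basis b.dualBasis]

theorem exists_of_pairing {M N : Type*} [AddCommGroup M] [AddCommGroup N] [Module ℤ M]
    [Module ℤ N] [Module.Free ℤ M] [Module.Finite ℤ M] [Module.Free ℤ N] [Module.Finite ℤ N]
    (B : M →ₗ[ℤ] N →ₗ[ℤ] ℤ) (hM : Function.Injective B) (hN : Function.Injective B.flip)
    (hsat : ∀ (f : N) (D : ℤ), D ≠ 0 → (∀ t, D ∣ B t f) → ∃ f', f = D • f')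
    (lam : M →ₗ[ℤ] ℤ) : ∃ f : N, ∀ t, B t f = lam t := by
  classical
  -- ranks
  have h1 : finrank ℤ N ≤ finrank ℤ (Module.Dual ℤ M) :=
    LinearMap.finrank_le_finrank_of_injective (f := B.flip) hN
  have h2 : finrank ℤ M ≤ finrank ℤ (Module.Dual ℤ N) :=
    LinearMap.finrank_le_finrank_of_injective (f := B) hM
  rw [finrank_dual_int] at h1 h2
  have hrk : finrank ℤ N = finrank ℤ M := le_antisymm h1 h2
  -- the range of `B.flip` has full rank in `Dual M`
  let R : Submodule ℤ (Module.Dual ℤ M) := LinearMap.range B.flip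
  have hR : finrank ℤ R = finrank ℤ (Module.Dual ℤ M) := by
    rw [finrank_dual_int, ← hrk]
    exact LinearMap.finrank_range_of_inj hN
  have hq : finrank ℤ (Module.Dual ℤ M ⧸ R) = 0 := by
    have := R.finrank_quotient_add_finrank
    omega
  have htors : Module.IsTorsion ℤ (Module.Dual ℤ M ⧸ R) :=
    Module.finrank_eq_zero_iff_isTorsion.mp hq
  obtain ⟨⟨D, hD⟩, hDl⟩ := @htors (Submodule.Quotient.mk lam)
  have hD0 : D ≠ 0 := nonZeroDivisors.ne_zero hD
  have hmem : D • lam ∈ R := by
    have : (Submodule.Quotient.mk (D • lam) : Module.Dual ℤ M ⧸ R) = 0 := by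
      simpa using hDl
    exact (Submodule.Quotient.mk_eq_zero R).mp this
  obtain ⟨f, hf⟩ := hmem
  have hf' : ∀ t, B t f = D * lam t := fun t => by
    have := LinearMap.congr_fun hf t
    simpa using this
  obtain ⟨f', rfl⟩ := hsat f D hD0 (fun t => ⟨lam t, hf' t⟩)
  refine ⟨f', fun t => ?_⟩
  have := hf' t
  have e : B t (D • f') = D * B t f' := by
    simp
  rw [e] at this
  exact mul_left_cancel₀ hD0 this

end Fermat.Agent.S16
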