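import Fermat.Agent.S16.Defs
import Fermat.Agent.S16.Pairing
import Fermat.Agent.S23.Final

/-!
# S16, duality: the pairing `𝕋 × S₂(Γ₀(N), ℤ) → ℤ`, `(t, f) ↦ a₁(t f)` is perfect
-/

set_option autoImplicit false

namespace Fermat.Agent.S16

open CuspForm ModularFormClass Fermat.Agent.S23

noncomputable section

variable (N : ℕ) [NeZero N]

omit [NeZero N] in
/-- Elements of the integral lattice have integral `q`-coefficients. -/
theorem exists_int_qc_of_mem {f : CuspForm (CongruenceSubgroup.Gamma0 N) 2}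
    (hf : f ∈ intLattice N 2) (n : ℕ) : ∃ m : ℤ, qc N n f = (m : ℂ) := by
  induction hf using Submodule.span_induction with
  | mem f hf => exact hf n
  | zero => exact ⟨0, by simp⟩
  | add f g _ _ hf hg =>
    obtain ⟨a, ha⟩ := hf
    obtain ⟨b, hb⟩ := hg
    exact ⟨a + b, by rw [map_add, ha, hb]; push_cast; rfl⟩
  | smul c f _ hf =>
    obtain ⟨a, ha⟩ := hf
    exact ⟨c * a, by rw [map_zsmul, ha]; push_cast; simp⟩

omit [NeZero N] in
theorem mem_intLattice_of_int {f : CuspForm (CongruenceSubgroup.Gamma0 N) 2}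
    (h : ∀ n, ∃ m : ℤ, qc N n f = (m : ℂ)) : f ∈ intLattice N 2 :=
  Submodule.subset_span h

/-- The `n`-th `q`-coefficient as an integer-valued functional on the integral lattice. -/
def icoeff (n : ℕ) : ↥(intLattice N 2) →ₗ[ℤ] ℤ where
  toFun f := (exists_int_qc_of_mem N f.2 n).choose
  map_add' f g := by
    have h1 := (exists_int_qc_of_mem N f.2 n).choose_spec
    have h2 := (exists_int_qc_of_mem N g.2 n).choose_spec
    have h3 := (exists_int_qc_of_mem N (f + g).2 n).choose_spec
    apply Int.cast_injective (α := ℂ)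
    rw [Int.cast_add, ← h1, ← h2, ← h3]
    exact map_add (qc N n) _ _
  map_smul' c f := by
    have h1 := (exists_int_qc_of_mem N f.2 n).choose_spec
    have h3 := (exists_int_qc_of_mem N (c • f).2 n).choose_spec
    apply Int.cast_injective (α := ℂ)
    rw [RingHom.id_apply, smul_eq_mul, Int.cast_mul, ← h1, ← h3]
    have : ((c • f : ↥(intLattice N 2)) : CuspForm (CongruenceSubgroup.Gamma0 N) 2) =
        c • (f : CuspForm (CongruenceSubgroup.Gamma0 N) 2) := rfl
    rw [this, map_zsmul]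
    simp

omit [NeZero N] in
theorem icoeff_spec (n : ℕ) (f : ↥(intLattice N 2)) :
    qc N n (f : CuspForm (CongruenceSubgroup.Gamma0 N) 2) = ((icoeff N n f : ℤ) : ℂ) :=
  (exists_int_qc_of_mem N f.2 n).choose_spec

theorem icoeff_eq_of {n : ℕ} {f : ↥(intLattice N 2)} {m : ℤ}
    (h : qc N n (f : CuspForm (CongruenceSubgroup.Gamma0 N) 2) = (m : ℂ)) : icoeff N n f = m := by
  have := icoeff_spec N n f
  rw [h] at this
  exact (Int.cast_injective this).symm

/-- `q`-expansion principle on the lattice. -/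
theorem eq_zero_of_icoeff (f : ↥(intLattice N 2)) (h : ∀ n, 1 ≤ n → icoeff N n f = 0) : f = 0 := by
  apply Subtype.ext
  refine eq_zero_of_qc_eq_zero N _ fun n _ => ?_
  rcases Nat.eq_zero_or_pos n with rfl | hn
  · exact qc_zero_eq N _
  · have := icoeff_spec N n f
    rw [h n hn] at this
    simpa [qc_apply] using this

/-- The action of the lattice Hecke algebra on the lattice. -/
theorem coe_latticeRestrictHom_apply (t : ↥(heckeAlgebra N 2 ∅)) (f : ↥(intLattice N 2)) :
    ((((latticeRestrictHom N ∅ t : ↥(heckeLatticeAlgebra N ∅)) :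
      Module.End ℤ ↥(intLattice N 2)) f : ↥(intLattice N 2)) :
        CuspForm (CongruenceSubgroup.Gamma0 N) 2) =
      (t : Module.End ℂ (CuspForm (CongruenceSubgroup.Gamma0 N) 2))
        (f : CuspForm (CongruenceSubgroup.Gamma0 N) 2) := rfl

/-- For `n ≥ 1` there is `τ_n ∈ 𝕋` with `a₁(τ_n f) = a_n(f)`. -/
theorem exists_tau (n : ℕ) (hn : 1 ≤ n) : ∃ τ : ↥(heckeLatticeAlgebra N ∅),
    ∀ f : ↥(intLattice N 2), icoeff N 1 ((τ : Module.End ℤ ↥(intLattice N 2)) f) = icoeff N n f := by
  obtain ⟨t, ht, h⟩ := exists_hecke_qc N n hn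
  refine ⟨latticeRestrictHom N ∅ ⟨t, ht⟩, fun f => ?_⟩
  apply icoeff_eq_of
  rw [coe_latticeRestrictHom_apply, ← icoeff_spec]
  exact h _

/-- The pairing `(t, f) ↦ a₁(t f)`. -/
def pairing : ↥(heckeLatticeAlgebra N ∅) →ₗ[ℤ] ↥(intLattice N 2) →ₗ[ℤ] ℤ :=
  LinearMap.mk₂ ℤ (fun t f => icoeff N 1 ((t : Module.End ℤ ↥(intLattice N 2)) f))
    (fun s t f => by simp [LinearMap.add_apply])
    (fun c t f => by simp)
    (fun t f g => by simp)
    (fun c t f => by simp)

theorem pairing_apply (t : ↥(heckeLatticeAlgebra N ∅)) (f : ↥(intLattice N 2)) :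
    pairing N t f = icoeff N 1 ((t : Module.End ℤ ↥(intLattice N 2)) f) := rfl

theorem pairing_mul (s t : ↥(heckeLatticeAlgebra N ∅)) (f : ↥(intLattice N 2)) :
    pairing N (s * t) f = pairing N s ((t : Module.End ℤ ↥(intLattice N 2)) f) := rfl

theorem pairing_flip_injective : Function.Injective (pairing N).flip := by
  rw [injective_iff_map_eq_zero]
  intro f hf
  refine eq_zero_of_icoeff N f fun n hn => ?_
  obtain ⟨τ, hτ⟩ := exists_tau N n hn
  rw [← hτ f]
  exact LinearMap.congr_fun hf τ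

theorem pairing_injective : Function.Injective (pairing N) := by
  rw [injective_iff_map_eq_zero]
  intro t ht
  apply Subtype.ext
  refine LinearMap.ext fun f => ?_
  change (t : Module.End ℤ ↥(intLattice N 2)) f = 0
  refine eq_zero_of_icoeff N _ fun n hn => ?_
  obtain ⟨τ, hτ⟩ := exists_tau N n hn
  rw [← hτ]
  have h1 : pairing N (τ * t) f = pairing N (t * τ) f := by rw [mul_comm]
  rw [pairing_mul, pairing_mul] at h1
  change pairing N τ ((t : Module.End ℤ ↥(intLattice N 2)) f) = 0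
  rw [h1]
  exact LinearMap.congr_fun ht _

theorem pairing_saturated (f : ↥(intLattice N 2)) (D : ℤ) (hD : D ≠ 0)
    (h : ∀ t, D ∣ pairing N t f) : ∃ f' : ↥(intLattice N 2), f = D • f' := by
  have hdiv : ∀ n, ∃ m : ℤ, icoeff N n f = D * m := by
    intro n
    rcases Nat.eq_zero_or_pos n with rfl | hn
    · refine ⟨0, ?_⟩
      apply icoeff_eq_of
      rw [qc_zero_eq]
      simp
    · obtain ⟨τ, hτ⟩ := exists_tau N n hn
      obtain ⟨m, hm⟩ := h τ
      exact ⟨m, by rw [← hτ f]; exact hm⟩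
  have hDC : (D : ℂ) ≠ 0 := Int.cast_ne_zero.mpr hD
  let g : CuspForm (CongruenceSubgroup.Gamma0 N) 2 :=
    (D : ℂ)⁻¹ • (f : CuspForm (CongruenceSubgroup.Gamma0 N) 2)
  have hg : g ∈ intLattice N 2 := by
    refine mem_intLattice_of_int N fun n => ?_
    obtain ⟨m, hm⟩ := hdiv n
    refine ⟨m, ?_⟩
    change qc N n ((D : ℂ)⁻¹ • (f : CuspForm (CongruenceSubgroup.Gamma0 N) 2)) = _
    rw [map_smul, icoeff_spec, hm]
    push_cast
    rw [smul_eq_mul]
    field_simp
  refine ⟨⟨g, hg⟩, Subtype.ext ?_⟩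
  change (f : CuspForm (CongruenceSubgroup.Gamma0 N) 2) = D • g
  rw [← Int.cast_smul_eq_zsmul ℂ D g, smul_smul, mul_inv_cancel₀ hDC, one_smul]

/-- Every `ℤ`-linear functional on `𝕋` is `t ↦ a₁(t f)` for a (unique) `f` in the lattice. -/
theorem exists_of_functional (lam : ↥(heckeLatticeAlgebra N ∅) →ₗ[ℤ] ℤ) :
    ∃ f : ↥(intLattice N 2), ∀ t, pairing N t f = lam t := by
  have := intLattice.moduleFinite N
  have := intLattice.moduleFree N
  exact exists_of_pairing (pairing N) (pairing_injective N) (pairing_flip_injective N)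
    (pairing_saturated N) lam

end

end Fermat.Agent.S16
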