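import Mathlib
import Fermat.Agent.S16.FrickeTrace

/-!
# S16, leaf [ST']: the two-cusp norm lemma

Let `h` be a `Γ₀(p)`-modular function (holomorphic on `ℍ`) with Laurent expansions `s` at `∞`
and `sW` at the cusp `0` (i.e. of `τ ↦ h(-1/(pτ))`), and let `c ∈ ℂ`, `A ⊆ ℂ` a subring containing
the `p`-th roots of unity, `l ∈ ℂ`.  Assume `s` and `c·sW` have coefficients in `A`, that the
coefficients of `s` below `α` and of `c·sW` below `β` lie in `l·A`, and that `α + β > 0`.
Then `s_α · (c·sW)_β ^ p ∈ l·A`  (`norm_two_cusps`).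

Reason: `c^p · N(h)` is a polynomial in `j`; its `q`-expansion at `pτ` is
`s(q^p) · ∏_{m<p} (c·sW)(ζ^m q)`, which is `≡ 0 mod l` below `p(α+β) > 0`; a polynomial in
`j(q^p) = q^{-p} + …` whose expansion is `≡ 0 mod l` in all degrees `≤ 0` is `≡ 0 mod l`.
-/

set_option autoImplicit false

noncomputable section

namespace Fermat.Agent.S16

open UpperHalfPlane hiding I
open ModularForm Function ModularCurve Polynomial
open Fermat.Agent Fermat.Agent.S24B Fermat.Agent.S24 Fermat.Agent.S28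
open scoped Real MatrixGroups

/-! ### The additive group `l·A` -/

/-- `l · A` as an additive subgroup of `ℂ`. -/
def mulSub (A : Subring ℂ) (l : ℂ) : AddSubgroup ℂ where
  carrier := {x | ∃ a ∈ A, x = l * a}
  zero_mem' := ⟨0, A.zero_mem, by simp⟩
  add_mem' := by
    rintro x y ⟨a, ha, rfl⟩ ⟨b, hb, rfl⟩
    exact ⟨a + b, A.add_mem ha hb, by ring⟩
  neg_mem' := by
    rintro x ⟨a, ha, rfl⟩
    exact ⟨-a, A.neg_mem ha, by ring⟩

theorem mem_mulSub {A : Subring ℂ} {l x : ℂ} : x ∈ mulSub A l ↔ ∃ a ∈ A, x = l * a := Iff.rfl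

theorem mulSub_mul_right {A : Subring ℂ} {l x a : ℂ} (hx : x ∈ mulSub A l) (ha : a ∈ A) :
    x * a ∈ mulSub A l := by
  obtain ⟨b, hb, rfl⟩ := hx
  exact ⟨b * a, A.mul_mem hb ha, by ring⟩

theorem mulSub_mul_left {A : Subring ℂ} {l x a : ℂ} (ha : a ∈ A) (hx : x ∈ mulSub A l) :
    a * x ∈ mulSub A l := by
  rw [mul_comm]
  exact mulSub_mul_right hx ha

/-- `t ≡ a·q^n + (higher order) mod l`. -/
def LeadAt (A : Subring ℂ) (l : ℂ) (t : LaurentSeries ℂ) (n : ℤ) (a : ℂ) : Prop :=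
  (∀ k < n, t.coeff k ∈ mulSub A l) ∧ t.coeff n - a ∈ mulSub A l

theorem leadAt_self {A : Subring ℂ} {l : ℂ} {t : LaurentSeries ℂ} {n : ℤ}
    (h : ∀ k < n, t.coeff k ∈ mulSub A l) : LeadAt A l t n (t.coeff n) :=
  ⟨h, by rw [sub_self]; exact (mulSub A l).zero_mem⟩

theorem LeadAt.mul {A : Subring ℂ} {l : ℂ} {t u : LaurentSeries ℂ} {n m : ℤ} {a b : ℂ}
    (ht : t ∈ LSO A) (hu : u ∈ LSO A) (ha : a ∈ A)
    (h1 : LeadAt A l t n a) (h2 : LeadAt A l u m b) : LeadAt A l (t * u) (n + m) (a * b) := by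
  rw [mem_LSO] at ht hu
  have hterm : ∀ i j : ℤ, i + j ≤ n + m → (i, j) ≠ (n, m) →
      t.coeff i * u.coeff j ∈ mulSub A l := by
    intro i j hij hne
    rcases lt_or_ge i n with hi | hi
    · exact mulSub_mul_right (h1.1 i hi) (hu j)
    · have hj : j < m := by
        rcases lt_or_eq_of_le hi with hi' | hi'
        · omega
        · by_contra hjm
          have : j = m := by omega
          exact hne (by rw [← hi', this])
      exact mulSub_mul_left (ht i) (h2.1 j hj)
  constructor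
  · intro k hk
    rw [HahnSeries.coeff_mul]
    refine (mulSub A l).sum_mem fun ij hij => ?_
    have hsum : ij.1 + ij.2 = k := (Finset.mem_antidiagonal.mp hij).2.2
    refine hterm ij.1 ij.2 (by omega) ?_
    intro he
    have h1' : ij.1 = n := congrArg Prod.fst he
    have h2' : ij.2 = m := congrArg Prod.snd he
    omega
  · have hlead : t.coeff n * u.coeff m - a * b ∈ mulSub A l := by
      have e : t.coeff n * u.coeff m - a * b =
          (t.coeff n - a) * u.coeff m + a * (u.coeff m - b) := by ring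
      rw [e]
      exact (mulSub A l).add_mem (mulSub_mul_right h1.2 (hu m)) (mulSub_mul_left ha h2.2)
    have hrest : (t * u).coeff (n + m) - t.coeff n * u.coeff m ∈ mulSub A l := by
      classical
      rw [HahnSeries.coeff_mul]
      by_cases hmem : (n, m) ∈ Finset.antidiagonal t.isPWO_support u.isPWO_support (n + m)
      · rw [← Finset.add_sum_erase _ _ hmem, add_sub_cancel_left]
        refine (mulSub A l).sum_mem fun ij hij => ?_
        have hij' := Finset.mem_erase.mp hij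
        have hsum : ij.1 + ij.2 = n + m := (Finset.mem_antidiagonal.mp hij'.2).2.2
        exact hterm ij.1 ij.2 (by omega) hij'.1
      · have h0 : t.coeff n * u.coeff m = 0 := by
          by_contra hne
          refine hmem (Finset.mem_antidiagonal.mpr ⟨?_, ?_, rfl⟩)
          · exact left_ne_zero_of_mul hne
          · exact right_ne_zero_of_mul hne
        rw [h0, sub_zero]
        refine (mulSub A l).sum_mem fun ij hij => ?_
        have hsum : ij.1 + ij.2 = n + m := (Finset.mem_antidiagonal.mp hij).2.2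
        refine hterm ij.1 ij.2 (by omega) ?_
        intro he
        exact hmem (he ▸ hij)
    have e : (t * u).coeff (n + m) - a * b =
        ((t * u).coeff (n + m) - t.coeff n * u.coeff m) + (t.coeff n * u.coeff m - a * b) := by
      ring
    rw [e]
    exact (mulSub A l).add_mem hrest hlead

theorem LeadAt.qExpand {A : Subring ℂ} {l : ℂ} {t : LaurentSeries ℂ} {n : ℤ} {a : ℂ}
    (M : ℕ) [NeZero M] (h : LeadAt A l t n a) :
    LeadAt A l (ModularCurve.qExpand ℂ M t) ((M : ℤ) * n) a := by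
  have hM : (0 : ℤ) < M := by exact_mod_cast Nat.pos_of_ne_zero (NeZero.ne M)
  constructor
  · intro k hk
    by_cases hdvd : (M : ℤ) ∣ k
    · obtain ⟨k', rfl⟩ := hdvd
      rw [ModularCurve.qExpand_coeff_mul]
      exact h.1 k' (lt_of_mul_lt_mul_left hk hM.le)
    · rw [ModularCurve.qExpand_coeff_of_not_dvd _ _ hdvd]
      exact (mulSub A l).zero_mem
  · rw [ModularCurve.qExpand_coeff_mul]
    exact h.2

theorem LeadAt.twistL {A : Subring ℂ} {l : ℂ} {t : LaurentSeries ℂ} {n : ℤ} {a : ℂ}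
    {ζ : ℂ} (hζ : ζ ∈ A) (hζ' : ζ⁻¹ ∈ A) (h : LeadAt A l t n a) :
    LeadAt A l (S28.twistL ζ t) n (ζ ^ n * a) := by
  constructor
  · intro k hk
    rw [twistL_coeff]
    exact mulSub_mul_left (zpow_mem_of_mem hζ hζ' k) (h.1 k hk)
  · rw [twistL_coeff, ← mul_sub]
    exact mulSub_mul_left (zpow_mem_of_mem hζ hζ' n) h.2

theorem LeadAt.finset_prod {A : Subring ℂ} {l : ℂ} {ι : Type*} (S : Finset ι)
    (u : ι → LaurentSeries ℂ) (m : ℤ) (b : ι → ℂ) (hu : ∀ i ∈ S, u i ∈ LSO A)
    (hb : ∀ i ∈ S, b i ∈ A) (h : ∀ i ∈ S, LeadAt A l (u i) m (b i)) :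
    LeadAt A l (∏ i ∈ S, u i) ((S.card : ℤ) * m) (∏ i ∈ S, b i) := by
  classical
  induction S using Finset.induction_on with
  | empty =>
    simp only [Finset.prod_empty, Finset.card_empty, Nat.cast_zero, zero_mul]
    constructor
    · intro k hk
      rw [HahnSeries.coeff_one, if_neg hk.ne]
      exact (mulSub A l).zero_mem
    · rw [HahnSeries.coeff_one, if_pos rfl, sub_self]
      exact (mulSub A l).zero_mem
  | insert i S hi ih =>
    rw [Finset.prod_insert hi, Finset.prod_insert hi, Finset.card_insert_of_notMem hi]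
    have e : ((S.card + 1 : ℕ) : ℤ) * m = m + (S.card : ℤ) * m := by push_cast; ring
    rw [e]
    exact LeadAt.mul (hu i (Finset.mem_insert_self i S))
      ((LSO A).prod_mem fun j hj => hu j (Finset.mem_insert_of_mem hj))
      (hb i (Finset.mem_insert_self i S))
      (h i (Finset.mem_insert_self i S))
      (ih (fun j hj => hu j (Finset.mem_insert_of_mem hj))
        (fun j hj => hb j (Finset.mem_insert_of_mem hj))
        (fun j hj => h j (Finset.mem_insert_of_mem hj)))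

/-! ### Triangularity modulo `l` -/

/-- A polynomial in `j(q^M)` whose expansion is `≡ 0 mod l` in all degrees `≤ 0` has all its
coefficients in `l·A`. -/
theorem coeff_mem_mulSub_of_eval₂ {A : Subring ℂ} {l : ℂ} (M : ℕ) [NeZero M] (Q : ℂ[X])
    (h : ∀ k : ℤ, k ≤ 0 →
      (Q.eval₂ HahnSeries.C (qExpand ℂ M (jqModC ℂ))).coeff k ∈ mulSub A l)
    (i : ℕ) : Q.coeff i ∈ mulSub A l := by
  have hM : (0 : ℤ) < M := by exact_mod_cast Nat.pos_of_ne_zero (NeZero.ne M)
  suffices H : ∀ n : ℕ, ∀ Q : ℂ[X], Q.natDegree < n →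
      (∀ k : ℤ, k ≤ 0 →
        (Q.eval₂ HahnSeries.C (qExpand ℂ M (jqModC ℂ))).coeff k ∈ mulSub A l) →
      ∀ i, Q.coeff i ∈ mulSub A l from H (Q.natDegree + 1) Q (Nat.lt_succ_self _) h i
  intro n
  induction n with
  | zero => intro Q hQ; exact absurd hQ (Nat.not_lt_zero _)
  | succ n ih =>
    intro Q hQ hmem i
    have hlead : Q.leadingCoeff ∈ mulSub A l := by
      have := hmem (-((M : ℤ) * Q.natDegree)) (by
        have : (0 : ℤ) ≤ (M : ℤ) * Q.natDegree := by positivity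
        linarith)
      rwa [coeff_eval₂_jM_of_natDegree_le M Q Q.natDegree le_rfl] at this
    rcases Nat.eq_zero_or_pos Q.natDegree with h0 | hpos
    · rcases Nat.eq_zero_or_pos i with hi | hi
      · rw [hi]
        rw [Polynomial.leadingCoeff, h0] at hlead
        exact hlead
      · rw [Polynomial.coeff_eq_zero_of_natDegree_lt (by omega)]
        exact (mulSub A l).zero_mem
    · have hdeg : Q.eraseLead.natDegree < n := by
        have := Polynomial.eraseLead_natDegree_le Q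
        omega
      have hsplit := Polynomial.eraseLead_add_C_mul_X_pow Q
      have e : Q.eval₂ HahnSeries.C (qExpand ℂ M (jqModC ℂ)) =
          Q.eraseLead.eval₂ HahnSeries.C (qExpand ℂ M (jqModC ℂ)) +
            HahnSeries.C Q.leadingCoeff * (qExpand ℂ M (jqModC ℂ)) ^ Q.natDegree := by
        conv_lhs => rw [← hsplit]
        rw [Polynomial.eval₂_add, Polynomial.eval₂_mul, Polynomial.eval₂_C,
          Polynomial.eval₂_pow, Polynomial.eval₂_X]
      have hmem' : ∀ k : ℤ, k ≤ 0 →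
          (Q.eraseLead.eval₂ HahnSeries.C (qExpand ℂ M (jqModC ℂ))).coeff k ∈ mulSub A l := by
        intro k hk
        have h1 := hmem k hk
        rw [e, HahnSeries.coeff_add, HahnSeries.C_mul_eq_smul, HahnSeries.coeff_smul,
          smul_eq_mul] at h1
        have h2 : Q.leadingCoeff * ((qExpand ℂ M (jqModC ℂ)) ^ Q.natDegree).coeff k ∈
            mulSub A l :=
          mulSub_mul_right hlead (mem_LSO.mp (jM_pow_mem_LSO A M Q.natDegree) k)
        have h3 := (mulSub A l).sub_mem h1 h2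
        rwa [add_sub_cancel_right] at h3
      have := ih Q.eraseLead hdeg hmem' i
      rw [Polynomial.eraseLead_coeff] at this
      split_ifs at this with hi
      · rw [hi]
        exact hlead
      · exact this

/-- … and then its whole expansion is `≡ 0 mod l`. -/
theorem coeff_eval₂_mem_mulSub {A : Subring ℂ} {l : ℂ} (M : ℕ) [NeZero M] (Q : ℂ[X])
    (h : ∀ k : ℤ, k ≤ 0 →
      (Q.eval₂ HahnSeries.C (qExpand ℂ M (jqModC ℂ))).coeff k ∈ mulSub A l)
    (k : ℤ) : (Q.eval₂ HahnSeries.C (qExpand ℂ M (jqModC ℂ))).coeff k ∈ mulSub A l := by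
  rw [coeff_eval₂_jM]
  refine (mulSub A l).sum_mem fun i _ => ?_
  exact mulSub_mul_right (coeff_mem_mulSub_of_eval₂ M Q h i)
    (mem_LSO.mp (jM_pow_mem_LSO A M i) k)

/-! ### The norm of a level-`p` modular function -/

/-- Finite products of Laurent expansions. -/
theorem isLaurentOf_finset_prod {ι : Type*} (S : Finset ι) (u : ι → LaurentSeries ℂ)
    (F : ι → ℍ → ℂ) (h : ∀ i ∈ S, IsLaurentOf (u i) (F i)) :
    IsLaurentOf (∏ i ∈ S, u i) (∏ i ∈ S, F i) := by
  classical
  induction S using Finset.induction_on with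
  | empty => simpa using IsLaurentOf.one
  | insert i S hi ih =>
    rw [Finset.prod_insert hi, Finset.prod_insert hi]
    exact (h i (Finset.mem_insert_self i S)).mul
      (ih fun j hj => h j (Finset.mem_insert_of_mem hj))

/-- The product of the conjugates of a level-`p` modular function `h`, in terms of `h` and
`h ∘ fricke`:  `∏_x h^x(pτ) = h(pτ) · ∏_{m<p} h(-1/(p(τ + m/p)))`. -/
theorem prod_conjF_heckeDiag (p : ℕ) [Fact p.Prime] {h : ℍ → ℂ} (hh : S24.ModFun p h) (τ : ℍ) :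
    ∏ x : ES.X p, S24.conjF x h (heckeDiagMatrix p • τ) =
      h (heckeDiagMatrix p • τ) *
        ∏ m ∈ Finset.range p, h (S28A.fricke p ((((m : ℝ) / (p : ℝ) : ℝ)) +ᵥ τ)) := by
  have hp : p ≠ 0 := (Fact.out : p.Prime).ne_zero
  have : NeZero p := ⟨hp⟩
  have hpC : (p : ℂ) ≠ 0 := by exact_mod_cast hp
  rw [← (cosetRep_bijective p).prod_comp (fun x => S24.conjF x h (heckeDiagMatrix p • τ)),
    Fintype.prod_option]
  simp only [hh.conjF_eq_of_mk, cosetRep, inv_one, inv_inv, one_smul]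
  congr 1
  rw [← Fin.prod_univ_eq_prod_range
    (fun m => h (S28A.fricke p ((((m : ℝ) / (p : ℝ) : ℝ)) +ᵥ τ))) p]
  refine Finset.prod_congr rfl fun m _ => ?_
  congr 1
  rw [mul_smul]
  unfold S28A.fricke
  congr 1
  apply UpperHalfPlane.ext
  rw [UpperHalfPlane.modular_T_zpow_smul, UpperHalfPlane.coe_vadd,
    coe_heckeDiagMatrix_smul hp, coe_heckeDiagMatrix_smul hp, UpperHalfPlane.coe_vadd]
  push_cast
  field_simp

/-- **Leaf [ST'], the two-cusp norm lemma.** -/
theorem norm_two_cusps (p : ℕ) [Fact p.Prime] (A : Subring ℂ)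
    (hζ : ∀ ζ : ℂ, ζ ^ p = 1 → ζ ∈ A) (l : ℂ)
    {h : ℍ → ℂ} (hh : S24.ModFun p h) {s sW : LaurentSeries ℂ}
    (h1 : IsLaurentOf s h) (h2 : IsLaurentOf sW (fun τ : ℍ => h (S28A.fricke p τ)))
    (c : ℂ) (hs : s ∈ LSO A) (hsW : HahnSeries.C c * sW ∈ LSO A)
    (α β : ℤ) (hαβ : 0 < α + β)
    (hα : ∀ k < α, s.coeff k ∈ mulSub A l)
    (hβ : ∀ k < β, (HahnSeries.C c * sW).coeff k ∈ mulSub A l) :
    s.coeff α * (HahnSeries.C c * sW).coeff β ^ p ∈ mulSub A l := by
  have hp : p ≠ 0 := (Fact.out : p.Prime).ne_zero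
  have : NeZero p := ⟨hp⟩
  have hpC : (p : ℂ) ≠ 0 := by exact_mod_cast hp
  obtain ⟨χ, -, -, hχ⟩ := hh.exists_charpoly_conjF
  -- the function `g = c · (h ∘ fricke)` and its shifts
  set g : ℍ → ℂ := (fun _ : ℍ => c) * (fun τ : ℍ => h (S28A.fricke p τ)) with hg
  have hgL : IsLaurentOf (HahnSeries.C c * sW) g := (IsLaurentOf.const c).mul h2
  set b : ℂ := (HahnSeries.C c * sW).coeff β with hb
  let ζ : ℕ → ℂ := fun m => Complex.exp (2 * π * Complex.I * (((m : ℝ) / (p : ℝ) : ℝ) : ℂ))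
  let Sh : ℕ → ℍ → ℍ := fun m τ => (((m : ℝ) / (p : ℝ) : ℝ)) +ᵥ τ
  have hSh : ∀ m (τ : ℍ), (Sh m τ : ℂ) = τ + (((m : ℝ) / (p : ℝ) : ℝ) : ℂ) := fun m τ => by
    show ((((m : ℝ) / (p : ℝ) : ℝ) +ᵥ τ : ℍ) : ℂ) = τ + _
    rw [UpperHalfPlane.coe_vadd, add_comm]
  have hζp : ∀ m, ζ m ^ p = 1 := by
    intro m
    show Complex.exp _ ^ p = 1
    rw [← Complex.exp_nat_mul]
    have : (p : ℂ) * (2 * π * Complex.I * (((m : ℝ) / (p : ℝ) : ℝ) : ℂ)) =
        ((m : ℤ) : ℂ) * (2 * π * Complex.I) := by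
      push_cast
      field_simp
    rw [this]
    exact Complex.exp_int_mul_two_pi_mul_I m
  have hζA : ∀ m, ζ m ∈ A := fun m => hζ _ (hζp m)
  have hζA' : ∀ m, (ζ m)⁻¹ ∈ A := fun m => hζ _ (by rw [inv_pow, hζp m, inv_one])
  have hshift : ∀ m, IsLaurentOf (twistL (ζ m) (HahnSeries.C c * sW)) (g ∘ Sh m) :=
    fun m => isLaurentOf_shift hgL _ (hSh m)
  -- the expansion of the norm
  have hN1 : IsLaurentOf (qExpand ℂ p s) (h ∘ fun τ => heckeDiagMatrix p • τ) :=
    h1.scale (fun τ => coe_heckeDiagMatrix_smul hp τ)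
  have hN2 := isLaurentOf_finset_prod (Finset.range p)
    (fun m => twistL (ζ m) (HahnSeries.C c * sW)) (fun m => g ∘ Sh m) (fun m _ => hshift m)
  have hN := hN1.mul hN2
  -- the norm as a polynomial in `j`
  set ε : ℂ := (-1) ^ (Fintype.card (ES.X p)) with hε
  have hεε : ε * ε = 1 := by
    rw [hε, ← pow_add, ← two_mul, pow_mul]
    norm_num
  set Q : ℂ[X] := Polynomial.C (ε * c ^ p) * χ.coeff 0 with hQ
  have hj : IsLaurentOf (jqModC ℂ) S24.jA := isLaurentOf_jFun
  have hjN : IsLaurentOf (qExpand ℂ p (jqModC ℂ)) (S24.jA ∘ fun τ => heckeDiagMatrix p • τ) :=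
    hj.scale (fun τ => coe_heckeDiagMatrix_smul hp τ)
  have hQL := hjN.polynomial Q
  have e : (fun τ => Q.eval ((S24.jA ∘ fun τ => heckeDiagMatrix p • τ) τ)) =
      (h ∘ fun τ => heckeDiagMatrix p • τ) * ∏ m ∈ Finset.range p, (g ∘ Sh m) := by
    funext τ
    have h3 := congrArg (fun q => q.coeff 0) (hχ (heckeDiagMatrix p • τ))
    simp only [Polynomial.coeff_map, Polynomial.coe_evalRingHom] at h3
    rw [Polynomial.coeff_zero_eq_eval_zero (∏ x : ES.X p, _), Polynomial.eval_prod] at h3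
    simp only [Polynomial.eval_sub, Polynomial.eval_X, Polynomial.eval_C, zero_sub] at h3
    rw [Finset.prod_neg, Finset.card_univ, prod_conjF_heckeDiag p hh] at h3
    simp only [comp_apply, Pi.mul_apply, Finset.prod_apply, hQ, Polynomial.eval_mul,
      Polynomial.eval_C, hg]
    rw [h3, Finset.prod_mul_distrib, Finset.prod_const, Finset.card_range]
    have : ε * c ^ p * (ε * (h (heckeDiagMatrix p • τ) *
        ∏ m ∈ Finset.range p, h (S28A.fricke p ((((m : ℝ) / (p : ℝ) : ℝ)) +ᵥ τ)))) =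
        (ε * ε) * (h (heckeDiagMatrix p • τ) * (c ^ p *
        ∏ m ∈ Finset.range p, h (S28A.fricke p ((((m : ℝ) / (p : ℝ) : ℝ)) +ᵥ τ)))) := by ring
    rw [this, hεε, one_mul]
  rw [e] at hQL
  have hser := hQL.unique_left hN
  -- leading terms
  have hL1 : LeadAt A l (qExpand ℂ p s) ((p : ℤ) * α) (s.coeff α) := (leadAt_self hα).qExpand p
  have hL2 : LeadAt A l (∏ m ∈ Finset.range p, twistL (ζ m) (HahnSeries.C c * sW))
      (((Finset.range p).card : ℤ) * β) (∏ m ∈ Finset.range p, (ζ m ^ β * b)) :=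
    LeadAt.finset_prod (Finset.range p) _ β _
      (fun m _ => twistL_mem_LSO (hζA m) (hζA' m) hsW)
      (fun m _ => A.mul_mem (zpow_mem_of_mem (hζA m) (hζA' m) β) (mem_LSO.mp hsW β))
      (fun m _ => (leadAt_self hβ).twistL (hζA m) (hζA' m))
  rw [Finset.card_range] at hL2
  have hL := LeadAt.mul (qExpand_mem_LSO p hs)
    ((LSO A).prod_mem fun m _ => twistL_mem_LSO (hζA m) (hζA' m) hsW)
    (mem_LSO.mp hs α) hL1 hL2
  rw [← hser] at hL
  have hpos : (0 : ℤ) < (p : ℤ) * α + (p : ℤ) * β := by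
    have hp0 : (0 : ℤ) < p := by exact_mod_cast Nat.pos_of_ne_zero hp
    rw [← mul_add]
    exact mul_pos hp0 hαβ
  have hall := coeff_eval₂_mem_mulSub (A := A) (l := l) p Q
    (fun k hk => hL.1 k (lt_of_le_of_lt hk hpos)) ((p : ℤ) * α + (p : ℤ) * β)
  have hmem : s.coeff α * ∏ m ∈ Finset.range p, (ζ m ^ β * b) ∈ mulSub A l := by
    have := (mulSub A l).sub_mem hall hL.2
    rwa [sub_sub_cancel] at this
  rw [Finset.prod_mul_distrib, Finset.prod_const, Finset.card_range] at hmem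
  have hu : ∏ m ∈ Finset.range p, ((ζ m)⁻¹) ^ β ∈ A :=
    A.prod_mem fun m _ => zpow_mem_of_mem (hζA' m) (by rw [inv_inv]; exact hζA m) β
  have hfin := mulSub_mul_right hmem hu
  have e2 : s.coeff α * ((∏ m ∈ Finset.range p, ζ m ^ β) * b ^ p) *
      ∏ m ∈ Finset.range p, ((ζ m)⁻¹) ^ β = s.coeff α * b ^ p := by
    have h1 : (∏ m ∈ Finset.range p, ζ m ^ β) * ∏ m ∈ Finset.range p, ((ζ m)⁻¹) ^ β = 1 := by
      rw [← Finset.prod_mul_distrib]
      refine Finset.prod_eq_one fun m _ => ?_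
      rw [← mul_zpow, mul_inv_cancel₀ (Complex.exp_ne_zero _), one_zpow]
    calc s.coeff α * ((∏ m ∈ Finset.range p, ζ m ^ β) * b ^ p) *
        ∏ m ∈ Finset.range p, ((ζ m)⁻¹) ^ β
        = s.coeff α * b ^ p * ((∏ m ∈ Finset.range p, ζ m ^ β) *
          ∏ m ∈ Finset.range p, ((ζ m)⁻¹) ^ β) := by ring
      _ = s.coeff α * b ^ p := by rw [h1, mul_one]
  rwa [e2] at hfin

end Fermat.Agent.S16
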