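import Mathlib
import Fermat.Prelude.Thm_UpperHalfPlane_qCoeff_heckeU
import Fermat.Agent.S16.FrickeTrace

/-!
# S16, leaf (Q): power-sum traces of a weight-2 form on `Γ₀(p)` to level one

For `F ∈ M₂(Γ₀(p))` and `k = j + 1`, the function `∑_x (F|x)^k` (sum over the `p + 1` cosets)
is a level-one form of weight `2k` and equals `F^k + (-1/p)^k · p · U_p((U_p F)^k)`.
For `k = 2, 3` it is a multiple of `E₄`, `E₆`.
-/

set_option autoImplicit false

noncomputable section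

namespace Fermat.Agent.S16

open UpperHalfPlane hiding I
open ModularForm Function ModularCurve EisensteinSeries
open Fermat.Agent Fermat.Agent.S24
open scoped Real MatrixGroups ModularForm

/-- `U_p` on power series: `∑ aₙ Xⁿ ↦ ∑ a_{np} Xⁿ`. -/
def qtrU {R : Type*} [Semiring R] (p : ℕ) (A : PowerSeries R) : PowerSeries R :=
  PowerSeries.mk fun n => PowerSeries.coeff (n * p) A

theorem qtrU_coeff {R : Type*} [Semiring R] (p : ℕ) (A : PowerSeries R) (n : ℕ) :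
    PowerSeries.coeff n (qtrU p A) = PowerSeries.coeff (n * p) A := by
  rw [qtrU, PowerSeries.coeff_mk]

theorem qtrU_map {R S : Type*} [Semiring R] [Semiring S] (φ : R →+* S) (p : ℕ)
    (A : PowerSeries R) : qtrU p (PowerSeries.map φ A) = PowerSeries.map φ (qtrU p A) := by
  ext n
  simp [qtrU_coeff]

/-- The power-sum trace over the cosets, evaluated with the representatives `1, S T^m`. -/
theorem qtr_ptr_apply (p : ℕ) [Fact p.Prime] (F : ModularForm (CongruenceSubgroup.Gamma0 p) 2)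
    (j : ℕ) (τ : ℍ) :
    haveI : NeZero p := ⟨(Fact.out : p.Prime).ne_zero⟩
    S23.ptr (SlashInvariantForm.quotientFunc F : S23.Q0 p → ℍ → ℂ)
        (SlashInvariantForm.quotientFunc F) j τ =
      F τ ^ (j + 1) + ((-(p : ℂ)⁻¹) ^ (j + 1) * (p : ℂ)) *
        ModularForm.heckeU 2 p ((ModularForm.heckeU 2 p (F : ℍ → ℂ)) ^ (j + 1)) τ := by
  have hp' : p ≠ 0 := (Fact.out : p.Prime).ne_zero
  have : NeZero p := ⟨hp'⟩
  have hp : (p : ℂ) ≠ 0 := by exact_mod_cast hp'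
  rw [S23.ptr_apply, ← (cosetRep_bijective p).sum_comp
    (fun x => ES.cj F x τ * ES.cj F x τ ^ j), Fintype.sum_option]
  simp only [cosetRep, ES.cj_toSL, inv_one, inv_inv]
  rw [SlashAction.slash_one, ModularForm.heckeU_apply 2 hp',
    ← Fin.sum_univ_eq_sum_range
      (fun m => ((ModularForm.heckeU 2 p (F : ℍ → ℂ)) ^ (j + 1)) (heckeMatrix p m • τ)) p,
    ← pow_succ', Finset.mul_sum, Finset.mul_sum]
  congr 1
  refine Finset.sum_congr rfl fun m _ => ?_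
  rw [slash_ST_apply p, frickeTwist_eq_neg_heckeU, Pi.pow_apply]
  have h1 : (p : ℂ) * (p : ℂ)⁻¹ = 1 := mul_inv_cancel₀ hp
  linear_combination (-(-(p : ℂ)⁻¹) ^ (j + 1) *
    ModularForm.heckeU 2 p (F : ℍ → ℂ) (heckeMatrix p m • τ) ^ (j + 1)) * h1

theorem qtrU_one {R : Type*} [Semiring R] {p : ℕ} (hp : p ≠ 0) :
    qtrU p (1 : PowerSeries R) = 1 := by
  ext n
  rw [qtrU_coeff, PowerSeries.coeff_one, PowerSeries.coeff_one]
  simp [hp]

theorem qtr_isQHol_heckeU {g : ℍ → ℂ} (hg : S24B.IsQHol g) (p : ℕ) :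
    S24B.IsQHol (ModularForm.heckeU 2 p g) :=
  ⟨ModularForm.periodic_heckeU_comp_ofComplex hg.per 2 p,
    ModularForm.mdifferentiable_heckeU hg.hol 2 p,
    ModularForm.isBoundedAtImInfty_heckeU hg.bdd 2 p⟩

theorem qtr_qExpansion_heckeU {g : ℍ → ℂ} (hg : S24B.IsQHol g) {p : ℕ} (hp : p ≠ 0) :
    qExpansion 1 (ModularForm.heckeU 2 p g) = qtrU p (qExpansion 1 g) := by
  ext n
  rw [qtrU_coeff]
  have h := UpperHalfPlane.qCoeff_heckeU hg.per hg.hol hg.bdd 2 hp n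
  rw [ModularForm.coeffHeckeU_apply] at h
  exact h

theorem qtr_isQHol_smul {g : ℍ → ℂ} (hg : S24B.IsQHol g) (c : ℂ) : S24B.IsQHol (c • g) := by
  have h := (S24B.IsQHol.const c).mul hg
  have e : (fun _ : ℍ => c) * g = c • g := by
    funext τ
    simp
  rwa [e] at h

/-- The `q`-expansion of the power-sum trace `∑_x (F|x)^(j+1)`. -/
theorem qtr_qExpansion_ptr (p : ℕ) [Fact p.Prime]
    (F : ModularForm (CongruenceSubgroup.Gamma0 p) 2) (j : ℕ) :
    haveI : NeZero p := ⟨(Fact.out : p.Prime).ne_zero⟩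
    qExpansion 1 (S23.ptr (SlashInvariantForm.quotientFunc F : S23.Q0 p → ℍ → ℂ)
        (SlashInvariantForm.quotientFunc F) j) =
      qExpansion 1 (F : ℍ → ℂ) ^ (j + 1) + ((-(p : ℂ)⁻¹) ^ (j + 1) * (p : ℂ)) •
        qtrU p (qtrU p (qExpansion 1 (F : ℍ → ℂ)) ^ (j + 1)) := by
  have hp' : p ≠ 0 := (Fact.out : p.Prime).ne_zero
  have : NeZero p := ⟨hp'⟩
  have hF := isQHol_modularForm p F
  have hH := qtr_isQHol_heckeU hF p
  have hHk := hH.pow (j + 1)
  have hU := qtr_isQHol_heckeU hHk p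
  have e : S23.ptr (SlashInvariantForm.quotientFunc F : S23.Q0 p → ℍ → ℂ)
        (SlashInvariantForm.quotientFunc F) j =
      (F : ℍ → ℂ) ^ (j + 1) + ((-(p : ℂ)⁻¹) ^ (j + 1) * (p : ℂ)) •
        ModularForm.heckeU 2 p ((ModularForm.heckeU 2 p (F : ℍ → ℂ)) ^ (j + 1)) := by
    funext τ
    rw [qtr_ptr_apply]
    rfl
  rw [e, (hF.pow (j + 1)).qExpansion_add (qtr_isQHol_smul hU _), hF.qExpansion_pow,
    UpperHalfPlane.qExpansion_smul hU.analyticAt, qtr_qExpansion_heckeU hHk hp',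
    hH.qExpansion_pow, qtr_qExpansion_heckeU hF hp']

/-- A level-one form of weight `4` is its constant term times `E₄`. -/
theorem qtr_levelOne_four (G : ModularForm 𝒮ℒ 4) (m : ℕ) :
    (qExpansion 1 (G : ℍ → ℂ)).coeff m =
      (qExpansion 1 (G : ℍ → ℂ)).coeff 0 * (qExpansion 1 (E₄ : ℍ → ℂ)).coeff m := by
  obtain ⟨c4, hc4⟩ : ∃ c4 : ℂ, c4 • E₄ = G :=
    (finrank_eq_one_iff_of_nonzero' E₄ (E_ne_zero _ ⟨2, rfl⟩)).mp
      (Module.rank_eq_one_iff_finrank_eq_one.mp levelOne_weight_four_rank_one) G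
  have h : qExpansion 1 (G : ℍ → ℂ) = c4 • qExpansion 1 (E₄ : ℍ → ℂ) := by
    rw [← ModularForm.qExpansion_smul one_pos one_mem_strictPeriods_SL c4 E₄, ← hc4]
    rfl
  rw [h, PowerSeries.coeff_smul, PowerSeries.coeff_smul, E_qExpansion_coeff_zero _ ⟨2, rfl⟩]
  simp

/-- A level-one form of weight `6` is its constant term times `E₆`. -/
theorem qtr_levelOne_six (G : ModularForm 𝒮ℒ 6) (m : ℕ) :
    (qExpansion 1 (G : ℍ → ℂ)).coeff m =
      (qExpansion 1 (G : ℍ → ℂ)).coeff 0 * (qExpansion 1 (E₆ : ℍ → ℂ)).coeff m := by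
  obtain ⟨c6, hc6⟩ : ∃ c6 : ℂ, c6 • E₆ = G :=
    (finrank_eq_one_iff_of_nonzero' E₆ (E_ne_zero _ ⟨3, rfl⟩)).mp
      (Module.rank_eq_one_iff_finrank_eq_one.mp levelOne_weight_six_rank_one) G
  have h : qExpansion 1 (G : ℍ → ℂ) = c6 • qExpansion 1 (E₆ : ℍ → ℂ) := by
    rw [← ModularForm.qExpansion_smul one_pos one_mem_strictPeriods_SL c6 E₆, ← hc6]
    rfl
  rw [h, PowerSeries.coeff_smul, PowerSeries.coeff_smul, E_qExpansion_coeff_zero _ ⟨3, rfl⟩]
  simp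

/-- **(Q), weight 4.**  With `A` the `q`-expansion of `F ∈ M₂(Γ₀(p))`, the series
`A² + p⁻¹ U_p((U_p A)²)` is its constant term times the `q`-expansion of `E₄`. -/
theorem qtr_sq (p : ℕ) [Fact p.Prime] (F : ModularForm (CongruenceSubgroup.Gamma0 p) 2)
    (m : ℕ) :
    (qExpansion 1 (F : ℍ → ℂ) ^ 2 + ((-(p : ℂ)⁻¹) ^ 2 * (p : ℂ)) •
        qtrU p (qtrU p (qExpansion 1 (F : ℍ → ℂ)) ^ 2)).coeff m =
      (qExpansion 1 (F : ℍ → ℂ) ^ 2 + ((-(p : ℂ)⁻¹) ^ 2 * (p : ℂ)) •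
        qtrU p (qtrU p (qExpansion 1 (F : ℍ → ℂ)) ^ 2)).coeff 0 *
        (qExpansion 1 (E₄ : ℍ → ℂ)).coeff m := by
  have hp' : p ≠ 0 := (Fact.out : p.Prime).ne_zero
  have : NeZero p := ⟨hp'⟩
  obtain ⟨G, hG⟩ := S23.ptr_modularForm (N := p) (k₁ := 2) (k₂ := 2) F F 1
  have h4 : (2 : ℤ) + ((1 : ℕ) : ℤ) * 2 = 4 := by norm_num
  have h := qtr_levelOne_four (ModularForm.mcast h4 G) m
  have e : ((ModularForm.mcast h4 G : ModularForm 𝒮ℒ 4) : ℍ → ℂ) =
      S23.ptr (SlashInvariantForm.quotientFunc F : S23.Q0 p → ℍ → ℂ)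
        (SlashInvariantForm.quotientFunc F) 1 := by
    rw [← hG]
    rfl
  rw [e, qtr_qExpansion_ptr p F 1] at h
  exact h

/-- **(Q), weight 6.**  With `A` the `q`-expansion of `F ∈ M₂(Γ₀(p))`, the series
`A³ - p⁻² U_p((U_p A)³)` is its constant term times the `q`-expansion of `E₆`. -/
theorem qtr_cube (p : ℕ) [Fact p.Prime] (F : ModularForm (CongruenceSubgroup.Gamma0 p) 2)
    (m : ℕ) :
    (qExpansion 1 (F : ℍ → ℂ) ^ 3 + ((-(p : ℂ)⁻¹) ^ 3 * (p : ℂ)) •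
        qtrU p (qtrU p (qExpansion 1 (F : ℍ → ℂ)) ^ 3)).coeff m =
      (qExpansion 1 (F : ℍ → ℂ) ^ 3 + ((-(p : ℂ)⁻¹) ^ 3 * (p : ℂ)) •
        qtrU p (qtrU p (qExpansion 1 (F : ℍ → ℂ)) ^ 3)).coeff 0 *
        (qExpansion 1 (E₆ : ℍ → ℂ)).coeff m := by
  have hp' : p ≠ 0 := (Fact.out : p.Prime).ne_zero
  have : NeZero p := ⟨hp'⟩
  obtain ⟨G, hG⟩ := S23.ptr_modularForm (N := p) (k₁ := 2) (k₂ := 2) F F 2
  have h6 : (2 : ℤ) + ((2 : ℕ) : ℤ) * 2 = 6 := by norm_num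
  have h := qtr_levelOne_six (ModularForm.mcast h6 G) m
  have e : ((ModularForm.mcast h6 G : ModularForm 𝒮ℒ 6) : ℍ → ℂ) =
      S23.ptr (SlashInvariantForm.quotientFunc F : S23.Q0 p → ℍ → ℂ)
        (SlashInvariantForm.quotientFunc F) 2 := by
    rw [← hG]
    rfl
  rw [e, qtr_qExpansion_ptr p F 2] at h
  exact h

/-- Integrality bookkeeping: if the integral series `a` is `≡ 1 mod p` and the power-sum trace
series of exponent `j + 1 ≥ 2` has first coefficient `e₁` times its constant term, then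
`p ∣ e₁`. -/
theorem qtr_arith (p : ℕ) [Fact p.Prime] (a : PowerSeries ℤ)
    (ha : PowerSeries.map (Int.castRingHom (ZMod p)) a = 1) (j : ℕ) (hj : 1 ≤ j) (e₁ : ℤ)
    (h : ((PowerSeries.map (Int.castRingHom ℂ) a) ^ (j + 1) +
        ((-(p : ℂ)⁻¹) ^ (j + 1) * (p : ℂ)) •
          qtrU p (qtrU p (PowerSeries.map (Int.castRingHom ℂ) a) ^ (j + 1))).coeff 1 =
      ((PowerSeries.map (Int.castRingHom ℂ) a) ^ (j + 1) +
        ((-(p : ℂ)⁻¹) ^ (j + 1) * (p : ℂ)) •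
          qtrU p (qtrU p (PowerSeries.map (Int.castRingHom ℂ) a) ^ (j + 1))).coeff 0 *
        (e₁ : ℂ)) :
    (p : ℤ) ∣ e₁ := by
  have hp' : p ≠ 0 := (Fact.out : p.Prime).ne_zero
  have hp : (p : ℂ) ≠ 0 := by exact_mod_cast hp'
  have e1 : (PowerSeries.map (Int.castRingHom ℂ) a) ^ (j + 1) =
      PowerSeries.map (Int.castRingHom ℂ) (a ^ (j + 1)) := (map_pow _ _ _).symm
  have e2 : qtrU p (qtrU p (PowerSeries.map (Int.castRingHom ℂ) a) ^ (j + 1)) =
      PowerSeries.map (Int.castRingHom ℂ) (qtrU p (qtrU p a ^ (j + 1))) := by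
    rw [qtrU_map, ← map_pow, qtrU_map]
  rw [e1, e2] at h
  simp only [map_add, PowerSeries.coeff_smul, PowerSeries.coeff_map, smul_eq_mul,
    eq_intCast] at h
  have hc : (p : ℂ) ^ j * ((-(p : ℂ)⁻¹) ^ (j + 1) * (p : ℂ)) = (-1) ^ (j + 1) := by
    rw [neg_pow, inv_pow]
    field_simp
    ring
  have hZ : (p : ℤ) ^ j * PowerSeries.coeff 1 (a ^ (j + 1)) +
      (-1) ^ (j + 1) * PowerSeries.coeff 1 (qtrU p (qtrU p a ^ (j + 1))) =
      ((p : ℤ) ^ j * PowerSeries.coeff 0 (a ^ (j + 1)) +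
        (-1) ^ (j + 1) * PowerSeries.coeff 0 (qtrU p (qtrU p a ^ (j + 1)))) * e₁ := by
    apply Int.cast_injective (α := ℂ)
    push_cast
    linear_combination (p : ℂ) ^ j * h +
      (((PowerSeries.coeff 1 (qtrU p (qtrU p a ^ (j + 1))) : ℤ) : ℂ) -
        ((PowerSeries.coeff 0 (qtrU p (qtrU p a ^ (j + 1))) : ℤ) : ℂ) * (e₁ : ℂ)) * hc.symm
  have hy : PowerSeries.map (Int.castRingHom (ZMod p)) (qtrU p (qtrU p a ^ (j + 1))) = 1 := by
    rw [← qtrU_map, map_pow, ← qtrU_map, ha, qtrU_one hp', one_pow, qtrU_one hp']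
  have hy1 : ((PowerSeries.coeff 1 (qtrU p (qtrU p a ^ (j + 1))) : ℤ) : ZMod p) = 0 := by
    have := congrArg (PowerSeries.coeff 1) hy
    simpa using this
  have hy0 : ((PowerSeries.coeff 0 (qtrU p (qtrU p a ^ (j + 1))) : ℤ) : ZMod p) = 1 := by
    have := congrArg (PowerSeries.coeff 0) hy
    simpa using this
  have hZ' := congrArg (Int.cast : ℤ → ZMod p) hZ
  push_cast at hZ'
  rw [hy1, hy0, ZMod.natCast_self, zero_pow (by omega : j ≠ 0)] at hZ'
  have hu : ((-1 : ZMod p)) ^ (j + 1) * ((-1 : ZMod p)) ^ (j + 1) = 1 := by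
    rw [← mul_pow]
    simp
  have he : ((e₁ : ℤ) : ZMod p) = 0 := by
    have : ((-1 : ZMod p)) ^ (j + 1) * ((e₁ : ℤ) : ZMod p) = 0 := by
      linear_combination -hZ'
    calc ((e₁ : ℤ) : ZMod p) = ((-1 : ZMod p)) ^ (j + 1) * (((-1 : ZMod p)) ^ (j + 1) *
        ((e₁ : ℤ) : ZMod p)) := by rw [← mul_assoc, hu, one_mul]
      _ = 0 := by rw [this, mul_zero]
  exact (ZMod.intCast_zmod_eq_zero_iff_dvd e₁ p).mp he

/-- **Case `ℓ = p` of (U).**  For a prime `p ≥ 5` there is no `F ∈ M₂(Γ₀(p))` with integral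
`q`-expansion `≡ 1 mod p`. -/
theorem no_eis_unit_self (p : ℕ) [Fact p.Prime] (hp5 : 5 ≤ p)
    (F : ModularForm (CongruenceSubgroup.Gamma0 p) 2) (c : ℕ → ℤ)
    (hc : ∀ m, ModularFormClass.qCoeff F m = (c m : ℂ))
    (h0 : (p : ℤ) ∣ c 0 - 1) (hm : ∀ m, 1 ≤ m → (p : ℤ) ∣ c m) : False := by
  have hpr : p.Prime := Fact.out
  have hA : qExpansion 1 (F : ℍ → ℂ) =
      PowerSeries.map (Int.castRingHom ℂ) (PowerSeries.mk c) := by
    ext m
    rw [PowerSeries.coeff_map, PowerSeries.coeff_mk, eq_intCast]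
    exact hc m
  have ha : PowerSeries.map (Int.castRingHom (ZMod p)) (PowerSeries.mk c) = 1 := by
    ext m
    rw [PowerSeries.coeff_map, PowerSeries.coeff_mk, PowerSeries.coeff_one, eq_intCast]
    split_ifs with h
    · subst h
      have := (ZMod.intCast_zmod_eq_zero_iff_dvd (c 0 - 1) p).mpr h0
      push_cast at this
      exact sub_eq_zero.mp this
    · exact (ZMod.intCast_zmod_eq_zero_iff_dvd (c m) p).mpr
        (hm m (Nat.one_le_iff_ne_zero.mpr h))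
  by_cases h5 : p = 5
  · have h := qtr_cube p F 1
    rw [hA, E₆_qExpansion_coeff_one] at h
    have hd := qtr_arith p (PowerSeries.mk c) ha 2 (by norm_num) (-504) (by exact_mod_cast h)
    rw [h5] at hd
    norm_num at hd
  · have h := qtr_sq p F 1
    rw [hA, E₄_qExpansion_coeff_one] at h
    have hd := qtr_arith p (PowerSeries.mk c) ha 1 le_rfl 240 (by exact_mod_cast h)
    have hd' : p ∣ 240 := by exact_mod_cast hd
    have h240 : (240 : ℕ) = 2 ^ 4 * 3 * 5 := by norm_num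
    rw [h240] at hd'
    rcases (Nat.Prime.dvd_mul hpr).mp hd' with h | h
    · rcases (Nat.Prime.dvd_mul hpr).mp h with h | h
      · have := Nat.le_of_dvd (by norm_num) (hpr.dvd_of_dvd_pow h)
        omega
      · have := Nat.le_of_dvd (by norm_num) h
        omega
    · have := Nat.le_of_dvd (by norm_num) h
      omega

end Fermat.Agent.S16
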