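import Mathlib
import Fermat.Agent.S16.QTrace

/-!
# S16, leaf (Q): the trace identities in coefficient form

For `F ∈ M₂(Γ₀(p))` with `q`-coefficients `c`:

* `trace_sq_coeff`  : `p ∑_{i+j=m} c_i c_j + ∑_{i+j=pm} c_{pi} c_{pj} = (p+1) c_0² e₄(m)`;
* `trace_cube_coeff`: `p² (A³)_m - ((U A)³)_{pm} = (p²-1) c_0³ e₆(m)` (power-series form);
* `qCoeff_mul_sq`   : `c_{p² m} = c_m` (`U_p² = 1` on `M₂(Γ₀(p))`).
-/

set_option autoImplicit false

noncomputable section

namespace Fermat.Agent.S16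

open UpperHalfPlane hiding I
open ModularForm Function ModularCurve EisensteinSeries
open Fermat.Agent Fermat.Agent.S24
open scoped Real MatrixGroups ModularForm

theorem qtr_E4_coeff (m : ℕ) :
    (qExpansion 1 (E₄ : ℍ → ℂ)).coeff m =
      if m = 0 then 1 else 240 * (ArithmeticFunction.sigma 3 m : ℂ) := by
  rw [E_qExpansion_coeff _ ⟨2, rfl⟩]
  split_ifs with h
  · rfl
  · norm_num [show bernoulli 4 = -1 / 30 by decide +kernel]

theorem qtr_E6_coeff (m : ℕ) :
    (qExpansion 1 (E₆ : ℍ → ℂ)).coeff m =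
      if m = 0 then 1 else -504 * (ArithmeticFunction.sigma 5 m : ℂ) := by
  rw [E_qExpansion_coeff _ ⟨3, rfl⟩]
  split_ifs with h
  · rfl
  · norm_num [show bernoulli 6 = 1 / 42 by decide +kernel]

/-- **(Q)** in coefficient form: the `q^m`-coefficient of
`p F² + U_p((U_p F)²) = (p + 1) c₀² E₄`. -/
theorem trace_sq_coeff (p : ℕ) [Fact p.Prime] (F : ModularForm (CongruenceSubgroup.Gamma0 p) 2)
    (m : ℕ) :
    (p : ℂ) * ∑ x ∈ Finset.HasAntidiagonal.antidiagonal m,
        ModularFormClass.qCoeff F x.1 * ModularFormClass.qCoeff F x.2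
      + ∑ x ∈ Finset.HasAntidiagonal.antidiagonal (p * m),
        ModularFormClass.qCoeff F (p * x.1) * ModularFormClass.qCoeff F (p * x.2)
    = ((p : ℂ) + 1) * ModularFormClass.qCoeff F 0 ^ 2 *
        (if m = 0 then 1 else 240 * (ArithmeticFunction.sigma 3 m : ℂ)) := by
  have hp' : p ≠ 0 := (Fact.out : p.Prime).ne_zero
  have hp : (p : ℂ) ≠ 0 := by exact_mod_cast hp'
  have h := qtr_sq p F m
  rw [qtr_E4_coeff] at h
  simp only [map_add, PowerSeries.coeff_smul, smul_eq_mul, qtrU_coeff, pow_two,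
    PowerSeries.coeff_mul, zero_mul, Finset.Nat.antidiagonal_zero, Finset.sum_singleton] at h
  have e : ∀ n : ℕ, ModularFormClass.qCoeff F n = (qExpansion 1 (F : ℍ → ℂ)).coeff n :=
    fun _ => rfl
  simp only [e]
  rw [mul_comm p m]
  have e2 : ∀ x : ℕ × ℕ, (qExpansion 1 (F : ℍ → ℂ)).coeff (p * x.1) *
      (qExpansion 1 (F : ℍ → ℂ)).coeff (p * x.2) =
      (qExpansion 1 (F : ℍ → ℂ)).coeff (x.1 * p) *
      (qExpansion 1 (F : ℍ → ℂ)).coeff (x.2 * p) := fun x => by
    rw [mul_comm p x.1, mul_comm p x.2]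
  simp only [e2]
  have h1 : (p : ℂ) * ((-(p : ℂ)⁻¹) * (-(p : ℂ)⁻¹) * (p : ℂ)) = 1 := by
    field_simp
  linear_combination (p : ℂ) * h +
    ((∑ x ∈ Finset.HasAntidiagonal.antidiagonal (m * p), (qExpansion 1 (F : ℍ → ℂ)).coeff (x.1 * p) *
      (qExpansion 1 (F : ℍ → ℂ)).coeff (x.2 * p)) -
      (qExpansion 1 (F : ℍ → ℂ)).coeff 0 * (qExpansion 1 (F : ℍ → ℂ)).coeff 0 *
      (if m = 0 then 1 else 240 * (ArithmeticFunction.sigma 3 m : ℂ))) * h1.symm

/-- `U_p² = 1` on `M₂(Γ₀(p))`, on `q`-coefficients. -/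
theorem qCoeff_mul_sq (p : ℕ) [Fact p.Prime] (F : ModularForm (CongruenceSubgroup.Gamma0 p) 2)
    (m : ℕ) :
    ModularFormClass.qCoeff F (p * (p * m)) = ModularFormClass.qCoeff F m := by
  have hp' : p ≠ 0 := (Fact.out : p.Prime).ne_zero
  have : NeZero p := ⟨hp'⟩
  have hp : (p : ℂ) ≠ 0 := by exact_mod_cast hp'
  have h1 := qExpansion_frickeForm_coeff p (frickeForm p F) m
  have h2 := qExpansion_frickeForm_coeff p F (p * m)
  have e : (frickeForm p (frickeForm p F) : ℍ → ℂ) = F := by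
    funext τ
    rw [frickeForm_apply, frickeTwist_frickeForm]
    field_simp
  rw [e, h2, neg_neg] at h1
  exact h1.symm

/-- `U_p F` as a modular form on `Γ₀(p)`, with its `q`-coefficients. -/
theorem exists_heckeU_form (p : ℕ) [Fact p.Prime]
    (F : ModularForm (CongruenceSubgroup.Gamma0 p) 2) :
    ∃ G : ModularForm (CongruenceSubgroup.Gamma0 p) 2,
      ∀ m : ℕ, ModularFormClass.qCoeff G m = ModularFormClass.qCoeff F (p * m) := by
  have hp' : p ≠ 0 := (Fact.out : p.Prime).ne_zero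
  have : NeZero p := ⟨hp'⟩
  refine ⟨-frickeForm p F, fun m => ?_⟩
  have h := qExpansion_frickeForm_coeff p F m
  have e : ModularFormClass.qCoeff ((-frickeForm p F :
      ModularForm (CongruenceSubgroup.Gamma0 p) 2) : ℍ → ℂ) m =
      (qExpansion 1 (-(frickeForm p F : ℍ → ℂ))).coeff m := rfl
  rw [e, (isQHol_modularForm p (frickeForm p F)).qExpansion_neg, map_neg, h, neg_neg]
  rfl

end Fermat.Agent.S16
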