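import Fermat.Agent.S16.Defs

/-!
# S16, block (U'): shared definition

`UnitMod p ℓ e` : there is a weight-2 modular form on `Γ₀(p)` with INTEGER `q`-coefficients
`c m`, with `c 0 ≡ 1` and `c m ≡ 0` (`m ≥ 1`) modulo `ℓ ^ e`.

The block (U') proves `¬ UnitMod p ℓ e` for `e = 1 + v_ℓ(24 / gcd(p-1,12))`, case by case.
-/

set_option autoImplicit false

namespace Fermat.Agent.S16

open ModularCurve CuspForm

/-- A weight-2 form on `Γ₀(p)` with integer `q`-coefficients which is `≡ 1 mod ℓ^e`. -/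
def UnitMod (p ℓ e : ℕ) : Prop :=
  ∃ (F : ModularForm (CongruenceSubgroup.Gamma0 p) 2) (c : ℕ → ℤ),
    (∀ m, ModularFormClass.qCoeff F m = (c m : ℂ)) ∧ ((ℓ : ℤ) ^ e ∣ c 0 - 1) ∧
      ∀ m, 1 ≤ m → (ℓ : ℤ) ^ e ∣ c m

end Fermat.Agent.S16
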