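import Mathlib
import Fermat.Agent.S16.UDefs
import Fermat.Agent.S16.TraceSq

/-!
# S16, block (U'), leaf [U2b] (Route B): no weight-2 form `≡ 1 mod 4` when `p ≡ 1 mod 4`

Pure arithmetic from the trace identity (Q) and `U_p² = 1`.  For every `H ∈ M₂(Γ₀(p))` with
integer coefficients `h`, `h₀` odd and `4 ∣ h_m` (`m ≥ 1`), (Q) divided by `16` and read modulo
`2` (Frobenius) gives `8 ∣ h_m`, and then (Q) modulo `64` gives `h_m ≡ 8 σ₃(m) mod 16`.
Applied to `F` at `m = p` and to `U_p F` at `m = 1`: `c_p ≡ 8 (1 + p³)` and `c_p ≡ 8 mod 16`,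
so `p` would be even.
-/

set_option autoImplicit false

namespace Fermat.Agent.S16

open ModularCurve CuspForm

theorem qtrU_add {R : Type*} [Semiring R] (p : ℕ) (A B : PowerSeries R) :
    qtrU p (A + B) = qtrU p A + qtrU p B := by
  ext n
  simp [qtrU_coeff]

theorem qtrU_C_mul {R : Type*} [Semiring R] (p : ℕ) (r : R) (A : PowerSeries R) :
    qtrU p (PowerSeries.C r * A) = PowerSeries.C r * qtrU p A := by
  ext n
  simp [qtrU_coeff]

theorem qtrU_C {R : Type*} [Semiring R] {p : ℕ} (hp : p ≠ 0) (r : R) :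
    qtrU p (PowerSeries.C r) = PowerSeries.C r := by
  ext n
  rw [qtrU_coeff, PowerSeries.coeff_C, PowerSeries.coeff_C]
  simp [hp]

/-- Frobenius on `𝔽₂⟦X⟧`. -/
theorem u2b_sq_eq_expand (B : PowerSeries (ZMod 2)) :
    B ^ 2 = PowerSeries.expand 2 two_ne_zero B := by
  have : Fact (Nat.Prime 2) := ⟨Nat.prime_two⟩
  have : ExpChar (ZMod 2) 2 := ExpChar.prime Nat.prime_two
  have h := MvPowerSeries.map_frobenius_expand (σ := Unit) (R := ZMod 2) 2 two_ne_zero (f := B)
  rw [ZMod.frobenius_zmod 2, MvPowerSeries.map_id] at h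
  exact h.symm

theorem u2b_qtrU_expand (p : ℕ) (hp : Odd p) (B : PowerSeries (ZMod 2)) :
    qtrU p (PowerSeries.expand 2 two_ne_zero B) = PowerSeries.expand 2 two_ne_zero (qtrU p B) := by
  ext n
  rw [qtrU_coeff, PowerSeries.coeff_expand, PowerSeries.coeff_expand, qtrU_coeff]
  have h2 : (2 ∣ n * p) ↔ 2 ∣ n := by
    constructor
    · intro h
      rcases (Nat.Prime.dvd_mul Nat.prime_two).mp h with h | h
      · exact h
      · exact absurd (even_iff_two_dvd.mpr h) (Nat.not_even_iff_odd.mpr hp)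
    · exact fun h => Dvd.dvd.mul_right h p
  by_cases hn : 2 ∣ n
  · rw [if_pos (h2.mpr hn), if_pos hn]
    obtain ⟨k, rfl⟩ := hn
    rw [mul_assoc, Nat.mul_div_cancel_left _ (by norm_num), Nat.mul_div_cancel_left _ (by norm_num)]
  · rw [if_neg (fun h => hn (h2.mp h)), if_neg hn]

/-- The arithmetic core: from (Q) and `U² = 1`, a series `≡ odd constant mod 4` is
`≡ const + 8 S mod 16`. -/
theorem u2b_key (p : ℕ) (hp : p % 4 = 1) (a S : PowerSeries ℤ)
    (h0 : Odd (PowerSeries.coeff 0 a)) (h4 : ∀ m, 1 ≤ m → (4 : ℤ) ∣ PowerSeries.coeff m a)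
    (hQ : PowerSeries.C (p : ℤ) * a ^ 2 + qtrU p (qtrU p a ^ 2) =
      PowerSeries.C (((p : ℤ) + 1) * PowerSeries.coeff 0 a ^ 2) * (1 + PowerSeries.C 240 * S))
    (hU : qtrU p (qtrU p a) = a) (m : ℕ) (hm : 1 ≤ m) :
    (16 : ℤ) ∣ PowerSeries.coeff m a - 8 * PowerSeries.coeff m S := by
  have hp0 : p ≠ 0 := by
    rintro rfl
    simp at hp
  have hpodd : Odd p := by
    rw [Nat.odd_iff]
    omega
  obtain ⟨c0, hc0⟩ : ∃ c0 : ℤ, c0 = PowerSeries.coeff 0 a := ⟨_, rfl⟩
  rw [← hc0] at h0 hQ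
  obtain ⟨w, hw, hwodd⟩ : ∃ w : ℤ, (p : ℤ) + 1 = 2 * w ∧ Odd w := by
    refine ⟨2 * ((p / 4 : ℕ) : ℤ) + 1, ?_, ⟨((p / 4 : ℕ) : ℤ), rfl⟩⟩
    have := Nat.div_add_mod p 4
    rw [hp] at this
    omega
  obtain ⟨α, hα⟩ : ∃ α : PowerSeries ℤ, α =
      PowerSeries.mk fun n => if n = 0 then 0 else PowerSeries.coeff n a / 4 := ⟨_, rfl⟩
  have ha : a = PowerSeries.C c0 + PowerSeries.C 4 * α := by
    ext n
    rw [map_add, PowerSeries.coeff_C, PowerSeries.coeff_C_mul, hα, PowerSeries.coeff_mk]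
    by_cases hn : n = 0
    · subst hn
      simp [hc0]
    · rw [if_neg hn, if_neg hn, zero_add,
        Int.mul_ediv_cancel' (h4 n (Nat.one_le_iff_ne_zero.mpr hn))]
  obtain ⟨β, hβdef⟩ : ∃ β : PowerSeries ℤ, β = qtrU p α := ⟨_, rfl⟩
  have hb : qtrU p a = PowerSeries.C c0 + PowerSeries.C 4 * β := by
    rw [ha, qtrU_add, qtrU_C hp0, qtrU_C_mul, hβdef]
  have h4ne : (PowerSeries.C (4 : ℤ) : PowerSeries ℤ) ≠ 0 := by
    rw [Ne, map_eq_zero_iff _ PowerSeries.C_injective]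
    norm_num
  have h16ne : (PowerSeries.C (16 : ℤ) : PowerSeries ℤ) ≠ 0 := by
    rw [Ne, map_eq_zero_iff _ PowerSeries.C_injective]
    norm_num
  have hβ : qtrU p β = α := by
    have h1 : qtrU p (qtrU p a) = PowerSeries.C c0 + PowerSeries.C 4 * qtrU p β := by
      rw [hb, qtrU_add, qtrU_C hp0, qtrU_C_mul]
    rw [hU] at h1
    have h2 : PowerSeries.C (4 : ℤ) * qtrU p β = PowerSeries.C (4 : ℤ) * α :=
      add_left_cancel (h1.symm.trans ha)
    exact mul_left_cancel₀ h4ne h2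
  have hsqb : qtrU p (qtrU p a ^ 2) = PowerSeries.C (c0 ^ 2) + (PowerSeries.C (8 * c0) * α +
      PowerSeries.C 16 * qtrU p (β ^ 2)) := by
    have e : qtrU p a ^ 2 = PowerSeries.C (c0 ^ 2) + (PowerSeries.C (8 * c0) * β +
        PowerSeries.C 16 * β ^ 2) := by
      rw [hb]
      simp only [map_pow, map_mul, map_ofNat]
      ring
    rw [e, qtrU_add, qtrU_add, qtrU_C hp0, qtrU_C_mul, qtrU_C_mul, hβ]
  have hCw : PowerSeries.C (p : ℤ) + 1 = 2 * PowerSeries.C w := by
    have := congrArg (PowerSeries.C (R := ℤ)) hw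
    simpa only [map_add, map_mul, map_one, map_ofNat] using this
  have hstar : PowerSeries.C w * PowerSeries.C c0 * α + PowerSeries.C (p : ℤ) * α ^ 2 +
      qtrU p (β ^ 2) = PowerSeries.C 30 * (PowerSeries.C w * PowerSeries.C c0 ^ 2 * S) := by
    apply mul_left_cancel₀ h16ne
    rw [hsqb, ha] at hQ
    simp only [map_pow, map_mul, map_ofNat, map_add, map_one] at hQ ⊢
    linear_combination hQ + (-8 * PowerSeries.C c0 * α + 240 * PowerSeries.C c0 ^ 2 * S) * hCw
  -- reduction modulo 2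
  have hw2 : (Int.castRingHom (ZMod 2)) w = 1 := by
    rw [eq_intCast]
    obtain ⟨k, rfl⟩ := hwodd
    push_cast
    have : (2 : ZMod 2) = 0 := rfl
    rw [this, zero_mul, zero_add]
  have hc2 : (Int.castRingHom (ZMod 2)) c0 = 1 := by
    rw [eq_intCast]
    obtain ⟨k, rfl⟩ := h0
    push_cast
    have : (2 : ZMod 2) = 0 := rfl
    rw [this, zero_mul, zero_add]
  have hp2 : (Int.castRingHom (ZMod 2)) (p : ℤ) = 1 := by
    rw [eq_intCast]
    obtain ⟨k, rfl⟩ := hpodd
    push_cast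
    have : (2 : ZMod 2) = 0 := rfl
    rw [this, zero_mul, zero_add]
  have h30 : (Int.castRingHom (ZMod 2)) 30 = 0 := rfl
  have hφq : PowerSeries.map (Int.castRingHom (ZMod 2)) (qtrU p (β ^ 2)) =
      PowerSeries.map (Int.castRingHom (ZMod 2)) α ^ 2 := by
    rw [← qtrU_map, map_pow, u2b_sq_eq_expand, u2b_qtrU_expand p hpodd, qtrU_map, hβ,
      ← u2b_sq_eq_expand]
  have hφα : PowerSeries.map (Int.castRingHom (ZMod 2)) α = 0 := by
    have h := congrArg (PowerSeries.map (Int.castRingHom (ZMod 2))) hstar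
    simp only [map_add, map_mul, map_pow, PowerSeries.map_C, hw2, hc2, hp2, h30, hφq, map_one,
      map_zero, one_mul, zero_mul, one_pow] at h
    have h2 : PowerSeries.map (Int.castRingHom (ZMod 2)) α ^ 2 +
        PowerSeries.map (Int.castRingHom (ZMod 2)) α ^ 2 = 0 := by
      rw [← two_mul]
      have : (2 : PowerSeries (ZMod 2)) = 0 := by
        rw [← map_ofNat (PowerSeries.C (R := ZMod 2)) 2]
        have : (OfNat.ofNat 2 : ZMod 2) = 0 := rfl
        rw [this, map_zero]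
      rw [this, zero_mul]
    rw [add_assoc, h2, add_zero] at h
    exact h
  have hαeven : ∀ n, (2 : ℤ) ∣ PowerSeries.coeff n α := fun n => by
    have h := congrArg (PowerSeries.coeff n) hφα
    rw [PowerSeries.coeff_map, map_zero, eq_intCast] at h
    exact (ZMod.intCast_zmod_eq_zero_iff_dvd _ 2).mp h
  -- coefficient `m` of `hstar` modulo 4
  have hm0 : m ≠ 0 := by omega
  have hX : (4 : ℤ) ∣ PowerSeries.coeff m (α ^ 2) := by
    rw [pow_two, PowerSeries.coeff_mul]
    refine Finset.dvd_sum fun x _ => ?_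
    have : (4 : ℤ) = 2 * 2 := by norm_num
    rw [this]
    exact mul_dvd_mul (hαeven _) (hαeven _)
  have hY : (4 : ℤ) ∣ PowerSeries.coeff m (qtrU p (β ^ 2)) := by
    rw [qtrU_coeff, pow_two, PowerSeries.coeff_mul]
    refine Finset.dvd_sum fun x _ => ?_
    have : (4 : ℤ) = 2 * 2 := by norm_num
    rw [this, hβdef, qtrU_coeff, qtrU_coeff]
    exact mul_dvd_mul (hαeven _) (hαeven _)
  have hcoef := congrArg (PowerSeries.coeff m) hstar
  rw [map_add, map_add, ← map_mul, PowerSeries.coeff_C_mul, PowerSeries.coeff_C_mul,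
    PowerSeries.coeff_C_mul, ← map_pow, ← map_mul, PowerSeries.coeff_C_mul] at hcoef
  -- hcoef : w * c0 * α_m + p * (α²)_m + (qtrU (β²))_m = 30 * (w * c0² * S_m)
  have h4' : (4 : ℤ) ∣ (w * c0) * (PowerSeries.coeff m α - 30 * c0 * PowerSeries.coeff m S) := by
    have e : (w * c0) * (PowerSeries.coeff m α - 30 * c0 * PowerSeries.coeff m S) =
        -((p : ℤ) * PowerSeries.coeff m (α ^ 2)) - PowerSeries.coeff m (qtrU p (β ^ 2)) := by
      linear_combination hcoef
    rw [e]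
    exact dvd_sub (Dvd.dvd.neg_right (Dvd.dvd.mul_left hX _)) hY
  have hwc : Odd (w * c0) := hwodd.mul h0
  have hcop : IsCoprime (4 : ℤ) (w * c0) := by
    have h := (Int.isCoprime_two_left.mpr hwc).pow_left (m := 2)
    norm_num at h
    exact h
  have h4'' : (4 : ℤ) ∣ PowerSeries.coeff m α - 30 * c0 * PowerSeries.coeff m S :=
    hcop.dvd_of_dvd_mul_left h4'
  have ham : PowerSeries.coeff m a = 4 * PowerSeries.coeff m α := by
    rw [ha, map_add, PowerSeries.coeff_C, if_neg hm0, zero_add, PowerSeries.coeff_C_mul]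
  obtain ⟨t, ht⟩ := h4''
  obtain ⟨k, hk⟩ := h0
  refine ⟨t + (15 * k + 7) * PowerSeries.coeff m S, ?_⟩
  rw [ham]
  linear_combination 4 * ht + (120 * PowerSeries.coeff m S) * hk

/-- (Q) and `U_p² = 1` as identities of integral power series. -/
theorem u2b_series (p : ℕ) [Fact p.Prime] (H : ModularForm (CongruenceSubgroup.Gamma0 p) 2)
    (h : ℕ → ℤ) (hh : ∀ m, ModularFormClass.qCoeff H m = (h m : ℂ)) :
    PowerSeries.C (p : ℤ) * PowerSeries.mk h ^ 2 + qtrU p (qtrU p (PowerSeries.mk h) ^ 2) =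
      PowerSeries.C (((p : ℤ) + 1) * h 0 ^ 2) *
        (1 + PowerSeries.C 240 *
          PowerSeries.mk fun m => if m = 0 then 0 else (ArithmeticFunction.sigma 3 m : ℤ)) ∧
    qtrU p (qtrU p (PowerSeries.mk h)) = PowerSeries.mk h := by
  constructor
  · ext m
    have hQ := trace_sq_coeff p H m
    simp only [hh] at hQ
    have e1 : ∑ x ∈ Finset.HasAntidiagonal.antidiagonal (p * m), h (p * x.1) * h (p * x.2) =
        ∑ x ∈ Finset.HasAntidiagonal.antidiagonal (m * p), h (x.1 * p) * h (x.2 * p) := by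
      rw [mul_comm p m]
      exact Finset.sum_congr rfl fun x _ => by rw [mul_comm p x.1, mul_comm p x.2]
    rw [map_add, PowerSeries.coeff_C_mul, PowerSeries.coeff_C_mul, qtrU_coeff, pow_two, pow_two,
      PowerSeries.coeff_mul, PowerSeries.coeff_mul, map_add, PowerSeries.coeff_one,
      PowerSeries.coeff_C_mul, PowerSeries.coeff_mk]
    simp only [PowerSeries.coeff_mk, qtrU_coeff]
    rw [← e1]
    by_cases hm : m = 0
    · rw [if_pos hm] at hQ
      rw [if_pos hm, if_pos hm]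
      have hQ' : (p : ℤ) * ∑ x ∈ Finset.HasAntidiagonal.antidiagonal m, h x.1 * h x.2 +
          ∑ x ∈ Finset.HasAntidiagonal.antidiagonal (p * m), h (p * x.1) * h (p * x.2) =
          ((p : ℤ) + 1) * h 0 ^ 2 * 1 := by exact_mod_cast hQ
      rw [hQ']
      ring
    · rw [if_neg hm] at hQ
      rw [if_neg hm, if_neg hm]
      have hQ' : (p : ℤ) * ∑ x ∈ Finset.HasAntidiagonal.antidiagonal m, h x.1 * h x.2 +
          ∑ x ∈ Finset.HasAntidiagonal.antidiagonal (p * m), h (p * x.1) * h (p * x.2) =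
          ((p : ℤ) + 1) * h 0 ^ 2 * (240 * (ArithmeticFunction.sigma 3 m : ℤ)) := by
        exact_mod_cast hQ
      rw [hQ']
      ring
  · ext n
    rw [qtrU_coeff, qtrU_coeff, PowerSeries.coeff_mk, PowerSeries.coeff_mk]
    have hU := qCoeff_mul_sq p H n
    rw [hh, hh] at hU
    have e : n * p * p = p * (p * n) := by ring
    rw [e]
    exact_mod_cast hU

/-- **[U2b]** no weight-2 form `≡ 1 mod 4` on `Γ₀(p)` when `p ≡ 1 mod 4`. -/
theorem not_unitMod_two_two (p : ℕ) [Fact p.Prime] (hp : p % 4 = 1) : ¬ UnitMod p 2 2 := by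
  rintro ⟨F, c, hc, h0, hm⟩
  have hpr : p.Prime := Fact.out
  have hp1 : 1 ≤ p := hpr.one_le
  have h4 : (((2 : ℕ) : ℤ) ^ 2) = 4 := by norm_num
  rw [h4] at h0
  simp only [h4] at hm
  obtain ⟨G, hG⟩ := exists_heckeU_form p F
  have hgc : ∀ m, ModularFormClass.qCoeff G m = ((c (p * m) : ℤ) : ℂ) := fun m => by
    rw [hG, hc]
  obtain ⟨hQF, hUF⟩ := u2b_series p F c hc
  obtain ⟨hQG, hUG⟩ := u2b_series p G (fun m => c (p * m)) hgc
  have hodd : Odd (c 0) := by
    obtain ⟨k, hk⟩ := h0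
    exact ⟨2 * k, by linarith⟩
  have kF := u2b_key p hp (PowerSeries.mk c)
    (PowerSeries.mk fun m => if m = 0 then 0 else (ArithmeticFunction.sigma 3 m : ℤ))
    (by rw [PowerSeries.coeff_mk]; exact hodd)
    (fun m hm' => by rw [PowerSeries.coeff_mk]; exact hm m hm')
    (by rw [PowerSeries.coeff_mk]; exact hQF) hUF p hp1
  have kG := u2b_key p hp (PowerSeries.mk fun m => c (p * m))
    (PowerSeries.mk fun m => if m = 0 then 0 else (ArithmeticFunction.sigma 3 m : ℤ))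
    (by rw [PowerSeries.coeff_mk, mul_zero]; exact hodd)
    (fun m hm' => by rw [PowerSeries.coeff_mk]; exact hm _ (Nat.mul_pos hp1 hm'))
    (by rw [PowerSeries.coeff_mk]; exact hQG) hUG 1 le_rfl
  have hσp : ArithmeticFunction.sigma 3 p = 1 + p ^ 3 := by
    rw [ArithmeticFunction.sigma_apply, hpr.divisors,
      Finset.sum_pair (by exact_mod_cast hpr.one_lt.ne)]
    simp
  have hσ1 : ArithmeticFunction.sigma 3 1 = 1 := by
    simp [ArithmeticFunction.sigma_apply]
  simp only [PowerSeries.coeff_mk, if_neg hpr.ne_zero, if_neg one_ne_zero, mul_one, hσp,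
    hσ1] at kF kG
  have h16 : (8 : ℤ) * 2 ∣ 8 * (p : ℤ) ^ 3 := by
    have := dvd_sub kG kF
    have e : c p - 8 * ((1 : ℕ) : ℤ) - (c p - 8 * ((1 + p ^ 3 : ℕ) : ℤ)) = 8 * (p : ℤ) ^ 3 := by
      push_cast
      ring
    rw [e] at this
    exact this
  have h2 : (2 : ℤ) ∣ (p : ℤ) ^ 3 := Int.dvd_of_mul_dvd_mul_left (by norm_num) h16
  have h2' : (2 : ℤ) ∣ (p : ℤ) := Int.prime_two.dvd_of_dvd_pow h2
  have h2'' : 2 ∣ p := by exact_mod_cast h2'
  omega

end Fermat.Agent.S16
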