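import Fermat.Agent.S16.UDefs
import Fermat.Agent.S16.GapCore
import Fermat.Agent.S16.Plumb

/-!
# S16, leaf [U2c]: no weight-2 form on `Γ₀(p)` is `≡ 1 mod 8`

For `F ≡ 1 mod 8` the function `g = X / Δ` (`X = gapX F E₄ E₆`, see `GapCore`) is a modular
function of level `p` with `2`-integral `q`-expansion at infinity, and `g(ρ) = -27/8`.  This
contradicts the strong `q`-expansion principle (`Plumb.ratLoc_of_LF`).
-/

set_option autoImplicit false

noncomputable section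

namespace Fermat.Agent.S16

open UpperHalfPlane hiding I
open ModularForm EisensteinSeries ModularCurve
open Fermat.Agent.S24B Fermat.Agent.S28 Plumb

namespace U2c

/-- `4096 · X` as a polynomial with integer coefficients. -/
def gapN {A : Type*} [CommRing A] (x y z : A) : A :=
  4 • (x * (x ^ 2 - y) * (3 • (x * y) - x ^ 3 - 2 • z)) + 2 • (x ^ 2 - y) ^ 3 +
    2 • (3 • (x * y) - x ^ 3 - 2 • z) ^ 2

theorem gapX_eq_gapN {K : Type*} [Field K] [CharZero K] (x y z : K) :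
    gapX x y z = gapN x y z / 4096 := by
  unfold gapX gapM gapH gapG gapN
  simp only [nsmul_eq_mul]
  push_cast
  ring

theorem lf_gapN {p : ℕ} {a b c : LaurentSeries ℚ} {F E4 E6 : ℍ → ℂ} (hF : LF p 2 a F)
    (h4 : LF p 4 b E4) (h6 : LF p 6 c E6) : LF p 12 (gapN a b c) (gapN F E4 E6) := by
  have hA4 : LF p 4 (a ^ 2 - b) (F ^ 2 - E4) := (hF.pow 2 (by norm_num)).sub h4
  have hA6 : LF p 6 (3 • (a * b) - a ^ 3 - 2 • c) (3 • (F * E4) - F ^ 3 - 2 • E6) :=
    (((hF.mul h4 (by norm_num)).nsmul 3).sub (hF.pow 3 (by norm_num))).sub (h6.nsmul 2)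
  have h1 : LF p 6 (a * (a ^ 2 - b)) (F * (F ^ 2 - E4)) := hF.mul hA4 (by norm_num)
  have h2 : LF p 12 (a * (a ^ 2 - b) * (3 • (a * b) - a ^ 3 - 2 • c))
      (F * (F ^ 2 - E4) * (3 • (F * E4) - F ^ 3 - 2 • E6)) := h1.mul hA6 (by norm_num)
  have h3 : LF p 12 ((a ^ 2 - b) ^ 3) ((F ^ 2 - E4) ^ 3) := hA4.pow 3 (by norm_num)
  have h4' : LF p 12 ((3 • (a * b) - a ^ 3 - 2 • c) ^ 2) ((3 • (F * E4) - F ^ 3 - 2 • E6) ^ 2) :=
    hA6.pow 2 (by norm_num)
  exact ((h2.nsmul 4).add (h3.nsmul 2)).add (h4'.nsmul 2)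

theorem jA_rho_eq_zero : S24.jA ρ = 0 := by
  unfold S24.jA
  rw [ES.E₄_ρ]
  simp

end U2c

open U2c in
/-- [U2c] no weight-2 form `≡ 1 mod 8` (any prime level `p ≥ 5`). -/
theorem not_unitMod_two_three (p : ℕ) [Fact p.Prime] (hp : 5 ≤ p) : ¬ UnitMod p 2 3 := by
  rintro ⟨F, c, hc, h0, hm⟩
  have hp0 : p ≠ 0 := (Fact.out : p.Prime).ne_zero
  have : NeZero p := ⟨hp0⟩
  have : Fact (Nat.Prime 2) := ⟨Nat.prime_two⟩
  have h2p : ¬ 2 ∣ p := by
    intro h
    have := (Nat.prime_dvd_prime_iff_eq Nat.prime_two (Fact.out : p.Prime)).mp h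
    omega
  -- the integer series `a` with `F = 1 + 8 a`
  obtain ⟨a0, ha0⟩ := h0
  choose! am ham using hm
  set az : PowerSeries ℤ := PowerSeries.mk (fun m => if m = 0 then a0 else am m) with haz
  set Fz : PowerSeries ℤ := PowerSeries.mk c with hFz'
  have hFz : Fz = 1 + 8 * az := by
    have hC : (8 : PowerSeries ℤ) = PowerSeries.C (8 : ℤ) := by simp
    ext m
    rw [hFz', haz, map_add, hC, PowerSeries.coeff_C_mul, PowerSeries.coeff_mk, PowerSeries.coeff_mk,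
      PowerSeries.coeff_one]
    by_cases h : m = 0
    · subst h
      rw [if_pos rfl, if_pos rfl]
      have h8 : ((2 : ℕ) : ℤ) ^ 3 = 8 := by norm_num
      rw [h8] at ha0
      linarith
    · rw [if_neg h, if_neg h, zero_add]
      have h8 : ((2 : ℕ) : ℤ) ^ 3 = 8 := by norm_num
      have := ham m (Nat.pos_of_ne_zero h)
      rw [h8] at this
      exact this
  have hLF : LF p 2 (zQ Fz) F :=
    LF.of_modularForm F Fz (fun m => by rw [hFz', PowerSeries.coeff_mk]; exact hc m)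
  have hW := (lf_gapN hLF (LF.E4 p) (LF.E6 p)).const_mul (1 / 4096 : ℚ)
  -- integrality of the expansion
  have hmem : HahnSeries.C (1 / 4096 : ℚ) * gapN (zQ Fz) (zQ e4) (zQ e6) ∈ gaussRing 2 := by
    have e : HahnSeries.C (1 / 4096 : ℚ) * gapN (zQ Fz) (zQ e4) (zQ e6) =
        gapX (zQ Fz) (zQ e4) (zQ e6) := by
      rw [gapX_eq_gapN, map_div₀, map_one, map_ofNat]
      ring
    rw [e]
    have e1 : zQ Fz = 1 + 8 * zQ az := by
      rw [hFz, map_add, map_mul, map_one, map_ofNat]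
    have e2 : zQ e4 = 1 + 16 * zQ (15 * s3) := by
      rw [e4, map_add, map_mul, map_mul, map_one, map_ofNat, map_ofNat]
      ring
    have e3 : zQ e6 = 1 + 8 * zQ (-63 * s5) := by
      rw [e6, map_sub, map_mul, map_mul, map_one, map_neg, map_ofNat, map_ofNat]
      ring
    have hrel := eis_rel
    rw [e2, e3] at hrel
    rw [e1, e2, e3]
    exact gapX_mem (gaussRing 2) (zQ_mem_gaussRing 2 _) (zQ_mem_gaussRing 2 _)
      (zQ_mem_gaussRing 2 _) (iotaQ_mem_gaussRing 2 _) hrel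
  -- the value at `ρ`
  have hval : (fun τ => ((1 / 4096 : ℚ) : ℂ) * gapN (F : ℍ → ℂ) E₄ E₆ τ) ρ =
      ((-27 / 8 : ℚ) : ℂ) * ModularForm.discriminant ρ := by
    have h1 : gapN (F : ℍ → ℂ) E₄ E₆ ρ = gapN (F ρ) (E₄ ρ) (E₆ ρ) := by
      simp [gapN]
    have h2 := gapX_of_E4_eq_zero (F ρ) (E₆ ρ) (ModularForm.discriminant ρ)
      (by rw [discriminant_eq_E₄_cube_sub_E₆_sq ρ, ES.E₄_ρ]; ring)
    rw [gapX_eq_gapN] at h2
    simp only
    rw [h1, ES.E₄_ρ]
    push_cast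
    linear_combination h2
  have hj : S24.jA ρ ∈ OO 2 := by
    rw [jA_rho_eq_zero]
    exact (OO 2).zero_mem
  have hr := ratLoc_of_LF p 2 h2p hW hmem ρ hj (-27 / 8) hval
  refine not_mem_ratLoc 2 (-27) 8 (by norm_num) (by norm_num) (by norm_num) ?_
  have e : ((-27 : ℤ) : ℚ) / ((8 : ℕ) : ℚ) = -27 / 8 := by norm_num
  rw [e]
  exact hr

end Fermat.Agent.S16
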