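import Mathlib
import Fermat.Agent.S16.UDefs
import Fermat.Prelude.Thm_CongruenceSubgroup_one_mem_strictPeriods_Gamma0

/-!
# S16, block (U'): arithmetic glue for the assemblies [U5] and [U3a]
-/

set_option autoImplicit false

namespace Fermat.Agent.S16

open ModularCurve CuspForm

/-- The auxiliary prime `r ≠ p` of the Hecke trick and the constant `D = r¹¹(r² - 1)`:
no prime `ℓ ≥ 5` divides `D`. -/
theorem u5_exists_aux_prime (p : ℕ) :
    ∃ r : ℕ, r.Prime ∧ r ≠ p ∧ ∀ ℓ : ℕ, ℓ.Prime → 5 ≤ ℓ →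
      ¬ (ℓ : ℤ) ∣ (r : ℤ) ^ 11 * ((r : ℤ) ^ 2 - 1) := by
  by_cases hp : p = 2
  · refine ⟨3, Nat.prime_three, by omega, fun ℓ hℓ h5 hdvd => ?_⟩
    have hℓ' : Prime (ℓ : ℤ) := Nat.prime_iff_prime_int.mp hℓ
    have h1 : ((3 : ℕ) : ℤ) ^ 11 * (((3 : ℕ) : ℤ) ^ 2 - 1) = 3 ^ 11 * 2 ^ 3 := by norm_num
    rw [h1] at hdvd
    rcases hℓ'.dvd_or_dvd hdvd with h | h
    · have := hℓ'.dvd_of_dvd_pow h
      have h3 : ℓ ∣ 3 := by exact_mod_cast this
      have := Nat.le_of_dvd (by norm_num) h3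
      omega
    · have := hℓ'.dvd_of_dvd_pow h
      have h3 : ℓ ∣ 2 := by exact_mod_cast this
      have := Nat.le_of_dvd (by norm_num) h3
      omega
  · refine ⟨2, Nat.prime_two, fun h => hp h.symm, fun ℓ hℓ h5 hdvd => ?_⟩
    have hℓ' : Prime (ℓ : ℤ) := Nat.prime_iff_prime_int.mp hℓ
    have h1 : ((2 : ℕ) : ℤ) ^ 11 * (((2 : ℕ) : ℤ) ^ 2 - 1) = 2 ^ 11 * 3 := by norm_num
    rw [h1] at hdvd
    rcases hℓ'.dvd_or_dvd hdvd with h | h
    · have := hℓ'.dvd_of_dvd_pow h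
      have h3 : ℓ ∣ 2 := by exact_mod_cast this
      have := Nat.le_of_dvd (by norm_num) h3
      omega
    · have h3 : ℓ ∣ 3 := by exact_mod_cast h
      have := Nat.le_of_dvd (by norm_num) h3
      omega

/-- `q`-coefficients of a scalar multiple of a cusp form on `Γ₀(N)`. -/
theorem u5_qCoeff_smul (N : ℕ) {k : ℤ} (a : ℂ) (Ψ : CuspForm (CongruenceSubgroup.Gamma0 N) k)
    (n : ℕ) : ModularFormClass.qCoeff (a • Ψ : CuspForm (CongruenceSubgroup.Gamma0 N) k) n =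
      a * ModularFormClass.qCoeff Ψ n := by
  unfold ModularFormClass.qCoeff
  have h := ModularForm.qExpansion_smul (h := 1) one_pos
    (CongruenceSubgroup.one_mem_strictPeriods_Gamma0 N) a Ψ
  have e : (⇑(a • Ψ : CuspForm (CongruenceSubgroup.Gamma0 N) k) : UpperHalfPlane → ℂ) =
      a • (⇑Ψ : UpperHalfPlane → ℂ) := rfl
  rw [e, h, PowerSeries.coeff_smul, smul_eq_mul]

/-- Dividing the Hecke-trick form by `3` (case `M = 9`, `r = 2`). -/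
theorem u3a_divide (p : ℕ) (Ψ : CuspForm (CongruenceSubgroup.Gamma0 p) 14) (b t : ℕ → ℤ)
    (hb : ∀ n, ModularFormClass.qCoeff Ψ n = (b n : ℂ))
    (hcong : ∀ n, (9 : ℤ) ∣ b n - 2 ^ 11 * 3 * t n) :
    ∃ (Ψ' : CuspForm (CongruenceSubgroup.Gamma0 p) 14) (b' : ℕ → ℤ),
      (∀ n, ModularFormClass.qCoeff Ψ' n = (b' n : ℂ)) ∧
        ∀ n, (3 : ℤ) ∣ b' n - 2 ^ 11 * t n := by
  have h3 : ∀ n, (3 : ℤ) ∣ b n := fun n => by
    have h1 : (3 : ℤ) ∣ b n - 2 ^ 11 * 3 * t n := Dvd.dvd.trans (by norm_num) (hcong n)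
    have h2 : (3 : ℤ) ∣ 2 ^ 11 * 3 * t n := ⟨2 ^ 11 * t n, by ring⟩
    have := dvd_add h1 h2
    simpa using this
  choose b' hb' using h3
  refine ⟨((3 : ℂ)⁻¹) • Ψ, b', fun n => ?_, fun n => ?_⟩
  · rw [u5_qCoeff_smul, hb, hb']
    push_cast
    field_simp
  · obtain ⟨k, hk⟩ := hcong n
    refine ⟨k, ?_⟩
    have := hb' n
    omega

end Fermat.Agent.S16
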