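import Mathlib
import Fermat.Agent.S16.NormTwo

/-!
# S16, block (U'), leaf [U5]: the formal core

`no_norm_unit`: there is no `Γ₀(p)`-modular function `h` whose expansions at the two cusps are

* `s = P(q)^e · Δ(q)^{-f}` with `P ≡ D·q^N + …  mod ℓ`, and
* `c · sW = P'(q)^e · Δ(q^p)^{-f}` with `P' ≡ D'·q^{N'} + …  mod ℓ`,

where `P`, `P'` have integer coefficients, `ℓ ∤ D·D'` and `e(N + N') > f(p + 1)`.
(Apply the two-cusp norm lemma `norm_two_cusps`: `D^e · D'^{ep} ∈ ℓ·OO ℓ ∩ ℤ = ℓℤ`.)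
-/

set_option autoImplicit false

noncomputable section

namespace Fermat.Agent.S16

open UpperHalfPlane hiding I
open ModularForm Function ModularCurve Polynomial
open Fermat.Agent Fermat.Agent.S24B Fermat.Agent.S24 Fermat.Agent.S28
open scoped Real MatrixGroups

/-! ### More on `l·A` and `LeadAt` -/

theorem mulSub_mul_sub {A : Subring ℂ} {l x y a b : ℂ} (hx : x ∈ A) (hb : b ∈ A)
    (h1 : x - a ∈ mulSub A l) (h2 : y - b ∈ mulSub A l) : x * y - a * b ∈ mulSub A l := by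
  have e : x * y - a * b = x * (y - b) + (x - a) * b := by ring
  rw [e]
  exact (mulSub A l).add_mem (mulSub_mul_left hx h2) (mulSub_mul_right h1 hb)

theorem mulSub_pow_sub {A : Subring ℂ} {l x a : ℂ} (hx : x ∈ A) (ha : a ∈ A)
    (h : x - a ∈ mulSub A l) (k : ℕ) : x ^ k - a ^ k ∈ mulSub A l := by
  induction k with
  | zero => simp
  | succ k ih =>
    rw [pow_succ, pow_succ]
    exact mulSub_mul_sub (A.pow_mem hx k) ha ih h

theorem leadAt_one {A : Subring ℂ} {l : ℂ} : LeadAt A l 1 0 1 := by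
  constructor
  · intro k hk
    rw [HahnSeries.coeff_one, if_neg hk.ne]
    exact (mulSub A l).zero_mem
  · rw [HahnSeries.coeff_one, if_pos rfl, sub_self]
    exact (mulSub A l).zero_mem

theorem LeadAt.pow {A : Subring ℂ} {l : ℂ} {t : LaurentSeries ℂ} {n : ℤ} {a : ℂ}
    (ht : t ∈ LSO A) (ha : a ∈ A) (h : LeadAt A l t n a) (k : ℕ) :
    LeadAt A l (t ^ k) ((k : ℤ) * n) (a ^ k) := by
  induction k with
  | zero => simpa using leadAt_one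
  | succ k ih =>
    rw [pow_succ, pow_succ]
    have e : ((k + 1 : ℕ) : ℤ) * n = (k : ℤ) * n + n := by push_cast; ring
    rw [e]
    exact LeadAt.mul ((LSO A).pow_mem ht k) ht (A.pow_mem ha k) ih h

theorem ofPowerSeries_mem_LSO {A : Subring ℂ} {P : PowerSeries ℂ}
    (hP : ∀ n, PowerSeries.coeff n P ∈ A) : HahnSeries.ofPowerSeries ℤ ℂ P ∈ LSO A := by
  intro k
  rcases lt_or_ge k 0 with hk | hk
  · rw [ofPowerSeries_coeff_of_neg _ hk]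
    exact A.zero_mem
  · obtain ⟨n, rfl⟩ := Int.eq_ofNat_of_zero_le hk
    rw [HahnSeries.ofPowerSeries_apply_coeff]
    exact hP n

theorem leadAt_ofPowerSeries {A : Subring ℂ} {l : ℂ} (P : PowerSeries ℂ) (N : ℕ) (a : ℂ)
    (h : ∀ n < N, PowerSeries.coeff n P ∈ mulSub A l)
    (hN : PowerSeries.coeff N P - a ∈ mulSub A l) :
    LeadAt A l (HahnSeries.ofPowerSeries ℤ ℂ P) (N : ℤ) a := by
  constructor
  · intro k hk
    rcases lt_or_ge k 0 with hk0 | hk0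
    · rw [ofPowerSeries_coeff_of_neg _ hk0]
      exact (mulSub A l).zero_mem
    · obtain ⟨n, rfl⟩ := Int.eq_ofNat_of_zero_le hk0
      rw [HahnSeries.ofPowerSeries_apply_coeff]
      exact h n (by exact_mod_cast hk)
  · rw [HahnSeries.ofPowerSeries_apply_coeff]
    exact hN

/-- `Δ⁻¹ = q⁻¹ + …` (integral series). -/
theorem leadAt_deltaInv {A : Subring ℂ} {l : ℂ} :
    LeadAt A l (iotaC ((deltaZ⁻¹ : (LaurentSeries ℤ)ˣ) : LaurentSeries ℤ)) (-1) 1 := by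
  constructor
  · intro k hk
    rw [ordGE_iotaC_deltaZ_inv k hk]
    exact (mulSub A l).zero_mem
  · have e3 : ((deltaZ⁻¹ : (LaurentSeries ℤ)ˣ) : LaurentSeries ℤ) =
        HahnSeries.single (-1 : ℤ) 1 * HahnSeries.ofPowerSeries ℤ ℤ dedekindEtaUnitInv := rfl
    have hc : (iotaC ((deltaZ⁻¹ : (LaurentSeries ℤ)ˣ) : LaurentSeries ℤ)).coeff (-1) = 1 := by
      rw [iotaC_coeff, e3]
      have h := HahnSeries.coeff_single_mul_add (r := (1 : ℤ))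
        (x := HahnSeries.ofPowerSeries ℤ ℤ dedekindEtaUnitInv) (a := ((0 : ℕ) : ℤ)) (b := (-1 : ℤ))
      rw [HahnSeries.ofPowerSeries_apply_coeff] at h
      have h0 := constantCoeff_dedekindEtaUnitInv
      rw [← PowerSeries.coeff_zero_eq_constantCoeff_apply] at h0
      rw [h0, one_mul] at h
      have e : (-1 : ℤ) = ((0 : ℕ) : ℤ) + (-1) := by norm_num
      rw [show (HahnSeries.single (-1 : ℤ) (1 : ℤ) *
        HahnSeries.ofPowerSeries ℤ ℤ dedekindEtaUnitInv).coeff (-1) =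
        (HahnSeries.single (-1 : ℤ) (1 : ℤ) *
        HahnSeries.ofPowerSeries ℤ ℤ dedekindEtaUnitInv).coeff (((0 : ℕ) : ℤ) + (-1)) from rfl, h]
      norm_num
    rw [hc, sub_self]
    exact (mulSub A l).zero_mem

theorem intCast_mem_mulSub {A : Subring ℂ} {ℓ : ℕ} {n : ℤ} (h : (ℓ : ℤ) ∣ n) :
    (n : ℂ) ∈ mulSub A (ℓ : ℂ) := by
  obtain ⟨k, rfl⟩ := h
  exact ⟨(k : ℂ), intCast_mem A k, by push_cast; ring⟩

/-- `ℓ·OO ℓ ∩ ℤ = ℓℤ`. -/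
theorem dvd_of_intCast_mem_mulSub_OO {ℓ : ℕ} (hℓ : ℓ.Prime) {n : ℤ}
    (h : (n : ℂ) ∈ mulSub (OO ℓ) (ℓ : ℂ)) : (ℓ : ℤ) ∣ n := by
  obtain ⟨a, ⟨d, hd, hd0, hint⟩, hna⟩ := h
  have hℓC : (ℓ : ℂ) ≠ 0 := by exact_mod_cast hℓ.ne_zero
  have ha : a = ((n : ℚ) / (ℓ : ℚ) : ℚ) := by
    push_cast
    rw [hna]
    field_simp
  have e : ((d : ℂ) * a) = algebraMap ℚ ℂ ((d : ℚ) * ((n : ℚ) / (ℓ : ℚ))) := by
    rw [ha]
    simp
  rw [e, isIntegral_algebraMap_iff (algebraMap ℚ ℂ).injective] at hint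
  obtain ⟨m, hm⟩ := IsIntegrallyClosed.isIntegral_iff.mp hint
  have hℓQ : (ℓ : ℚ) ≠ 0 := by exact_mod_cast hℓ.ne_zero
  have hm' : ((m * (ℓ : ℤ) : ℤ) : ℚ) = (((d : ℤ) * n : ℤ) : ℚ) := by
    have h1 : (m : ℚ) = (d : ℚ) * ((n : ℚ) / (ℓ : ℚ)) := by simpa using hm
    push_cast
    rw [h1]
    field_simp
  have hm'' : m * (ℓ : ℤ) = (d : ℤ) * n := by exact_mod_cast hm'
  have hdvd : (ℓ : ℤ) ∣ (d : ℤ) * n := ⟨m, by rw [← hm'']; ring⟩
  have hcop : IsCoprime (ℓ : ℤ) (d : ℤ) := by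
    rw [Int.isCoprime_iff_gcd_eq_one, Int.gcd_natCast_natCast]
    exact hd.symm
  exact hcop.dvd_of_dvd_mul_left hdvd

/-! ### The core -/

/-- **[U5], formal core.** -/
theorem no_norm_unit (p ℓ : ℕ) [Fact p.Prime] (hℓ : ℓ.Prime) {h : ℍ → ℂ} (hh : S24.ModFun p h)
    {s sW : LaurentSeries ℂ} (h1 : IsLaurentOf s h)
    (h2 : IsLaurentOf sW (fun τ : ℍ => h (S28A.fricke p τ)))
    (c : ℂ) (e f : ℕ) (P P' : PowerSeries ℂ) (b b' : ℕ → ℤ)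
    (hP : ∀ n, PowerSeries.coeff n P = (b n : ℂ))
    (hP' : ∀ n, PowerSeries.coeff n P' = (b' n : ℂ))
    (hs : s = HahnSeries.ofPowerSeries ℤ ℂ P ^ e *
      iotaC ((deltaZ⁻¹ : (LaurentSeries ℤ)ˣ) : LaurentSeries ℤ) ^ f)
    (hsW : HahnSeries.C c * sW = HahnSeries.ofPowerSeries ℤ ℂ P' ^ e *
      qExpand ℂ p (iotaC ((deltaZ⁻¹ : (LaurentSeries ℤ)ˣ) : LaurentSeries ℤ)) ^ f)
    (N N' : ℕ) (D D' : ℤ)
    (hb : ∀ n < N, (ℓ : ℤ) ∣ b n) (hbN : (ℓ : ℤ) ∣ b N - D)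
    (hb' : ∀ n < N', (ℓ : ℤ) ∣ b' n) (hbN' : (ℓ : ℤ) ∣ b' N' - D')
    (hD : ¬ (ℓ : ℤ) ∣ D) (hD' : ¬ (ℓ : ℤ) ∣ D')
    (hpos : f * (p + 1) < e * (N + N')) : False := by
  have hp : p ≠ 0 := (Fact.out : p.Prime).ne_zero
  have : NeZero p := ⟨hp⟩
  set A : Subring ℂ := OO ℓ with hA
  set sD : LaurentSeries ℂ := iotaC ((deltaZ⁻¹ : (LaurentSeries ℤ)ˣ) : LaurentSeries ℤ) with hsD
  have hζ : ∀ ζ : ℂ, ζ ^ p = 1 → ζ ∈ A := fun ζ hζ =>
    root_of_unity_mem_OO (Nat.pos_of_ne_zero hp) hζ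
  have hPmem : HahnSeries.ofPowerSeries ℤ ℂ P ∈ LSO A :=
    ofPowerSeries_mem_LSO fun n => by rw [hP]; exact intCast_mem A _
  have hP'mem : HahnSeries.ofPowerSeries ℤ ℂ P' ∈ LSO A :=
    ofPowerSeries_mem_LSO fun n => by rw [hP']; exact intCast_mem A _
  have hsDmem : sD ∈ LSO A := iotaC_mem_LSO A _
  have hsDpmem : qExpand ℂ p sD ∈ LSO A := qExpand_mem_LSO p hsDmem
  have hsmem : s ∈ LSO A := by
    rw [hs]
    exact (LSO A).mul_mem ((LSO A).pow_mem hPmem e) ((LSO A).pow_mem hsDmem f)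
  have hsWmem : HahnSeries.C c * sW ∈ LSO A := by
    rw [hsW]
    exact (LSO A).mul_mem ((LSO A).pow_mem hP'mem e) ((LSO A).pow_mem hsDpmem f)
  -- leading terms
  have hLP : LeadAt A (ℓ : ℂ) (HahnSeries.ofPowerSeries ℤ ℂ P) (N : ℤ) (D : ℂ) :=
    leadAt_ofPowerSeries P N D (fun n hn => by rw [hP]; exact intCast_mem_mulSub (hb n hn))
      (by rw [hP, ← Int.cast_sub]; exact intCast_mem_mulSub hbN)
  have hLP' : LeadAt A (ℓ : ℂ) (HahnSeries.ofPowerSeries ℤ ℂ P') (N' : ℤ) (D' : ℂ) :=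
    leadAt_ofPowerSeries P' N' D' (fun n hn => by rw [hP']; exact intCast_mem_mulSub (hb' n hn))
      (by rw [hP', ← Int.cast_sub]; exact intCast_mem_mulSub hbN')
  have hLs : LeadAt A (ℓ : ℂ) s ((e : ℤ) * N + (f : ℤ) * (-1)) ((D : ℂ) ^ e * 1 ^ f) := by
    rw [hs]
    exact LeadAt.mul ((LSO A).pow_mem hPmem e) ((LSO A).pow_mem hsDmem f)
      (A.pow_mem (intCast_mem A D) e) (hLP.pow hPmem (intCast_mem A D) e)
      (leadAt_deltaInv.pow hsDmem A.one_mem f)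
  have hLsW : LeadAt A (ℓ : ℂ) (HahnSeries.C c * sW)
      ((e : ℤ) * N' + (f : ℤ) * ((p : ℤ) * (-1))) ((D' : ℂ) ^ e * 1 ^ f) := by
    rw [hsW]
    exact LeadAt.mul ((LSO A).pow_mem hP'mem e) ((LSO A).pow_mem hsDpmem f)
      (A.pow_mem (intCast_mem A D') e) (hLP'.pow hP'mem (intCast_mem A D') e)
      ((leadAt_deltaInv.qExpand p).pow hsDpmem A.one_mem f)
  have hαβ : (0 : ℤ) < ((e : ℤ) * N + (f : ℤ) * (-1)) +
      ((e : ℤ) * N' + (f : ℤ) * ((p : ℤ) * (-1))) := by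
    have : ((f * (p + 1) : ℕ) : ℤ) < ((e * (N + N') : ℕ) : ℤ) := by exact_mod_cast hpos
    push_cast at this
    linarith
  have hnorm := norm_two_cusps p A hζ (ℓ : ℂ) hh h1 h2 c hsmem hsWmem _ _ hαβ hLs.1 hLsW.1
  have hcong := mulSub_mul_sub (mem_LSO.mp hsmem _)
    (A.pow_mem (A.mul_mem (A.pow_mem (intCast_mem A D') e) (A.pow_mem A.one_mem f)) p) hLs.2
    (mulSub_pow_sub (mem_LSO.mp hsWmem _)
      (A.mul_mem (A.pow_mem (intCast_mem A D') e) (A.pow_mem A.one_mem f)) hLsW.2 p)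
  have hfin := (mulSub A (ℓ : ℂ)).sub_mem hnorm hcong
  rw [sub_sub_cancel] at hfin
  have hcast : (D : ℂ) ^ e * 1 ^ f * ((D' : ℂ) ^ e * 1 ^ f) ^ p =
      ((D ^ e * (D' ^ e) ^ p : ℤ) : ℂ) := by
    push_cast
    simp
  rw [hcast] at hfin
  have hdvd := dvd_of_intCast_mem_mulSub_OO hℓ hfin
  have hprime : Prime (ℓ : ℤ) := Nat.prime_iff_prime_int.mp hℓ
  rcases hprime.dvd_or_dvd hdvd with h3 | h3
  · exact hD (hprime.dvd_of_dvd_pow h3)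
  · exact hD' (hprime.dvd_of_dvd_pow (hprime.dvd_of_dvd_pow h3))

/-- **[U5] from [HX].**  If `Ψ ∈ S₁₄(Γ₀(p))` has integer `q`-coefficients `b n` with
`ℓ ∣ b n` for `n < r p` and `b (r p) ≡ D mod ℓ`, `ℓ ∤ D`, `r ≥ 2`, then the function
`h = Ψ⁶/Δ⁷` (any `h` with the two expansions below) cannot exist. -/
theorem no_heckeTrick_of_HX (p ℓ r : ℕ) [Fact p.Prime] (hℓ : ℓ.Prime) (hr : 2 ≤ r) (D : ℤ)
    (hD : ¬ (ℓ : ℤ) ∣ D) (Ψ : CuspForm (CongruenceSubgroup.Gamma0 p) 14) (b : ℕ → ℤ)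
    (hb : ∀ n, ModularFormClass.qCoeff Ψ n = (b n : ℂ))
    (hb1 : ∀ n, n < r * p → (ℓ : ℤ) ∣ b n) (hb2 : (ℓ : ℤ) ∣ b (r * p) - D)
    {h : ℍ → ℂ} (hh : S24.ModFun p h)
    (hX1 : IsLaurentOf (HahnSeries.ofPowerSeries ℤ ℂ (qExpansion 1 Ψ) ^ 6 *
      iotaC ((deltaZ⁻¹ : (LaurentSeries ℤ)ˣ) : LaurentSeries ℤ) ^ 7) h)
    (hX2 : IsLaurentOf (HahnSeries.C (((p : ℂ) ^ 78)⁻¹) *
      (HahnSeries.ofPowerSeries ℤ ℂ
          (PowerSeries.mk fun n => (qExpansion 1 Ψ).coeff (n * p)) ^ 6 *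
        qExpand ℂ p (iotaC ((deltaZ⁻¹ : (LaurentSeries ℤ)ˣ) : LaurentSeries ℤ)) ^ 7))
      (fun τ : ℍ => h (S28A.fricke p τ))) : False := by
  have hp : p ≠ 0 := (Fact.out : p.Prime).ne_zero
  have hpC : ((p : ℂ) ^ 78) ≠ 0 := pow_ne_zero _ (by exact_mod_cast hp)
  refine no_norm_unit p ℓ hℓ hh hX1 hX2 ((p : ℂ) ^ 78) 6 7 (qExpansion 1 Ψ)
    (PowerSeries.mk fun n => (qExpansion 1 Ψ).coeff (n * p)) b (fun n => b (n * p))
    (fun n => hb n) (fun n => ?_) rfl ?_ (r * p) r D D hb1 hb2 (fun n hn => ?_) hb2 hD hD ?_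
  · rw [PowerSeries.coeff_mk]
    exact hb (n * p)
  · rw [← mul_assoc, ← map_mul, mul_inv_cancel₀ hpC, map_one, one_mul]
  · exact hb1 (n * p) (Nat.mul_lt_mul_of_pos_right hn (Nat.pos_of_ne_zero hp))
  · nlinarith

end Fermat.Agent.S16
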