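import Fermat.Agent.S16.UDefs
import Fermat.Agent.S16.U5Arith
import Fermat.Agent.S16.HeckeTrick
import Fermat.Agent.S16.HXa
import Fermat.Agent.S16.U5Core

/-!
# S16, block (U'), leaf [U3a]: no weight-2 form on `Γ₀(p)` is `≡ 1 mod 9` (`p ≥ 5`)

Hecke-trick route with modulus `9` and `r = 2`: `Ψ ≡ 2¹¹·3·Δ(2pz) mod 9`, so `Ψ/3` has integer
coefficients and is `≡ 2¹¹·Δ(2pz) mod 3`; then `no_heckeTrick_of_HX` with `ℓ = 3`, `D = 2¹¹`.
-/

set_option autoImplicit false

namespace Fermat.Agent.S16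

open ModularCurve CuspForm

/-- **Leaf [U3a].** No weight-2 form on `Γ₀(p)`, `p ≥ 5`, with integer `q`-expansion is
`≡ 1 mod 9`. -/
theorem not_unitMod_three_two (p : ℕ) [Fact p.Prime] (hp : 5 ≤ p) : ¬ UnitMod p 3 2 := by
  rintro ⟨F, c, hc, h0, hm⟩
  have h2p : (2 : ℕ) ≠ p := by omega
  have e9 : ((9 : ℕ) : ℤ) = ((3 : ℕ) : ℤ) ^ 2 := by norm_num
  obtain ⟨Ψ, b, hb, hcong⟩ := exists_heckeTrick p 2 Nat.prime_two h2p 9 F c hc
    (by rw [e9]; exact h0) (fun m hm' => by rw [e9]; exact hm m hm')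
  obtain ⟨Ψ', b', hb', hcong'⟩ := u3a_divide p Ψ b
    (fun n => if 2 * p ∣ n then htTau (n / (2 * p)) else 0) hb (fun n => by
      have h := hcong n
      have e : ((2 : ℕ) : ℤ) ^ 11 * (((2 : ℕ) : ℤ) ^ 2 - 1) = 2 ^ 11 * 3 := by norm_num
      rw [e] at h
      exact_mod_cast h)
  have hp0 : 0 < 2 * p := by omega
  refine no_heckeTrick_of_HX p 3 2 Nat.prime_three le_rfl (2 ^ 11) (by norm_num) Ψ' b' hb'
    (fun n hn => ?_) ?_ (hx_modFun p Ψ') (hx_isLaurentOf p Ψ') (hx_isLaurentOf_fricke p Ψ')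
  · have h := hcong' n
    have ht : (if 2 * p ∣ n then htTau (n / (2 * p)) else 0) = 0 := by
      split_ifs with hd
      · obtain ⟨k, rfl⟩ := hd
        have hk : k = 0 := by
          by_contra hk
          have : 2 * p ≤ 2 * p * k := Nat.le_mul_of_pos_right _ (Nat.pos_of_ne_zero hk)
          omega
        subst hk
        simp [htTau_zero]
      · rfl
    simp only [ht, mul_zero, sub_zero] at h
    exact_mod_cast h
  · have h := hcong' (2 * p)
    have ht : (if 2 * p ∣ 2 * p then htTau (2 * p / (2 * p)) else 0) = 1 := by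
      rw [if_pos dvd_rfl, Nat.div_self hp0, htTau_one]
    simp only [ht, mul_one] at h
    exact_mod_cast h

end Fermat.Agent.S16
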