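import Mathlib
import Fermat.Agent.S16.UDefs
import Fermat.Agent.S16.TraceSq

/-!
# S16, block (U'), leaf [U3b] (Route B): no weight-2 form `≡ 1 mod 3` when `p ≡ 1 mod 3`

Pure integer arithmetic from the trace identity (Q) (`trace_sq_coeff`) and `U_p² = 1`
(`qCoeff_mul_sq`):  for `F ≡ 1 mod 3` with coefficients `c`, (Q) for `F` at `m = p` and (Q) for
`U_p F` at `m = 1` give, modulo `9`,

  `2 (p+1) c₀ c_p ≡ 240 (p+1) c₀² (1 + p³)`  and  `2 (p+1) c₀ c_p ≡ 240 (p+1) c₀²`,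

hence `9 ∣ 240 (p+1) c₀² p³`, which is false for `p ≡ c₀ ≡ 1 mod 3`.
-/

set_option autoImplicit false

namespace Fermat.Agent.S16

open ModularCurve CuspForm

/-- If `M ∣ d i` for `i ≥ 1`, the Cauchy square at `n ≥ 1` is `2 d₀ dₙ` modulo `M²`. -/
theorem u3b_sum_antidiagonal (d : ℕ → ℤ) (M : ℤ) (hd : ∀ i, 1 ≤ i → M ∣ d i) (n : ℕ)
    (hn : 1 ≤ n) :
    M ^ 2 ∣ (∑ x ∈ Finset.HasAntidiagonal.antidiagonal n, d x.1 * d x.2) - 2 * d 0 * d n := by
  obtain ⟨k, rfl⟩ : ∃ k, n = k + 1 := ⟨n - 1, by omega⟩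
  rw [Finset.Nat.sum_antidiagonal_succ]
  rcases k with _ | j
  · simp only [Finset.Nat.antidiagonal_zero, Finset.sum_singleton, zero_add]
    have : d 0 * d 1 + d 1 * d 0 - 2 * d 0 * d 1 = 0 := by ring
    rw [this]
    exact dvd_zero _
  · rw [Finset.Nat.sum_antidiagonal_succ']
    dsimp only
    have hsum : M ^ 2 ∣ ∑ x ∈ Finset.HasAntidiagonal.antidiagonal j,
        d (x.1 + 1) * d (x.2 + 1) := by
      refine Finset.dvd_sum fun x _ => ?_
      rw [pow_two]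
      exact mul_dvd_mul (hd _ (by omega)) (hd _ (by omega))
    have : d 0 * d (j + 1 + 1) + (d (j + 1 + 1) * d 0 +
        ∑ x ∈ Finset.HasAntidiagonal.antidiagonal j,
        d (x.1 + 1) * d (x.2 + 1)) - 2 * d 0 * d (j + 1 + 1) =
        ∑ x ∈ Finset.HasAntidiagonal.antidiagonal j, d (x.1 + 1) * d (x.2 + 1) := by ring
    rw [this]
    exact hsum

/-- **[U3b]** no weight-2 form `≡ 1 mod 3` on `Γ₀(p)` when `p ≡ 1 mod 3`. -/
theorem not_unitMod_three_one (p : ℕ) [Fact p.Prime] (hp : p % 3 = 1) : ¬ UnitMod p 3 1 := by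
  rintro ⟨F, c, hc, h0, hm⟩
  have hpr : p.Prime := Fact.out
  have hp1 : 1 ≤ p := hpr.one_le
  rw [pow_one] at h0
  simp only [pow_one] at hm
  obtain ⟨G, hG⟩ := exists_heckeU_form p F
  have hU : ∀ m, c (p * (p * m)) = c m := fun m => by
    have := qCoeff_mul_sq p F m
    rw [hc, hc] at this
    exact_mod_cast this
  have hQF := trace_sq_coeff p F p
  have hQG := trace_sq_coeff p G 1
  simp only [hc, hG] at hQF hQG
  rw [if_neg hpr.ne_zero] at hQF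
  rw [if_neg one_ne_zero] at hQG
  have hσp : ArithmeticFunction.sigma 3 p = 1 + p ^ 3 := by
    rw [ArithmeticFunction.sigma_apply, hpr.divisors,
      Finset.sum_pair (by exact_mod_cast hpr.one_lt.ne)]
    simp
  have hσ1 : ArithmeticFunction.sigma 3 1 = 1 := by
    simp [ArithmeticFunction.sigma_apply]
  rw [hσp] at hQF
  rw [hσ1] at hQG
  have hQF' : (p : ℤ) * ∑ x ∈ Finset.HasAntidiagonal.antidiagonal p, c x.1 * c x.2 +
      ∑ x ∈ Finset.HasAntidiagonal.antidiagonal (p * p), c (p * x.1) * c (p * x.2) =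
      ((p : ℤ) + 1) * c 0 ^ 2 * (240 * (1 + (p : ℤ) ^ 3)) := by exact_mod_cast hQF
  have hQG' : (p : ℤ) * ∑ x ∈ Finset.HasAntidiagonal.antidiagonal 1,
        c (p * x.1) * c (p * x.2) +
      ∑ x ∈ Finset.HasAntidiagonal.antidiagonal (p * 1),
        c (p * (p * x.1)) * c (p * (p * x.2)) =
      ((p : ℤ) + 1) * c (p * 0) ^ 2 * (240 * 1) := by exact_mod_cast hQG
  simp only [hU, mul_zero, mul_one] at hQG'
  have hd1 : ∀ i, 1 ≤ i → (3 : ℤ) ∣ c i := hm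
  have hd2 : ∀ i, 1 ≤ i → (3 : ℤ) ∣ c (p * i) := fun i hi =>
    hm _ (Nat.mul_pos hp1 hi)
  have A1 := u3b_sum_antidiagonal c 3 hd1 p hp1
  have A2 := u3b_sum_antidiagonal (fun i => c (p * i)) 3 hd2 (p * p) (Nat.mul_pos hp1 hp1)
  have B1 := u3b_sum_antidiagonal (fun i => c (p * i)) 3 hd2 1 le_rfl
  simp only [mul_zero, mul_one, hU] at A2 B1
  -- combine
  have h9 : (9 : ℤ) ∣ 240 * (((p : ℤ) + 1) * c 0 ^ 2 * (p : ℤ) ^ 3) := by
    have e : 240 * (((p : ℤ) + 1) * c 0 ^ 2 * (p : ℤ) ^ 3) =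
        (p : ℤ) * ((∑ x ∈ Finset.HasAntidiagonal.antidiagonal p, c x.1 * c x.2) -
          2 * c 0 * c p) +
        ((∑ x ∈ Finset.HasAntidiagonal.antidiagonal (p * p), c (p * x.1) * c (p * x.2)) -
          2 * c 0 * c p) -
        (p : ℤ) * ((∑ x ∈ Finset.HasAntidiagonal.antidiagonal 1, c (p * x.1) * c (p * x.2)) -
          2 * c 0 * c p) -
        ((∑ x ∈ Finset.HasAntidiagonal.antidiagonal p, c x.1 * c x.2) - 2 * c 0 * c p) := by
      linear_combination hQG' - hQF'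
    rw [e]
    have h9' : (9 : ℤ) = 3 ^ 2 := by norm_num
    rw [h9']
    exact dvd_sub (dvd_sub (dvd_add (Dvd.dvd.mul_left A1 _) A2) (Dvd.dvd.mul_left B1 _)) A1
  have h3 : (3 : ℤ) ∣ 80 * (((p : ℤ) + 1) * c 0 ^ 2 * (p : ℤ) ^ 3) := by
    have : (3 : ℤ) * 3 ∣ 3 * (80 * (((p : ℤ) + 1) * c 0 ^ 2 * (p : ℤ) ^ 3)) := by
      have e : (3 : ℤ) * (80 * (((p : ℤ) + 1) * c 0 ^ 2 * (p : ℤ) ^ 3)) =
          240 * (((p : ℤ) + 1) * c 0 ^ 2 * (p : ℤ) ^ 3) := by ring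
      rw [e]
      exact h9
    exact Int.dvd_of_mul_dvd_mul_left (by norm_num) this
  have hz := (ZMod.intCast_zmod_eq_zero_iff_dvd _ 3).mpr h3
  have hp3 : ((p : ℕ) : ZMod 3) = 1 := by
    have : ((p : ℕ) : ZMod 3) = ((p % 3 : ℕ) : ZMod 3) := (ZMod.natCast_mod p 3).symm
    rw [this, hp]
    rfl
  have hc3 : ((c 0 : ℤ) : ZMod 3) = 1 := by
    have := (ZMod.intCast_zmod_eq_zero_iff_dvd (c 0 - 1) 3).mpr h0
    push_cast at this
    exact sub_eq_zero.mp this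
  push_cast at hz
  rw [hp3, hc3] at hz
  revert hz
  decide

end Fermat.Agent.S16
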