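import Fermat.Agent.S16.UDefs
import Fermat.Agent.S16.U5Arith
import Fermat.Agent.S16.HeckeTrick
import Fermat.Agent.S16.HXa
import Fermat.Agent.S16.U5Core

/-!
# S16, block (U'), leaf [U5]: no weight-2 form on `Γ₀(p)` is `≡ 1 mod ℓ` for `ℓ ≥ 5`

Assembly of the Hecke-trick route: from `F ≡ 1 mod ℓ` the cusp form
`Ψ = T_r(Δ_p F) - F·T_r(Δ_p) ∈ S₁₄(Γ₀(p))` (`exists_heckeTrick'`) is `≡ D·Δ(rpz) mod ℓ` with
`D = r¹¹(r² - 1)` prime to `ℓ`; the modular function `Ψ⁶/Δ⁷` (`hx_modFun`, `hx_isLaurentOf`,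
`hx_isLaurentOf_fricke`) then contradicts the two-cusp norm lemma (`no_heckeTrick_of_HX`).
-/

set_option autoImplicit false

namespace Fermat.Agent.S16

open ModularCurve CuspForm

/-- **Leaf [U5].** No weight-2 form on `Γ₀(p)` with integer `q`-expansion is `≡ 1 mod ℓ`
for a prime `ℓ ≥ 5` (any prime level `p`, including `ℓ = p`). -/
theorem not_unitMod_ge_five (p ℓ : ℕ) [Fact p.Prime] (hℓ : ℓ.Prime) (h5 : 5 ≤ ℓ) :
    ¬ UnitMod p ℓ 1 := by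
  rintro ⟨F, c, hc, h0, hm⟩
  obtain ⟨r, hr, hrp, hD⟩ := u5_exists_aux_prime p
  rw [pow_one] at h0
  simp only [pow_one] at hm
  obtain ⟨Ψ, b, hb, hb1, hb2⟩ := exists_heckeTrick' p r hr hrp ℓ F c hc h0 hm
  exact no_heckeTrick_of_HX p ℓ r hℓ hr.two_le _ (hD ℓ hℓ h5) Ψ b hb hb1 hb2
    (hx_modFun p Ψ) (hx_isLaurentOf p Ψ) (hx_isLaurentOf_fricke p Ψ)

end Fermat.Agent.S16
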