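import Fermat.Agent.S16.UDefs
import Fermat.Agent.ES.XCount
import Fermat.Prelude.Thm_ModularForm_sturm_bound_Gamma0
import Fermat.Prelude.Thm_CongruenceSubgroup_one_mem_strictPeriods_Gamma0

/-!
# S16, block (U'), leaf [US]: levels 2 and 3 carry no cusp forms of weight 2

Sturm bound (Prelude) with index `p + 1 ≤ 4`: the bound is `(2 (p+1)) / 12 = 0`.
-/

set_option autoImplicit false

namespace Fermat.Agent.S16

open ModularCurve CuspForm ModularFormClass UpperHalfPlane ModularForm
open scoped MatrixGroups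

/-- The index of `Γ₀(p)` for `p` prime is `p + 1`. -/
theorem usmall_index (p : ℕ) [Fact p.Prime] : (CongruenceSubgroup.Gamma0 p).index = p + 1 := by
  have hp : p.Prime := Fact.out
  have : NeZero p := ⟨hp.ne_zero⟩
  have h1 : (CongruenceSubgroup.Gamma0 p).index =
      Nat.card (SL(2, ℤ) ⧸ CongruenceSubgroup.Gamma0 p) := rfl
  have h2 := Fermat.Agent.ES.xcount_psi_primePow hp (k := 1) one_pos
  rw [h1, Fermat.Agent.ES.xcount_card p]
  simpa using h2

/-- [US], strong form: there is no nonzero cusp form of weight 2 and level `p ≤ 3`. -/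
theorem cuspForm_eq_zero_small (p : ℕ) [Fact p.Prime] (hp : p ≤ 3)
    (f : CuspForm (CongruenceSubgroup.Gamma0 p) 2) : f = 0 := by
  have : NeZero p := ⟨(Fact.out : p.Prime).ne_zero⟩
  have hmf : (ModularFormClass.modularForm f : ModularForm (CongruenceSubgroup.Gamma0 p) 2) = 0 := by
    refine ModularForm.sturm_bound_Gamma0 p _ fun n hn ↦ ?_
    have hidx := usmall_index p
    have hn0 : n = 0 := by
      rw [hidx] at hn
      have h1 : ((2 : ℤ) * ((p + 1 : ℕ) : ℤ)).toNat ≤ 8 := by
        have : ((2 : ℤ) * ((p + 1 : ℕ) : ℤ)) = ((2 * (p + 1) : ℕ) : ℤ) := by push_cast; ring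
        rw [this, Int.toNat_natCast]; omega
      omega
    subst hn0
    exact CuspFormClass.qExpansion_coeff_zero f one_pos
      (CongruenceSubgroup.one_mem_strictPeriods_Gamma0 p)
  have hcoe : (⇑f : ℍ → ℂ) = 0 := by
    have := congrArg (fun F : ModularForm (CongruenceSubgroup.Gamma0 p) 2 ↦ (⇑F : ℍ → ℂ)) hmf
    simpa using this
  exact DFunLike.coe_injective (hcoe.trans FunLike.coe_zero.symm)

/-- [US] levels 2 and 3 carry no cusp forms of weight 2. -/
theorem cuspForm_coeff_one_small (p : ℕ) [Fact p.Prime] (hp : p ≤ 3)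
    (f : CuspForm (CongruenceSubgroup.Gamma0 p) 2) : ModularFormClass.qCoeff f 1 = 0 := by
  rw [cuspForm_eq_zero_small p hp f]
  show (qExpansion 1 (⇑(0 : CuspForm (CongruenceSubgroup.Gamma0 p) 2))).coeff 1 = 0
  rw [FunLike.coe_zero, UpperHalfPlane.qExpansion_zero]
  simp

end Fermat.Agent.S16
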