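import Fermat.Agent.S16.UDefs
import Fermat.Agent.S16.EisForm
import Fermat.Agent.S16.USmall
import Fermat.Agent.S16.U2c
import Fermat.Agent.S16.U2bQ
import Fermat.Agent.S16.U3b
import Fermat.Agent.S16.U3a
import Fermat.Agent.S16.U5

/-!
# S16, block (U'): all leaves of `upper_bound`

`exists_eisForm` (EisForm), `cuspForm_coeff_one_small` (USmall), `not_unitMod_two_three` (U2c),
`not_unitMod_two_two` (U2bQ), `not_unitMod_three_one` (U3b), `not_unitMod_three_two` (U3a),
`not_unitMod_ge_five` (U5).
-/
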